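/-
S24, shared definitions of the algebraic side (helper5's `AnDefs` verbatim, minus its
`Hol`/`MerH`/`holConst` section, which clashed with `HolBase`): the base field `ℚ̄ ⊂ ℂ`,
the function field `F`, its generators `j(q^d)`, the ring `A = ℚ̄[j(q^d)]` with `F = Frac A`.
-/
import Mathlib
import Fermat.Prelude.Def_ModularCurve_ArithmeticGalois

set_option autoImplicit false

namespace Fermat.Agent.S24Lib

open ModularCurve

/-- `K = ℚ̄`. -/
abbrev Kb : Type := AlgebraicClosure ℚ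

/-- the fixed embedding `ℚ̄ → ℂ`. -/
noncomputable def iotaK : Kb →+* ℂ :=
  ((@IsAlgClosed.lift ℂ _ _ ℚ _ _ (AlgebraicClosure ℚ) _ _ (AlgebraicClosure.instAlgebra ℚ) _ _ _
    (AlgebraicClosure.isAlgebraic ℚ)) : AlgebraicClosure ℚ →+* ℂ)

theorem iotaK_injective : Function.Injective iotaK := iotaK.injective

/-- the function field of `X₀(N)` over `ℚ̄` (Prelude), as a type. -/
abbrev FN (N : ℕ) : Type := ↥(modularFunctionFieldBar N)

/-! ### the generators of `F` -/

/-- the generators `j(q^d)` of `F` inside `ℚ̄((q))`. -/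
noncomputable def Jgen (d : ℕ) [NeZero d] : LaurentSeries Kb := coeffEmb Kb (qExpand ℚ d jq)

/-- the set of generators. -/
def JgenSet (N : ℕ) : Set (LaurentSeries Kb) :=
  {x | ∃ (d : ℕ) (_ : NeZero d), d ∣ N ∧ x = Jgen d}

/-- the `ℚ̄`-subalgebra `A = ℚ̄[j(q^d) : d ∣ N]` of `ℚ̄((q))`. -/
noncomputable def Agen (N : ℕ) : Subalgebra Kb (LaurentSeries Kb) := Algebra.adjoin Kb (JgenSet N)

theorem Jgen_mem_JgenSet {N d : ℕ} [NeZero d] (h : d ∣ N) : Jgen d ∈ JgenSet N :=
  ⟨d, inferInstance, h, rfl⟩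

theorem Jgen_mem_Agen {N d : ℕ} [NeZero d] (h : d ∣ N) : Jgen d ∈ Agen N :=
  Algebra.subset_adjoin (Jgen_mem_JgenSet h)

theorem JgenSet_subset (N : ℕ) :
    JgenSet N ⊆ (modularFunctionFieldBar N : Set (LaurentSeries Kb)) := by
  rintro x ⟨d, hd, hdN, rfl⟩
  exact coeffEmb_mem_laurentBaseChange Kb (jqd_mem_full N hdN)

theorem Agen_le (N : ℕ) : Agen N ≤ (modularFunctionFieldBar N).toSubalgebra :=
  Algebra.adjoin_le (JgenSet_subset N)

theorem coeffEmb_algebraMap_rat (r : ℚ) :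
    coeffEmb Kb (algebraMap ℚ (LaurentSeries ℚ) r)
      = algebraMap Kb (LaurentSeries Kb) (algebraMap ℚ Kb r) := by
  rw [algebraMap_laurentSeries_eq_single, algebraMap_laurentSeries_eq_single, coeffEmb,
    coeffMap_single]

theorem coeffEmb_mem_adjoin (N : ℕ) (y : LaurentSeries ℚ)
    (hy : y ∈ IntermediateField.adjoin ℚ (divisorExpansions N)) :
    coeffEmb Kb y ∈ IntermediateField.adjoin Kb (JgenSet N) := by
  induction hy using IntermediateField.adjoin_induction with
  | mem x hx =>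
    obtain ⟨d, hd, hdN, rfl⟩ := hx
    exact IntermediateField.subset_adjoin Kb _ (Jgen_mem_JgenSet hdN)
  | algebraMap r =>
    rw [coeffEmb_algebraMap_rat]
    exact IntermediateField.algebraMap_mem _ _
  | add x y _ _ hx hy =>
    rw [map_add]
    exact add_mem hx hy
  | inv x _ hx =>
    rw [map_inv₀]
    exact inv_mem hx
  | mul x y _ _ hx hy =>
    rw [map_mul]
    exact mul_mem hx hy

theorem modularFunctionFieldBar_le_adjoin (N : ℕ) :
    modularFunctionFieldBar N ≤ IntermediateField.adjoin Kb (JgenSet N) := by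
  rw [modularFunctionFieldBar, laurentBaseChange, IntermediateField.adjoin_le_iff]
  rintro _ ⟨y, hy, rfl⟩
  exact coeffEmb_mem_adjoin N y hy

/-- `F = Frac A`. -/
theorem exists_div_of_mem (N : ℕ) {x : LaurentSeries Kb} (hx : x ∈ modularFunctionFieldBar N) :
    ∃ r ∈ Agen N, ∃ s ∈ Agen N, s ≠ 0 ∧ x = r / s := by
  obtain ⟨r, hr, s, hs, rfl⟩ :=
    IntermediateField.mem_adjoin_iff_div.mp (modularFunctionFieldBar_le_adjoin N hx)
  by_cases hs0 : s = 0
  · exact ⟨0, zero_mem _, 1, one_mem _, one_ne_zero, by rw [hs0]; simp⟩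
  · exact ⟨r, hr, s, hs, hs0, rfl⟩

/-- `j = j(q)` as an element of `ℚ̄((q))`. -/
noncomputable def Jser : LaurentSeries Kb := coeffEmb Kb jq

theorem Jser_eq : Jser = Jgen 1 := by
  rw [Jser, Jgen, qExpand_one_apply]

theorem Jser_mem_Agen (N : ℕ) : Jser ∈ Agen N := by
  rw [Jser_eq]
  exact Jgen_mem_Agen (one_dvd N)

/-- `j = j(q)` as an element of `F`. -/
noncomputable def JF (N : ℕ) : FN N := ⟨Jser, Agen_le N (Jser_mem_Agen N)⟩

@[simp] theorem coe_JF (N : ℕ) : ((JF N : FN N) : LaurentSeries Kb) = Jser := rfl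

end Fermat.Agent.S24Lib
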