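/-
S24, chunk B3 (pure-algebra tail, helper7): the degree of `F = ℚ̄(j(q^d) : d ∣ N)` over `ℚ̄(j)`.

* `transcendental_JF` : `j` is transcendental over `ℚ̄` (formal pole orders);
* `degB_descent` : linear disjointness of `ℚ̄((q))` and `ℂ` over `ℚ̄` (a `ℚ̄`-linear functional
  `ℂ → ℚ̄` applied coefficientwise);
* `degB_finrank_le_of_forall` : a char-0 extension all of whose elements have degree `≤ n` is
  finite of degree `≤ n` (primitive elements);
* `degB_upper` : homogeneous degree-`n` relations over `ℂ[j]` for all pairs `a, b ∈ A = Agen N`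
  give `Module.Finite ℚ̄(j) F` and `finrank ≤ n`;
* `degB_lower` : `n` distinct embeddings agreeing on `K(J)` give `n ≤ finrank K(J) F`.
-/
import Mathlib
import Fermat.Agent.Lib.S24.FieldDefs

set_option autoImplicit false

namespace Fermat.Agent.S24Lib

open ModularCurve IntermediateField

theorem degB_Jser_pow (k : ℕ) : Jser ^ k = coeffEmb Kb (jq ^ k) := by
  rw [Jser, map_pow]

theorem degB_coeff_Jser_pow_self (n : ℕ) : (Jser ^ n).coeff (-(n : ℤ)) = 1 := by
  rw [degB_Jser_pow, coeffEmb_coeff, coeff_jq_pow_self, map_one]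

theorem degB_coeff_Jser_pow_of_lt {k : ℕ} {m : ℤ} (hm : m < -(k : ℤ)) : (Jser ^ k).coeff m = 0 := by
  rw [degB_Jser_pow, coeffEmb_coeff, coeff_jq_pow_of_lt hm, map_zero]

theorem degB_coeff_algebraMap_mul (c : Kb) (x : LaurentSeries Kb) (m : ℤ) :
    (algebraMap Kb (LaurentSeries Kb) c * x).coeff m = c * x.coeff m := by
  rw [algebraMap_laurentSeries_eq_single, HahnSeries.coeff_single_mul, sub_zero]

/-- `j` is transcendental over `ℚ̄` as a formal Laurent series -/
theorem degB_aeval_Jser_ne_zero {p : Polynomial Kb} (hp : p ≠ 0) :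
    Polynomial.aeval Jser p ≠ 0 := by
  intro h
  have h1 := congrArg (fun x : LaurentSeries Kb => x.coeff (-(p.natDegree : ℤ))) h
  simp only [HahnSeries.coeff_zero] at h1
  rw [Polynomial.aeval_eq_sum_range, HahnSeries.coeff_sum] at h1
  rw [Finset.sum_eq_single_of_mem p.natDegree (Finset.self_mem_range_succ _)] at h1
  · rw [Algebra.smul_def, degB_coeff_algebraMap_mul, degB_coeff_Jser_pow_self, mul_one] at h1
    exact hp (Polynomial.leadingCoeff_eq_zero.mp h1)
  · intro k hk hkn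
    have hlt : k < p.natDegree := lt_of_le_of_ne (Nat.lt_succ_iff.mp (Finset.mem_range.mp hk)) hkn
    rw [Algebra.smul_def, degB_coeff_algebraMap_mul, degB_coeff_Jser_pow_of_lt (by omega),
      mul_zero]

theorem transcendental_JF (N : ℕ) [NeZero N] : Transcendental Kb (JF N) := by
  rintro ⟨p, hp, h⟩
  apply degB_aeval_Jser_ne_zero hp
  have h2 := Polynomial.aeval_algHom_apply (modularFunctionFieldBar N).val (JF N) p
  rw [h, map_zero] at h2
  exact h2

theorem degB_coeff_C_mul (c : ℂ) (x : LaurentSeries ℂ) (m : ℤ) :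
    (HahnSeries.C c * x).coeff m = c * x.coeff m := by
  rw [HahnSeries.C_mul_eq_smul, HahnSeries.coeff_smul, smul_eq_mul]

theorem degB_coeff_C_mul' (c : Kb) (x : LaurentSeries Kb) (m : ℤ) :
    (HahnSeries.C c * x).coeff m = c * x.coeff m := by
  rw [HahnSeries.C_mul_eq_smul, HahnSeries.coeff_smul, smul_eq_mul]

/-- linear disjointness of `ℚ̄((q))` and `ℂ` over `ℚ̄`: a nontrivial `ℂ`-linear relation between
formal series with coefficients in `ℚ̄` gives a nontrivial `ℚ̄`-linear relation, and a prescribed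
nonzero coefficient stays nonzero. -/
theorem degB_descent {ι : Type*} [Fintype ι] (φ : ι → LaurentSeries Kb) (c : ι → ℂ) (i₀ : ι)
    (hc : c i₀ ≠ 0) (h : ∑ i, HahnSeries.C (c i) * coeffMap iotaK (φ i) = 0) :
    ∃ κ : ι → Kb, κ i₀ ≠ 0 ∧ ∑ i, HahnSeries.C (κ i) * φ i = 0 := by
  letI : Algebra Kb ℂ := iotaK.toAlgebra
  obtain ⟨lam, hlam⟩ : ∃ lam : ℂ →ₗ[Kb] Kb, lam (c i₀) ≠ 0 := by
    by_contra hcon
    push Not at hcon
    exact hc ((Module.forall_dual_apply_eq_zero_iff Kb (c i₀)).mp hcon)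
  refine ⟨fun i => lam (c i), hlam, ?_⟩
  ext m
  have hm := congrArg (fun x : LaurentSeries ℂ => x.coeff m) h
  simp only [HahnSeries.coeff_sum, HahnSeries.coeff_zero, degB_coeff_C_mul, coeffMap_coeff] at hm
  have h2 := congrArg lam hm
  rw [map_sum, map_zero] at h2
  rw [HahnSeries.coeff_sum, HahnSeries.coeff_zero]
  rw [← h2]
  refine Finset.sum_congr rfl fun i _ => ?_
  rw [degB_coeff_C_mul']
  have h3 : c i * iotaK ((φ i).coeff m) = ((φ i).coeff m) • c i := by
    rw [Algebra.smul_def, mul_comm]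
    rfl
  rw [h3, map_smul, smul_eq_mul, mul_comm]

/-- a char-0 field extension in which every element is a root of a nonzero polynomial of degree
`≤ n` is finite of degree `≤ n`. -/
theorem degB_finrank_le_of_forall {K F : Type*} [Field K] [Field F] [Algebra K F] [CharZero K]
    (n : ℕ)
    (h : ∀ x : F, ∃ P : Polynomial K, P ≠ 0 ∧ P.natDegree ≤ n ∧ Polynomial.aeval x P = 0) :
    Module.Finite K F ∧ Module.finrank K F ≤ n := by
  haveI : Algebra.IsAlgebraic K F := ⟨fun x => by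
    obtain ⟨P, h0, -, hr⟩ := h x
    exact ⟨P, h0, hr⟩⟩
  have hint : ∀ x : F, IsIntegral K x := fun x => Algebra.IsIntegral.isIntegral x
  have hdeg : ∀ x : F, (minpoly K x).natDegree ≤ n := fun x => by
    obtain ⟨P, h0, hn, hr⟩ := h x
    exact (Polynomial.natDegree_le_natDegree (minpoly.degree_le_of_ne_zero K x h0 hr)).trans hn
  -- an element of maximal degree
  obtain ⟨α, hα⟩ : ∃ α : F, ∀ β : F, (minpoly K β).natDegree ≤ (minpoly K α).natDegree := by
    set S : Set ℕ := Set.range fun x : F => (minpoly K x).natDegree with hS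
    have hne : S.Nonempty := ⟨_, ⟨0, rfl⟩⟩
    have hbdd : BddAbove S := ⟨n, by rintro _ ⟨x, rfl⟩; exact hdeg x⟩
    obtain ⟨α, hα⟩ := Nat.sSup_mem hne hbdd
    exact ⟨α, fun β => by
      have : (minpoly K β).natDegree ≤ sSup S := le_csSup hbdd ⟨β, rfl⟩
      rw [← hα] at this
      exact this⟩
  have htop : K⟮α⟯ = ⊤ := by
    rw [eq_top_iff]
    intro β _
    obtain ⟨γ, hγ⟩ := Field.primitive_element_inf_aux K α β
    have hle : K⟮α⟯ ≤ K⟮γ⟯ := by
      rw [← hγ, adjoin_simple_le_iff]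
      exact subset_adjoin K _ (Set.mem_insert α _)
    haveI : FiniteDimensional K K⟮γ⟯ := adjoin.finiteDimensional (hint γ)
    have hfr : Module.finrank K K⟮γ⟯ ≤ Module.finrank K K⟮α⟯ := by
      rw [adjoin.finrank (hint γ), adjoin.finrank (hint α)]
      exact hα γ
    have heq : K⟮α⟯ = K⟮γ⟯ := eq_of_le_of_finrank_le hle hfr
    rw [heq, ← hγ]
    exact subset_adjoin K _ (Set.mem_insert_of_mem α rfl)
  haveI hfin : FiniteDimensional K F := Field.FiniteDimensional.of_exists_primitive_element K F ⟨α, htop⟩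
  refine ⟨hfin, ?_⟩
  have h1 : Module.finrank K F = Module.finrank K (⊤ : IntermediateField K F) :=
    (IntermediateField.finrank_top').symm
  rw [h1, ← htop, adjoin.finrank (hint α)]
  exact hdeg α

/-- the equaliser of two ring homomorphisms that agree on `K`, as an intermediate field -/
def degB_eqField {K F E : Type*} [Field K] [Field F] [Field E] [Algebra K F]
    (f g : F →+* E) (hK : ∀ c : K, f (algebraMap K F c) = g (algebraMap K F c)) :
    IntermediateField K F where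
  carrier := {x | f x = g x}
  mul_mem' := by
    intro a b ha hb
    simp only [Set.mem_ofPred_eq] at ha hb ⊢
    rw [map_mul, map_mul, ha, hb]
  add_mem' := by
    intro a b ha hb
    simp only [Set.mem_ofPred_eq] at ha hb ⊢
    rw [map_add, map_add, ha, hb]
  algebraMap_mem' := hK
  inv_mem' := by
    intro a ha
    simp only [Set.mem_ofPred_eq] at ha ⊢
    rw [map_inv₀, map_inv₀, ha]

/-- `n` distinct embeddings that agree on `K(J)` force `[F : K(J)] ≥ n`. -/
theorem degB_lower {K F E : Type*} [Field K] [Field F] [Field E] [Algebra K F] (J : F)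
    [Module.Finite K⟮J⟯ F] {ι : Type*} [Fintype ι] (σ : ι → F →+* E) (hσ : Function.Injective σ)
    (hJ : ∀ i j, σ i J = σ j J)
    (hK : ∀ i j (c : K), σ i (algebraMap K F c) = σ j (algebraMap K F c)) :
    Fintype.card ι ≤ Module.finrank K⟮J⟯ F := by
  rcases isEmpty_or_nonempty ι with hι | ⟨⟨i₀⟩⟩
  · simp
  have hagree : ∀ i (a : K⟮J⟯), σ i (algebraMap K⟮J⟯ F a) = σ i₀ (algebraMap K⟮J⟯ F a) := by
    intro i a
    have hle : K⟮J⟯ ≤ degB_eqField (σ i) (σ i₀) (hK i i₀) := by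
      rw [adjoin_simple_le_iff]
      exact hJ i i₀
    exact hle a.2
  letI : Algebra K⟮J⟯ E := ((σ i₀).comp (algebraMap K⟮J⟯ F)).toAlgebra
  let τ : ι → (F →ₐ[K⟮J⟯] E) := fun i =>
    { σ i with
      commutes' := fun a => hagree i a }
  have hτ : Function.Injective τ := by
    intro i j hij
    apply hσ
    ext x
    exact congrArg (fun f : F →ₐ[K⟮J⟯] E => f x) hij
  have hli : LinearIndependent E (fun i : ι => (τ i).toLinearMap) :=
    (linearIndependent_toLinearMap K⟮J⟯ F E).comp τ hτ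
  have h2 := hli.fintype_card_le_finrank
  have h3 : Module.finrank E (F →ₗ[K⟮J⟯] E) = Module.finrank K⟮J⟯ F :=
    Module.finrank_linearMap_self K⟮J⟯ E F
  rw [h3] at h2
  exact h2

/-- coefficient of a `Fin`-indexed sum of monomials -/
theorem degB_coeff_sum_monomial {R : Type*} [CommRing R] (m : ℕ) (r : Fin (m + 1) → R)
    (k : Fin (m + 1)) :
    (∑ i : Fin (m + 1), Polynomial.C (r i) * Polynomial.X ^ (i : ℕ)).coeff (k : ℕ) = r k := by
  rw [Polynomial.finsetSum_coeff]
  rw [Finset.sum_eq_single k]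
  · rw [Polynomial.coeff_C_mul_X_pow, if_pos rfl]
  · intro i _ hik
    rw [Polynomial.coeff_C_mul_X_pow, if_neg]
    intro h
    exact hik (Fin.ext h.symm)
  · intro h
    exact absurd (Finset.mem_univ k) h

theorem degB_natDegree_sum_monomial {R : Type*} [CommRing R] (m : ℕ) (r : Fin (m + 1) → R) :
    (∑ i : Fin (m + 1), Polynomial.C (r i) * Polynomial.X ^ (i : ℕ)).natDegree ≤ m := by
  refine Polynomial.natDegree_sum_le_of_forall_le _ _ fun i _ => ?_
  exact (Polynomial.natDegree_C_mul_X_pow_le (r i) (i : ℕ)).trans (Nat.lt_succ_iff.mp i.2)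

theorem degB_aeval_sum_monomial {R A : Type*} [CommRing R] [CommRing A] [Algebra R A] (m : ℕ)
    (r : Fin (m + 1) → R) (x : A) :
    Polynomial.aeval x (∑ i : Fin (m + 1), Polynomial.C (r i) * Polynomial.X ^ (i : ℕ))
      = ∑ i : Fin (m + 1), algebraMap R A (r i) * x ^ (i : ℕ) := by
  simp [map_sum]

/-- the root statement: every `x = a/b` in `F` is a root of a nonzero polynomial of degree `≤ n`
over `ℚ̄(j)`, given a homogeneous relation of degree `n` over `ℚ̄[j]` with nonzero top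
coefficient. -/
theorem degB_root (N : ℕ) [NeZero N] (n m : ℕ) (x : FN N) (a b : LaurentSeries Kb) (hb : b ≠ 0)
    (hx : (x : LaurentSeries Kb) = a / b) (κ : Fin (m + 1) × Fin (n + 1) → Kb) (i₁ : Fin (m + 1))
    (hκ : κ (i₁, Fin.last n) ≠ 0)
    (hrel : ∑ p : Fin (m + 1) × Fin (n + 1),
      HahnSeries.C (κ p) * (Jser ^ (p.1 : ℕ) * a ^ (p.2 : ℕ) * b ^ (n - (p.2 : ℕ))) = 0) :
    ∃ P : Polynomial Kb⟮JF N⟯, P ≠ 0 ∧ P.natDegree ≤ n ∧ Polynomial.aeval x P = 0 := by
  set g : Kb⟮JF N⟯ := AdjoinSimple.gen Kb (JF N) with hg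
  have hgJ : algebraMap Kb⟮JF N⟯ (FN N) g = JF N := AdjoinSimple.algebraMap_gen Kb (JF N)
  have hgtr : ∀ p : Polynomial Kb, p ≠ 0 → Polynomial.aeval g p ≠ 0 := by
    intro p hp h0
    apply transcendental_JF N
    refine ⟨p, hp, ?_⟩
    rw [← hgJ, Polynomial.aeval_algebraMap_apply, h0, map_zero]
  set pj : Fin (n + 1) → Polynomial Kb := fun j =>
    ∑ i : Fin (m + 1), Polynomial.C (κ (i, j)) * Polynomial.X ^ (i : ℕ) with hpj
  set P : Polynomial Kb⟮JF N⟯ :=
    ∑ j : Fin (n + 1), Polynomial.C (Polynomial.aeval g (pj j)) * Polynomial.X ^ (j : ℕ) with hP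
  refine ⟨P, ?_, degB_natDegree_sum_monomial n _, ?_⟩
  · intro h0
    have h1 : P.coeff ((Fin.last n : Fin (n + 1)) : ℕ) = Polynomial.aeval g (pj (Fin.last n)) :=
      degB_coeff_sum_monomial n _ _
    rw [h0, Polynomial.coeff_zero] at h1
    refine hgtr (pj (Fin.last n)) ?_ h1.symm
    intro h2
    have h3 : (pj (Fin.last n)).coeff (i₁ : ℕ) = κ (i₁, Fin.last n) :=
      degB_coeff_sum_monomial m _ _
    rw [h2, Polynomial.coeff_zero] at h3
    exact hκ h3.symm
  · rw [hP, degB_aeval_sum_monomial]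
    have hterm : ∀ j : Fin (n + 1), algebraMap Kb⟮JF N⟯ (FN N) (Polynomial.aeval g (pj j))
        = ∑ i : Fin (m + 1), algebraMap Kb (FN N) (κ (i, j)) * JF N ^ (i : ℕ) := by
      intro j
      rw [← Polynomial.aeval_algebraMap_apply, hgJ, hpj]
      exact degB_aeval_sum_monomial m _ _
    simp only [hterm]
    apply Subtype.ext
    push_cast
    rw [coe_JF, hx]
    have key : b ^ n * (∑ j : Fin (n + 1), (∑ i : Fin (m + 1),
          algebraMap Kb (LaurentSeries Kb) (κ (i, j)) * Jser ^ (i : ℕ)) * (a / b) ^ (j : ℕ))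
        = ∑ p : Fin (m + 1) × Fin (n + 1),
          HahnSeries.C (κ p) * (Jser ^ (p.1 : ℕ) * a ^ (p.2 : ℕ) * b ^ (n - (p.2 : ℕ))) := by
      rw [Fintype.sum_prod_type_right, Finset.mul_sum]
      refine Finset.sum_congr rfl fun j _ => ?_
      rw [Finset.sum_mul, Finset.mul_sum]
      refine Finset.sum_congr rfl fun i _ => ?_
      have hj : (j : ℕ) ≤ n := Nat.lt_succ_iff.mp j.2
      have h1 : b ^ n = b ^ (j : ℕ) * b ^ (n - (j : ℕ)) := by
        rw [← pow_add, Nat.add_sub_cancel' hj]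
      have h2 : (a / b) ^ (j : ℕ) * b ^ (j : ℕ) = a ^ (j : ℕ) := by
        rw [div_pow, div_mul_cancel₀ _ (pow_ne_zero _ hb)]
      rw [algebraMap_laurentSeries_eq_single, ← HahnSeries.C_apply, h1]
      calc b ^ (j : ℕ) * b ^ (n - (j : ℕ)) * (HahnSeries.C (κ (i, j)) * Jser ^ (i : ℕ) * (a / b) ^ (j : ℕ))
          = HahnSeries.C (κ (i, j)) * (Jser ^ (i : ℕ) * ((a / b) ^ (j : ℕ) * b ^ (j : ℕ))
              * b ^ (n - (j : ℕ))) := by ring
        _ = _ := by rw [h2]
    rw [hrel] at key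
    rcases mul_eq_zero.mp key with h | h
    · exact absurd h (pow_ne_zero _ hb)
    · exact h

/-- **degree bound**: homogeneous relations of degree `n` over `ℂ[j]` (with nonzero top
coefficient) for all pairs `a, b ∈ A` force `[F : ℚ̄(j)] ≤ n`. -/
theorem degB_upper (N : ℕ) [NeZero N] (n : ℕ)
    (H : ∀ a ∈ Agen N, ∀ b ∈ Agen N, b ≠ 0 →
      ∃ (m : ℕ) (c : Fin (m + 1) → Fin (n + 1) → ℂ), (∃ i, c i (Fin.last n) ≠ 0) ∧
        ∑ i, ∑ j, HahnSeries.C (c i j)
          * coeffMap iotaK (Jser ^ (i : ℕ) * a ^ (j : ℕ) * b ^ (n - (j : ℕ))) = 0) :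
    Module.Finite Kb⟮JF N⟯ (FN N) ∧ Module.finrank Kb⟮JF N⟯ (FN N) ≤ n := by
  apply degB_finrank_le_of_forall
  intro x
  obtain ⟨a, ha, b, hb, hb0, hx⟩ := exists_div_of_mem N x.2
  obtain ⟨m, c, ⟨i₁, hi₁⟩, hrel⟩ := H a ha b hb hb0
  obtain ⟨κ, hκ, hκrel⟩ := degB_descent (ι := Fin (m + 1) × Fin (n + 1))
    (fun p => Jser ^ (p.1 : ℕ) * a ^ (p.2 : ℕ) * b ^ (n - (p.2 : ℕ))) (fun p => c p.1 p.2)
    (i₁, Fin.last n) hi₁ (by rw [Fintype.sum_prod_type]; exact hrel)
  exact degB_root N n m x a b hb0 hx κ i₁ hκ hκrel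

end Fermat.Agent.S24Lib
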