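/-
S24, chunk B1 (helper8): the analytic `j`-function `j = E₄³ / Δ` on `ℍ`.
* `jAn_mdiff`, `jAn_smul` (holomorphic, `SL(2, ℤ)`-invariant);
* `D_jAn : D j = -E₄² E₆ / Δ`;
* values and local orders at `i`, `ρ` and at generic points (`1`, `2`, `3`);
* `jAn_surjective`; the simple pole at `i∞` (`jAn_tendsto`).
-/
import Fermat.Agent.Lib.S20.SimpleDiv
import Fermat.Agent.Lib.S20.Elliptic
import Fermat.Agent.Lib.S21.MaxMod

set_option autoImplicit false

namespace Fermat.Agent.S24Lib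

open UpperHalfPlane ModularForm MatrixGroups Filter EisensteinSeries Derivative
open scoped Manifold Topology
open Fermat.Agent.LibS23 Fermat.Agent.S20Lib

local notation "𝕢" => Function.Periodic.qParam

/-- the analytic `j`-function `E₄³ / Δ` on `ℍ`. -/
noncomputable def jAn (z : ℍ) : ℂ := E₄ z ^ 3 / ModularForm.discriminant z

theorem jAn_mul_discriminant (z : ℍ) : jAn z * ModularForm.discriminant z = E₄ z ^ 3 := by
  unfold jAn
  exact div_mul_cancel₀ _ (discriminant_ne_zero z)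

theorem jAn_sub (z : ℍ) : jAn z - 1728 = E₆ z ^ 2 / ModularForm.discriminant z := by
  have hΔ := discriminant_ne_zero z
  have h := discriminant_eq_E₄_cube_sub_E₆_sq z
  unfold jAn
  rw [eq_div_iff hΔ, sub_mul, div_mul_cancel₀ _ hΔ]
  linear_combination (-1728) * h

/-- quotients of holomorphic functions by nowhere vanishing ones are holomorphic -/
theorem jAn_mdiff_div {F G : ℍ → ℂ} (hF : MDiff F) (hG : MDiff G) (h0 : ∀ z, G z ≠ 0) :
    MDiff (fun z => F z / G z) := by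
  rw [mdifferentiable_iff] at hF hG ⊢
  have : (fun z => F z / G z) ∘ ofComplex = fun w => (F ∘ ofComplex) w / (G ∘ ofComplex) w := rfl
  rw [this]
  exact hF.div hG (fun w _ => h0 _)

theorem jAn_mdiff_E4 : MDiff (⇑E₄ : ℍ → ℂ) := simple_isLO_E4.mdiff

theorem jAn_mdiff_E6 : MDiff (⇑E₆ : ℍ → ℂ) := simple_isLO_E6.mdiff

theorem jAn_mdiff_discriminant : MDiff (ModularForm.discriminant : ℍ → ℂ) :=
  simple_isLO_discriminant.mdiff

theorem jAn_mdiff_E4_cube : MDiff ((⇑E₄ : ℍ → ℂ) ^ 3) := by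
  have e : (⇑E₄ : ℍ → ℂ) ^ 3 = ⇑E₄ * ⇑E₄ * ⇑E₄ := by ring
  rw [e]
  exact (jAn_mdiff_E4.mul jAn_mdiff_E4).mul jAn_mdiff_E4

theorem jAn_mdiff : MDiff jAn :=
  jAn_mdiff_div (F := (⇑E₄ : ℍ → ℂ) ^ 3) jAn_mdiff_E4_cube jAn_mdiff_discriminant
    discriminant_ne_zero

/-- level-one forms at `γ • z` -/
theorem jAn_isLO_smul {k : ℤ} {F : ℍ → ℂ} (hF : IsLO k F) (γ : SL(2, ℤ)) (z : ℍ) :
    F (γ • z) = F z * denom γ z ^ k := by
  have h : (F ∣[k] γ) z = F z := congrFun (hF.slash γ) z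
  rw [ModularForm.SL_slash_apply] at h
  have hd : denom γ z ≠ 0 := denom_ne_zero _ z
  rw [← h, mul_assoc, ← zpow_add₀ hd]
  simp

theorem jAn_smul (γ : SL(2, ℤ)) (z : ℍ) : jAn (γ • z) = jAn z := by
  have hd : denom γ z ≠ 0 := denom_ne_zero _ z
  have h4 := jAn_isLO_smul simple_isLO_E4 γ z
  have h12 := jAn_isLO_smul simple_isLO_discriminant γ z
  unfold jAn
  rw [h4, h12, mul_pow, ← zpow_natCast (denom γ z ^ (4 : ℤ)) 3, ← zpow_mul]
  have : ((4 : ℤ) * ((3 : ℕ) : ℤ)) = 12 := by norm_num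
  rw [this]
  exact mul_div_mul_right _ _ (zpow_ne_zero _ hd)

end Fermat.Agent.S24Lib
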