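/-
S24, chunk B3 (helper1): the functions `z ↦ j(d z)` on `ℍ`.
-/
import Fermat.Agent.Lib.S24.JAn
import Fermat.Prelude.Def_ModularForm_HeckeOperator

set_option autoImplicit false

namespace Fermat.Agent.S24Lib

open UpperHalfPlane ModularForm MatrixGroups Filter
open scoped Manifold Topology
open Fermat.Agent.LibS23 Fermat.Agent.S20Lib

/-- the function `z ↦ j(d z)` on the upper half plane (for `d = 0` this is `j` itself). -/
noncomputable def jLvl (d : ℕ) (z : ℍ) : ℂ := jAn (heckeDiagMatrix d • z)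

theorem jLvl_apply (d : ℕ) (z : ℍ) : jLvl d z = jAn (heckeDiagMatrix d • z) := rfl

theorem jLvl_zero : jLvl 0 = jAn := by
  funext z
  simp [jLvl]

theorem heckeDiagMatrix_one_smul (z : ℍ) : heckeDiagMatrix 1 • z = z := by
  apply UpperHalfPlane.ext
  rw [coe_heckeDiagMatrix_smul one_ne_zero]
  simp

theorem jLvl_one : jLvl 1 = jAn := by
  funext z
  rw [jLvl, heckeDiagMatrix_one_smul]

/-- the point `d z` has coordinate `d * z` -/
theorem coe_jLvl_arg {d : ℕ} (hd : d ≠ 0) (z : ℍ) :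
    ((heckeDiagMatrix d • z : ℍ) : ℂ) = (d : ℂ) * (z : ℂ) :=
  coe_heckeDiagMatrix_smul hd z

theorem jLvl_eq_slash {d : ℕ} (hd : d ≠ 0) :
    jLvl d = (d : ℂ) • (jAn ∣[(0 : ℤ)] heckeDiagMatrix d) := by
  funext z
  rw [Pi.smul_apply, slash_heckeDiagMatrix_apply 0 hd, jLvl]
  have hd' : (d : ℂ) ≠ 0 := by exact_mod_cast hd
  simp only [zero_sub, smul_eq_mul]
  rw [← mul_assoc, zpow_neg_one, mul_inv_cancel₀ hd', one_mul]

theorem jLvl_mdiff (d : ℕ) : MDiff (jLvl d) := by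
  rcases eq_or_ne d 0 with rfl | hd
  · rw [jLvl_zero]; exact jAn_mdiff
  · rw [jLvl_eq_slash hd]
    exact (jAn_mdiff.slash 0 _).const_smul _

end Fermat.Agent.S24Lib
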