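/-
S24, chunk B3 (helper1): moderate growth at `i∞`, the growth of `j` along upper triangular
substitutions, and `Δ^d · j(d z)` as a modular form on `Γ₀(N)`.
-/
import Fermat.Agent.Lib.S24.JLvl
import Fermat.Agent.Lib.S23.Sym
import Fermat.Agent.Lib.S20.LevelOne

set_option autoImplicit false

namespace Fermat.Agent.S24Lib

open UpperHalfPlane ModularForm CongruenceSubgroup MatrixGroups Filter Matrix.SpecialLinearGroup
open scoped Manifold Topology Real
open Fermat.Agent.LibS23 Fermat.Agent.S20Lib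

/-- moderate growth at `i∞`: some power of `Δ` kills the pole. -/
def ModGrowth (f : ℍ → ℂ) : Prop :=
  ∃ M : ℕ, IsBoundedAtImInfty (ModularForm.discriminant ^ M * f)

theorem modGrowth_bdd_discriminant : IsBoundedAtImInfty (ModularForm.discriminant : ℍ → ℂ) :=
  simple_tendsto_discriminant.isBigO_one ℝ

theorem modGrowth_bdd_discriminant_pow (n : ℕ) :
    IsBoundedAtImInfty ((ModularForm.discriminant : ℍ → ℂ) ^ n) := by
  induction n with
  | zero =>
    simp only [pow_zero]
    exact Filter.const_boundedAtFilter _ (1 : ℂ)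
  | succ n ih =>
    rw [pow_succ]
    exact ih.mul modGrowth_bdd_discriminant

namespace ModGrowth

variable {f g : ℍ → ℂ}

theorem of_bdd (h : IsBoundedAtImInfty f) : ModGrowth f := ⟨0, by simpa using h⟩

theorem mono {M M' : ℕ} (hM : M ≤ M')
    (h : IsBoundedAtImInfty (ModularForm.discriminant ^ M * f)) :
    IsBoundedAtImInfty (ModularForm.discriminant ^ M' * f) := by
  obtain ⟨k, rfl⟩ := Nat.exists_eq_add_of_le hM
  have e : (ModularForm.discriminant : ℍ → ℂ) ^ (M + k) * f
      = ModularForm.discriminant ^ k * (ModularForm.discriminant ^ M * f) := by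
    rw [pow_add]; ring
  rw [e]
  exact (modGrowth_bdd_discriminant_pow k).mul h

theorem add (hf : ModGrowth f) (hg : ModGrowth g) : ModGrowth (f + g) := by
  obtain ⟨M, hM⟩ := hf
  obtain ⟨M', hM'⟩ := hg
  refine ⟨max M M', ?_⟩
  rw [mul_add]
  exact (mono (le_max_left M M') hM).add (mono (le_max_right M M') hM')

theorem mul (hf : ModGrowth f) (hg : ModGrowth g) : ModGrowth (f * g) := by
  obtain ⟨M, hM⟩ := hf
  obtain ⟨M', hM'⟩ := hg
  refine ⟨M + M', ?_⟩
  have e : (ModularForm.discriminant : ℍ → ℂ) ^ (M + M') * (f * g)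
      = (ModularForm.discriminant ^ M * f) * (ModularForm.discriminant ^ M' * g) := by
    rw [pow_add]; ring
  rw [e]
  exact hM.mul hM'

theorem const (c : ℂ) : ModGrowth (fun _ => c) := of_bdd (Filter.const_boundedAtFilter _ c)

theorem one : ModGrowth (1 : ℍ → ℂ) := const 1

theorem zero : ModGrowth (0 : ℍ → ℂ) := const 0

theorem neg (hf : ModGrowth f) : ModGrowth (-f) := by
  obtain ⟨M, hM⟩ := hf
  refine ⟨M, ?_⟩
  rw [mul_neg]
  exact hM.neg_left

end ModGrowth

/-- growth of `j`: `‖j w‖ · e^{-2π Im w} → 1` as `Im w → ∞`. -/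
theorem tendsto_norm_jAn_mul_exp :
    Tendsto (fun w : ℍ => ‖jAn w‖ * Real.exp (-(2 * π * w.im))) atImInfty (𝓝 1) := by
  have h1 : Tendsto (fun w : ℍ => ‖E₄ w‖ ^ 3) atImInfty (𝓝 1) := by
    have := (simple_tendsto_E4.norm).pow 3
    simpa using this
  have h2 := h1.div tendsto_norm_discriminant_mul_exp one_ne_zero
  rw [div_one] at h2
  refine h2.congr fun w => ?_
  unfold jAn
  rw [norm_div, norm_pow, Real.exp_neg]
  have hΔ : ‖ModularForm.discriminant w‖ ≠ 0 := norm_ne_zero_iff.mpr (discriminant_ne_zero w)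
  have he : Real.exp (2 * π * w.im) ≠ 0 := (Real.exp_pos _).ne'
  simp only [Pi.div_apply]
  field_simp

/-- `Δ^M · j(U z)` is bounded at `i∞` if the dilation factor `a / d` of `U` is at most `M`. -/
theorem bdd_discriminant_pow_mul_jAn_upper (a b d : ℝ) (ha : 0 < a) (hd : 0 < d) (M : ℕ)
    (hM : a / d ≤ M) :
    IsBoundedAtImInfty (fun z : ℍ => ModularForm.discriminant z ^ M
      * jAn (upperTriangularGL a b d (mul_pos ha hd).ne' • z)) := by
  set U := upperTriangularGL a b d (mul_pos ha hd).ne' with hU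
  have h1 : Tendsto (fun z : ℍ => (‖ModularForm.discriminant z‖ * Real.exp (2 * π * z.im)) ^ M)
      atImInfty (𝓝 1) := by
    have := tendsto_norm_discriminant_mul_exp.pow M
    simpa using this
  have h2 : Tendsto (fun z : ℍ => ‖jAn (U • z)‖ * Real.exp (-(2 * π * (U • z).im)))
      atImInfty (𝓝 1) :=
    tendsto_norm_jAn_mul_exp.comp (tendsto_upperTriangularGL_smul a b d ha hd)
  have h3 := h1.mul h2
  rw [mul_one] at h3
  have h4 : (fun z : ℍ => (‖ModularForm.discriminant z‖ * Real.exp (2 * π * z.im)) ^ M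
      * (‖jAn (U • z)‖ * Real.exp (-(2 * π * (U • z).im)))) =O[atImInfty] (1 : ℍ → ℝ) :=
    h3.isBigO_one ℝ
  refine Asymptotics.IsBigO.trans (Asymptotics.isBigO_of_le _ fun z => ?_) h4
  rw [norm_mul, norm_pow, Real.norm_eq_abs, abs_of_nonneg (by positivity)]
  have him : (U • z).im = a / d * z.im := im_upperTriangularGL_smul a b d ha hd z
  rw [him, mul_pow, ← Real.exp_nat_mul]
  have hle : (1 : ℝ) ≤ Real.exp (↑M * (2 * π * z.im)) * Real.exp (-(2 * π * (a / d * z.im))) := by
    rw [← Real.exp_add]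
    apply Real.one_le_exp
    have hz : 0 < z.im := z.im_pos
    have hπ : 0 < π := Real.pi_pos
    have : 0 ≤ (↑M - a / d) * (2 * π * z.im) := by
      apply mul_nonneg (by linarith) (by positivity)
    nlinarith
  have hnn : 0 ≤ ‖ModularForm.discriminant z‖ ^ M * ‖jAn (U • z)‖ := by positivity
  calc ‖ModularForm.discriminant z‖ ^ M * ‖jAn (U • z)‖
      = ‖ModularForm.discriminant z‖ ^ M * ‖jAn (U • z)‖ * 1 := by rw [mul_one]
    _ ≤ ‖ModularForm.discriminant z‖ ^ M * ‖jAn (U • z)‖
          * (Real.exp (↑M * (2 * π * z.im)) * Real.exp (-(2 * π * (a / d * z.im)))) :=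
        mul_le_mul_of_nonneg_left hle hnn
    _ = _ := by ring

end Fermat.Agent.S24Lib
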