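/-
S24, chunk B3 (helper1): `j(d z)` under `SL₂(ℤ)`-substitutions; `Δ^d · j(d z)` is a modular form
of weight `12 d` on `Γ₀(N)` for `d ∣ N`.
-/
import Fermat.Agent.Lib.S24.ModGrowth

set_option autoImplicit false

namespace Fermat.Agent.S24Lib

open UpperHalfPlane ModularForm CongruenceSubgroup MatrixGroups Filter Matrix.SpecialLinearGroup
open scoped Manifold Topology Real
open Fermat.Agent.LibS23 Fermat.Agent.S20Lib

theorem gamma0_le_of_dvd {N d : ℕ} (hd : d ∣ N) {γ : SL(2, ℤ)} (hγ : γ ∈ Gamma0 N) :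
    γ ∈ Gamma0 d := by
  rw [Gamma0_mem] at hγ ⊢
  rw [ZMod.intCast_zmod_eq_zero_iff_dvd] at hγ ⊢
  exact (Int.natCast_dvd_natCast.mpr hd).trans hγ

/-- `j(d z)` is invariant under `Γ₀(d)`. -/
theorem jLvl_smul_gamma0 {d : ℕ} [NeZero d] (γ : SL(2, ℤ)) (hγ : γ ∈ Gamma0 d) (z : ℍ) :
    jLvl d (γ • z) = jLvl d z := by
  obtain ⟨γ', hγ'⟩ := diag_mul_gamma0 d γ hγ
  have h1 : heckeDiagMatrix d • (γ • z) = γ' • (heckeDiagMatrix d • z) := by
    change heckeDiagMatrix d • (mapGL ℝ γ • z) = mapGL ℝ γ' • (heckeDiagMatrix d • z)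
    rw [← mul_smul, ← mul_smul, hγ']
  rw [jLvl, h1, jAn_smul, jLvl]

/-- `j(d z)` is invariant under `Γ₀(N)` for `d ∣ N`. -/
theorem jLvl_smul_gamma0_of_dvd {N d : ℕ} [NeZero N] (hd : d ∣ N) (γ : SL(2, ℤ))
    (hγ : γ ∈ Gamma0 N) (z : ℍ) : jLvl d (γ • z) = jLvl d z := by
  haveI : NeZero d := ⟨fun h => NeZero.ne N (by rw [h] at hd; exact Nat.eq_zero_of_zero_dvd hd)⟩
  exact jLvl_smul_gamma0 γ (gamma0_le_of_dvd hd hγ) z

/-- `j(d · γ z)` for `γ ∈ SL₂(ℤ)` is `j` at an upper triangular substitution of determinant `d`. -/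
theorem jLvl_comp_SL (d : ℕ) [NeZero d] (γ : SL(2, ℤ)) :
    ∃ (a δ : ℕ) (b : ℤ) (ha : 0 < a) (hδ : 0 < δ), a * δ = d ∧ (δ = 1 → γ ∈ Gamma0 d) ∧
      ∀ z : ℍ, jLvl d (γ • z) = jAn (upperTriangularGL a b δ
        (mul_pos (Nat.cast_pos.mpr ha) (Nat.cast_pos.mpr hδ)).ne' • z) := by
  obtain ⟨γ', g, N₁, b', hg, hN₁, hgN, hmem, hdec⟩ := diag_mul_SL_decomp d γ
  refine ⟨g, N₁, b', hg, hN₁, hgN, hmem, fun z => ?_⟩
  have h1 : heckeDiagMatrix d • (γ • z) = γ' • (upperTriangularGL g b' N₁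
      (mul_pos (Nat.cast_pos.mpr hg) (Nat.cast_pos.mpr hN₁)).ne' • z) := by
    change heckeDiagMatrix d • (mapGL ℝ γ • z) = mapGL ℝ γ' • (_ • z)
    rw [← mul_smul, ← mul_smul, hdec]
  rw [jLvl, h1, jAn_smul]

theorem discriminant_smul (γ : SL(2, ℤ)) (z : ℍ) :
    ModularForm.discriminant (γ • z) = ModularForm.discriminant z * denom γ z ^ (12 : ℤ) :=
  jAn_isLO_smul simple_isLO_discriminant γ z

/-- weight `12 M` slash of `f · Δ^M` by `γ ∈ SL₂(ℤ)` -/
theorem slash_mul_discriminant_pow (f : ℍ → ℂ) (M : ℕ) (γ : SL(2, ℤ)) (z : ℍ) :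
    ((fun w => f w * ModularForm.discriminant w ^ M) ∣[(12 * (M : ℤ))] γ) z
      = f (γ • z) * ModularForm.discriminant z ^ M := by
  rw [ModularForm.SL_slash_apply, discriminant_smul, mul_pow, mul_assoc, mul_assoc]
  congr 2
  have hd : denom γ z ≠ 0 := denom_ne_zero _ z
  rw [← zpow_natCast (denom γ z ^ (12 : ℤ)) M, ← zpow_mul, ← zpow_add₀ hd]
  simp

/-- **`Δ^d · j(d z)` is a modular form of weight `12 d` on `Γ₀(N)`** (`d ∣ N`). -/
theorem exists_modularForm_jLvl {N d : ℕ} [NeZero N] (hd : d ∣ N) :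
    ∃ G : ModularForm (Gamma0 N) (12 * (d : ℤ)),
      ∀ z, G z = jLvl d z * ModularForm.discriminant z ^ d := by
  haveI : NeZero d := ⟨fun h => NeZero.ne N (by rw [h] at hd; exact Nat.eq_zero_of_zero_dvd hd)⟩
  refine ⟨{ toFun := fun z => jLvl d z * ModularForm.discriminant z ^ d
            slash_action_eq' := ?_
            holo' := ?_
            bdd_at_cusps' := ?_ }, fun z => rfl⟩
  · rintro x ⟨γ, hγ, rfl⟩
    funext z
    refine (slash_mul_discriminant_pow (jLvl d) d γ z).trans ?_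
    rw [jLvl_smul_gamma0_of_dvd hd γ hγ]
  · exact (jLvl_mdiff d).mul (simple_isLO_discriminant.mdiff.pow d)
  · intro c hc
    rw [OnePoint.isBoundedAt_iff_forall_SL2Z (hc.mono basic_gamma0_le)]
    intro γ _
    obtain ⟨a, δ, b, ha, hδ, had, -, hz⟩ := jLvl_comp_SL d γ
    have haR : (0 : ℝ) < a := Nat.cast_pos.mpr ha
    have hδR : (0 : ℝ) < δ := Nat.cast_pos.mpr hδ
    have hle : (a : ℝ) / δ ≤ d := by
      rw [div_le_iff₀ hδR]
      have h1 : (1 : ℝ) ≤ δ := by exact_mod_cast hδ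
      have h2 : (a : ℝ) * δ = d := by exact_mod_cast had
      have h3 : (0 : ℝ) ≤ d := by positivity
      nlinarith
    have hb := bdd_discriminant_pow_mul_jAn_upper a b δ haR hδR d hle
    have e : ((fun z => jLvl d z * ModularForm.discriminant z ^ d) ∣[(12 * (d : ℤ))] γ)
        = fun z : ℍ => ModularForm.discriminant z ^ d
          * jAn (upperTriangularGL a b δ (mul_pos haR hδR).ne' • z) := by
      funext z
      rw [slash_mul_discriminant_pow, hz, mul_comm]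
    rw [e]
    exact hb

end Fermat.Agent.S24Lib
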