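/-
S24, chunk B3 (helper1): holomorphic `SL₂(ℤ)`-invariant functions of moderate growth at `i∞`
are polynomials in `j`.
-/
import Fermat.Agent.Lib.S24.JLvlForm

set_option autoImplicit false

namespace Fermat.Agent.S24Lib

open UpperHalfPlane ModularForm CongruenceSubgroup MatrixGroups Filter Matrix.SpecialLinearGroup
open EisensteinSeries
open scoped Manifold Topology Real
open Fermat.Agent.LibS23 Fermat.Agent.S20Lib

/-- a level-one form of weight `12 M` is `Δ^M` times a polynomial in `j`. -/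
theorem jPoly_of_isLO (M : ℕ) : ∀ {G : ℍ → ℂ}, IsLO (12 * (M : ℤ)) G →
    ∃ p : Polynomial ℂ, ∀ z, G z = p.eval (jAn z) * ModularForm.discriminant z ^ M := by
  induction M with
  | zero =>
    intro G hG
    obtain ⟨G0, rfl⟩ := hG
    have hG0 : ∃ c, ⇑G0 = Function.const _ c := by
      have h0 : (12 * ((0 : ℕ) : ℤ)) = 0 := by simp
      revert G0
      rw [h0]
      intro G0
      exact ModularFormClass.levelOne_weight_zero_const G0
    obtain ⟨c, hc⟩ := hG0
    refine ⟨Polynomial.C c, fun z => ?_⟩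
    rw [hc]
    simp
  | succ M ih =>
    intro G hG
    set c : ℂ := (qx G).coeff 0 with hc
    have hE : IsLO (12 * ((M + 1 : ℕ) : ℤ)) ((⇑E₄ : ℍ → ℂ) ^ (3 * (M + 1))) :=
      (isLO_pow simple_isLO_E4 (3 * (M + 1))).of_eq_weight (by push_cast; ring)
    have hG1 : IsLO (12 * ((M + 1 : ℕ) : ℤ)) (G + (-c) • (⇑E₄ : ℍ → ℂ) ^ (3 * (M + 1))) :=
      hG.add (hE.smul (-c))
    have hlim : Tendsto (G + (-c) • (⇑E₄ : ℍ → ℂ) ^ (3 * (M + 1))) atImInfty (𝓝 0) := by
      have h1 := simple_tendsto_coeff_zero hG.qexp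
      have h2 : Tendsto ((⇑E₄ : ℍ → ℂ) ^ (3 * (M + 1))) atImInfty (𝓝 1) := by
        have := simple_tendsto_E4.pow (3 * (M + 1))
        rw [one_pow] at this
        exact this
      have h3 := h1.add (h2.const_smul (-c))
      have e : (qx G).coeff 0 + (-c) • (1 : ℂ) = 0 := by rw [hc]; simp
      rw [e] at h3
      exact h3
    have h0 : (qx (G + (-c) • (⇑E₄ : ℍ → ℂ) ^ (3 * (M + 1)))).coeff 0 = 0 :=
      tendsto_nhds_unique (simple_tendsto_coeff_zero hG1.qexp) hlim
    obtain ⟨g, hg, hgeq⟩ := levelOne_exists_eq_discriminant_mul hG1 h0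
    obtain ⟨p, hp⟩ := ih (hg.of_eq_weight (by push_cast; ring))
    refine ⟨Polynomial.C c * Polynomial.X ^ (M + 1) + p, fun z => ?_⟩
    have h1 := congrFun hgeq z
    simp only [Pi.add_apply, Pi.smul_apply, Pi.pow_apply, Pi.mul_apply, smul_eq_mul] at h1
    have h2 : E₄ z ^ (3 * (M + 1)) = (jAn z * ModularForm.discriminant z) ^ (M + 1) := by
      rw [jAn_mul_discriminant, ← pow_mul]
    rw [h2, hp z] at h1
    simp only [Polynomial.eval_add, Polynomial.eval_mul, Polynomial.eval_C, Polynomial.eval_pow,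
      Polynomial.eval_X]
    linear_combination h1

/-- **holomorphic `SL₂(ℤ)`-invariant functions of moderate growth are polynomials in `j`.** -/
theorem jPoly_of_invariant {f : ℍ → ℂ} (hf : MDiff f) (hg : ModGrowth f)
    (hinv : ∀ (γ : SL(2, ℤ)) (z : ℍ), f (γ • z) = f z) :
    ∃ p : Polynomial ℂ, ∀ z, f z = p.eval (jAn z) := by
  obtain ⟨M, hM⟩ := hg
  have hLO : IsLO (12 * (M : ℤ)) (fun z => f z * ModularForm.discriminant z ^ M) := by
    refine IsLO.mk' (fun γ => ?_) ?_ ?_
    · funext z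
      refine (slash_mul_discriminant_pow f M γ z).trans ?_
      rw [hinv]
    · exact hf.mul (simple_isLO_discriminant.mdiff.pow M)
    · have e : (fun z => f z * ModularForm.discriminant z ^ M)
          = ModularForm.discriminant ^ M * f := by
        funext z
        simp [mul_comm]
      rw [e]
      exact hM
  obtain ⟨p, hp⟩ := jPoly_of_isLO M hLO
  refine ⟨p, fun z => ?_⟩
  have h := hp z
  exact mul_right_cancel₀ (pow_ne_zero M (discriminant_ne_zero z)) h

end Fermat.Agent.S24Lib
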