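/-
S24, chunk B3 (helper1): the norm form `∏_q (b_q X - a_q)` of two finite families in a
commutative ring (pure algebra; Mathlib only).
-/
import Mathlib

set_option autoImplicit false

namespace Fermat.Agent.S24Lib

open Polynomial

section normPoly

variable {R : Type*} [CommRing R] {ι : Type*} [Fintype ι]

/-- the norm form `∏_q (b_q X - a_q)` -/
noncomputable def normPoly (a b : ι → R) : R[X] :=
  ∏ q : ι, (C (b q) * X + C (-a q))

theorem normPoly_map {S : Type*} [CommRing S] (κ : R →+* S) (a b : ι → R) :
    (normPoly a b).map κ = normPoly (fun q => κ (a q)) (fun q => κ (b q)) := by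
  unfold normPoly
  rw [Polynomial.map_prod]
  refine Finset.prod_congr rfl fun q _ => ?_
  simp

/-- the coefficients of the norm form lie in any subring containing the two families -/
theorem normPoly_coeff_mem (S : Subring R) (a b : ι → R) (ha : ∀ q, a q ∈ S) (hb : ∀ q, b q ∈ S)
    (k : ℕ) : (normPoly a b).coeff k ∈ S := by
  have h : normPoly a b
      = (normPoly (fun q => (⟨a q, ha q⟩ : S)) (fun q => (⟨b q, hb q⟩ : S))).map S.subtype := by
    rw [normPoly_map]
    rfl
  rw [h, Polynomial.coeff_map]
  exact SetLike.coe_mem _

/-- the coefficients of the norm form are fixed by a ring hom permuting the two families -/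
theorem normPoly_coeff_fixed (κ : R →+* R) (π : Equiv.Perm ι) (a b : ι → R)
    (ha : ∀ q, κ (a q) = a (π q)) (hb : ∀ q, κ (b q) = b (π q)) (k : ℕ) :
    κ ((normPoly a b).coeff k) = (normPoly a b).coeff k := by
  have h : (normPoly a b).map κ = normPoly a b := by
    rw [normPoly_map]
    unfold normPoly
    simp only [ha, hb]
    exact Equiv.prod_comp π fun q => (C (b q) * X + C (-a q))
  conv_rhs => rw [← h]
  rw [Polynomial.coeff_map]

theorem normPoly_natDegree_le (a b : ι → R) : (normPoly a b).natDegree ≤ Fintype.card ι := by
  unfold normPoly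
  have h1 : (∏ q : ι, (C (b q) * X + C (-a q))).natDegree
      ≤ ∑ q : ι, (C (b q) * X + C (-a q)).natDegree :=
    Polynomial.natDegree_prod_le (Finset.univ : Finset ι) fun q => (C (b q) * X + C (-a q))
  have h2 : ∑ q : ι, (C (b q) * X + C (-a q)).natDegree ≤ ∑ _q : ι, (1 : ℕ) :=
    Finset.sum_le_sum fun q _ => Polynomial.natDegree_linear_le (a := b q) (b := -a q)
  have h3 : ∑ _q : ι, (1 : ℕ) = Fintype.card ι := by simp
  omega

/-- the top coefficient of the norm form -/
theorem normPoly_coeff_card (a b : ι → R) :
    (normPoly a b).coeff (Fintype.card ι) = ∏ q : ι, b q := by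
  unfold normPoly
  have h := Polynomial.coeff_prod_of_natDegree_le (s := (Finset.univ : Finset ι))
    (fun q => (C (b q) * X + C (-a q))) 1 (fun q _ => Polynomial.natDegree_linear_le)
  rw [Finset.card_univ, mul_one] at h
  rw [h]
  refine Finset.prod_congr rfl fun q _ => ?_
  simp [Polynomial.coeff_C]

end normPoly

/-- the homogeneous norm form vanishes at each member of the two families -/
theorem normPoly_homogeneous_eval {K : Type*} [Field K] {ι : Type*} [Fintype ι] (a b : ι → K)
    (q₀ : ι) :
    ∑ k ∈ Finset.range (Fintype.card ι + 1),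
      (normPoly a b).coeff k * a q₀ ^ k * b q₀ ^ (Fintype.card ι - k) = 0 := by
  set n := Fintype.card ι with hn
  by_cases hy : b q₀ = 0
  · rw [Finset.sum_eq_single n]
    · rw [normPoly_coeff_card, Finset.prod_eq_zero (Finset.mem_univ q₀) hy]
      simp
    · intro k hk hkn
      have hk' : k < n := by
        have := Finset.mem_range.mp hk
        omega
      rw [hy, zero_pow (by omega), mul_zero]
    · intro h
      exact absurd (Finset.mem_range.mpr (Nat.lt_succ_self n)) h
  · have hroot : (normPoly a b).eval (a q₀ / b q₀) = 0 := by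
      unfold normPoly
      rw [Polynomial.eval_prod]
      apply Finset.prod_eq_zero (Finset.mem_univ q₀)
      simp only [eval_add, eval_mul, eval_C, eval_X]
      field_simp
      ring
    rw [Polynomial.eval_eq_sum_range' (Nat.lt_succ_of_le (normPoly_natDegree_le a b))] at hroot
    have h2 : ∑ k ∈ Finset.range (n + 1), (normPoly a b).coeff k * a q₀ ^ k * b q₀ ^ (n - k)
        = b q₀ ^ n * ∑ k ∈ Finset.range (n + 1), (normPoly a b).coeff k * (a q₀ / b q₀) ^ k := by
      rw [Finset.mul_sum]
      refine Finset.sum_congr rfl fun k hk => ?_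
      have hk' : k ≤ n := by
        have := Finset.mem_range.mp hk
        omega
      have e : b q₀ ^ n = b q₀ ^ k * b q₀ ^ (n - k) := by
        rw [← pow_add]
        congr 1
        omega
      rw [e, div_pow]
      field_simp
    rw [h2, hroot, mul_zero]

end Fermat.Agent.S24Lib
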