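/-
S24, chunk B3 (helper1): weakly holomorphic modular functions on `Γ₀(N)`, their weight-zero
conjugates, and the norm-form relation over `ℂ[j]` of degree `|SL₂(ℤ) : Γ₀(N)|`.
-/
import Fermat.Agent.Lib.S24.JPoly
import Fermat.Agent.Lib.S24.NormPoly
import Fermat.Agent.Lib.S20.Cusp

set_option autoImplicit false

namespace Fermat.Agent.S24Lib

open UpperHalfPlane ModularForm CongruenceSubgroup MatrixGroups Filter Matrix.SpecialLinearGroup
open SlashInvariantForm
open scoped Manifold Topology Real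
open Fermat.Agent.LibS23 Fermat.Agent.S20Lib

/-- holomorphic functions of moderate growth at `i∞` -/
def GRing : Subring (ℍ → ℂ) where
  carrier := {f | MDiff f ∧ ModGrowth f}
  mul_mem' := fun ha hb => ⟨ha.1.mul hb.1, ha.2.mul hb.2⟩
  one_mem' := ⟨mdifferentiable_const, ModGrowth.one⟩
  add_mem' := fun ha hb => ⟨ha.1.add hb.1, ha.2.add hb.2⟩
  zero_mem' := ⟨mdifferentiable_const, ModGrowth.zero⟩
  neg_mem' := fun ha => ⟨ha.1.neg, ha.2.neg⟩

theorem mem_GRing {f : ℍ → ℂ} : f ∈ GRing ↔ MDiff f ∧ ModGrowth f := Iff.rfl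

/-- precomposition with `γ ∈ SL₂(ℤ)` as a ring hom on all functions -/
noncomputable def compRingHom (γ : SL(2, ℤ)) : (ℍ → ℂ) →+* (ℍ → ℂ) where
  toFun f := fun z => f (γ • z)
  map_one' := rfl
  map_mul' _ _ := rfl
  map_zero' := rfl
  map_add' _ _ := rfl

@[simp] theorem compRingHom_apply (γ : SL(2, ℤ)) (f : ℍ → ℂ) (z : ℍ) :
    compRingHom γ f z = f (γ • z) := rfl

/-- `h` is a weakly holomorphic modular function on `Γ₀(N)`: `h Δ^M` is a modular form. -/
def IsWMF (N : ℕ) (h : ℍ → ℂ) : Prop :=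
  ∃ (M : ℕ) (G : ModularForm (Gamma0 N) (12 * (M : ℤ))),
    ∀ z, G z = h z * ModularForm.discriminant z ^ M

section

variable {N : ℕ} [NeZero N]

/-- the weight-zero conjugates of `G / Δ^M` -/
noncomputable def conjFun {M : ℕ} (G : ModularForm (Gamma0 N) (12 * (M : ℤ))) (q : Q N)
    (z : ℍ) : ℂ :=
  quotientFunc G q z / ModularForm.discriminant z ^ M

theorem conjFun_mul_discriminant_pow {M : ℕ} (G : ModularForm (Gamma0 N) (12 * (M : ℤ)))
    (q : Q N) (z : ℍ) :
    conjFun G q z * ModularForm.discriminant z ^ M = quotientFunc G q z := by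
  unfold conjFun
  exact div_mul_cancel₀ _ (pow_ne_zero M (discriminant_ne_zero z))

theorem conjFun_q0 {M : ℕ} (G : ModularForm (Gamma0 N) (12 * (M : ℤ))) {h : ℍ → ℂ}
    (hG : ∀ z, G z = h z * ModularForm.discriminant z ^ M) (z : ℍ) :
    conjFun G q0 z = h z := by
  unfold conjFun
  rw [quotientFunc_q0, hG z]
  exact mul_div_cancel_right₀ _ (pow_ne_zero M (discriminant_ne_zero z))

theorem conjFun_smul {M : ℕ} (G : ModularForm (Gamma0 N) (12 * (M : ℤ))) (γ : SL(2, ℤ))
    (q : Q N) (z : ℍ) : conjFun G q (γ • z) = conjFun G ((toSL γ)⁻¹ • q) z := by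
  have h1 : (quotientFunc G q) ∣[(12 * (M : ℤ))] γ = quotientFunc G ((toSL γ)⁻¹ • q) :=
    (fam_quotientFunc G).slash (toSL γ) q
  have h2 : (fun w => conjFun G q w * ModularForm.discriminant w ^ M) = quotientFunc G q :=
    funext fun w => conjFun_mul_discriminant_pow G q w
  have h3 := slash_mul_discriminant_pow (conjFun G q) M γ z
  rw [h2, h1, ← conjFun_mul_discriminant_pow G ((toSL γ)⁻¹ • q) z] at h3
  exact (mul_right_cancel₀ (pow_ne_zero M (discriminant_ne_zero z)) h3).symm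

theorem conjFun_mdiff {M : ℕ} (G : ModularForm (Gamma0 N) (12 * (M : ℤ))) (q : Q N) :
    MDiff (conjFun G q) :=
  jAn_mdiff_div ((fam_quotientFunc G).holo q) (simple_isLO_discriminant.mdiff.pow M)
    (fun z => pow_ne_zero M (discriminant_ne_zero z))

theorem conjFun_modGrowth {M : ℕ} (G : ModularForm (Gamma0 N) (12 * (M : ℤ))) (q : Q N) :
    ModGrowth (conjFun G q) := by
  refine ⟨M, ?_⟩
  have e : ModularForm.discriminant ^ M * conjFun G q = quotientFunc G q := by
    funext z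
    rw [Pi.mul_apply, Pi.pow_apply, mul_comm]
    exact conjFun_mul_discriminant_pow G q z
  rw [e]
  exact (fam_quotientFunc G).bdd q

theorem conjFun_mem_GRing {M : ℕ} (G : ModularForm (Gamma0 N) (12 * (M : ℤ))) (q : Q N) :
    conjFun G q ∈ GRing :=
  ⟨conjFun_mdiff G q, conjFun_modGrowth G q⟩

/-- every coset is a translate of the identity coset -/
theorem exists_smul_q0 (q : Q N) : ∃ γ : SL(2, ℤ), (toSL γ)⁻¹ • q = q0 := by
  obtain ⟨h, rfl⟩ := QuotientGroup.mk_surjective q
  obtain ⟨γ, rfl⟩ := cusp_toSL_surj h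
  refine ⟨γ, ?_⟩
  rw [MulAction.Quotient.smul_mk, smul_eq_mul, inv_mul_cancel]
  rfl

theorem conjFun_eq_zero {M : ℕ} (G : ModularForm (Gamma0 N) (12 * (M : ℤ))) {h : ℍ → ℂ}
    (hG : ∀ z, G z = h z * ModularForm.discriminant z ^ M) (q : Q N) (hq : conjFun G q = 0) :
    h = 0 := by
  obtain ⟨γ, hγ⟩ := exists_smul_q0 q
  funext z
  have h1 := conjFun_smul G γ q z
  rw [hγ, conjFun_q0 G hG, hq] at h1
  simpa using h1.symm

/-- **the norm-form relation**: for weakly holomorphic modular functions `a, b ≠ 0` on `Γ₀(N)`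
there are polynomials `p_k ∈ ℂ[X]`, `p_ψ ≠ 0`, with `∑_k p_k(j) a^k b^(ψ-k) = 0`, where
`ψ = |SL₂(ℤ) : Γ₀(N)|`. -/
theorem exists_normForm_relation {a b : ℍ → ℂ} (ha : IsWMF N a) (hb : IsWMF N b) (hb0 : b ≠ 0) :
    ∃ p : ℕ → Polynomial ℂ, p (Fintype.card (Q N)) ≠ 0 ∧
      ∀ z, ∑ k ∈ Finset.range (Fintype.card (Q N) + 1),
        (p k).eval (jAn z) * a z ^ k * b z ^ (Fintype.card (Q N) - k) = 0 := by
  obtain ⟨Ma, Ga, hGa⟩ := ha
  obtain ⟨Mb, Gb, hGb⟩ := hb
  set A : Q N → ℍ → ℂ := conjFun Ga with hA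
  set B : Q N → ℍ → ℂ := conjFun Gb with hB
  have hc : ∀ k, ∃ p : Polynomial ℂ, ∀ z, (normPoly A B).coeff k z = p.eval (jAn z) := by
    intro k
    have hmem : (normPoly A B).coeff k ∈ GRing :=
      normPoly_coeff_mem GRing A B (fun q => conjFun_mem_GRing Ga q)
        (fun q => conjFun_mem_GRing Gb q) k
    refine jPoly_of_invariant hmem.1 hmem.2 fun γ z => ?_
    have := normPoly_coeff_fixed (compRingHom γ) (MulAction.toPerm (toSL γ)⁻¹) A B
      (fun q => funext fun w => conjFun_smul Ga γ q w)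
      (fun q => funext fun w => conjFun_smul Gb γ q w) k
    exact congrFun this z
  choose p hp using hc
  refine ⟨p, ?_, fun z => ?_⟩
  · intro h0
    have h1 : (normPoly A B).coeff (Fintype.card (Q N)) = 0 := by
      funext z
      rw [hp, h0]
      simp
    rw [normPoly_coeff_card] at h1
    obtain ⟨q, -, hq⟩ := (UpperHalfPlane.prod_eq_zero_iff
      (fun q _ => conjFun_mdiff Gb q)).mp h1
    exact hb0 (conjFun_eq_zero Gb hGb q hq)
  · have h1 := normPoly_homogeneous_eval (fun q => A q z) (fun q => B q z) q0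
    have h2 : ∀ k, (normPoly (fun q => A q z) (fun q => B q z)).coeff k
        = (p k).eval (jAn z) := by
      intro k
      rw [← hp k z]
      have := normPoly_map (Pi.evalRingHom (fun _ : ℍ => ℂ) z) A B
      have h3 := congrArg (fun P => Polynomial.coeff P k) this
      simp only [Polynomial.coeff_map] at h3
      exact h3.symm
    simp only [h2] at h1
    rw [hA, hB] at h1
    simp only [conjFun_q0 Ga hGa, conjFun_q0 Gb hGb] at h1
    exact h1

end

end Fermat.Agent.S24Lib
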