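/-
S24, chunk B1 (helper7): the bridge between the Prelude's FORMAL `q`-series
(`ModularCurve.eisenstein4`, `etaProd`, `dedekindEtaUnit`, `jNumQ`) and the ANALYTIC functions
`E₄`, `Δ`, `j = E₄³/Δ` on the upper half plane.

Main results (`qx F = qExpansion 1 F`, `QExp` from `Lib/S23/Basic`):
* `qx_E4_eq : qx ⇑E₄ = eisenstein4.map (Int.castRingHom ℂ)`;
* `qx_discriminant_eq : qx Δ = X * dedekindEtaUnit.map (Int.castRingHom ℂ)`
  (the formal infinite product in the Pi topology against the analytic Euler product: Taylor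
  coefficients pass to locally uniform limits);
* `qexp_qj`, `qx_qj`, `hasSum_qj`: `q · j` has the `q`-expansion `jNumQ`, so that
  `j(τ) = ∑ₙ jq.coeff (n - 1) qⁿ⁻¹` for every `τ`.
Auxiliary: `qb_coeff_unique` (uniqueness of power series coefficients on the unit disc),
`qb_qExp_of_disc`, `qb_qx_coeff_unique`, `qb_euler_hasSum`, `qb_euler_ne_zero`.
-/
import Fermat.Agent.Lib.S23.LevelOne
import Fermat.Prelude.Def_ModularCurve_X0

set_option autoImplicit false

namespace Fermat.Agent.S24Lib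

open UpperHalfPlane ModularForm MatrixGroups Filter EisensteinSeries
open scoped Manifold Topology
open Fermat.Agent.LibS23

local notation "𝕢" => Function.Periodic.qParam

theorem qx_E4_eq : qx (⇑E₄) = (ModularCurve.eisenstein4).map (Int.castRingHom ℂ) := by
  ext m
  have h := EisensteinSeries.E_qExpansion_coeff (k := 4) (by norm_num) (by decide) m
  rw [PowerSeries.coeff_map]
  show (qExpansion 1 (⇑E₄)).coeff m = _
  rw [h]
  simp only [ModularCurve.eisenstein4, PowerSeries.coeff_mk]
  split_ifs with hm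
  · simp
  · have hb : bernoulli 4 = -1 / 30 := by
      rw [bernoulli_eq_bernoulli'_of_ne_one (by norm_num), bernoulli'_four]
    rw [hb]
    simp only [ArithmeticFunction.sigma_apply, eq_intCast]
    push_cast
    ring

/-- a power series converging on the open unit disc is the Taylor series of its sum -/
theorem qb_hasFPowerSeriesOnBall {c : ℕ → ℂ} {f : ℂ → ℂ}
    (hf : ∀ q : ℂ, ‖q‖ < 1 → HasSum (fun m : ℕ => c m * q ^ m) (f q)) :
    HasFPowerSeriesOnBall f (FormalMultilinearSeries.ofScalars ℂ c) 0 1 := by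
  constructor
  · refine le_of_forall_lt_imp_le_of_dense fun r hr ↦ ?_
    lift r to NNReal using hr.ne_top
    apply FormalMultilinearSeries.le_radius_of_summable
    have hr' : ‖((r : ℝ) : ℂ)‖ < 1 := by
      rw [Complex.norm_real, Real.norm_eq_abs, NNReal.abs_eq]
      exact_mod_cast hr
    have := (hf ((r : ℝ) : ℂ) hr').summable.norm
    simpa [smul_eq_mul, norm_mul, mul_comm, mul_left_comm, mul_assoc] using this
  · simp
  · intro y hy
    rw [← ENNReal.coe_one, Metric.eball_coe, NNReal.coe_one, mem_ball_zero_iff] at hy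
    simpa [mul_comm] using hf y hy

/-- uniqueness of power series coefficients on the unit disc -/
theorem qb_coeff_unique {a b : ℕ → ℂ} {f : ℂ → ℂ}
    (ha : ∀ q : ℂ, ‖q‖ < 1 → HasSum (fun m : ℕ => a m * q ^ m) (f q))
    (hb : ∀ q : ℂ, ‖q‖ < 1 → HasSum (fun m : ℕ => b m * q ^ m) (f q)) : a = b := by
  have h1 := (qb_hasFPowerSeriesOnBall ha).hasFPowerSeriesAt
  have h2 := (qb_hasFPowerSeriesOnBall hb).hasFPowerSeriesAt
  have h := h1.eq_formalMultilinearSeries h2
  funext m
  simpa [FormalMultilinearSeries.coeff_ofScalars] using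
    congr_arg (FormalMultilinearSeries.coeff · m) h

/-- Taylor expansion on the unit disc, in the `a m * q ^ m` normal form -/
theorem qb_hasSum_taylor {f : ℂ → ℂ} (hf : DifferentiableOn ℂ f (Metric.ball 0 1)) {q : ℂ}
    (hq : ‖q‖ < 1) :
    HasSum (fun m : ℕ => ((m.factorial : ℂ)⁻¹ * iteratedDeriv m f 0) * q ^ m) (f q) := by
  have h := Complex.hasSum_taylorSeries_on_ball hf (z := q) (by simpa using hq)
  have h' : (fun m : ℕ => ((m.factorial : ℂ)⁻¹ * iteratedDeriv m f 0) * q ^ m)
      = fun n : ℕ => (n.factorial : ℂ)⁻¹ • (q - 0) ^ n • iteratedDeriv n f 0 := by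
    funext m
    simp only [sub_zero, smul_eq_mul]
    ring
  rw [h']
  exact h

theorem qb_differentiableOn_iteratedDeriv {g : ℂ → ℂ} {U : Set ℂ} (hU : IsOpen U)
    (hg : DifferentiableOn ℂ g U) (m : ℕ) : DifferentiableOn ℂ (iteratedDeriv m g) U := by
  induction m with
  | zero => simpa [iteratedDeriv_zero] using hg
  | succ m ih =>
    rw [iteratedDeriv_succ]
    exact ih.deriv hU

/-- iterated derivatives pass to locally uniform limits of holomorphic functions -/
theorem qb_tendsto_iteratedDeriv {ι : Type*} {φ : Filter ι} {F : ι → ℂ → ℂ} {f : ℂ → ℂ}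
    {U : Set ℂ} (hU : IsOpen U) (hF : ∀ n, DifferentiableOn ℂ (F n) U)
    (hf : TendstoLocallyUniformlyOn F f φ U) (m : ℕ) :
    TendstoLocallyUniformlyOn (fun n => iteratedDeriv m (F n)) (iteratedDeriv m f) φ U := by
  induction m with
  | zero => simpa [iteratedDeriv_zero] using hf
  | succ m ih =>
    have hd : ∀ n, DifferentiableOn ℂ (iteratedDeriv m (F n)) U := fun n =>
      qb_differentiableOn_iteratedDeriv hU (hF n) m
    have := ih.deriv (Filter.Eventually.of_forall hd) hU
    simpa [iteratedDeriv_succ, Function.comp_def] using this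

/-- the partial products of `∏ (1 - X^(n+1))` as polynomials -/
noncomputable def qbPoly (s : Finset ℕ) : Polynomial ℤ :=
  ∏ n ∈ s, (1 - Polynomial.X ^ (n + 1))

theorem qb_poly_coe (s : Finset ℕ) :
    ((qbPoly s : Polynomial ℤ) : PowerSeries ℤ) = ∏ n ∈ s, (1 - PowerSeries.X ^ (n + 1)) := by
  unfold qbPoly
  rw [← Polynomial.coeToPowerSeries.ringHom_apply, map_prod]
  refine Finset.prod_congr rfl fun n _ => ?_
  simp

theorem qb_poly_eval (s : Finset ℕ) (q : ℂ) :
    Polynomial.aeval q (qbPoly s) = ∏ n ∈ s, (1 - q ^ (n + 1)) := by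
  simp [qbPoly, map_prod]

theorem qb_poly_hasSum (p : Polynomial ℤ) (q : ℂ) :
    HasSum (fun m : ℕ => ((p.coeff m : ℤ) : ℂ) * q ^ m) (Polynomial.aeval q p) := by
  rw [Polynomial.aeval_eq_sum_range]
  have : HasSum (fun m : ℕ => ((p.coeff m : ℤ) : ℂ) * q ^ m)
      (∑ m ∈ Finset.range (p.natDegree + 1), ((p.coeff m : ℤ) : ℂ) * q ^ m) :=
    hasSum_sum_of_ne_finset_zero (fun m hm => by
      have : p.natDegree < m := by
        simpa using hm
      simp [Polynomial.coeff_eq_zero_of_natDegree_lt this])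
  convert this using 2 with m _
  simp [zsmul_eq_mul]

open scoped PowerSeries.WithPiTopology in
/-- formal side: coefficients of the partial products converge to those of `etaProd` -/
theorem qb_tendsto_coeff_etaProd (m : ℕ) :
    Tendsto (fun s : Finset ℕ =>
        ((PowerSeries.coeff m (∏ n ∈ s, (1 - PowerSeries.X ^ (n + 1)) : PowerSeries ℤ) : ℤ) : ℂ))
      atTop (𝓝 ((PowerSeries.coeff m ModularCurve.etaProd : ℤ) : ℂ)) := by
  have h1 : HasProd (fun n : ℕ => (1 : PowerSeries ℤ) - PowerSeries.X ^ (n + 1))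
      ModularCurve.etaProd :=
    (PowerSeries.WithPiTopology.multipliable_one_sub_X_pow ℤ).hasProd
  have h2 := ((PowerSeries.WithPiTopology.continuous_coeff ℤ m).tendsto _).comp h1
  have h3 : Continuous (fun k : ℤ => (k : ℂ)) := continuous_of_discreteTopology
  exact (h3.tendsto _).comp h2

/-- the analytic Euler function on the unit disc -/
noncomputable def qbEuler (q : ℂ) : ℂ := ∏' n : ℕ, (1 - q ^ (n + 1))

theorem qb_euler_differentiableOn : DifferentiableOn ℂ qbEuler (Metric.ball 0 1) :=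
  differentiableOn_tprod_one_sub_pow

theorem qb_euler_tendsto :
    TendstoLocallyUniformlyOn (fun (s : Finset ℕ) (q : ℂ) => ∏ n ∈ s, (1 - q ^ (n + 1)))
      qbEuler atTop (Metric.ball 0 1) := by
  have h := multipliableLocallyUniformlyOn_one_sub_pow.hasProdLocallyUniformlyOn
  exact h

/-- **Taylor coefficients of the Euler product** are the coefficients of the formal
`etaProd`. -/
theorem qb_euler_coeff (m : ℕ) :
    (m.factorial : ℂ)⁻¹ * iteratedDeriv m qbEuler 0
      = ((PowerSeries.coeff m ModularCurve.etaProd : ℤ) : ℂ) := by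
  set F : Finset ℕ → ℂ → ℂ := fun s q => ∏ n ∈ s, (1 - q ^ (n + 1)) with hF
  have hFd : ∀ s, DifferentiableOn ℂ (F s) (Metric.ball 0 1) := fun s => by
    have : Differentiable ℂ (F s) := by
      simp only [hF]
      fun_prop
    exact this.differentiableOn
  have h1 := (qb_tendsto_iteratedDeriv Metric.isOpen_ball hFd qb_euler_tendsto m).tendsto_at
    (Metric.mem_ball_self one_pos)
  have h1' := h1.const_mul ((m.factorial : ℂ)⁻¹)
  have h2 : ∀ s : Finset ℕ, (m.factorial : ℂ)⁻¹ * iteratedDeriv m (F s) 0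
      = ((PowerSeries.coeff m (∏ n ∈ s, (1 - PowerSeries.X ^ (n + 1)) : PowerSeries ℤ) : ℤ) : ℂ) := by
    intro s
    have hu := qb_coeff_unique (f := F s)
      (a := fun m : ℕ => (m.factorial : ℂ)⁻¹ * iteratedDeriv m (F s) 0)
      (b := fun m : ℕ => (((qbPoly s).coeff m : ℤ) : ℂ))
      (fun q hq => qb_hasSum_taylor (hFd s) hq)
      (fun q _ => by
        have := qb_poly_hasSum (qbPoly s) q
        rwa [qb_poly_eval] at this)
    have := congr_fun hu m
    rw [this, ← qb_poly_coe, Polynomial.coeff_coe]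
  exact tendsto_nhds_unique (h1'.congr h2) (qb_tendsto_coeff_etaProd m)

theorem qb_euler_hasSum {q : ℂ} (hq : ‖q‖ < 1) :
    HasSum (fun m : ℕ => ((PowerSeries.coeff m ModularCurve.etaProd : ℤ) : ℂ) * q ^ m)
      (qbEuler q) := by
  have := qb_hasSum_taylor qb_euler_differentiableOn hq
  simpa only [qb_euler_coeff] using this

theorem qb_qParam_add_one (w : ℂ) : 𝕢 1 (w + 1) = 𝕢 1 w := by
  simp only [Function.Periodic.qParam, Complex.ofReal_one, div_one]
  rw [mul_add, mul_one, Complex.exp_add, Complex.exp_two_pi_mul_I, mul_one]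

theorem qb_norm_qParam (z : ℍ) : ‖𝕢 1 (z : ℂ)‖ < 1 :=
  Function.Periodic.norm_qParam_lt_one one_pos z.im_pos

/-- functions of `q` holomorphic on the unit disc give functions on `ℍ` with a `q`-expansion -/
theorem qb_qExp_of_disc {f : ℂ → ℂ} (hf : DifferentiableOn ℂ f (Metric.ball 0 1)) :
    QExp (fun z : ℍ => f (𝕢 1 z)) := by
  refine ⟨?_, ?_, ?_⟩
  · intro w
    by_cases! hw : 0 < Complex.im w
    · have hw' : 0 < Complex.im (w + 1) := by simp [hw]
      simp only [Function.comp_apply, ofComplex_apply_of_im_pos hw',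
        ofComplex_apply_of_im_pos hw]
      show f (𝕢 1 (w + 1)) = f (𝕢 1 w)
      rw [qb_qParam_add_one]
    · have : Complex.im (w + 1) ≤ 0 := by simpa using hw
      simp [ofComplex_apply_of_im_nonpos this, ofComplex_apply_of_im_nonpos hw]
  · rw [UpperHalfPlane.mdifferentiable_iff]
    have h1 : DifferentiableOn ℂ (fun w : ℂ => f (𝕢 1 w)) {z | 0 < z.im} := by
      intro w hw
      have hb : 𝕢 1 w ∈ Metric.ball (0 : ℂ) 1 := by
        simpa using Function.Periodic.norm_qParam_lt_one one_pos hw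
      have h2 : DifferentiableAt ℂ f (𝕢 1 w) :=
        hf.differentiableAt (Metric.isOpen_ball.mem_nhds hb)
      exact (h2.comp w (Function.Periodic.differentiable_qParam w)).differentiableWithinAt
    refine h1.congr fun w hw => ?_
    simp only [Function.comp_apply, ofComplex_apply_of_im_pos hw]
  · have hc : ContinuousAt f 0 :=
      (hf.differentiableAt (Metric.isOpen_ball.mem_nhds (Metric.mem_ball_self one_pos))).continuousAt
    have h1 : Tendsto (fun z : ℍ => f (𝕢 1 z)) atImInfty (𝓝 (f 0)) :=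
      hc.tendsto.comp (qParam_tendsto_atImInfty one_pos)
    exact h1.isBigO_one ℝ

/-- uniqueness of `q`-expansion coefficients -/
theorem qb_qx_coeff_unique {F : ℍ → ℂ} (hF : QExp F) {c : ℕ → ℂ}
    (h : ∀ z : ℍ, HasSum (fun n : ℕ => c n * 𝕢 1 z ^ n) (F z)) (n : ℕ) :
    (qx F).coeff n = c n :=
  (UpperHalfPlane.qExpansion_coeff_unique (ContinuousMap.mk F hF.2.1.continuous) one_pos
    hF.analyticAt (by simpa [smul_eq_mul] using h) n).symm

theorem qb_qExp_qParam : QExp (fun z : ℍ => 𝕢 1 z) :=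
  qb_qExp_of_disc (f := fun q => q) differentiableOn_id

theorem qb_qx_qParam : qx (fun z : ℍ => 𝕢 1 z) = PowerSeries.X := by
  ext n
  rw [qb_qx_coeff_unique qb_qExp_qParam (c := fun n => if n = 1 then 1 else 0) (fun z => ?_),
    PowerSeries.coeff_X]
  have := hasSum_ite_eq (1 : ℕ) (𝕢 1 (z : ℂ))
  convert this using 2 with m
  split_ifs with h
  · subst h; simp
  · simp

/-- the Euler product as a function on `ℍ` -/
noncomputable def qbEulerH (z : ℍ) : ℂ := qbEuler (𝕢 1 z)

theorem qb_qExp_eulerH : QExp qbEulerH := qb_qExp_of_disc qb_euler_differentiableOn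

theorem qb_qx_eulerH : qx qbEulerH = ModularCurve.etaProd.map (Int.castRingHom ℂ) := by
  ext n
  rw [qb_qx_coeff_unique qb_qExp_eulerH (fun z => qb_euler_hasSum (qb_norm_qParam z)),
    PowerSeries.coeff_map]
  rfl

theorem qb_discriminant_eq (z : ℍ) :
    ModularForm.discriminant z = 𝕢 1 z * qbEulerH z ^ 24 := by
  rw [discriminant_eq_q_prod]
  congr 1
  exact (ModularForm.multipliable_one_sub_pow (qb_norm_qParam z)).tprod_pow 24

theorem qx_discriminant_eq :
    qx ModularForm.discriminant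
      = PowerSeries.X * (ModularCurve.dedekindEtaUnit).map (Int.castRingHom ℂ) := by
  have h : (ModularForm.discriminant : ℍ → ℂ) = (fun z : ℍ => 𝕢 1 z) * qbEulerH ^ 24 := by
    funext z
    exact qb_discriminant_eq z
  rw [h, qx_mul qb_qExp_qParam (qb_qExp_eulerH.pow 24), qx_pow qb_qExp_eulerH, qb_qx_qParam,
    qb_qx_eulerH, ModularCurve.dedekindEtaUnit, map_pow]

theorem qb_euler_ne_zero {q : ℂ} (hq : ‖q‖ < 1) : qbEuler q ≠ 0 := by
  unfold qbEuler
  simp only [sub_eq_add_neg]
  refine tprod_one_add_ne_zero_of_summable (f := fun n : ℕ => -q ^ (n + 1)) (fun i => ?_) ?_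
  · intro h
    have h1 : q ^ (i + 1) = 1 := by linear_combination -h
    have h2 : ‖q‖ ^ (i + 1) = 1 := by rw [← norm_pow, h1, norm_one]
    have h3 : ‖q‖ ^ (i + 1) < 1 := pow_lt_one₀ (norm_nonneg _) hq (by omega)
    linarith
  · simpa [norm_pow] using
      (summable_nat_add_iff 1).mpr (summable_geometric_of_lt_one (norm_nonneg q) hq)

theorem qb_eulerH_ne_zero (z : ℍ) : qbEulerH z ≠ 0 := qb_euler_ne_zero (qb_norm_qParam z)

/-- the inverse of the 24-th power of the Euler product, on `ℍ` -/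
noncomputable def qbEulerInv (z : ℍ) : ℂ := (qbEuler (𝕢 1 z) ^ 24)⁻¹

theorem qb_qExp_eulerInv : QExp qbEulerInv := by
  refine qb_qExp_of_disc (f := fun q => (qbEuler q ^ 24)⁻¹) ?_
  refine (qb_euler_differentiableOn.pow 24).inv fun q hq => ?_
  exact pow_ne_zero _ (qb_euler_ne_zero (by simpa using hq))

theorem qb_qx_eulerInv :
    qx qbEulerInv = (ModularCurve.dedekindEtaUnitInv).map (Int.castRingHom ℂ) := by
  have h1 : qbEulerInv * qbEulerH ^ 24 = 1 := by
    funext z
    simp only [Pi.mul_apply, Pi.pow_apply, Pi.one_apply, qbEulerInv, qbEulerH]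
    exact inv_mul_cancel₀ (pow_ne_zero _ (qb_euler_ne_zero (qb_norm_qParam z)))
  have h2 : qx qbEulerInv * (ModularCurve.dedekindEtaUnit).map (Int.castRingHom ℂ) = 1 := by
    have := congrArg qx h1
    rwa [qx_mul qb_qExp_eulerInv (qb_qExp_eulerH.pow 24), qx_pow qb_qExp_eulerH, qb_qx_eulerH,
      qx_one, ← map_pow] at this
  have h3 : (ModularCurve.dedekindEtaUnit).map (Int.castRingHom ℂ)
      * (ModularCurve.dedekindEtaUnitInv).map (Int.castRingHom ℂ) = 1 := by
    rw [← map_mul, ModularCurve.dedekindEtaUnit_mul_inv, map_one]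
  calc qx qbEulerInv
      = qx qbEulerInv * ((ModularCurve.dedekindEtaUnit).map (Int.castRingHom ℂ)
          * (ModularCurve.dedekindEtaUnitInv).map (Int.castRingHom ℂ)) := by rw [h3, mul_one]
    _ = (ModularCurve.dedekindEtaUnitInv).map (Int.castRingHom ℂ) := by
        rw [← mul_assoc, h2, one_mul]

theorem qb_qj_eq :
    (fun z : ℍ => 𝕢 1 z * (E₄ z ^ 3 / ModularForm.discriminant z))
      = (⇑E₄ : ℍ → ℂ) ^ 3 * qbEulerInv := by
  funext z
  have hq : 𝕢 1 (z : ℂ) ≠ 0 := Function.Periodic.qParam_ne_zero _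
  have he : qbEuler (𝕢 1 z) ≠ 0 := qb_euler_ne_zero (qb_norm_qParam z)
  simp only [Pi.mul_apply, Pi.pow_apply, qbEulerInv, qb_discriminant_eq, qbEulerH]
  field_simp

/-- `q · j` has a `q`-expansion -/
theorem qexp_qj :
    QExp (fun z : ℍ => 𝕢 1 z * (E₄ z ^ 3 / ModularForm.discriminant z)) := by
  rw [qb_qj_eq]
  exact ((QExp.of_levelOne E₄).pow 3).mul qb_qExp_eulerInv

theorem qb_map_jNumQ :
    (ModularCurve.jNumQ).map (algebraMap ℚ ℂ) = (ModularCurve.jNum).map (Int.castRingHom ℂ) := by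
  ext n
  simp [ModularCurve.jNumQ, PowerSeries.coeff_map]

/-- **the `q`-expansion of `q · j`** is the Prelude's formal series `jNumQ` -/
theorem qx_qj :
    qx (fun z : ℍ => 𝕢 1 z * (E₄ z ^ 3 / ModularForm.discriminant z))
      = (ModularCurve.jNumQ).map (algebraMap ℚ ℂ) := by
  rw [qb_qj_eq, qx_mul ((QExp.of_levelOne E₄).pow 3) qb_qExp_eulerInv,
    qx_pow (QExp.of_levelOne E₄), qx_E4_eq, qb_qx_eulerInv, qb_map_jNumQ, ModularCurve.jNum,
    map_mul, map_pow]

theorem hasSum_qj (τ : ℍ) :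
    HasSum (fun n : ℕ => ((PowerSeries.coeff n ModularCurve.jNumQ : ℚ) : ℂ) * 𝕢 1 (τ : ℂ) ^ n)
      (𝕢 1 (τ : ℂ) * (E₄ τ ^ 3 / ModularForm.discriminant τ)) := by
  have h := hasSum_qExpansion one_pos qexp_qj.1 qexp_qj.2.1 qexp_qj.2.2 τ
  have h2 : qExpansion 1 (fun z : ℍ => 𝕢 1 z * (E₄ z ^ 3 / ModularForm.discriminant z))
      = (ModularCurve.jNumQ).map (algebraMap ℚ ℂ) := qx_qj
  rw [h2] at h
  simpa [PowerSeries.coeff_map, smul_eq_mul] using h

end Fermat.Agent.S24Lib
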