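/-
S24, chunk B2 (helper5), part 1: weakly holomorphic modular functions on `Γ₀(N)` with their
`q`-Laurent expansions (`IsWH`), closure properties and uniqueness (the `q`-expansion principle).
-/
import Fermat.Agent.Lib.S24.JLvl
import Fermat.Agent.Lib.S20.Basic
import Fermat.Agent.Lib.S20.Simple
import Fermat.Agent.Lib.S20.LevelOne

set_option autoImplicit false

namespace Fermat.Agent.S24Lib

open UpperHalfPlane ModularForm CongruenceSubgroup MatrixGroups Filter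
open scoped Manifold Topology
open Fermat.Agent.LibS23 Fermat.Agent.S20Lib

/-- the `q`-expansion of `Δ` as a Laurent series. -/
noncomputable def whD : LaurentSeries ℂ :=
  HahnSeries.ofPowerSeries ℤ ℂ (qx ModularForm.discriminant)

theorem whD_ne_zero : whD ≠ 0 := by
  intro h
  have h1 : qx ModularForm.discriminant = 0 :=
    HahnSeries.ofPowerSeries_injective (by rw [← whD, h, map_zero])
  have h2 := ModularForm.discriminant_qExpansion_coeff_one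
  change (qx ModularForm.discriminant).coeff 1 = 1 at h2
  rw [h1] at h2
  simp at h2

/-- `h` is a weakly holomorphic modular function on `Γ₀(N)` (holomorphic on `ℍ`, poles only at
the cusps) whose `q`-Laurent expansion at `i∞` is `φ`: `h = G / Δ^M` for a modular form `G` of
weight `12 M` on `Γ₀(N)`, and `φ = qx G / (qx Δ)^M`. -/
def IsWH (N : ℕ) [NeZero N] (h : ℍ → ℂ) (φ : LaurentSeries ℂ) : Prop :=
  ∃ (M : ℕ) (G : ModularForm (Gamma0 N) (12 * (M : ℤ))),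
    (∀ z, G z = h z * ModularForm.discriminant z ^ M) ∧
    HahnSeries.ofPowerSeries ℤ ℂ (qx ⇑G)
      = φ * HahnSeries.ofPowerSeries ℤ ℂ (qx ModularForm.discriminant) ^ M

section
variable {N : ℕ} [NeZero N]

/-- raising the exponent of `Δ`. -/
theorem wh_lift {h : ℍ → ℂ} {φ : LaurentSeries ℂ} {M : ℕ}
    (G : ModularForm (Gamma0 N) (12 * (M : ℤ)))
    (hG : ∀ z, G z = h z * ModularForm.discriminant z ^ M)
    (hq : HahnSeries.ofPowerSeries ℤ ℂ (qx ⇑G) = φ * whD ^ M) {M' : ℕ} (hM : M ≤ M') :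
    ∃ G' : ModularForm (Gamma0 N) (12 * (M' : ℤ)),
      (∀ z, G' z = h z * ModularForm.discriminant z ^ M') ∧
      HahnSeries.ofPowerSeries ℤ ℂ (qx ⇑G') = φ * whD ^ M' := by
  obtain ⟨k, rfl⟩ := Nat.exists_eq_add_of_le hM
  have hLO : IsLO ((k : ℤ) * 12) (ModularForm.discriminant ^ k) :=
    isLO_pow simple_isLO_discriminant k
  obtain ⟨g, hg, -⟩ := exists_mul_levelOne (N := N) hLO G
  obtain ⟨G', hG', -⟩ := exists_cast (N := N)
    (show 12 * (M : ℤ) + (k : ℤ) * 12 = 12 * ((M + k : ℕ) : ℤ) by push_cast; ring) g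
  refine ⟨G', fun z => ?_, ?_⟩
  · have := congrFun (hG'.trans hg) z
    rw [this, Pi.mul_apply, hG z, Pi.pow_apply, pow_add]
    ring
  · have hQG : QExp ⇑G := QExp.of_gamma0 G
    have hQD : QExp (ModularForm.discriminant ^ k) := QExp.discriminant.pow k
    rw [hG', hg, qx_mul hQD hQG, qx_pow QExp.discriminant, map_mul, map_pow, hq, pow_add]
    rw [whD]
    ring

theorem IsWH.exists_form {h : ℍ → ℂ} {φ : LaurentSeries ℂ} (H : IsWH N h φ) :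
    ∃ M₀ : ℕ, ∀ M' : ℕ, M₀ ≤ M' → ∃ G' : ModularForm (Gamma0 N) (12 * (M' : ℤ)),
      (∀ z, G' z = h z * ModularForm.discriminant z ^ M') ∧
      HahnSeries.ofPowerSeries ℤ ℂ (qx ⇑G') = φ * whD ^ M' := by
  obtain ⟨M, G, hG, hq⟩ := H
  exact ⟨M, fun M' hM => wh_lift G hG hq hM⟩

theorem isWH_const (c : ℂ) : IsWH N (fun _ => c) (HahnSeries.C c) := by
  obtain ⟨G, hG, -⟩ := exists_cast (N := N)
    (show (0 : ℤ) = 12 * ((0 : ℕ) : ℤ) by simp) (c • (1 : ModularForm (Gamma0 N) 0))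
  have hfun : (⇑G : ℍ → ℂ) = fun _ => c := by
    rw [hG]
    funext z
    simp
  refine ⟨0, G, fun z => by rw [hfun]; simp, ?_⟩
  rw [hfun, qx_const, HahnSeries.ofPowerSeries_C, pow_zero, mul_one]

theorem isWH_zero : IsWH N (0 : ℍ → ℂ) 0 := by
  have := isWH_const (N := N) 0
  rwa [map_zero] at this

theorem isWH_one : IsWH N (1 : ℍ → ℂ) 1 := by
  have := isWH_const (N := N) 1
  rwa [map_one] at this

theorem IsWH.add {h₁ h₂ : ℍ → ℂ} {φ₁ φ₂ : LaurentSeries ℂ} (H₁ : IsWH N h₁ φ₁)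
    (H₂ : IsWH N h₂ φ₂) : IsWH N (h₁ + h₂) (φ₁ + φ₂) := by
  obtain ⟨M₁, hM₁⟩ := H₁.exists_form
  obtain ⟨M₂, hM₂⟩ := H₂.exists_form
  obtain ⟨G₁, hG₁, hq₁⟩ := hM₁ (max M₁ M₂) (le_max_left _ _)
  obtain ⟨G₂, hG₂, hq₂⟩ := hM₂ (max M₁ M₂) (le_max_right _ _)
  refine ⟨max M₁ M₂, G₁ + G₂, fun z => ?_, ?_⟩
  · rw [show (G₁ + G₂) z = G₁ z + G₂ z from rfl, hG₁, hG₂, Pi.add_apply]
    ring
  · have e : (⇑(G₁ + G₂) : ℍ → ℂ) = ⇑G₁ + ⇑G₂ := rfl
    rw [e, qx_add (QExp.of_gamma0 G₁) (QExp.of_gamma0 G₂), map_add, hq₁, hq₂, whD]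
    ring

theorem IsWH.mul {h₁ h₂ : ℍ → ℂ} {φ₁ φ₂ : LaurentSeries ℂ} (H₁ : IsWH N h₁ φ₁)
    (H₂ : IsWH N h₂ φ₂) : IsWH N (h₁ * h₂) (φ₁ * φ₂) := by
  obtain ⟨M₁, G₁, hG₁, hq₁⟩ := H₁
  obtain ⟨M₂, G₂, hG₂, hq₂⟩ := H₂
  obtain ⟨g, hg, -⟩ := exists_mul G₁ G₂
  obtain ⟨G, hG, -⟩ := exists_cast (N := N)
    (show 12 * (M₁ : ℤ) + 12 * (M₂ : ℤ) = 12 * ((M₁ + M₂ : ℕ) : ℤ) by push_cast; ring) g
  refine ⟨M₁ + M₂, G, fun z => ?_, ?_⟩
  · have := congrFun (hG.trans hg) z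
    rw [this, Pi.mul_apply, hG₁, hG₂, Pi.mul_apply, pow_add]
    ring
  · rw [hG, hg, qx_mul (QExp.of_gamma0 G₁) (QExp.of_gamma0 G₂), map_mul, hq₁, hq₂, pow_add]
    ring

theorem IsWH.neg {h : ℍ → ℂ} {φ : LaurentSeries ℂ} (H : IsWH N h φ) : IsWH N (-h) (-φ) := by
  have h1 := (isWH_const (N := N) (-1)).mul H
  have e1 : (fun _ : ℍ => (-1 : ℂ)) * h = -h := by
    funext z
    simp
  have e2 : HahnSeries.C (-1 : ℂ) * φ = -φ := by
    rw [map_neg, map_one, neg_one_mul]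
  rwa [e1, e2] at h1

theorem IsWH.sub {h₁ h₂ : ℍ → ℂ} {φ₁ φ₂ : LaurentSeries ℂ} (H₁ : IsWH N h₁ φ₁)
    (H₂ : IsWH N h₂ φ₂) : IsWH N (h₁ - h₂) (φ₁ - φ₂) := by
  rw [sub_eq_add_neg, sub_eq_add_neg]
  exact H₁.add H₂.neg

theorem IsWH.const_mul {h : ℍ → ℂ} {φ : LaurentSeries ℂ} (c : ℂ) (H : IsWH N h φ) :
    IsWH N (fun z => c * h z) (HahnSeries.C c * φ) :=
  (isWH_const (N := N) c).mul H

theorem IsWH.sum {ι : Type*} (s : Finset ι) {h : ι → ℍ → ℂ} {φ : ι → LaurentSeries ℂ}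
    (H : ∀ i ∈ s, IsWH N (h i) (φ i)) : IsWH N (∑ i ∈ s, h i) (∑ i ∈ s, φ i) := by
  classical
  induction s using Finset.induction_on with
  | empty => simpa using isWH_zero (N := N)
  | insert a s ha ih =>
    rw [Finset.sum_insert ha, Finset.sum_insert ha]
    exact (H a (Finset.mem_insert_self a s)).add
      (ih fun i hi => H i (Finset.mem_insert_of_mem hi))

theorem IsWH.mdiff {h : ℍ → ℂ} {φ : LaurentSeries ℂ} (H : IsWH N h φ) : MDiff h := by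
  obtain ⟨M, G, hG, -⟩ := H
  have hΔ : MDiff (ModularForm.discriminant ^ M : ℍ → ℂ) := (QExp.discriminant.pow M).2.1
  have hGm : MDiff (⇑G : ℍ → ℂ) := (QExp.of_gamma0 G).2.1
  have e : h = fun z => (⇑G : ℍ → ℂ) z / (ModularForm.discriminant ^ M : ℍ → ℂ) z := by
    funext z
    rw [hG z, Pi.pow_apply,
      mul_div_assoc, div_self (pow_ne_zero _ (ModularForm.discriminant_ne_zero z)), mul_one]
  rw [e]
  exact jAn_mdiff_div hGm hΔ fun z => pow_ne_zero _ (ModularForm.discriminant_ne_zero z)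

/-- the `q`-expansion is determined by the function. -/
theorem IsWH.unique_series {h : ℍ → ℂ} {φ ψ : LaurentSeries ℂ} (H₁ : IsWH N h φ)
    (H₂ : IsWH N h ψ) : φ = ψ := by
  obtain ⟨M₁, hM₁⟩ := H₁.exists_form
  obtain ⟨M₂, hM₂⟩ := H₂.exists_form
  obtain ⟨G₁, hG₁, hq₁⟩ := hM₁ (max M₁ M₂) (le_max_left _ _)
  obtain ⟨G₂, hG₂, hq₂⟩ := hM₂ (max M₁ M₂) (le_max_right _ _)
  have hfun : (⇑G₁ : ℍ → ℂ) = ⇑G₂ := by
    funext z
    rw [hG₁, hG₂]
  rw [hfun, hq₂] at hq₁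
  exact (mul_right_cancel₀ (pow_ne_zero _ whD_ne_zero) hq₁).symm

/-- the `q`-expansion principle: the function is determined by its `q`-expansion. -/
theorem IsWH.unique_fun {h h' : ℍ → ℂ} {φ : LaurentSeries ℂ} (H₁ : IsWH N h φ)
    (H₂ : IsWH N h' φ) : h = h' := by
  obtain ⟨M₁, hM₁⟩ := H₁.exists_form
  obtain ⟨M₂, hM₂⟩ := H₂.exists_form
  obtain ⟨G₁, hG₁, hq₁⟩ := hM₁ (max M₁ M₂) (le_max_left _ _)
  obtain ⟨G₂, hG₂, hq₂⟩ := hM₂ (max M₁ M₂) (le_max_right _ _)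
  have hqx : qx (⇑G₁ : ℍ → ℂ) = qx ⇑G₂ :=
    HahnSeries.ofPowerSeries_injective (hq₁.trans hq₂.symm)
  have hfun : (⇑G₁ : ℍ → ℂ) = ⇑G₂ := qx_injective (QExp.of_gamma0 G₁) (QExp.of_gamma0 G₂) hqx
  funext z
  have h1 := hG₁ z
  rw [hfun, hG₂ z] at h1
  exact (mul_right_cancel₀ (pow_ne_zero _ (ModularForm.discriminant_ne_zero z)) h1).symm

theorem IsWH.eq_zero_iff {h : ℍ → ℂ} {φ : LaurentSeries ℂ} (H : IsWH N h φ) :
    h = 0 ↔ φ = 0 := by
  constructor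
  · rintro rfl
    exact H.unique_series isWH_zero
  · rintro rfl
    exact H.unique_fun isWH_zero

end

end Fermat.Agent.S24Lib
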