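/-
S24, chunk B2 (helper5), part 2: the generators `j(d z)`, `d ∣ N`, are weakly holomorphic modular
functions on `Γ₀(N)` whose `q`-Laurent expansion is the formal series `j(q^d)` (`isWH_jLvl`).
-/
import Fermat.Agent.Lib.S24.WH
import Fermat.Agent.Lib.S24.JLvlForm
import Fermat.Agent.Lib.S24.QBridge
import Fermat.Agent.Lib.S24.FieldDefs
import Fermat.Prelude.Thm_ModularCurve_coeffMap_qExpand
import Fermat.Prelude.Def_ModularCurve_X0ModL

set_option autoImplicit false

namespace Fermat.Agent.S24Lib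

open UpperHalfPlane ModularForm CongruenceSubgroup MatrixGroups Filter
open scoped Manifold Topology
open Fermat.Agent.LibS23 Fermat.Agent.S20Lib ModularCurve

local notation "𝕢" => Function.Periodic.qParam

/-- the dilation `z ↦ F (d z)` as a weight `0` slash -/
theorem dil_eq_slash (F : ℍ → ℂ) {d : ℕ} (hd : d ≠ 0) :
    (fun z => F (heckeDiagMatrix d • z)) = (d : ℂ) • (F ∣[(0 : ℤ)] heckeDiagMatrix d) := by
  funext z
  rw [Pi.smul_apply, slash_heckeDiagMatrix_apply 0 hd]
  have hd' : (d : ℂ) ≠ 0 := by exact_mod_cast hd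
  simp only [zero_sub, smul_eq_mul]
  rw [← mul_assoc, zpow_neg_one, mul_inv_cancel₀ hd', one_mul]

theorem dil_smul_eq_ofComplex {d : ℕ} (hd : d ≠ 0) (z : ℍ) :
    heckeDiagMatrix d • z = ofComplex ((d : ℂ) * (z : ℂ)) := by
  rw [← coe_heckeDiagMatrix_smul hd z, ofComplex_apply]

/-- dilations preserve the class `QExp` -/
theorem qexp_dil {F : ℍ → ℂ} (hF : QExp F) {d : ℕ} (hd : d ≠ 0) :
    QExp (fun z => F (heckeDiagMatrix d • z)) := by
  refine ⟨?_, ?_, ?_⟩
  · intro w
    by_cases! hw : 0 < Complex.im w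
    · have hw' : 0 < Complex.im (w + 1) := by simp [hw]
      simp only [Function.comp_apply]
      rw [dil_smul_eq_ofComplex hd, dil_smul_eq_ofComplex hd, ofComplex_apply_of_im_pos hw',
        ofComplex_apply_of_im_pos hw]
      have hp := (hF.1.nat_mul d) ((d : ℂ) * w)
      simp only [Function.comp_apply] at hp
      rw [← hp]
      congr 2
      ring
    · have : Complex.im (w + 1) ≤ 0 := by simpa using hw
      simp [ofComplex_apply_of_im_nonpos this, ofComplex_apply_of_im_nonpos hw]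
  · rw [dil_eq_slash F hd]
    exact (hF.2.1.slash 0 _).const_smul _
  · rw [dil_eq_slash F hd]
    have h10 : (heckeDiagMatrix d) 1 0 = 0 := by
      have := val_heckeDiagMatrix (p := d) hd
      have h2 := congrFun (congrFun this 1) 0
      simpa using h2
    exact (IsBoundedAtImInfty.slash 0 h10 hF.2.2).const_smul_left _

/-- The `q`-expansion coefficients of `z ↦ F (d z)`. -/
theorem qx_dil_coeff {F : ℍ → ℂ} (hF : QExp F) {d : ℕ} (hd : d ≠ 0) (n : ℕ) :
    (qx (fun z => F (heckeDiagMatrix d • z))).coeff n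
      = if d ∣ n then (qx F).coeff (n / d) else 0 := by
  have hdpos : 0 < d := Nat.pos_of_ne_zero hd
  set a : ℕ → ℂ := fun m => (qx F).coeff m with ha
  refine qb_qx_coeff_unique (qexp_dil hF hd)
    (c := fun n => if d ∣ n then a (n / d) else 0) (fun τ => ?_) n
  have hΔ : HasSum (fun m : ℕ => a m • 𝕢 1
      ((heckeDiagMatrix d • τ : ℍ) : ℂ) ^ m) (F (heckeDiagMatrix d • τ)) :=
    hasSum_qExpansion one_pos hF.1 hF.2.1 hF.2.2 (heckeDiagMatrix d • τ)
  have hq : 𝕢 1 ((heckeDiagMatrix d • τ : ℍ) : ℂ) = 𝕢 1 (τ : ℂ) ^ d := by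
    rw [coe_heckeDiagMatrix_smul hd]
    simp only [Function.Periodic.qParam]
    rw [← Complex.exp_nat_mul]
    congr 1
    push_cast
    ring
  rw [hq] at hΔ
  have hinj : Function.Injective (fun m : ℕ => m * d) := fun a b hab =>
    Nat.eq_of_mul_eq_mul_right hdpos hab
  have hzero : ∀ x ∉ Set.range (fun m : ℕ => m * d),
      (fun n : ℕ => (if d ∣ n then a (n / d) else 0) * 𝕢 1 (τ : ℂ) ^ n) x = 0 := by
    intro x hx
    have : ¬ d ∣ x := by
      rintro ⟨m, rfl⟩
      exact hx ⟨m, by simp [mul_comm]⟩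
    simp only [this, if_false, zero_mul]
  rw [← hinj.hasSum_iff hzero]
  have hfun : ((fun n : ℕ => (if d ∣ n then a (n / d) else 0) * 𝕢 1 (τ : ℂ) ^ n)
        ∘ fun m : ℕ => m * d)
      = fun m : ℕ => a m • (𝕢 1 (τ : ℂ) ^ d) ^ m := by
    funext m
    have h1 : d ∣ m * d := dvd_mul_left d m
    have h2 : m * d / d = m := Nat.mul_div_cancel m hdpos
    simp only [Function.comp_apply, h1, if_true, h2, smul_eq_mul]
    rw [← pow_mul, mul_comm d m]
  rw [hfun]
  exact hΔ

/-- The `q`-expansion of `z ↦ F (d z)` is obtained by substituting `q ↦ q^d`. -/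
theorem ofPS_qx_dil {F : ℍ → ℂ} (hF : QExp F) (d : ℕ) [NeZero d] :
    HahnSeries.ofPowerSeries ℤ ℂ (qx (fun z => F (heckeDiagMatrix d • z)))
      = qExpand ℂ d (HahnSeries.ofPowerSeries ℤ ℂ (qx F)) := by
  have hd : d ≠ 0 := NeZero.ne d
  have hdpos : 0 < d := Nat.pos_of_ne_zero hd
  ext k
  rcases lt_or_ge k 0 with hk | hk
  · rw [ofPowerSeries_coeff_of_neg _ hk]
    by_cases hdk : (d : ℤ) ∣ k
    · obtain ⟨m, rfl⟩ := hdk
      have hm : m < 0 := by
        by_contra hm
        rw [not_lt] at hm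
        have : 0 ≤ (d : ℤ) * m := mul_nonneg (by positivity) hm
        omega
      rw [qExpand_coeff_mul, ofPowerSeries_coeff_of_neg _ hm]
    · rw [qExpand_coeff_of_not_dvd _ _ hdk]
  · lift k to ℕ using hk
    rw [HahnSeries.ofPowerSeries_apply_coeff, qx_dil_coeff hF hd]
    split_ifs with h
    · obtain ⟨m, rfl⟩ := h
      rw [Nat.mul_div_cancel_left m hdpos]
      push_cast
      rw [qExpand_coeff_mul, HahnSeries.ofPowerSeries_apply_coeff]
    · rw [qExpand_coeff_of_not_dvd]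
      exact fun h' => h (Int.natCast_dvd_natCast.mp h')

/-- the formal identity `E₄³ = j Δ` for the analytic `q`-expansions -/
theorem whBridge : HahnSeries.ofPowerSeries ℤ ℂ (qx ⇑E₄) ^ 3 = jqModC ℂ * whD := by
  have h1 : HahnSeries.single (-1 : ℤ) (1 : ℂ) * HahnSeries.single (1 : ℤ) (1 : ℂ) = 1 := by
    rw [HahnSeries.single_mul_single]
    simp
  have h2 : HahnSeries.ofPowerSeries ℤ ℂ (dedekindEtaUnitInv.map (Int.castRingHom ℂ))
      * HahnSeries.ofPowerSeries ℤ ℂ (dedekindEtaUnit.map (Int.castRingHom ℂ)) = 1 := by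
    rw [← map_mul, ← map_mul, mul_comm, dedekindEtaUnit_mul_inv, map_one, map_one]
  rw [whD, qx_E4_eq, qx_discriminant_eq, jqModC, map_mul, HahnSeries.ofPowerSeries_X, jNum,
    map_mul (PowerSeries.map (Int.castRingHom ℂ)), map_pow (PowerSeries.map (Int.castRingHom ℂ)),
    map_mul (HahnSeries.ofPowerSeries ℤ ℂ), map_pow (HahnSeries.ofPowerSeries ℤ ℂ)]
  generalize HahnSeries.ofPowerSeries ℤ ℂ (eisenstein4.map (Int.castRingHom ℂ)) = e at *
  generalize HahnSeries.ofPowerSeries ℤ ℂ (dedekindEtaUnitInv.map (Int.castRingHom ℂ)) = u' at *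
  generalize HahnSeries.ofPowerSeries ℤ ℂ (dedekindEtaUnit.map (Int.castRingHom ℂ)) = u at *
  generalize HahnSeries.single (-1 : ℤ) (1 : ℂ) = a at *
  generalize HahnSeries.single (1 : ℤ) (1 : ℂ) = b at *
  linear_combination (-(e ^ 3 * (u' * u))) * h1 - e ^ 3 * h2

/-- the complex `q`-series of the generator `j(q^d)` -/
theorem coeffMap_Jgen (d : ℕ) [NeZero d] :
    coeffMap iotaK (Jgen d) = qExpand ℂ d (jqModC ℂ) := by
  rw [Jgen, coeffEmb, coeffMap_coeffMap, ModularCurve.coeffMap_qExpand, ← jqModC_rat,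
    coeffMap_jqModC]

/-- **The generators**: `j(d z)` is weakly holomorphic on `Γ₀(N)` with `q`-expansion `j(q^d)`. -/
theorem isWH_jLvl {N d : ℕ} [NeZero N] [NeZero d] (hd : d ∣ N) :
    IsWH N (jLvl d) (coeffMap iotaK (Jgen d)) := by
  obtain ⟨G, hG⟩ := exists_modularForm_jLvl hd
  refine ⟨d, G, hG, ?_⟩
  have hd0 : d ≠ 0 := NeZero.ne d
  have hE4 : QExp (⇑E₄ : ℍ → ℂ) := simple_isLO_E4.qexp
  have hE : QExp (fun z => E₄ (heckeDiagMatrix d • z)) := qexp_dil hE4 hd0
  have hΔ : QExp (fun z => ModularForm.discriminant (heckeDiagMatrix d • z)) :=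
    qexp_dil QExp.discriminant hd0
  have hfun : (⇑G : ℍ → ℂ) * (fun z => ModularForm.discriminant (heckeDiagMatrix d • z))
      = (fun z => E₄ (heckeDiagMatrix d • z)) ^ 3 * (ModularForm.discriminant : ℍ → ℂ) ^ d := by
    funext z
    simp only [Pi.mul_apply, Pi.pow_apply]
    rw [hG z, jLvl, ← jAn_mul_discriminant (heckeDiagMatrix d • z)]
    ring
  have hq := congrArg qx hfun
  rw [qx_mul (QExp.of_gamma0 G) hΔ, qx_mul (hE.pow 3) (QExp.discriminant.pow d), qx_pow hE,
    qx_pow QExp.discriminant] at hq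
  have hq' := congrArg (HahnSeries.ofPowerSeries ℤ ℂ) hq
  rw [map_mul, map_mul, map_pow, map_pow, ofPS_qx_dil QExp.discriminant d, ofPS_qx_dil hE4 d,
    ← map_pow, whBridge, map_mul] at hq'
  rw [coeffMap_Jgen]
  have hne : qExpand ℂ d whD ≠ 0 := fun h =>
    whD_ne_zero (qExpand_injective d (by rw [h, map_zero]))
  apply mul_right_cancel₀ hne
  rw [whD] at hq' ⊢
  rw [hq']
  ring

end Fermat.Agent.S24Lib
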