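import Mathlib

/-!
# S24 : the shared analytic model

`Hol` = the `ℂ`-algebra of holomorphic functions on the upper half plane (a domain),
`Mer` = its fraction field, and the action of `SL(2, ℤ)` by precomposition.
-/

set_option autoImplicit false

namespace Fermat.Agent.S24Lib

open UpperHalfPlane MatrixGroups Filter Matrix.SpecialLinearGroup
open scoped Manifold Topology

/-- The `ℂ`-algebra of holomorphic functions on `ℍ`. -/
def Hol : Subalgebra ℂ (ℍ → ℂ) where
  carrier := {f | MDiff f}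
  mul_mem' := fun hf hg => hf.mul hg
  add_mem' := fun hf hg => hf.add hg
  algebraMap_mem' := fun _ => mdifferentiable_const

theorem mem_Hol {f : ℍ → ℂ} : f ∈ Hol ↔ MDiff f := Iff.rfl

/-- bundle a holomorphic function -/
def holMk (f : ℍ → ℂ) (hf : MDiff f) : Hol := ⟨f, hf⟩

@[simp] theorem holMk_coe (f : ℍ → ℂ) (hf : MDiff f) : ((holMk f hf : Hol) : ℍ → ℂ) = f := rfl

theorem Hol.mdiff (f : Hol) : MDiff (f : ℍ → ℂ) := f.2

theorem Hol.ext {f g : Hol} (h : ∀ z, (f : ℍ → ℂ) z = (g : ℍ → ℂ) z) : f = g :=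
  Subtype.ext (funext h)

@[simp] theorem Hol.coe_algebraMap (c : ℂ) (z : ℍ) : ((algebraMap ℂ Hol c : Hol) : ℍ → ℂ) z = c :=
  rfl

instance : NoZeroDivisors Hol where
  eq_zero_or_eq_zero_of_mul_eq_zero := by
    intro f g h
    have h' : (f : ℍ → ℂ) * (g : ℍ → ℂ) = 0 := congrArg Subtype.val h
    rcases (UpperHalfPlane.mul_eq_zero_iff f.2 g.2).1 h' with h1 | h1
    · exact Or.inl (Subtype.ext h1)
    · exact Or.inr (Subtype.ext h1)

instance : IsDomain Hol := NoZeroDivisors.to_isDomain _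

/-- The field of meromorphic functions on `ℍ`, as the fraction field of `Hol`. -/
abbrev Mer : Type := FractionRing Hol

/-- every element of `Mer` is a quotient of two holomorphic functions. -/
theorem Mer.exists_div (x : Mer) :
    ∃ a b : Hol, b ≠ 0 ∧ x = algebraMap Hol Mer a / algebraMap Hol Mer b := by
  obtain ⟨a, b, hb, rfl⟩ := IsFractionRing.div_surjective (A := Hol) x
  exact ⟨a, b, nonZeroDivisors.ne_zero hb, rfl⟩

theorem Mer.algebraMap_injective : Function.Injective (algebraMap Hol Mer) :=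
  IsFractionRing.injective Hol Mer

theorem Mer.algebraMap_ne_zero {b : Hol} (hb : b ≠ 0) : algebraMap Hol Mer b ≠ 0 := fun h =>
  hb (Mer.algebraMap_injective (by rw [h, map_zero]))

theorem det_mapGL_pos' (γ : SL(2, ℤ)) : 0 < ((mapGL ℝ γ : GL (Fin 2) ℝ).det.val : ℝ) := by simp

theorem det_mapGL_val_pos (γ : SL(2, ℤ)) : 0 < ((mapGL ℝ γ : GL (Fin 2) ℝ).val.det : ℝ) :=
  det_mapGL_pos' γ

theorem det_mapGL_val_eq (γ : SL(2, ℤ)) : ((mapGL ℝ γ : GL (Fin 2) ℝ).val.det : ℝ) = 1 :=
  congrArg Units.val (Matrix.SpecialLinearGroup.det_mapGL (S := ℝ) γ)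

/-- precomposition with `γ ∈ SL(2, ℤ)` on `Hol`. -/
noncomputable def holComp (γ : SL(2, ℤ)) : Hol →ₐ[ℂ] Hol where
  toFun f := ⟨fun z => (f : ℍ → ℂ) (γ • z),
    f.2.comp (mdifferentiable_smul (g := mapGL ℝ γ) (det_mapGL_pos' γ))⟩
  map_one' := rfl
  map_mul' _ _ := rfl
  map_zero' := rfl
  map_add' _ _ := rfl
  commutes' _ := rfl

@[simp] theorem holComp_apply (γ : SL(2, ℤ)) (f : Hol) (z : ℍ) :
    (holComp γ f : ℍ → ℂ) z = (f : ℍ → ℂ) (γ • z) := rfl

theorem holComp_one (f : Hol) : holComp 1 f = f := Hol.ext fun z => by simp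

theorem holComp_mul (γ γ' : SL(2, ℤ)) (f : Hol) :
    holComp (γ * γ') f = holComp γ' (holComp γ f) := Hol.ext fun z => by simp [mul_smul]

theorem holComp_injective (γ : SL(2, ℤ)) : Function.Injective (holComp γ) := by
  intro f g h
  have : holComp γ⁻¹ (holComp γ f) = holComp γ⁻¹ (holComp γ g) := by rw [h]
  rwa [← holComp_mul, ← holComp_mul, mul_inv_cancel, holComp_one, holComp_one] at this

/-- precomposition with `γ ∈ SL(2, ℤ)` on `Mer`. -/
noncomputable def merComp (γ : SL(2, ℤ)) : Mer →+* Mer :=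
  IsFractionRing.map (A := Hol) (B := Hol) (K := Mer) (L := Mer)
    (j := (holComp γ).toRingHom) (holComp_injective γ)

@[simp] theorem merComp_algebraMap (γ : SL(2, ℤ)) (f : Hol) :
    merComp γ (algebraMap Hol Mer f) = algebraMap Hol Mer (holComp γ f) := by
  unfold merComp IsFractionRing.map
  exact IsLocalization.map_eq _ f

theorem merComp_div (γ : SL(2, ℤ)) (a b : Hol) :
    merComp γ (algebraMap Hol Mer a / algebraMap Hol Mer b)
      = algebraMap Hol Mer (holComp γ a) / algebraMap Hol Mer (holComp γ b) := by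
  rw [map_div₀, merComp_algebraMap, merComp_algebraMap]

@[simp] theorem merComp_const (γ : SL(2, ℤ)) (c : ℂ) :
    merComp γ (algebraMap ℂ Mer c) = algebraMap ℂ Mer c := by
  rw [IsScalarTower.algebraMap_apply ℂ Hol Mer, merComp_algebraMap, AlgHom.commutes]

theorem merComp_one (x : Mer) : merComp 1 x = x := by
  obtain ⟨a, b, -, rfl⟩ := Mer.exists_div x
  rw [merComp_div, holComp_one, holComp_one]

theorem merComp_mul (γ γ' : SL(2, ℤ)) (x : Mer) :
    merComp (γ * γ') x = merComp γ' (merComp γ x) := by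
  obtain ⟨a, b, -, rfl⟩ := Mer.exists_div x
  rw [merComp_div, merComp_div, merComp_div, holComp_mul, holComp_mul]

theorem merComp_injective (γ : SL(2, ℤ)) : Function.Injective (merComp γ) :=
  (merComp γ).injective

theorem merComp_ne_zero (γ : SL(2, ℤ)) {x : Mer} (hx : x ≠ 0) : merComp γ x ≠ 0 := fun h =>
  hx (merComp_injective γ (by rw [h, map_zero]))

end Fermat.Agent.S24Lib
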