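/-
S24, chunk B2 (helper5), part 3: the evaluation homomorphisms `evA : A → Hol(ℍ)` and
`evF : F → Mer(ℍ)` (`j(q^d) ↦ j(d z)`), with the `q`-expansion principle.
-/
import Fermat.Agent.Lib.S24.WHGen
import Fermat.Agent.Lib.S24.HolBase

set_option autoImplicit false

namespace Fermat.Agent.S24Lib

open UpperHalfPlane ModularForm CongruenceSubgroup MatrixGroups Filter
open scoped Manifold Topology
open Fermat.Agent.LibS23 Fermat.Agent.S20Lib ModularCurve

theorem coeffMap_iotaK_injective : Function.Injective (coeffMap (R := Kb) (S := ℂ) iotaK) := by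
  intro x y h
  ext k
  have := congrArg (fun s : LaurentSeries ℂ => s.coeff k) h
  simp only [coeffMap_coeff] at this
  exact iotaK_injective this

theorem coeffMap_iotaK_algebraMap (c : Kb) :
    coeffMap iotaK (algebraMap Kb (LaurentSeries Kb) c) = HahnSeries.C (iotaK c) := by
  rw [algebraMap_laurentSeries_eq_single, coeffMap_single]
  rfl

section
variable (N : ℕ) [NeZero N]

/-- every element of `A = ℚ̄[j(q^d)]` is the `q`-expansion of a weakly holomorphic function. -/
theorem exists_isWH (a : ↥(Agen N)) :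
    ∃ h : ℍ → ℂ, IsWH N h (coeffMap iotaK (a : LaurentSeries Kb)) := by
  obtain ⟨a, ha⟩ := a
  show ∃ h : ℍ → ℂ, IsWH N h (coeffMap iotaK a)
  induction ha using Algebra.adjoin_induction with
  | mem x hx =>
    obtain ⟨d, hd0, hd, rfl⟩ := hx
    exact ⟨jLvl d, isWH_jLvl hd⟩
  | algebraMap c =>
    refine ⟨fun _ => iotaK c, ?_⟩
    rw [coeffMap_iotaK_algebraMap]
    exact isWH_const (iotaK c)
  | add x y hx hy ihx ihy =>
    obtain ⟨h1, H1⟩ := ihx
    obtain ⟨h2, H2⟩ := ihy
    exact ⟨h1 + h2, by rw [map_add]; exact H1.add H2⟩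
  | mul x y hx hy ihx ihy =>
    obtain ⟨h1, H1⟩ := ihx
    obtain ⟨h2, H2⟩ := ihy
    exact ⟨h1 * h2, by rw [map_mul]; exact H1.mul H2⟩

/-- the holomorphic function on `ℍ` attached to an element of `A`. -/
noncomputable def evFun (a : ↥(Agen N)) : ℍ → ℂ := (exists_isWH N a).choose

theorem evFun_isWH (a : ↥(Agen N)) :
    IsWH N (evFun N a) (coeffMap iotaK (a : LaurentSeries Kb)) :=
  (exists_isWH N a).choose_spec

variable {N} in
theorem evFun_eq {a : ↥(Agen N)} {h : ℍ → ℂ}
    (H : IsWH N h (coeffMap iotaK (a : LaurentSeries Kb))) : evFun N a = h :=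
  (evFun_isWH N a).unique_fun H

/-- evaluation: the (`iotaK`-semilinear) injective ring hom `A → Hol(ℍ)`, `j(q^d) ↦ j(d z)`. -/
noncomputable def evA : ↥(Agen N) →+* ↥Hol where
  toFun a := ⟨evFun N a, (evFun_isWH N a).mdiff⟩
  map_one' := Subtype.ext (evFun_eq (h := 1) (by
    rw [show ((1 : ↥(Agen N)) : LaurentSeries Kb) = 1 from rfl, map_one]; exact isWH_one))
  map_mul' a b := Subtype.ext (evFun_eq (h := evFun N a * evFun N b) (by
    rw [show ((a * b : ↥(Agen N)) : LaurentSeries Kb) = (a : LaurentSeries Kb) * b from rfl,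
      map_mul]
    exact (evFun_isWH N a).mul (evFun_isWH N b)))
  map_zero' := Subtype.ext (evFun_eq (h := 0) (by
    rw [show ((0 : ↥(Agen N)) : LaurentSeries Kb) = 0 from rfl, map_zero]; exact isWH_zero))
  map_add' a b := Subtype.ext (evFun_eq (h := evFun N a + evFun N b) (by
    rw [show ((a + b : ↥(Agen N)) : LaurentSeries Kb) = (a : LaurentSeries Kb) + b from rfl,
      map_add]
    exact (evFun_isWH N a).add (evFun_isWH N b)))

theorem evA_coe (a : ↥(Agen N)) : ((evA N a : ↥Hol) : ℍ → ℂ) = evFun N a := rfl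

/-- every `ev a` is `G / Δ^M` with `G` a modular form on `Γ₀(N)`, and its `q`-expansion is the
formal series `a` (coefficients mapped by `iotaK`). -/
theorem evA_isWH (a : ↥(Agen N)) :
    IsWH N ((evA N a : ↥Hol) : ℍ → ℂ) (coeffMap iotaK (a : LaurentSeries Kb)) :=
  evFun_isWH N a

variable {N} in
/-- characterisation of `evA` by the `q`-expansion -/
theorem evA_eq_of_isWH {a : ↥(Agen N)} {h : ℍ → ℂ}
    (H : IsWH N h (coeffMap iotaK (a : LaurentSeries Kb))) :
    ((evA N a : ↥Hol) : ℍ → ℂ) = h :=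
  evFun_eq H

theorem evA_injective : Function.Injective (evA N) := by
  rw [injective_iff_map_eq_zero]
  intro a ha
  have h0 : ((evA N a : ↥Hol) : ℍ → ℂ) = 0 := by rw [ha]; rfl
  have h1 := (evA_isWH N a).eq_zero_iff.mp h0
  have h2 : (a : LaurentSeries Kb) = 0 :=
    coeffMap_iotaK_injective (by rw [h1, map_zero])
  exact Subtype.ext h2

theorem evA_algebraMap (c : Kb) :
    evA N (algebraMap Kb ↥(Agen N) c) = algebraMap ℂ ↥Hol (iotaK c) := by
  apply Subtype.ext
  refine evA_eq_of_isWH (h := fun _ => iotaK c) ?_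
  rw [show ((algebraMap Kb ↥(Agen N) c : ↥(Agen N)) : LaurentSeries Kb)
    = algebraMap Kb (LaurentSeries Kb) c from rfl, coeffMap_iotaK_algebraMap]
  exact isWH_const (iotaK c)

theorem evA_Jgen {d : ℕ} [NeZero d] (h : d ∣ N) :
    ((evA N ⟨Jgen d, Jgen_mem_Agen h⟩ : ↥Hol) : ℍ → ℂ) = jLvl d :=
  evA_eq_of_isWH (isWH_jLvl h)

theorem evA_Jgen' {d : ℕ} [NeZero d] (h : d ∣ N) :
    evA N ⟨Jgen d, Jgen_mem_Agen h⟩ = holMk (jLvl d) (jLvl_mdiff d) :=
  Subtype.ext (evA_Jgen N h)

theorem evA_Jser : evA N ⟨Jser, Jser_mem_Agen N⟩ = holMk jAn jAn_mdiff := by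
  apply Subtype.ext
  have h1 : (⟨Jser, Jser_mem_Agen N⟩ : ↥(Agen N)) = ⟨Jgen 1, Jgen_mem_Agen (one_dvd N)⟩ :=
    Subtype.ext Jser_eq
  rw [h1, evA_Jgen N (one_dvd N), jLvl_one]
  rfl

/-- the `q`-expansion principle over `ℂ`: a `ℂ`-linear relation between the functions `ev (a i)`
is a `ℂ`-linear relation between the formal series `a i`. -/
theorem evA_linear_rel {ι : Type*} (s : Finset ι) (a : ι → ↥(Agen N)) (c : ι → ℂ)
    (h : ∀ z : ℍ, ∑ i ∈ s, c i * ((evA N (a i) : ↥Hol) : ℍ → ℂ) z = 0) :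
    ∑ i ∈ s, HahnSeries.C (c i) * coeffMap iotaK ((a i : ↥(Agen N)) : LaurentSeries Kb) = 0 := by
  have H : IsWH N (∑ i ∈ s, fun z => c i * ((evA N (a i) : ↥Hol) : ℍ → ℂ) z)
      (∑ i ∈ s, HahnSeries.C (c i) * coeffMap iotaK ((a i : ↥(Agen N)) : LaurentSeries Kb)) :=
    IsWH.sum s (fun i _ => (evA_isWH N (a i)).const_mul (c i))
  have h0 : (∑ i ∈ s, fun z => c i * ((evA N (a i) : ↥Hol) : ℍ → ℂ) z) = 0 := by
    funext z
    rw [Finset.sum_apply]
    exact h z
  exact H.eq_zero_iff.mp h0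

/-- conversely: a relation between the series gives a relation between the functions -/
theorem evA_linear_rel' {ι : Type*} (s : Finset ι) (a : ι → ↥(Agen N)) (c : ι → ℂ)
    (h : ∑ i ∈ s, HahnSeries.C (c i) * coeffMap iotaK ((a i : ↥(Agen N)) : LaurentSeries Kb) = 0)
    (z : ℍ) : ∑ i ∈ s, c i * ((evA N (a i) : ↥Hol) : ℍ → ℂ) z = 0 := by
  have H : IsWH N (∑ i ∈ s, fun z => c i * ((evA N (a i) : ↥Hol) : ℍ → ℂ) z)
      (∑ i ∈ s, HahnSeries.C (c i) * coeffMap iotaK ((a i : ↥(Agen N)) : LaurentSeries Kb)) :=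
    IsWH.sum s (fun i _ => (evA_isWH N (a i)).const_mul (c i))
  have h0 := congrFun (H.eq_zero_iff.mpr h) z
  rw [Finset.sum_apply] at h0
  exact h0

/-! ### the extension to the fraction field -/

/-- the inclusion `A → F`. -/
noncomputable def inclAF : ↥(Agen N) →+* FN N where
  toFun a := ⟨a, Agen_le N a.2⟩
  map_one' := rfl
  map_mul' _ _ := rfl
  map_zero' := rfl
  map_add' _ _ := rfl

omit [NeZero N] in
theorem inclAF_injective : Function.Injective (inclAF N) := fun _ _ h =>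
  Subtype.ext (congrArg (fun x : FN N => (x : LaurentSeries Kb)) h)

omit [NeZero N] in
theorem inclAF_coe (a : ↥(Agen N)) : ((inclAF N a : FN N) : LaurentSeries Kb) = a := rfl

/-- `F` as an `A`-algebra (not an instance). -/
@[reducible] noncomputable def algAF : Algebra ↥(Agen N) (FN N) := (inclAF N).toAlgebra

theorem isFractionRing_AF : @IsFractionRing ↥(Agen N) _ (FN N) _ (algAF N) := by
  letI := algAF N
  haveI : FaithfulSMul ↥(Agen N) (FN N) :=
    (faithfulSMul_iff_algebraMap_injective _ _).mpr (inclAF_injective N)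
  refine IsFractionRing.of_field ↥(Agen N) (FN N) fun z => ?_
  obtain ⟨r, hr, s, hs, hs0, hz⟩ := exists_div_of_mem N z.2
  refine ⟨⟨r, hr⟩, ⟨s, hs⟩, ?_⟩
  apply Subtype.ext
  rw [hz]
  rfl

theorem evA_comp_injective :
    Function.Injective ((algebraMap ↥Hol Mer).comp (evA N)) :=
  Mer.algebraMap_injective.comp (evA_injective N)

/-- the field embedding `F → Mer(ℍ)`. -/
noncomputable def evF : FN N →+* Mer :=
  letI := algAF N
  haveI := isFractionRing_AF N
  IsFractionRing.lift (evA_comp_injective N)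

theorem evF_inclAF (a : ↥(Agen N)) : evF N (inclAF N a) = algebraMap ↥Hol Mer (evA N a) := by
  letI := algAF N
  haveI := isFractionRing_AF N
  exact IsFractionRing.lift_algebraMap (evA_comp_injective N) a

theorem evF_of_mem (a : ↥(Agen N)) :
    evF N ⟨(a : LaurentSeries Kb), Agen_le N a.2⟩ = algebraMap ↥Hol Mer (evA N a) :=
  evF_inclAF N a

theorem evF_injective : Function.Injective (evF N) := (evF N).injective

theorem evF_algebraMap' (c : Kb) :
    evF N (algebraMap Kb (FN N) c) = algebraMap ↥Hol Mer (algebraMap ℂ ↥Hol (iotaK c)) := by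
  have h1 : algebraMap Kb (FN N) c = inclAF N (algebraMap Kb ↥(Agen N) c) := Subtype.ext rfl
  rw [h1, evF_inclAF, evA_algebraMap]

theorem evF_algebraMap (c : Kb) :
    evF N (algebraMap Kb (FN N) c) = algebraMap ℂ Mer (iotaK c) := by
  rw [evF_algebraMap', ← IsScalarTower.algebraMap_apply]

theorem evF_Jgen {d : ℕ} [NeZero d] (h : d ∣ N) :
    evF N ⟨Jgen d, Agen_le N (Jgen_mem_Agen h)⟩
      = algebraMap ↥Hol Mer (holMk (jLvl d) (jLvl_mdiff d)) := by
  rw [← evA_Jgen' N h]
  exact evF_of_mem N ⟨Jgen d, Jgen_mem_Agen h⟩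

theorem evF_JF : evF N (JF N) = algebraMap ↥Hol Mer (holMk jAn jAn_mdiff) := by
  rw [← evA_Jser N]
  exact evF_of_mem N ⟨Jser, Jser_mem_Agen N⟩

/-- `evF` of a fraction -/
theorem evF_div (r s : ↥(Agen N)) :
    evF N (inclAF N r / inclAF N s)
      = algebraMap ↥Hol Mer (evA N r) / algebraMap ↥Hol Mer (evA N s) := by
  rw [map_div₀, evF_inclAF, evF_inclAF]

omit [NeZero N] in
/-- every element of `F` is a fraction of elements of `A` -/
theorem exists_inclAF_div (x : FN N) :
    ∃ r s : ↥(Agen N), s ≠ 0 ∧ x = inclAF N r / inclAF N s := by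
  obtain ⟨r, hr, s, hs, hs0, hz⟩ := exists_div_of_mem N x.2
  refine ⟨⟨r, hr⟩, ⟨s, hs⟩, fun h => hs0 (congrArg Subtype.val h), ?_⟩
  apply Subtype.ext
  rw [hz]
  rfl

end

end Fermat.Agent.S24Lib
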