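/-
S24 (lead): `FN N` is the fraction field of `Agen N`.  Generic extension of an injective ring
hom `Agen N →+* E` (`E` a field) to `FN N`, and the corresponding extensionality lemma.
No global instances are declared here.
-/
import Mathlib
import Fermat.Agent.Lib.S24.FieldDefs

set_option autoImplicit false

namespace Fermat.Agent.S24Lib

open ModularCurve

/-- the inclusion `A = ℚ̄[j(q^d)] → F`. -/
def agenIncl (N : ℕ) : ↥(Agen N) →+* FN N where
  toFun a := ⟨(a : LaurentSeries Kb), Agen_le N a.2⟩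
  map_one' := rfl
  map_mul' _ _ := rfl
  map_zero' := rfl
  map_add' _ _ := rfl

@[simp] theorem coe_agenIncl (N : ℕ) (a : ↥(Agen N)) :
    ((agenIncl N a : FN N) : LaurentSeries Kb) = (a : LaurentSeries Kb) := rfl

theorem agenIncl_apply (N : ℕ) (a : ↥(Agen N)) :
    agenIncl N a = ⟨(a : LaurentSeries Kb), Agen_le N a.2⟩ := rfl

theorem agenIncl_injective (N : ℕ) : Function.Injective (agenIncl N) := by
  intro a b h
  exact Subtype.ext (congrArg (fun x : FN N => (x : LaurentSeries Kb)) h)

theorem agenIncl_algebraMap (N : ℕ) (c : Kb) :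
    agenIncl N (algebraMap Kb ↥(Agen N) c) = algebraMap Kb (FN N) c := rfl

/-- `j`, as an element of `A`. -/
noncomputable def JA (N : ℕ) : ↥(Agen N) := ⟨Jser, Jser_mem_Agen N⟩

theorem agenIncl_JA (N : ℕ) : agenIncl N (JA N) = JF N := rfl

/-- every element of `F` is a quotient of two elements of `A`. -/
theorem exists_agenIncl_div (N : ℕ) (x : FN N) :
    ∃ r s : ↥(Agen N), s ≠ 0 ∧ x = agenIncl N r / agenIncl N s := by
  obtain ⟨r, hr, s, hs, hs0, hx⟩ := exists_div_of_mem N x.2
  refine ⟨⟨r, hr⟩, ⟨s, hs⟩, fun h => hs0 (congrArg Subtype.val h), ?_⟩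
  apply Subtype.ext
  rw [hx]
  rfl

/-- `F = Frac A` (for the algebra structure given by `agenIncl`). -/
theorem isFractionRing_agen (N : ℕ) :
    @IsFractionRing ↥(Agen N) _ (FN N) _ (agenIncl N).toAlgebra := by
  letI : Algebra ↥(Agen N) (FN N) := (agenIncl N).toAlgebra
  haveI : FaithfulSMul ↥(Agen N) (FN N) :=
    (faithfulSMul_iff_algebraMap_injective _ _).2 (agenIncl_injective N)
  refine IsFractionRing.of_field ↥(Agen N) (FN N) fun z => ?_
  obtain ⟨r, s, -, hz⟩ := exists_agenIncl_div N z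
  exact ⟨r, s, hz⟩

section lift

variable {E : Type*} [Field E]

/-- the extension of an injective ring hom `A →+* E` to `F = Frac A`. -/
noncomputable def liftFN (N : ℕ) (φ : ↥(Agen N) →+* E) (hφ : Function.Injective φ) :
    FN N →+* E :=
  letI : Algebra ↥(Agen N) (FN N) := (agenIncl N).toAlgebra
  haveI := isFractionRing_agen N
  IsFractionRing.lift (A := ↥(Agen N)) (K := FN N) (g := φ) hφ

theorem liftFN_agenIncl (N : ℕ) (φ : ↥(Agen N) →+* E) (hφ : Function.Injective φ)
    (a : ↥(Agen N)) : liftFN N φ hφ (agenIncl N a) = φ a := by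
  letI : Algebra ↥(Agen N) (FN N) := (agenIncl N).toAlgebra
  haveI := isFractionRing_agen N
  exact IsFractionRing.lift_algebraMap (A := ↥(Agen N)) (K := FN N) hφ a

/-- two ring homs out of `F` that agree on `A` are equal. -/
theorem ringHom_ext_FN (N : ℕ) {f g : FN N →+* E}
    (h : ∀ a : ↥(Agen N), f (agenIncl N a) = g (agenIncl N a)) : f = g := by
  letI : Algebra ↥(Agen N) (FN N) := (agenIncl N).toAlgebra
  haveI := isFractionRing_agen N
  exact IsFractionRing.ringHom_ext (A := ↥(Agen N)) (K := FN N) h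

theorem liftFN_unique (N : ℕ) (φ : ↥(Agen N) →+* E) (hφ : Function.Injective φ)
    {f : FN N →+* E} (h : ∀ a : ↥(Agen N), f (agenIncl N a) = φ a) : f = liftFN N φ hφ :=
  ringHom_ext_FN N fun a => by rw [h, liftFN_agenIncl]

end lift

/-- induction principle for subalgebra elements: a property of the elements of `A` that holds
for constants and generators and is stable under `+` and `*` holds on `A`. -/
theorem agen_induction (N : ℕ) {P : ↥(Agen N) → Prop}
    (hc : ∀ c : Kb, P (algebraMap Kb ↥(Agen N) c))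
    (hg : ∀ (d : ℕ) [NeZero d] (h : d ∣ N), P ⟨Jgen d, Jgen_mem_Agen h⟩)
    (hadd : ∀ a b, P a → P b → P (a + b)) (hmul : ∀ a b, P a → P b → P (a * b))
    (a : ↥(Agen N)) : P a := by
  obtain ⟨a, ha⟩ := a
  induction ha using Algebra.adjoin_induction with
  | mem x hx =>
    obtain ⟨d, hd, hdN, rfl⟩ := hx
    exact hg d hdN
  | algebraMap c => exact hc c
  | add x y hx hy ihx ihy => exact hadd ⟨x, hx⟩ ⟨y, hy⟩ ihx ihy
  | mul x y hx hy ihx ihy => exact hmul ⟨x, hx⟩ ⟨y, hy⟩ ihx ihy

/-- two ring homs out of `A` that agree on constants and on the generators are equal. -/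
theorem ringHom_ext_agen (N : ℕ) {R : Type*} [Semiring R] {f g : ↥(Agen N) →+* R}
    (hc : ∀ c : Kb, f (algebraMap Kb ↥(Agen N) c) = g (algebraMap Kb ↥(Agen N) c))
    (hg : ∀ (d : ℕ) [NeZero d] (h : d ∣ N),
      f ⟨Jgen d, Jgen_mem_Agen h⟩ = g ⟨Jgen d, Jgen_mem_Agen h⟩) : f = g := by
  ext a
  induction a using agen_induction with
  | hc c => exact hc c
  | hg d h => exact hg d h
  | hadd a b iha ihb => rw [map_add, map_add, iha, ihb]
  | hmul a b iha ihb => rw [map_mul, map_mul, iha, ihb]

end Fermat.Agent.S24Lib
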