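/-
S24, chunk B3 (helper1): separation — `j(N z)` is invariant under `γ ∈ SL₂(ℤ)` only if
`γ ∈ Γ₀(N)`.
-/
import Fermat.Agent.Lib.S24.JLvlForm

set_option autoImplicit false

namespace Fermat.Agent.S24Lib

open UpperHalfPlane ModularForm CongruenceSubgroup MatrixGroups Filter Matrix.SpecialLinearGroup
open scoped Manifold Topology Real
open Fermat.Agent.LibS23 Fermat.Agent.S20Lib

theorem tendsto_exp_neg_mul_im {c : ℝ} (hc : 0 < c) :
    Tendsto (fun z : ℍ => Real.exp (-(c * z.im))) atImInfty (𝓝 0) := by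
  apply Real.tendsto_exp_atBot.comp
  apply tendsto_neg_atTop_atBot.comp
  apply Tendsto.const_mul_atTop hc
  rw [atImInfty]
  exact tendsto_comap

/-- comparing the growth of `j` along two upper triangular substitutions -/
theorem jAn_growth_le (a b d a' b' d' : ℝ) (ha : 0 < a) (hd : 0 < d) (ha' : 0 < a')
    (hd' : 0 < d')
    (h : ∀ z : ℍ, ‖jAn (upperTriangularGL a b d (mul_pos ha hd).ne' • z)‖
      = ‖jAn (upperTriangularGL a' b' d' (mul_pos ha' hd').ne' • z)‖) :
    a / d ≤ a' / d' := by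
  by_contra hlt
  rw [not_le] at hlt
  have h1 : Tendsto (fun z : ℍ => ‖jAn (upperTriangularGL a b d (mul_pos ha hd).ne' • z)‖
      * Real.exp (-(2 * π * (upperTriangularGL a b d (mul_pos ha hd).ne' • z).im)))
      atImInfty (𝓝 1) :=
    tendsto_norm_jAn_mul_exp.comp (tendsto_upperTriangularGL_smul a b d ha hd)
  have h2 : Tendsto (fun z : ℍ => ‖jAn (upperTriangularGL a' b' d' (mul_pos ha' hd').ne' • z)‖
      * Real.exp (-(2 * π * (upperTriangularGL a' b' d' (mul_pos ha' hd').ne' • z).im)))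
      atImInfty (𝓝 1) :=
    tendsto_norm_jAn_mul_exp.comp (tendsto_upperTriangularGL_smul a' b' d' ha' hd')
  have hc : 0 < 2 * π * (a / d - a' / d') := by
    have := Real.pi_pos
    have : 0 < a / d - a' / d' := by linarith
    positivity
  have h3 := h2.mul (tendsto_exp_neg_mul_im hc)
  rw [mul_zero] at h3
  have h4 : Tendsto (fun z : ℍ => ‖jAn (upperTriangularGL a b d (mul_pos ha hd).ne' • z)‖
      * Real.exp (-(2 * π * (upperTriangularGL a b d (mul_pos ha hd).ne' • z).im)))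
      atImInfty (𝓝 0) := by
    refine h3.congr fun z => ?_
    rw [h z, im_upperTriangularGL_smul a b d ha hd z,
      im_upperTriangularGL_smul a' b' d' ha' hd' z, mul_assoc, ← Real.exp_add]
    congr 2
    ring
  exact zero_ne_one (tendsto_nhds_unique h4 h1)

/-- **Separation**: `j(N z)` is invariant under `γ ∈ SL₂(ℤ)` only if `γ ∈ Γ₀(N)`. -/
theorem jLvl_separation (N : ℕ) [NeZero N] (γ : SL(2, ℤ))
    (h : ∀ z : ℍ, jLvl N (γ • z) = jLvl N z) : γ ∈ Gamma0 N := by
  have hNpos : 0 < N := Nat.pos_of_ne_zero (NeZero.ne N)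
  obtain ⟨a, δ, b, ha, hδ, haδ, hmem, hz⟩ := jLvl_comp_SL N γ
  apply hmem
  have haR : (0 : ℝ) < a := Nat.cast_pos.mpr ha
  have hδR : (0 : ℝ) < δ := Nat.cast_pos.mpr hδ
  have hNR : (0 : ℝ) < N := Nat.cast_pos.mpr hNpos
  have hDeq : heckeDiagMatrix N = upperTriangularGL N 0 1 (mul_pos hNR one_pos).ne' :=
    heckeDiagMatrix_eq_upper N hNpos
  have hpt : ∀ z : ℍ, ‖jAn (upperTriangularGL N 0 1 (mul_pos hNR one_pos).ne' • z)‖
      = ‖jAn (upperTriangularGL a b δ (mul_pos haR hδR).ne' • z)‖ := by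
    intro z
    rw [← hz z, h z, jLvl, hDeq]
  have hle := jAn_growth_le N 0 1 a b δ hNR one_pos haR hδR hpt
  rw [div_one, le_div_iff₀ hδR] at hle
  have h1 : (a : ℝ) * δ = N := by exact_mod_cast haδ
  -- `N δ ≤ a` and `a δ = N` force `δ = 1`
  have h2 : (N : ℝ) * δ * δ ≤ N := by
    calc (N : ℝ) * δ * δ ≤ a * δ := by nlinarith
      _ = N := h1
  have h3 : (δ : ℝ) * δ ≤ 1 := by
    have : (N : ℝ) * (δ * δ) ≤ N * 1 := by linarith
    exact le_of_mul_le_mul_left this hNR
  have h4 : δ * δ ≤ 1 := by exact_mod_cast h3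
  nlinarith

end Fermat.Agent.S24Lib
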