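/-
S24, chunk B3 (helper1): the conjugate embeddings `conjEv N q : F →+* Mer` (`q ∈ Q N`),
their distinctness, compatibility with `merComp`, and the norm-form relation in formal series
(the hypothesis of `degB_upper`).
-/
import Fermat.Agent.Lib.S24.Ev
import Fermat.Agent.Lib.S24.FracLift
import Fermat.Agent.Lib.S24.NormRel
import Fermat.Agent.Lib.S24.JSep

set_option autoImplicit false

namespace Fermat.Agent.S24Lib

open UpperHalfPlane ModularForm CongruenceSubgroup MatrixGroups Filter Matrix.SpecialLinearGroup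
open scoped Manifold Topology Real
open Fermat.Agent.LibS23 Fermat.Agent.S20Lib ModularCurve

section

variable (N : ℕ) [NeZero N]

theorem evF_agenIncl (a : ↥(Agen N)) : evF N (agenIncl N a) = algebraMap ↥Hol Mer (evA N a) :=
  evF_of_mem N a

theorem isWMF_evA (a : ↥(Agen N)) : IsWMF N ((evA N a : ↥Hol) : ℍ → ℂ) := by
  obtain ⟨M, G, hG, -⟩ := evA_isWH N a
  exact ⟨M, G, hG⟩

omit [NeZero N] in
/-- weakly holomorphic modular functions on `Γ₀(N)` are `Γ₀(N)`-invariant -/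
theorem IsWMF.smul_gamma0 {h : ℍ → ℂ} (hh : IsWMF N h) (γ : SL(2, ℤ)) (hγ : γ ∈ Gamma0 N)
    (z : ℍ) : h (γ • z) = h z := by
  obtain ⟨M, G, hG⟩ := hh
  have h1 : (⇑G : ℍ → ℂ) ∣[(12 * (M : ℤ))] (mapGL ℝ γ) = ⇑G :=
    SlashInvariantFormClass.slash_action_eq G (mapGL ℝ γ) ⟨γ, hγ, rfl⟩
  have h2 : (fun w => h w * ModularForm.discriminant w ^ M) = ⇑G := funext fun w => (hG w).symm
  have h3 := slash_mul_discriminant_pow h M γ z
  rw [h2] at h3
  have h4 : ((⇑G : ℍ → ℂ) ∣[(12 * (M : ℤ))] γ) z = G z := congrFun h1 z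
  rw [h4, hG z] at h3
  exact (mul_right_cancel₀ (pow_ne_zero M (discriminant_ne_zero z)) h3).symm

theorem holComp_evA_of_mem_gamma0 (a : ↥(Agen N)) (γ : SL(2, ℤ)) (hγ : γ ∈ Gamma0 N) :
    holComp γ (evA N a) = evA N a :=
  Hol.ext fun z => by
    rw [holComp_apply]
    exact (isWMF_evA N a).smul_gamma0 N γ hγ z

theorem evF_agenIncl_div (r s : ↥(Agen N)) :
    evF N (agenIncl N r / agenIncl N s)
      = algebraMap ↥Hol Mer (evA N r) / algebraMap ↥Hol Mer (evA N s) := by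
  rw [map_div₀, evF_agenIncl, evF_agenIncl]

/-- the image of `F` in `Mer` consists of `Γ₀(N)`-invariant functions -/
theorem merComp_evF_of_mem_gamma0 (γ : SL(2, ℤ)) (hγ : γ ∈ Gamma0 N) (x : FN N) :
    merComp γ (evF N x) = evF N x := by
  obtain ⟨r, s, -, rfl⟩ := exists_agenIncl_div N x
  rw [evF_agenIncl_div, merComp_div, holComp_evA_of_mem_gamma0 N r γ hγ,
    holComp_evA_of_mem_gamma0 N s γ hγ]

omit [NeZero N] in
theorem conj_exists_rep (q : Q N) : ∃ γ : SL(2, ℤ), ((toSL γ : ↥(𝒮ℒ)) : Q N) = q := by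
  obtain ⟨h, rfl⟩ := QuotientGroup.mk_surjective q
  obtain ⟨γ, rfl⟩ := cusp_toSL_surj h
  exact ⟨γ, rfl⟩

/-- **the conjugate embeddings** `F → Mer`: for `q = g Γ₀(N)`, `f ↦ (ev f) ∘ g⁻¹`. -/
noncomputable def conjEv (q : Q N) : FN N →+* Mer :=
  (merComp (Classical.choose (conj_exists_rep N q))⁻¹).comp (evF N)

theorem conjEv_mk (γ : SL(2, ℤ)) (x : FN N) :
    conjEv N ((toSL γ : ↥(𝒮ℒ)) : Q N) x = merComp γ⁻¹ (evF N x) := by
  have hspec := Classical.choose_spec (conj_exists_rep N ((toSL γ : ↥(𝒮ℒ)) : Q N))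
  set γ' := Classical.choose (conj_exists_rep N ((toSL γ : ↥(𝒮ℒ)) : Q N)) with hγ'
  rw [cusp_mk_eq_mk_iff] at hspec
  change merComp γ'⁻¹ (evF N x) = merComp γ⁻¹ (evF N x)
  have e : γ⁻¹ = (γ'⁻¹ * γ)⁻¹ * γ'⁻¹ := by group
  rw [e, merComp_mul, merComp_evF_of_mem_gamma0 N _ (inv_mem hspec)]

theorem toSL_inv_smul_mk (γ g : SL(2, ℤ)) :
    (toSL γ)⁻¹ • ((toSL g : ↥(𝒮ℒ)) : Q N) = ((toSL (γ⁻¹ * g) : ↥(𝒮ℒ)) : Q N) := by
  rw [cusp_toSL_mul, cusp_toSL_inv]
  rfl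

/-- compatibility with precomposition -/
theorem merComp_conjEv (γ : SL(2, ℤ)) (q : Q N) (f : FN N) :
    merComp γ (conjEv N q f) = conjEv N ((toSL γ)⁻¹ • q) f := by
  obtain ⟨g, rfl⟩ := conj_exists_rep N q
  rw [toSL_inv_smul_mk, conjEv_mk, conjEv_mk, ← merComp_mul]
  congr 2
  group

theorem conjEv_algebraMap (q : Q N) (c : Kb) :
    conjEv N q (algebraMap Kb (FN N) c) = algebraMap ℂ Mer (iotaK c) := by
  obtain ⟨g, rfl⟩ := conj_exists_rep N q
  rw [conjEv_mk, evF_algebraMap, merComp_const]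

theorem conjEv_JF (q : Q N) : conjEv N q (JF N) = algebraMap ↥Hol Mer ⟨jAn, jAn_mdiff⟩ := by
  obtain ⟨g, rfl⟩ := conj_exists_rep N q
  rw [conjEv_mk, evF_JF, merComp_algebraMap]
  congr 1
  exact Hol.ext fun z => by
    rw [holComp_apply]
    exact jAn_smul g⁻¹ z

/-- explicit form on `A` -/
theorem conjEv_of_mem (g : SL(2, ℤ)) (a : ↥(Agen N)) :
    conjEv N ((toSL g : ↥(𝒮ℒ)) : Q N) (agenIncl N a)
      = algebraMap ↥Hol Mer (holComp g⁻¹ (evA N a)) := by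
  rw [conjEv_mk, evF_agenIncl, merComp_algebraMap]

/-- **the conjugate embeddings are pairwise distinct** -/
theorem conjEv_injective : Function.Injective (conjEv N) := by
  intro q₁ q₂ h
  obtain ⟨g₁, rfl⟩ := conj_exists_rep N q₁
  obtain ⟨g₂, rfl⟩ := conj_exists_rep N q₂
  rw [cusp_mk_eq_mk_iff]
  apply jLvl_separation N (g₁⁻¹ * g₂)
  intro z
  have h1 := congrArg
    (fun φ : FN N →+* Mer => φ (agenIncl N ⟨Jgen N, Jgen_mem_Agen dvd_rfl⟩)) h
  simp only [conjEv_of_mem] at h1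
  have h2 := Mer.algebraMap_injective h1
  have h3 := congrArg (fun f : ↥Hol => (f : ℍ → ℂ) (g₂ • z)) h2
  simp only [holComp_apply] at h3
  rw [evA_Jgen N dvd_rfl, inv_smul_smul] at h3
  rw [mul_smul]
  exact h3

end

end Fermat.Agent.S24Lib
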