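/-
S24, chunk B3 (helper1): the norm-form relation in formal Laurent series over `ℂ`
(the hypothesis `H` of `degB_upper`, with `n = |Q N|`).
-/
import Fermat.Agent.Lib.S24.Ev
import Fermat.Agent.Lib.S24.NormRel

set_option autoImplicit false

namespace Fermat.Agent.S24Lib

open UpperHalfPlane ModularForm CongruenceSubgroup MatrixGroups Filter Matrix.SpecialLinearGroup
open scoped Manifold Topology Real
open Fermat.Agent.LibS23 Fermat.Agent.S20Lib ModularCurve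

section

variable (N : ℕ) [NeZero N]

theorem normSeries_isWMF (a : ↥(Agen N)) : IsWMF N ((evA N a : ↥Hol) : ℍ → ℂ) := by
  obtain ⟨M, G, hG, -⟩ := evA_isWH N a
  exact ⟨M, G, hG⟩

/-- `ev j = jAn` on `A` -/
theorem normSeries_evA_Jser :
    ((evA N ⟨Jser, Jser_mem_Agen N⟩ : ↥Hol) : ℍ → ℂ) = jAn := by
  have h := evA_Jgen N (one_dvd N)
  rw [jLvl_one] at h
  have e : (⟨Jser, Jser_mem_Agen N⟩ : ↥(Agen N)) = ⟨Jgen 1, Jgen_mem_Agen (one_dvd N)⟩ :=
    Subtype.ext Jser_eq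
  rw [e, h]

/-- **the norm-form relation in formal series**: for `a, b ∈ A`, `b ≠ 0`, there is a nontrivial
`ℂ`-linear relation between the series `J^i a^j b^(ψ-j)` (`j ≤ ψ = |Q N|`) whose part of
degree `ψ` in `a` is nonzero. -/
theorem normRel_series (a : LaurentSeries Kb) (ha : a ∈ Agen N) (b : LaurentSeries Kb)
    (hb : b ∈ Agen N) (hb0 : b ≠ 0) :
    ∃ (m : ℕ) (c : Fin (m + 1) → Fin (Fintype.card (Q N) + 1) → ℂ),
      (∃ i, c i (Fin.last (Fintype.card (Q N))) ≠ 0) ∧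
      ∑ i, ∑ j, HahnSeries.C (c i j) * coeffMap iotaK
        (Jser ^ (i : ℕ) * a ^ (j : ℕ) * b ^ (Fintype.card (Q N) - (j : ℕ))) = 0 := by
  set ψ := Fintype.card (Q N) with hψ
  set A' : ↥(Agen N) := ⟨a, ha⟩ with hA'
  set B' : ↥(Agen N) := ⟨b, hb⟩ with hB'
  set JA : ↥(Agen N) := ⟨Jser, Jser_mem_Agen N⟩ with hJA
  have hB0 : ((evA N B' : ↥Hol) : ℍ → ℂ) ≠ 0 := by
    intro h
    have h1 : evA N B' = 0 := Subtype.ext h
    have h2 : B' = 0 := evA_injective N (by rw [h1, map_zero])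
    exact hb0 (congrArg Subtype.val h2)
  obtain ⟨p, hpψ, hrel⟩ :=
    exists_normForm_relation (normSeries_isWMF N A') (normSeries_isWMF N B') hB0
  set m := (Finset.range (ψ + 1)).sup (fun k => (p k).natDegree) with hm
  have hdeg : ∀ k ∈ Finset.range (ψ + 1), (p k).natDegree < m + 1 := fun k hk =>
    Nat.lt_succ_of_le (Finset.le_sup (f := fun k => (p k).natDegree) hk)
  refine ⟨m, fun i j => (p (j : ℕ)).coeff (i : ℕ), ?_, ?_⟩
  · refine ⟨⟨(p ψ).natDegree, hdeg ψ (Finset.mem_range.mpr (Nat.lt_succ_self ψ))⟩, ?_⟩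
    simpa using hpψ
  · have key := evA_linear_rel N (Finset.univ : Finset (Fin (m + 1) × Fin (ψ + 1)))
      (fun x => JA ^ (x.1 : ℕ) * A' ^ (x.2 : ℕ) * B' ^ (ψ - (x.2 : ℕ)))
      (fun x => (p (x.2 : ℕ)).coeff (x.1 : ℕ)) ?_
    · rw [Fintype.sum_prod_type] at key
      exact key
    · intro z
      rw [Fintype.sum_prod_type, Finset.sum_comm]
      have h1 : ∀ j : Fin (ψ + 1), ∑ i : Fin (m + 1), (p (j : ℕ)).coeff (i : ℕ)
            * ((evA N (JA ^ (i : ℕ) * A' ^ (j : ℕ) * B' ^ (ψ - (j : ℕ))) : ↥Hol) : ℍ → ℂ) z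
          = (p (j : ℕ)).eval (jAn z) * ((evA N A' : ↥Hol) : ℍ → ℂ) z ^ (j : ℕ)
            * ((evA N B' : ↥Hol) : ℍ → ℂ) z ^ (ψ - (j : ℕ)) := by
        intro j
        rw [Polynomial.eval_eq_sum_range' (hdeg j (Finset.mem_range.mpr j.2)),
          ← Fin.sum_univ_eq_sum_range (fun i => (p (j : ℕ)).coeff i * jAn z ^ i) (m + 1),
          Finset.sum_mul, Finset.sum_mul]
        refine Finset.sum_congr rfl fun i _ => ?_
        rw [map_mul, map_mul, map_pow, map_pow, map_pow]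
        change (p (j : ℕ)).coeff (i : ℕ)
          * (((evA N JA : ↥Hol) : ℍ → ℂ) z ^ (i : ℕ) * ((evA N A' : ↥Hol) : ℍ → ℂ) z ^ (j : ℕ)
            * ((evA N B' : ↥Hol) : ℍ → ℂ) z ^ (ψ - (j : ℕ))) = _
        rw [normSeries_evA_Jser]
        ring
      rw [Finset.sum_congr rfl fun j _ => h1 j]
      rw [Fin.sum_univ_eq_sum_range (fun k => (p k).eval (jAn z)
        * ((evA N A' : ↥Hol) : ℍ → ℂ) z ^ k * ((evA N B' : ↥Hol) : ℍ → ℂ) z ^ (ψ - k)) (ψ + 1)]
      exact hrel z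

end

end Fermat.Agent.S24Lib
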