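/-
S24, chunk B3 (helper1): `[F : ℚ̄(j)] = |SL₂(ℤ) : Γ₀(N)|` — the final B3 statements.
-/
import Fermat.Agent.Lib.S24.ConjEv
import Fermat.Agent.Lib.S24.NormSeries
import Fermat.Agent.Lib.S24.DegBound

set_option autoImplicit false

namespace Fermat.Agent.S24Lib

open IntermediateField ModularCurve
open Fermat.Agent.LibS23 Fermat.Agent.S20Lib

/-- `F` is finite over `ℚ̄(j)`. -/
theorem finite_JF (N : ℕ) [NeZero N] : Module.Finite Kb⟮JF N⟯ (FN N) :=
  (degB_upper N (Fintype.card (Q N)) fun a ha b hb hb0 => normRel_series N a ha b hb hb0).1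

/-- **`[F : ℚ̄(j)] = |SL₂(ℤ) : Γ₀(N)|`.** -/
theorem finrank_JF (N : ℕ) [NeZero N] :
    Module.finrank Kb⟮JF N⟯ (FN N) = Nat.card (Q N) := by
  haveI := finite_JF N
  have h1 := (degB_upper N (Fintype.card (Q N))
    fun a ha b hb hb0 => normRel_series N a ha b hb hb0).2
  have h2 := degB_lower (K := Kb) (JF N) (conjEv N) (conjEv_injective N)
    (fun i j => by rw [conjEv_JF, conjEv_JF])
    (fun i j c => by rw [conjEv_algebraMap, conjEv_algebraMap])
  rw [Nat.card_eq_fintype_card]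
  omega

end Fermat.Agent.S24Lib
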