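import Mathlib
import Fermat.Prelude.Def_AlgebraicCurve_CanonicalDivisor

/-!
# S24: shared definitions of the abstract (function field) side

* `IsIntVal w` : an exponent-style `ℤ`-valued valuation on a field;
* `zeroPlaces K y` : the places of `F/K` at which `y` vanishes;
* `DiffOrdAt K y` : at each zero of `y`, `ord_v (dy/dt) = ord_v y - 1` for every uniformizer `t`.
-/

set_option autoImplicit false

namespace Fermat.Agent.S24Lib

open AlgebraicCurve

/-- An exponent-style `ℤ`-valued valuation on a field (value at `0` unconstrained). -/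
structure IsIntVal {E : Type*} [Field E] (w : E → ℤ) : Prop where
  map_mul : ∀ a b : E, a ≠ 0 → b ≠ 0 → w (a * b) = w a + w b
  map_add : ∀ a b : E, a ≠ 0 → b ≠ 0 → a + b ≠ 0 → min (w a) (w b) ≤ w (a + b)

/-- The places of `F/K` at which `y` vanishes. -/
def zeroPlaces (K : Type*) {F : Type*} [Field K] [Field F] [Algebra K F] (y : F) :
    Set (Place K F) := {v | 0 < v.ord y}

/-- `y` has the expected differential at each of its zeros: `ord_v(dy/dt) = ord_v(y) - 1`. -/
def DiffOrdAt (K : Type*) {F : Type*} [Field K] [Field F] [Algebra K F] (y : F) : Prop :=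
  KaehlerDifferential.D K F y ≠ 0 ∧
    ∀ v ∈ zeroPlaces K y, ∀ t a : F, v.ord t = 1 →
      KaehlerDifferential.D K F y = a • KaehlerDifferential.D K F t → v.ord a = v.ord y - 1

end Fermat.Agent.S24Lib
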