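/-
S24, chunk B5-formal (helper8): the local datum at the cusp `∞`, on the field
`E_∞ = ℂ((q_N))` of formal Laurent series.  Everything that `localCount_inv` needs besides the
embeddings `σ` is pure algebra here:
* `w = order` is an integer valuation (`cuspF_isIntVal`);
* `lc = leadingCoeff` is multiplicative and nonzero on nonzero elements;
* the twist `α_ζ : a_n ↦ ζ^n a_n` is a ring endomorphism with `w ∘ α = w`,
  `lc (α a) = ζ ^ (w a) * lc a`;
* `δ = q d/dq : a_n ↦ n a_n` is additive, satisfies the Leibniz rule, kills constants, and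
  `δ a ≠ 0`, `w (δ a) = w a` whenever `w a ≠ 0`;
* `ζ_N = e^{2πi/N}` has exact order `N`.
-/
import Mathlib
import Fermat.Agent.Lib.S24.Defs

set_option autoImplicit false

namespace Fermat.Agent.S24Lib

open HahnSeries

/-- coefficientwise multiplication of a Laurent series by a sequence -/
noncomputable def cuspF_diag (c : ℤ → ℂ) (a : LaurentSeries ℂ) : LaurentSeries ℂ where
  coeff n := c n * a.coeff n
  isPWO_support' := a.isPWO_support.mono (fun n hn => by
    simp only [Function.mem_support, ne_eq] at hn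
    exact fun h0 => hn (by rw [h0, mul_zero]))

@[simp]
theorem cuspF_diag_coeff (c : ℤ → ℂ) (a : LaurentSeries ℂ) (n : ℤ) :
    (cuspF_diag c a).coeff n = c n * a.coeff n := rfl

theorem cuspF_diag_support (c : ℤ → ℂ) (a : LaurentSeries ℂ) :
    (cuspF_diag c a).support ⊆ a.support := by
  intro n hn
  simp only [mem_support, cuspF_diag_coeff, ne_eq] at hn ⊢
  exact fun h0 => hn (by rw [h0, mul_zero])

theorem cuspF_diag_zero (c : ℤ → ℂ) : cuspF_diag c 0 = 0 := by
  ext n; simp

theorem cuspF_diag_add (c : ℤ → ℂ) (a b : LaurentSeries ℂ) :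
    cuspF_diag c (a + b) = cuspF_diag c a + cuspF_diag c b := by
  ext n; simp [mul_add]

/-- the coefficients of a product, with the sum taken over larger index sets -/
theorem cuspF_coeff_mul {x y : LaurentSeries ℂ} {s t : Set ℤ} (hs : s.IsPWO) (ht : t.IsPWO)
    (hxs : x.support ⊆ s) (hyt : y.support ⊆ t) (n : ℤ) :
    (x * y).coeff n = ∑ ij ∈ Finset.antidiagonal hs ht n, x.coeff ij.1 * y.coeff ij.2 := by
  rw [HahnSeries.coeff_mul_left' hs hxs]
  apply Finset.sum_subset
  · intro ij hij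
    rw [Finset.mem_antidiagonal] at hij ⊢
    exact ⟨hij.1, hyt hij.2.1, hij.2.2⟩
  · intro ij hij hnot
    rw [Finset.mem_antidiagonal] at hij hnot
    have : y.coeff ij.2 = 0 := by
      by_contra h
      exact hnot ⟨hij.1, h, hij.2.2⟩
    rw [this, mul_zero]

theorem cuspF_diag_mul_coeff (c d : ℤ → ℂ) (a b : LaurentSeries ℂ) (n : ℤ) :
    (cuspF_diag c a * cuspF_diag d b).coeff n
      = ∑ ij ∈ Finset.antidiagonal a.isPWO_support b.isPWO_support n,
          c ij.1 * d ij.2 * (a.coeff ij.1 * b.coeff ij.2) := by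
  rw [cuspF_coeff_mul a.isPWO_support b.isPWO_support (cuspF_diag_support c a)
    (cuspF_diag_support d b)]
  refine Finset.sum_congr rfl fun ij _ => ?_
  simp only [cuspF_diag_coeff]
  ring

/-- multiplicative sequences give multiplicative operators -/
theorem cuspF_diag_mul_of_mul (c : ℤ → ℂ) (hc : ∀ i j, c (i + j) = c i * c j)
    (a b : LaurentSeries ℂ) :
    cuspF_diag c (a * b) = cuspF_diag c a * cuspF_diag c b := by
  ext n
  rw [cuspF_diag_mul_coeff, cuspF_diag_coeff, HahnSeries.coeff_mul, Finset.mul_sum]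
  refine Finset.sum_congr rfl fun ij hij => ?_
  rw [Finset.mem_antidiagonal] at hij
  rw [← hij.2.2, hc]

/-- additive sequences give derivations -/
theorem cuspF_diag_mul_of_add (c : ℤ → ℂ) (hc : ∀ i j, c (i + j) = c i + c j)
    (a b : LaurentSeries ℂ) :
    cuspF_diag c (a * b) = cuspF_diag c a * b + a * cuspF_diag c b := by
  have h1 : cuspF_diag (fun _ => 1) a = a := by ext n; simp
  have h2 : cuspF_diag (fun _ => 1) b = b := by ext n; simp
  ext n
  have e1 : (cuspF_diag c a * b).coeff n = (cuspF_diag c a * cuspF_diag (fun _ => 1) b).coeff n := by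
    rw [h2]
  have e2 : (a * cuspF_diag c b).coeff n = (cuspF_diag (fun _ => 1) a * cuspF_diag c b).coeff n := by
    rw [h1]
  rw [HahnSeries.coeff_add, e1, e2, cuspF_diag_mul_coeff, cuspF_diag_mul_coeff, cuspF_diag_coeff,
    HahnSeries.coeff_mul, Finset.mul_sum, ← Finset.sum_add_distrib]
  refine Finset.sum_congr rfl fun ij hij => ?_
  rw [Finset.mem_antidiagonal] at hij
  rw [← hij.2.2, hc]
  ring

/-! ### the valuation and the leading coefficient -/

theorem cuspF_isIntVal : IsIntVal (fun a : LaurentSeries ℂ => a.order) where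
  map_mul _ _ ha hb := HahnSeries.order_mul ha hb
  map_add _ _ _ _ hab := HahnSeries.min_order_le_order_add hab

theorem cuspF_lc_mul (a b : LaurentSeries ℂ) :
    (a * b).leadingCoeff = a.leadingCoeff * b.leadingCoeff :=
  HahnSeries.leadingCoeff_mul a b

theorem cuspF_lc_ne {a : LaurentSeries ℂ} (ha : a ≠ 0) : a.leadingCoeff ≠ 0 :=
  HahnSeries.leadingCoeff_ne_zero.mpr ha

/-- an operator `a_n ↦ c n * a_n` with `c (order a) ≠ 0` preserves the order -/
theorem cuspF_diag_order (c : ℤ → ℂ) {a : LaurentSeries ℂ} (ha : a ≠ 0) (hc : c a.order ≠ 0) :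
    cuspF_diag c a ≠ 0 ∧ (cuspF_diag c a).order = a.order := by
  have hcoeff : (cuspF_diag c a).coeff a.order ≠ 0 := by
    rw [cuspF_diag_coeff]
    exact mul_ne_zero hc (fun h0 => ha (HahnSeries.coeff_order_eq_zero.mp h0))
  have hne : cuspF_diag c a ≠ 0 := HahnSeries.ne_zero_of_coeff_ne_zero hcoeff
  refine ⟨hne, le_antisymm (HahnSeries.order_le_of_coeff_ne_zero hcoeff) ?_⟩
  apply HahnSeries.order_le_of_coeff_ne_zero
  have h : (cuspF_diag c a).coeff (cuspF_diag c a).order ≠ 0 :=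
    fun h0 => hne (HahnSeries.coeff_order_eq_zero.mp h0)
  rw [cuspF_diag_coeff] at h
  exact right_ne_zero_of_mul h

/-! ### the twist `a_n ↦ ζ^n a_n` -/

/-- the ring endomorphism `q ↦ ζ q` of `ℂ((q))`. -/
noncomputable def cuspF_twist (ζ : ℂ) (hζ : ζ ≠ 0) : LaurentSeries ℂ →+* LaurentSeries ℂ where
  toFun := cuspF_diag (fun n => ζ ^ n)
  map_one' := by
    ext n
    rw [cuspF_diag_coeff, HahnSeries.coeff_one]
    split_ifs with h
    · subst h; simp
    · simp
  map_mul' := cuspF_diag_mul_of_mul _ (fun i j => zpow_add₀ hζ i j)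
  map_zero' := cuspF_diag_zero _
  map_add' := cuspF_diag_add _

theorem cuspF_twist_coeff (ζ : ℂ) (hζ : ζ ≠ 0) (a : LaurentSeries ℂ) (n : ℤ) :
    (cuspF_twist ζ hζ a).coeff n = ζ ^ n * a.coeff n := rfl

theorem cuspF_twist_order (ζ : ℂ) (hζ : ζ ≠ 0) {a : LaurentSeries ℂ} (ha : a ≠ 0) :
    (cuspF_twist ζ hζ a).order = a.order :=
  (cuspF_diag_order _ ha (zpow_ne_zero _ hζ)).2

theorem cuspF_twist_lc (ζ : ℂ) (hζ : ζ ≠ 0) {a : LaurentSeries ℂ} (ha : a ≠ 0) :
    (cuspF_twist ζ hζ a).leadingCoeff = ζ ^ a.order * a.leadingCoeff := by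
  rw [HahnSeries.leadingCoeff_eq, cuspF_twist_order ζ hζ ha, cuspF_twist_coeff,
    HahnSeries.leadingCoeff_eq]

/-! ### the derivation `q d/dq` -/

/-- `q d/dq` on `ℂ((q))`. -/
noncomputable def cuspF_deriv (a : LaurentSeries ℂ) : LaurentSeries ℂ :=
  cuspF_diag (fun n => (n : ℂ)) a

theorem cuspF_deriv_coeff (a : LaurentSeries ℂ) (n : ℤ) :
    (cuspF_deriv a).coeff n = n * a.coeff n := rfl

theorem cuspF_deriv_add (a b : LaurentSeries ℂ) :
    cuspF_deriv (a + b) = cuspF_deriv a + cuspF_deriv b := cuspF_diag_add _ a b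

theorem cuspF_deriv_mul (a b : LaurentSeries ℂ) :
    cuspF_deriv (a * b) = cuspF_deriv a * b + a * cuspF_deriv b :=
  cuspF_diag_mul_of_add _ (fun i j => by push_cast; ring) a b

theorem cuspF_deriv_C (c : ℂ) : cuspF_deriv (HahnSeries.C c) = 0 := by
  ext n
  rw [cuspF_deriv_coeff, HahnSeries.coeff_zero, HahnSeries.C_apply, HahnSeries.coeff_single]
  split_ifs with h
  · subst h; simp
  · simp

theorem cuspF_deriv_order {a : LaurentSeries ℂ} (ha : a ≠ 0) (hw : a.order ≠ 0) :
    cuspF_deriv a ≠ 0 ∧ (cuspF_deriv a).order = a.order - 0 := by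
  rw [sub_zero]
  exact cuspF_diag_order _ ha (by exact_mod_cast hw)

/-! ### the root of unity -/

/-- `ζ_N = e^{2πi/N}` -/
noncomputable def cuspF_zeta (N : ℕ) : ℂ := Complex.exp (2 * Real.pi * Complex.I / N)

theorem cuspF_zeta_ne_zero (N : ℕ) : cuspF_zeta N ≠ 0 := Complex.exp_ne_zero _

theorem cuspF_zeta_order (N : ℕ) [NeZero N] (k : ℤ) (hk : cuspF_zeta N ^ k = 1) : (N : ℤ) ∣ k :=
  ((Complex.isPrimitiveRoot_exp N (NeZero.ne N)).zpow_eq_one_iff_dvd k).mp hk

end Fermat.Agent.S24Lib
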