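/-
S24, chunk B1 (helper8): the analytic `j`-function takes every value, and has a simple pole
at `i∞` (`j · q → 1`).
-/
import Fermat.Agent.Lib.S24.JAn

set_option autoImplicit false

namespace Fermat.Agent.S24Lib

open UpperHalfPlane ModularForm MatrixGroups Filter EisensteinSeries Derivative
open scoped Manifold Topology
open Fermat.Agent.LibS23 Fermat.Agent.S20Lib

local notation "𝕢" => Function.Periodic.qParam

/-- `j · q → 1` at `i∞` -/
theorem jAn_tendsto :
    Tendsto (fun z : ℍ => jAn z * 𝕢 1 (z : ℂ)) atImInfty (𝓝 1) := by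
  have hP := tendsto_atImInfty_tprod_one_sub_eta_q_pow
  have h4 := simple_tendsto_E4.pow 3
  have h := h4.div hP one_ne_zero
  simp only [one_pow, div_one] at h
  refine h.congr fun z => ?_
  have hΔ := discriminant_ne_zero z
  have hq := discriminant_eq_q_prod z
  have hq0 : 𝕢 1 (z : ℂ) ≠ 0 := by
    intro h0
    rw [h0, zero_mul] at hq
    exact hΔ hq
  have hP0 : (∏' n, (1 - eta_q n z) ^ 24) ≠ 0 := by
    intro h0
    rw [h0, mul_zero] at hq
    exact hΔ hq
  unfold jAn
  rw [hq]
  simp only [Pi.div_apply]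
  field_simp

/-- `Δ → 0` and `E₄³ - c Δ → 1` at `i∞` -/
theorem jAn_tendsto_aux (c : ℂ) :
    Tendsto (fun z : ℍ => ModularForm.discriminant z
      / (E₄ z ^ 3 - c * ModularForm.discriminant z)) atImInfty (𝓝 0) := by
  have h1 := (simple_tendsto_E4.pow 3).sub (simple_tendsto_discriminant.const_mul c)
  have e : ((1 : ℂ) ^ 3 - c * 0) = 1 := by ring
  rw [e] at h1
  have h := simple_tendsto_discriminant.div h1 one_ne_zero
  rw [zero_div] at h
  exact h

/-- the analytic `j`-function takes every complex value -/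
theorem jAn_surjective : Function.Surjective jAn := by
  intro c
  by_contra hc
  rw [not_exists] at hc
  have hF0 : ∀ z : ℍ, E₄ z ^ 3 - c * ModularForm.discriminant z ≠ 0 := by
    intro z h0
    apply hc z
    have hΔ := discriminant_ne_zero z
    unfold jAn
    rw [div_eq_iff hΔ]
    linear_combination h0
  set g : ℍ → ℂ := fun z => ModularForm.discriminant z
      / (E₄ z ^ 3 - c * ModularForm.discriminant z) with hg
  have hFm : MDiff (fun z : ℍ => E₄ z ^ 3 - c * ModularForm.discriminant z) := by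
    have h1 : MDiff ((⇑E₄ : ℍ → ℂ) ^ 3 - c • (ModularForm.discriminant : ℍ → ℂ)) :=
      jAn_mdiff_E4_cube.sub (jAn_mdiff_discriminant.const_smul c)
    exact h1
  have hgm : MDiff g := jAn_mdiff_div jAn_mdiff_discriminant hFm hF0
  have hinv : ∀ (γ : SL(2, ℤ)) (u : ℍ), g (γ • u) = g u := by
    intro γ u
    have hd : denom γ u ≠ 0 := denom_ne_zero _ u
    have h4 := jAn_isLO_smul simple_isLO_E4 γ u
    have h12 := jAn_isLO_smul simple_isLO_discriminant γ u
    have e12 : (denom γ u ^ (4 : ℤ)) ^ 3 = denom γ u ^ (12 : ℤ) := by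
      rw [← zpow_natCast (denom γ u ^ (4 : ℤ)) 3, ← zpow_mul]
      norm_num
    simp only [hg]
    rw [h4, h12, mul_pow, e12, ← mul_assoc, ← sub_mul]
    exact mul_div_mul_right _ _ (zpow_ne_zero _ hd)
  have hlim : Tendsto g atImInfty (𝓝 0) := jAn_tendsto_aux c
  have hconst := Fermat.Agent.S21Lib.maxMod_const 1 g hgm
    (fun γ _ u => by rw [hinv γ u]) (fun γ _ _ u => hinv γ u)
    (fun δ => ⟨0, hlim.congr fun w => (hinv δ w).symm⟩)
  have hz0 : g UpperHalfPlane.I = 0 := by
    have h1 : Tendsto g atImInfty (𝓝 (g UpperHalfPlane.I)) :=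
      tendsto_const_nhds.congr fun w => hconst UpperHalfPlane.I w
    exact tendsto_nhds_unique h1 hlim
  simp only [hg] at hz0
  rcases div_eq_zero_iff.mp hz0 with h | h
  · exact discriminant_ne_zero _ h
  · exact hF0 _ h

end Fermat.Agent.S24Lib
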