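/-
S24, chunk B5 (helper8): the `q_N`-Laurent expansion at `i∞` of `N`-periodic holomorphic
functions of moderate growth.
* `CuspMer N F` : `F` is `N`-periodic, holomorphic on `ℍ`, of moderate growth at `i∞`;
* `cuspLaurent N F : LaurentSeries ℂ` : its `q_N`-Laurent expansion; additive, multiplicative,
  injective on `CuspMer N`; constants go to constants;
* `holInf N : Subalgebra ℂ Hol` and the bundled ring hom `cuspExp N : holInf N →+* ℂ((q_N))`;
* `cuspExp_shift` : translation by `1` is the coefficient twist by `ζ_N`;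
* `cuspExp_jAn_order` : `j` has a pole of order `N` in `q_N`.
-/
import Fermat.Agent.Lib.S24.CuspFormal
import Fermat.Agent.Lib.S24.ModGrowth
import Fermat.Agent.Lib.S24.JAnSurj
import Fermat.Agent.Lib.S20.Cusp
import Fermat.Agent.Lib.S24.HolBase

set_option autoImplicit false
set_option linter.unusedSectionVars false

namespace Fermat.Agent.S24Lib

open UpperHalfPlane ModularForm MatrixGroups Filter
open scoped Manifold Topology
open Fermat.Agent.LibS23 Fermat.Agent.S20Lib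

local notation "𝕢" => Function.Periodic.qParam
local notation "Δf" => (ModularForm.discriminant : ℍ → ℂ)

variable (N : ℕ) [NeZero N]

/-- `N`-periodic holomorphic functions of moderate growth at `i∞`. -/
def CuspMer (F : ℍ → ℂ) : Prop :=
  Function.Periodic (F ∘ ofComplex) (N : ℝ) ∧ MDiff F ∧ ModGrowth F

variable {N}

namespace CuspMer

variable {F G : ℍ → ℂ}

theorem of_cuspQExp (hF : CuspQExp N F) : CuspMer N F := ⟨hF.1, hF.2.1, ModGrowth.of_bdd hF.2.2⟩

theorem add (hF : CuspMer N F) (hG : CuspMer N G) : CuspMer N (F + G) := by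
  refine ⟨?_, hF.2.1.add hG.2.1, hF.2.2.add hG.2.2⟩
  intro w
  have h1 := hF.1 w
  have h2 := hG.1 w
  simp only [Function.comp_apply, Pi.add_apply] at h1 h2 ⊢
  rw [h1, h2]

theorem mul (hF : CuspMer N F) (hG : CuspMer N G) : CuspMer N (F * G) := by
  refine ⟨?_, hF.2.1.mul hG.2.1, hF.2.2.mul hG.2.2⟩
  intro w
  have h1 := hF.1 w
  have h2 := hG.1 w
  simp only [Function.comp_apply, Pi.mul_apply] at h1 h2 ⊢
  rw [h1, h2]

theorem const (c : ℂ) : CuspMer N (fun _ : ℍ => c) :=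
  ⟨fun _ => rfl, mdifferentiable_const, ModGrowth.const c⟩

end CuspMer

/-- powers of `Δ` have `q_N`-expansions -/
theorem cuspLaurent_disc_pow (M : ℕ) : CuspQExp N (Δf ^ M) :=
  CuspQExp.of_qExp (QExp.discriminant.pow M)

theorem cuspLaurent_disc : CuspQExp N Δf := CuspQExp.of_qExp QExp.discriminant

theorem cuspLaurent_qExpansion_disc_pow (M : ℕ) :
    qExpansion (N : ℝ) (Δf ^ M) = qExpansion (N : ℝ) Δf ^ M := by
  induction M with
  | zero =>
    rw [pow_zero, pow_zero]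
    exact qExpansion_one (N : ℝ)
  | succ M ih =>
    rw [pow_succ, pow_succ, CuspQExp.qExpansion_mul (cuspLaurent_disc_pow M) cuspLaurent_disc, ih]

/-- `Δ^M · F` has a `q_N`-expansion as soon as it is bounded -/
theorem CuspMer.cuspQExp {F : ℍ → ℂ} (hF : CuspMer N F) {M : ℕ}
    (hM : IsBoundedAtImInfty (Δf ^ M * F)) : CuspQExp N (Δf ^ M * F) := by
  refine ⟨?_, (cuspLaurent_disc_pow (N := N) M).2.1.mul hF.2.1, hM⟩
  intro w
  have h1 := (cuspLaurent_disc_pow (N := N) M).1 w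
  have h2 := hF.1 w
  simp only [Function.comp_apply, Pi.mul_apply] at h1 h2 ⊢
  rw [h1, h2]

variable (N)

/-- the `q_N`-expansion of `Δ`, as a Laurent series -/
noncomputable def cuspD : LaurentSeries ℂ :=
  HahnSeries.ofPowerSeries ℤ ℂ (qExpansion (N : ℝ) Δf)

theorem cuspD_ne_zero : cuspD N ≠ 0 := by
  intro h
  have h0 : qExpansion (N : ℝ) Δf = 0 := by
    apply HahnSeries.ofPowerSeries_injective (Γ := ℤ) (R := ℂ)
    rw [map_zero]
    exact h
  have hs := (cuspLaurent_disc (N := N)).hasSum UpperHalfPlane.I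
  rw [h0] at hs
  simp only [map_zero, zero_smul] at hs
  exact discriminant_ne_zero _ (hs.unique hasSum_zero)

open Classical in
/-- the `q_N`-Laurent expansion at `i∞`. -/
noncomputable def cuspLaurent (F : ℍ → ℂ) : LaurentSeries ℂ :=
  if h : ModGrowth F then
    HahnSeries.ofPowerSeries ℤ ℂ (qExpansion (N : ℝ) (Δf ^ h.choose * F))
      * (cuspD N ^ h.choose)⁻¹
  else 0

variable {N}

/-- the defining property, for every exponent `M` that kills the pole -/
theorem cuspLaurent_spec {F : ℍ → ℂ} (hF : CuspMer N F) {M : ℕ}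
    (hM : IsBoundedAtImInfty (Δf ^ M * F)) :
    HahnSeries.ofPowerSeries ℤ ℂ (qExpansion (N : ℝ) (Δf ^ M * F)) = cuspLaurent N F * cuspD N ^ M := by
  have hD := cuspD_ne_zero N
  unfold cuspLaurent
  rw [dif_pos hF.2.2]
  set M0 := hF.2.2.choose with hM0def
  have hM0 : IsBoundedAtImInfty (Δf ^ M0 * F) := hF.2.2.choose_spec
  have e : Δf ^ M * (Δf ^ M0 * F) = Δf ^ M0 * (Δf ^ M * F) := by ring
  have h1 := CuspQExp.qExpansion_mul (cuspLaurent_disc_pow (N := N) M) (hF.cuspQExp hM0)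
  have h2 := CuspQExp.qExpansion_mul (cuspLaurent_disc_pow (N := N) M0) (hF.cuspQExp hM)
  rw [e, h2, cuspLaurent_qExpansion_disc_pow, cuspLaurent_qExpansion_disc_pow] at h1
  have h3 := congrArg (HahnSeries.ofPowerSeries ℤ ℂ) h1
  simp only [map_mul, map_pow] at h3
  change cuspD N ^ M0 * _ = cuspD N ^ M * _ at h3
  have hD0 : cuspD N ^ M0 ≠ 0 := pow_ne_zero _ hD
  field_simp
  linear_combination h3

theorem cuspLaurent_add {F G : ℍ → ℂ} (hF : CuspMer N F) (hG : CuspMer N G) :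
    cuspLaurent N (F + G) = cuspLaurent N F + cuspLaurent N G := by
  obtain ⟨M1, hM1⟩ := hF.2.2
  obtain ⟨M2, hM2⟩ := hG.2.2
  have h1 : IsBoundedAtImInfty (Δf ^ (M1 + M2) * F) := ModGrowth.mono (Nat.le_add_right _ _) hM1
  have h2 : IsBoundedAtImInfty (Δf ^ (M1 + M2) * G) := ModGrowth.mono (Nat.le_add_left _ _) hM2
  have h3 : IsBoundedAtImInfty (Δf ^ (M1 + M2) * (F + G)) := by
    rw [mul_add]; exact h1.add h2
  have e := CuspQExp.qExpansion_add (hF.cuspQExp h1) (hG.cuspQExp h2)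
  rw [← mul_add] at e
  have e' := congrArg (HahnSeries.ofPowerSeries ℤ ℂ) e
  rw [map_add, cuspLaurent_spec (hF.add hG) h3, cuspLaurent_spec hF h1, cuspLaurent_spec hG h2, ← add_mul]
    at e'
  exact mul_right_cancel₀ (pow_ne_zero _ (cuspD_ne_zero N)) e'

theorem cuspLaurent_mul {F G : ℍ → ℂ} (hF : CuspMer N F) (hG : CuspMer N G) :
    cuspLaurent N (F * G) = cuspLaurent N F * cuspLaurent N G := by
  obtain ⟨M1, hM1⟩ := hF.2.2
  obtain ⟨M2, hM2⟩ := hG.2.2
  have e0 : Δf ^ (M1 + M2) * (F * G) = (Δf ^ M1 * F) * (Δf ^ M2 * G) := by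
    rw [pow_add]; ring
  have h3 : IsBoundedAtImInfty (Δf ^ (M1 + M2) * (F * G)) := by
    rw [e0]; exact hM1.mul hM2
  have e := CuspQExp.qExpansion_mul (hF.cuspQExp hM1) (hG.cuspQExp hM2)
  rw [← e0] at e
  have e' := congrArg (HahnSeries.ofPowerSeries ℤ ℂ) e
  rw [map_mul, cuspLaurent_spec (hF.mul hG) h3, cuspLaurent_spec hF hM1, cuspLaurent_spec hG hM2] at e'
  have hD : cuspD N ^ (M1 + M2) ≠ 0 := pow_ne_zero _ (cuspD_ne_zero N)
  apply mul_right_cancel₀ hD
  rw [e', pow_add]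
  ring

/-- functions with a `q_N`-power series expansion -/
theorem cuspLaurent_of_cuspQExp {F : ℍ → ℂ} (hF : CuspQExp N F) :
    cuspLaurent N F = HahnSeries.ofPowerSeries ℤ ℂ (qExpansion (N : ℝ) F) := by
  have h0 : IsBoundedAtImInfty (Δf ^ 0 * F) := by simpa using hF.2.2
  have h := cuspLaurent_spec (CuspMer.of_cuspQExp hF) h0
  simp only [pow_zero, one_mul, mul_one] at h
  exact h.symm

theorem cuspLaurent_const (c : ℂ) : cuspLaurent N (fun _ : ℍ => c) = HahnSeries.C c := by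
  have hq : CuspQExp N (fun _ : ℍ => c) := CuspQExp.of_qExp (QExp.const c)
  rw [cuspLaurent_of_cuspQExp hq]
  have hc : qExpansion (N : ℝ) (fun _ : ℍ => c) = PowerSeries.C c := by
    ext n
    rw [hq.coeff_unique (c := fun n => if n = 0 then c else 0) (fun z => ?_) n, PowerSeries.coeff_C]
    convert hasSum_ite_eq (0 : ℕ) c using 2 with m
    split_ifs with h
    · subst h; simp
    · simp
  rw [hc]
  exact HahnSeries.ofPowerSeries_C c

theorem cuspLaurent_eq_zero_iff {F : ℍ → ℂ} (hF : CuspMer N F) : cuspLaurent N F = 0 ↔ F = 0 := by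
  obtain ⟨M, hM⟩ := hF.2.2
  have hs := cuspLaurent_spec hF hM
  constructor
  · intro h
    rw [h, zero_mul] at hs
    have h0 : qExpansion (N : ℝ) (Δf ^ M * F) = 0 := by
      apply HahnSeries.ofPowerSeries_injective (Γ := ℤ) (R := ℂ)
      rw [map_zero]
      exact hs
    ext z
    have hsum := (hF.cuspQExp hM).hasSum z
    rw [h0] at hsum
    simp only [map_zero, zero_smul] at hsum
    have hz := hsum.unique hasSum_zero
    simp only [Pi.mul_apply, Pi.pow_apply, mul_eq_zero] at hz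
    rcases hz with hz | hz
    · exact absurd hz (pow_ne_zero M (discriminant_ne_zero z))
    · exact hz
  · intro h
    subst h
    have hq : CuspQExp N (0 : ℍ → ℂ) := CuspQExp.zero
    rw [cuspLaurent_of_cuspQExp hq, qExpansion_zero, map_zero]

theorem cuspLaurent_injective {F G : ℍ → ℂ} (hF : CuspMer N F) (hG : CuspMer N G)
    (h : cuspLaurent N F = cuspLaurent N G) : F = G := by
  have hG' : CuspMer N ((fun _ : ℍ => (-1 : ℂ)) * G) := (CuspMer.const (-1)).mul hG
  have hH : CuspMer N (F + (fun _ : ℍ => (-1 : ℂ)) * G) := hF.add hG'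
  have h0 : cuspLaurent N (F + (fun _ : ℍ => (-1 : ℂ)) * G) = 0 := by
    rw [cuspLaurent_add hF hG', cuspLaurent_mul (CuspMer.const (-1)) hG, cuspLaurent_const, h,
      map_neg, map_one]
    ring
  have h1 := (cuspLaurent_eq_zero_iff hH).mp h0
  ext z
  have h2 := congrFun h1 z
  simp only [Pi.add_apply, Pi.mul_apply, Pi.zero_apply] at h2
  linear_combination h2

/-! ### translation by `1` -/

theorem cuspLaurent_ofPS_coeff_nat (P : PowerSeries ℂ) (n : ℕ) :
    (HahnSeries.ofPowerSeries ℤ ℂ P).coeff (n : ℤ) = P.coeff n :=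
  HahnSeries.ofPowerSeries_apply_coeff P n

theorem cuspLaurent_ofPS_coeff_neg (P : PowerSeries ℂ) {k : ℤ} (hk : k < 0) :
    (HahnSeries.ofPowerSeries ℤ ℂ P).coeff k = 0 := by
  rw [HahnSeries.ofPowerSeries_apply]
  refine HahnSeries.embDomain_of_notMem_range ?_
  rintro ⟨m, rfl⟩
  exact absurd hk (not_lt.mpr (Int.natCast_nonneg m))

theorem cuspLaurent_qParam_vadd (z : ℍ) :
    𝕢 (N : ℝ) (((1 : ℝ) +ᵥ z : ℍ) : ℂ) = cuspF_zeta N * 𝕢 (N : ℝ) (z : ℂ) := by
  have hN : (N : ℂ) ≠ 0 := Nat.cast_ne_zero.mpr (NeZero.ne N)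
  rw [cuspF_zeta, Function.Periodic.qParam, Function.Periodic.qParam, ← Complex.exp_add]
  congr 1
  rw [UpperHalfPlane.coe_vadd]
  push_cast
  field_simp

/-- the `q_N`-expansion of a translate -/
theorem cuspLaurent_qExpansion_vadd {H H' : ℍ → ℂ} (hH : CuspQExp N H) (hH' : CuspQExp N H')
    (h : ∀ z : ℍ, H' z = H ((1 : ℝ) +ᵥ z)) (n : ℕ) :
    (qExpansion (N : ℝ) H').coeff n = cuspF_zeta N ^ n * (qExpansion (N : ℝ) H).coeff n := by
  refine hH'.coeff_unique (c := fun n => cuspF_zeta N ^ n * (qExpansion (N : ℝ) H).coeff n)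
    (fun z => ?_) n
  have hs := hH.hasSum ((1 : ℝ) +ᵥ z)
  rw [cuspLaurent_qParam_vadd, ← h z] at hs
  convert hs using 2 with m
  simp only [smul_eq_mul]
  ring

theorem cuspLaurent_ofPS_vadd {H H' : ℍ → ℂ} (hH : CuspQExp N H) (hH' : CuspQExp N H')
    (h : ∀ z : ℍ, H' z = H ((1 : ℝ) +ᵥ z)) :
    HahnSeries.ofPowerSeries ℤ ℂ (qExpansion (N : ℝ) H')
      = cuspF_twist (cuspF_zeta N) (cuspF_zeta_ne_zero N)
          (HahnSeries.ofPowerSeries ℤ ℂ (qExpansion (N : ℝ) H)) := by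
  ext k
  rw [cuspF_twist_coeff]
  rcases lt_or_ge k 0 with hk | hk
  · rw [cuspLaurent_ofPS_coeff_neg _ hk, cuspLaurent_ofPS_coeff_neg _ hk, mul_zero]
  · obtain ⟨n, rfl⟩ := Int.eq_ofNat_of_zero_le hk
    rw [cuspLaurent_ofPS_coeff_nat, cuspLaurent_ofPS_coeff_nat,
      cuspLaurent_qExpansion_vadd hH hH' h, zpow_natCast]

theorem cuspLaurent_disc_vadd (z : ℍ) :
    ModularForm.discriminant ((1 : ℝ) +ᵥ z) = ModularForm.discriminant z := by
  have h := (QExp.discriminant).1 (z : ℂ)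
  simp only [Function.comp_apply] at h
  have e1 : ((z : ℂ) + 1) = (((1 : ℝ) +ᵥ z : ℍ) : ℂ) := by
    rw [UpperHalfPlane.coe_vadd]; push_cast; ring
  rw [e1, ofComplex_apply, ofComplex_apply] at h
  exact h

theorem cuspD_twist :
    cuspF_twist (cuspF_zeta N) (cuspF_zeta_ne_zero N) (cuspD N) = cuspD N :=
  (cuspLaurent_ofPS_vadd (N := N) cuspLaurent_disc cuspLaurent_disc
    (fun z => (cuspLaurent_disc_vadd z).symm)).symm

/-- translation by `1` twists the `q_N`-Laurent expansion by `ζ_N` -/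
theorem cuspLaurent_vadd {F G : ℍ → ℂ} (hF : CuspMer N F) (hG : CuspMer N G)
    (h : ∀ z : ℍ, G z = F ((1 : ℝ) +ᵥ z)) :
    cuspLaurent N G = cuspF_twist (cuspF_zeta N) (cuspF_zeta_ne_zero N) (cuspLaurent N F) := by
  obtain ⟨M1, hM1⟩ := hF.2.2
  obtain ⟨M2, hM2⟩ := hG.2.2
  have h1 : IsBoundedAtImInfty (Δf ^ (M1 + M2) * F) := ModGrowth.mono (Nat.le_add_right _ _) hM1
  have h2 : IsBoundedAtImInfty (Δf ^ (M1 + M2) * G) := ModGrowth.mono (Nat.le_add_left _ _) hM2
  have hrel : ∀ z : ℍ, (Δf ^ (M1 + M2) * G) z = (Δf ^ (M1 + M2) * F) ((1 : ℝ) +ᵥ z) := by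
    intro z
    simp only [Pi.mul_apply, Pi.pow_apply]
    rw [h z, cuspLaurent_disc_vadd]
  have e := cuspLaurent_ofPS_vadd (hF.cuspQExp h1) (hG.cuspQExp h2) hrel
  rw [cuspLaurent_spec hG h2, cuspLaurent_spec hF h1, map_mul, map_pow, cuspD_twist] at e
  exact mul_right_cancel₀ (pow_ne_zero _ (cuspD_ne_zero N)) e

/-! ### the pole of `j` -/

theorem cuspLaurent_order_eq {x : LaurentSeries ℂ} {n : ℤ} (h1 : x.coeff n ≠ 0)
    (h2 : ∀ k < n, x.coeff k = 0) : x.order = n := by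
  have hx : x ≠ 0 := HahnSeries.ne_zero_of_coeff_ne_zero h1
  refine le_antisymm (HahnSeries.order_le_of_coeff_ne_zero h1) ?_
  by_contra hlt
  rw [not_le] at hlt
  exact hx (HahnSeries.coeff_order_eq_zero.mp (h2 _ hlt))

theorem cuspD_order : (cuspD N).order = (N : ℤ) := by
  have hq : QExp Δf := QExp.discriminant
  have h0 : (qx Δf).coeff 0 = 0 := by
    have := simple_tendsto_coeff_zero hq
    exact tendsto_nhds_unique this simple_tendsto_discriminant
  apply cuspLaurent_order_eq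
  · rw [cuspD, cuspLaurent_ofPS_coeff_nat, CuspQExp.coeff_of_qExp hq, if_pos dvd_rfl,
      Nat.div_self (NeZero.pos N)]
    have h1 : (qExpansion 1 Δf).coeff 1 = 1 := discriminant_qExpansion_coeff_one
    rw [h1]
    exact one_ne_zero
  · intro k hk
    rcases lt_or_ge k 0 with hk0 | hk0
    · exact cuspLaurent_ofPS_coeff_neg _ hk0
    · obtain ⟨n, rfl⟩ := Int.eq_ofNat_of_zero_le hk0
      have hn : n < N := by exact_mod_cast hk
      rw [cuspD, cuspLaurent_ofPS_coeff_nat, CuspQExp.coeff_of_qExp hq]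
      split_ifs with hd
      · have hn0 : n = 0 := Nat.eq_zero_of_dvd_of_lt hd hn
        subst hn0
        simpa using h0
      · rfl

theorem cuspMer_jAn : CuspMer N jAn := by
  refine ⟨?_, jAn_mdiff, ⟨1, ?_⟩⟩
  · have hper : Function.Periodic (jAn ∘ ofComplex) (1 : ℝ) := by
      intro w
      by_cases! hw : 0 < Complex.im w
      · have hw' : 0 < Complex.im (w + (1 : ℝ)) := by simp [hw]
        simp only [Function.comp_apply, ofComplex_apply_of_im_pos hw',
          ofComplex_apply_of_im_pos hw]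
        have h := jAn_smul ModularGroup.T ⟨w, hw⟩
        rw [UpperHalfPlane.modular_T_smul] at h
        rw [← h]
        congr 1
        ext
        simp [add_comm]
      · have : Complex.im (w + (1 : ℝ)) ≤ 0 := by simpa using hw
        rw [Function.comp_apply, Function.comp_apply, ofComplex_apply_of_im_nonpos this,
          ofComplex_apply_of_im_nonpos hw]
    have := hper.nat_mul N
    simpa using this
  · have e : Δf ^ 1 * jAn = (⇑E₄ : ℍ → ℂ) ^ 3 := by
      ext z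
      simp only [pow_one, Pi.mul_apply, Pi.pow_apply]
      rw [mul_comm]
      exact jAn_mul_discriminant z
    rw [e]
    exact ((QExp.of_levelOne E₄).pow 3).2.2

theorem cuspLaurent_jAn_order : (cuspLaurent N jAn).order = -(N : ℤ) := by
  have hq4 : QExp ((⇑E₄ : ℍ → ℂ) ^ 3) := (QExp.of_levelOne E₄).pow 3
  have e : Δf ^ 1 * jAn = (⇑E₄ : ℍ → ℂ) ^ 3 := by
    ext z
    simp only [pow_one, Pi.mul_apply, Pi.pow_apply]
    rw [mul_comm]
    exact jAn_mul_discriminant z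
  have hb : IsBoundedAtImInfty (Δf ^ 1 * jAn) := by rw [e]; exact hq4.2.2
  have hs := cuspLaurent_spec (cuspMer_jAn (N := N)) hb
  rw [e, pow_one] at hs
  have h4 : (HahnSeries.ofPowerSeries ℤ ℂ (qExpansion (N : ℝ) ((⇑E₄ : ℍ → ℂ) ^ 3))).order = 0 := by
    apply cuspLaurent_order_eq
    · have h1 : (qx (⇑E₄ : ℍ → ℂ)).coeff 0 = 1 := EisensteinSeries.E_qExpansion_coeff_zero _ ⟨2, rfl⟩
      have h3 : (qx ((⇑E₄ : ℍ → ℂ) ^ 3)).coeff 0 = 1 := by
        rw [qx_pow (QExp.of_levelOne E₄), PowerSeries.coeff_zero_eq_constantCoeff, map_pow,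
          ← PowerSeries.coeff_zero_eq_constantCoeff, h1, one_pow]
      have := cuspLaurent_ofPS_coeff_nat (qExpansion (N : ℝ) ((⇑E₄ : ℍ → ℂ) ^ 3)) 0
      rw [Nat.cast_zero] at this
      rw [this, CuspQExp.coeff_of_qExp hq4, if_pos (dvd_zero N), Nat.zero_div]
      rw [show qExpansion 1 ((⇑E₄ : ℍ → ℂ) ^ 3) = qx ((⇑E₄ : ℍ → ℂ) ^ 3) from rfl, h3]
      exact one_ne_zero
    · intro k hk
      exact cuspLaurent_ofPS_coeff_neg _ hk
  have hne : HahnSeries.ofPowerSeries ℤ ℂ (qExpansion (N : ℝ) ((⇑E₄ : ℍ → ℂ) ^ 3)) ≠ 0 := by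
    intro h0
    have h1 : (qx (⇑E₄ : ℍ → ℂ)).coeff 0 = 1 := EisensteinSeries.E_qExpansion_coeff_zero _ ⟨2, rfl⟩
    have h3 : (qx ((⇑E₄ : ℍ → ℂ) ^ 3)).coeff 0 = 1 := by
      rw [qx_pow (QExp.of_levelOne E₄), PowerSeries.coeff_zero_eq_constantCoeff, map_pow,
        ← PowerSeries.coeff_zero_eq_constantCoeff, h1, one_pow]
    have := cuspLaurent_ofPS_coeff_nat (qExpansion (N : ℝ) ((⇑E₄ : ℍ → ℂ) ^ 3)) 0
    rw [h0, CuspQExp.coeff_of_qExp hq4, if_pos (dvd_zero N), Nat.zero_div] at this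
    rw [show qExpansion 1 ((⇑E₄ : ℍ → ℂ) ^ 3) = qx ((⇑E₄ : ℍ → ℂ) ^ 3) from rfl, h3] at this
    simp at this
  have hj : cuspLaurent N jAn ≠ 0 := by
    intro h0
    rw [h0, zero_mul] at hs
    exact hne hs
  have ho := HahnSeries.order_mul hj (cuspD_ne_zero N)
  rw [← hs, h4, cuspD_order] at ho
  linarith

/-! ### the bundled version -/

variable (N)

/-- the subalgebra of `Hol` of `N`-periodic functions of moderate growth at `i∞`. -/
def holInf : Subalgebra ℂ ↥Hol where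
  carrier := {f | (∀ z : ℍ, (f : ℍ → ℂ) ((N : ℝ) +ᵥ z) = (f : ℍ → ℂ) z) ∧ ModGrowth (f : ℍ → ℂ)}
  mul_mem' := by
    rintro f g ⟨hf1, hf2⟩ ⟨hg1, hg2⟩
    refine ⟨fun z => ?_, hf2.mul hg2⟩
    change (f : ℍ → ℂ) _ * (g : ℍ → ℂ) _ = (f : ℍ → ℂ) z * (g : ℍ → ℂ) z
    rw [hf1, hg1]
  add_mem' := by
    rintro f g ⟨hf1, hf2⟩ ⟨hg1, hg2⟩
    refine ⟨fun z => ?_, hf2.add hg2⟩
    change (f : ℍ → ℂ) _ + (g : ℍ → ℂ) _ = (f : ℍ → ℂ) z + (g : ℍ → ℂ) z
    rw [hf1, hg1]
  algebraMap_mem' := by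
    intro c
    exact ⟨fun z => rfl, ModGrowth.const c⟩

variable {N}

theorem mem_holInf {N : ℕ} {f : ↥Hol} :
    f ∈ holInf N ↔ (∀ z : ℍ, (f : ℍ → ℂ) ((N : ℝ) +ᵥ z) = (f : ℍ → ℂ) z)
      ∧ ModGrowth (f : ℍ → ℂ) := Iff.rfl

theorem cuspMer_of_mem_holInf {f : ↥Hol} (hf : f ∈ holInf N) : CuspMer N (f : ℍ → ℂ) := by
  refine ⟨?_, f.2, hf.2⟩
  intro w
  by_cases! hw : 0 < Complex.im w
  · have hw' : 0 < Complex.im (w + (N : ℝ)) := by simp [hw]
    simp only [Function.comp_apply, ofComplex_apply_of_im_pos hw', ofComplex_apply_of_im_pos hw]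
    rw [← hf.1 ⟨w, hw⟩]
    apply congrArg
    apply UpperHalfPlane.ext
    rw [UpperHalfPlane.coe_vadd]
    simp [add_comm]
  · have : Complex.im (w + (N : ℝ)) ≤ 0 := by simpa using hw
    rw [Function.comp_apply, Function.comp_apply, ofComplex_apply_of_im_nonpos this,
      ofComplex_apply_of_im_nonpos hw]

variable (N)

/-- the `q_N`-Laurent expansion at `i∞`, as a ring homomorphism. -/
noncomputable def cuspExp : ↥(holInf N) →+* LaurentSeries ℂ where
  toFun f := cuspLaurent N ((f : ↥Hol) : ℍ → ℂ)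
  map_one' := by
    have h := cuspLaurent_const (N := N) 1
    rw [map_one] at h
    exact h
  map_mul' f g := cuspLaurent_mul (cuspMer_of_mem_holInf f.2) (cuspMer_of_mem_holInf g.2)
  map_zero' := by
    have h := cuspLaurent_const (N := N) 0
    rw [map_zero] at h
    exact h
  map_add' f g := cuspLaurent_add (cuspMer_of_mem_holInf f.2) (cuspMer_of_mem_holInf g.2)

theorem cuspExp_apply (f : ↥(holInf N)) :
    cuspExp N f = cuspLaurent N ((f : ↥Hol) : ℍ → ℂ) := rfl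

theorem cuspExp_injective : Function.Injective (cuspExp N) := by
  intro f g h
  apply Subtype.ext
  apply Subtype.ext
  exact cuspLaurent_injective (cuspMer_of_mem_holInf f.2) (cuspMer_of_mem_holInf g.2) h

theorem cuspExp_algebraMap (c : ℂ) :
    cuspExp N (algebraMap ℂ ↥(holInf N) c) = HahnSeries.C c :=
  cuspLaurent_const (N := N) c

theorem cuspExp_shift (f g : ↥(holInf N))
    (h : ∀ z : ℍ, ((g : ↥Hol) : ℍ → ℂ) z = ((f : ↥Hol) : ℍ → ℂ) ((1 : ℝ) +ᵥ z)) :
    cuspExp N g = cuspF_twist (cuspF_zeta N) (cuspF_zeta_ne_zero N) (cuspExp N f) :=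
  cuspLaurent_vadd (cuspMer_of_mem_holInf f.2) (cuspMer_of_mem_holInf g.2) h

theorem jAn_mem_holInf : holMk jAn jAn_mdiff ∈ holInf N := by
  have h := cuspMer_jAn (N := N)
  refine ⟨fun z => ?_, h.2.2⟩
  have hz := h.1 (z : ℂ)
  simp only [Function.comp_apply] at hz
  have e1 : ((z : ℂ) + ((N : ℝ) : ℂ)) = ((((N : ℝ)) +ᵥ z : ℍ) : ℂ) := by
    rw [UpperHalfPlane.coe_vadd]; ring
  rw [e1, ofComplex_apply, ofComplex_apply] at hz
  exact hz

theorem cuspExp_jAn_order :
    (cuspExp N ⟨holMk jAn jAn_mdiff, jAn_mem_holInf N⟩).order = -(N : ℤ) :=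
  cuspLaurent_jAn_order

end Fermat.Agent.S24Lib
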