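import Mathlib

set_option autoImplicit false

namespace Fermat.Agent.S24Lib
open IsDedekindDomain UniqueFactorizationMonoid

section generic

variable {A B : Type*} [CommRing A] [IsDedekindDomain A] [CommRing B] [IsDedekindDomain B]
  [Algebra A B] [Module.Finite A B] [Module.IsTorsionFree A B] [PerfectField (FractionRing A)]

theorem nf_count_relNorm_prime (p : Ideal A) [p.IsMaximal] (hp : p ≠ ⊥)
    (hf : ∀ Q : Ideal B, Q.IsMaximal → Q.under A = p → Q.inertiaDeg A = 1)
    (Q : Ideal B) (hQ : Q.IsPrime) (hQ0 : Q ≠ ⊥) [DecidableEq (Ideal A)] :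
    Multiset.count p (normalizedFactors (Ideal.relNorm A Q)) =
      if Q.under A = p then 1 else 0 := by
  have : Q.IsMaximal := hQ.isMaximal hQ0
  have : (Q.under A).IsMaximal := Ideal.IsMaximal.under A Q
  have hrel := Ideal.relNorm_eq_pow_of_isMaximal Q (Q.under A)
  rw [hrel]
  split_ifs with h
  · rw [hf Q inferInstance h, pow_one, h,
      normalizedFactors_irreducible (Ideal.prime_of_isPrime hp inferInstance).irreducible,
      normalize_eq, Multiset.count_singleton_self]
  · rw [Multiset.count_eq_zero]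
    intro hmem
    have hdvd := dvd_of_mem_normalizedFactors hmem
    rw [Ideal.dvd_iff_le] at hdvd
    have hle : Q.under A ≤ p := Ideal.IsPrime.le_of_pow_le hdvd
    exact h ((Ideal.IsMaximal.eq_of_le inferInstance (Ideal.IsMaximal.ne_top inferInstance) hle))

theorem nf_count_relNorm_prod (p : Ideal A) [p.IsMaximal] (hp : p ≠ ⊥)
    (hf : ∀ Q : Ideal B, Q.IsMaximal → Q.under A = p → Q.inertiaDeg A = 1)
    [DecidableEq (Ideal A)] [DecidablePred fun Q : Ideal B => Q.under A = p]
    (M : Multiset (Ideal B)) (hM : ∀ Q ∈ M, Q.IsPrime ∧ Q ≠ ⊥) :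
    Multiset.count p (normalizedFactors (Ideal.relNorm A M.prod)) =
      Multiset.card (M.filter (fun Q => Q.under A = p)) := by
  induction M using Multiset.induction_on with
  | empty =>
    rw [Multiset.prod_zero, map_one, normalizedFactors_one]
    simp
  | cons Q M ih =>
    have hQ := hM Q (Multiset.mem_cons_self Q M)
    have hM' : ∀ Q' ∈ M, Q'.IsPrime ∧ Q' ≠ ⊥ := fun Q' h => hM Q' (Multiset.mem_cons_of_mem h)
    have h1 : Ideal.relNorm A Q ≠ 0 := by
      rw [Ne, Ideal.zero_eq_bot, Ideal.relNorm_eq_bot_iff]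
      exact hQ.2
    have h2 : Ideal.relNorm A M.prod ≠ 0 := by
      rw [Ne, Ideal.zero_eq_bot, Ideal.relNorm_eq_bot_iff, ← Ideal.zero_eq_bot,
        Multiset.prod_eq_zero_iff]
      intro h0
      exact (hM' _ h0).2 rfl
    rw [Multiset.prod_cons, map_mul, normalizedFactors_mul h1 h2, Multiset.count_add, ih hM',
      nf_count_relNorm_prime p hp hf Q hQ.1 hQ.2, Multiset.filter_cons]
    split_ifs with h
    · simp [add_comm]
    · simp

theorem nf_count_intNorm (p : Ideal A) [p.IsMaximal] (hp : p ≠ ⊥)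
    (hf : ∀ Q : Ideal B, Q.IsMaximal → Q.under A = p → Q.inertiaDeg A = 1)
    [DecidableEq (Ideal A)] [DecidablePred fun Q : Ideal B => Q.under A = p]
    (b : B) (hb : b ≠ 0) :
    Multiset.count p (normalizedFactors (Ideal.span {Algebra.intNorm A B b})) =
      Multiset.card ((normalizedFactors (Ideal.span {b})).filter (fun Q => Q.under A = p)) := by
  have hb' : Ideal.span {b} ≠ ⊥ := by
    rwa [Ne, Ideal.span_singleton_eq_bot]
  have h := nf_count_relNorm_prod p hp hf (normalizedFactors (Ideal.span {b})) (fun Q hQ => by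
    have hpr := prime_of_normalized_factor Q hQ
    exact ⟨Ideal.isPrime_of_prime hpr, hpr.ne_zero⟩)
  rw [Ideal.prod_normalizedFactors_eq_self hb', Ideal.relNorm_singleton] at h
  exact h

end generic


theorem nf_inertiaDeg_eq_one_generic {k A B : Type*} [Field k] [IsAlgClosed k] [CommRing A]
    [CommRing B] [Algebra k A] [Algebra A B] [Module.Finite A B] (p : Ideal A) [p.IsMaximal]
    (hk : Function.Surjective ((Ideal.Quotient.mk p).comp (algebraMap k A)))
    (Q : Ideal B) (hQ : Q.IsMaximal) (hQp : Q.under A = p) : Q.inertiaDeg A = 1 := by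
  have : Q.LiesOver p := ⟨hQp.symm⟩
  have : Q.IsPrime := hQ.isPrime
  have h10 : (1 : B ⧸ Q) ≠ 0 := (Ideal.Quotient.zero_ne_one_iff.mpr hQ.ne_top).symm
  rw [Ideal.inertiaDeg_eq_of_isMaximal p Q]
  let _ : Field (A ⧸ p) := Ideal.Quotient.field _
  rw [finrank_eq_one_iff_of_nonzero' (1 : B ⧸ Q) h10]
  intro w
  let g := algebraMap (A ⧸ p) (B ⧸ Q)
  have hg : g.IsIntegral := algebraMap_isIntegral_iff.mpr inferInstance
  have hbij := IsAlgClosed.ringHom_bijective_of_isIntegral
    (g.comp ((Ideal.Quotient.mk p).comp (algebraMap k A)))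
    (RingHom.IsIntegral.trans _ g (RingHom.isIntegral_of_surjective _ hk) hg)
  obtain ⟨c, hc⟩ := hbij.2 w
  exact ⟨((Ideal.Quotient.mk p).comp (algebraMap k A)) c, by
    rw [Algebra.smul_def, mul_one]; exact hc⟩


end Fermat.Agent.S24Lib
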