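import Mathlib
import Fermat.Agent.Lib.S24.Defs

/-!
# S24, chunk A1a (basic part): order functions of places

Elementary facts about `AlgebraicCurve.Place.ord`:
`isIntVal_ord`, `ord_algebraMap`, `mem_toValuationSubring_iff`, `exists_ord_eq_one`,
`place_ext_ord`.
-/

set_option autoImplicit false

namespace Fermat.Agent.S24Lib

open AlgebraicCurve IntermediateField

variable {K F : Type*} [Field K] [Field F] [Algebra K F]

/-- elements of the valuation ring have nonnegative order -/
theorem ord_nonneg_of_mem (v : Place K F) {f : F} (hf : f ∈ v.toValuationSubring) :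
    0 ≤ v.ord f := by
  rcases eq_or_ne f 0 with rfl | hf0
  · simp
  have h1 : v.adicValuation f ≤ 1 := by
    have := v.adicValuation_coe ⟨f, hf⟩
    rw [show ((⟨f, hf⟩ : v.toValuationSubring) : F) = f from rfl] at this
    rw [this]
    exact IsDedekindDomain.HeightOneSpectrum.intValuation_le_one _ _
  have h2 : WithZero.log (v.adicValuation f) ≤ 0 := by
    rw [WithZero.log_le_iff_le_exp (v.adicValuation_ne_zero hf0)]
    simpa using h1
  simp only [Place.ord]
  omega

theorem mem_toValuationSubring_iff (v : Place K F) {f : F} (hf : f ≠ 0) :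
    f ∈ v.toValuationSubring ↔ 0 ≤ v.ord f := by
  refine ⟨fun h => ord_nonneg_of_mem v h, fun h => ?_⟩
  obtain ⟨π, hπ⟩ := IsDiscreteValuationRing.exists_irreducible v.toValuationSubring
  obtain ⟨u, hu⟩ := v.exists_unit_mul_zpow hf hπ
  rw [hu]
  refine mul_mem (u : v.toValuationSubring).2 ?_
  obtain ⟨n, hn⟩ := Int.eq_ofNat_of_zero_le h
  rw [hn, zpow_natCast]
  exact pow_mem π.2 n

/-- membership in the valuation ring, including `0` -/
theorem mem_toValuationSubring_iff' (v : Place K F) (f : F) :
    f ∈ v.toValuationSubring ↔ f = 0 ∨ 0 ≤ v.ord f := by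
  rcases eq_or_ne f 0 with rfl | hf
  · simp [v.toValuationSubring.zero_mem]
  · simp [hf, mem_toValuationSubring_iff v hf]

theorem isIntVal_ord (v : Place K F) : IsIntVal v.ord where
  map_mul a b ha hb := v.ord_mul ha hb
  map_add a b ha hb hab := by
    have h := v.adicValuation.map_add a b
    have hna := v.adicValuation_ne_zero ha
    have hnb := v.adicValuation_ne_zero hb
    have hnab := v.adicValuation_ne_zero hab
    simp only [Place.ord]
    rcases le_max_iff.mp h with h1 | h1
    · have := (WithZero.log_le_log hnab hna).mpr h1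
      have h3 := min_le_left (-(WithZero.log (v.adicValuation a)))
        (-(WithZero.log (v.adicValuation b)))
      omega
    · have := (WithZero.log_le_log hnab hnb).mpr h1
      have h3 := min_le_right (-(WithZero.log (v.adicValuation a)))
        (-(WithZero.log (v.adicValuation b)))
      omega

theorem ord_algebraMap (v : Place K F) (c : K) : v.ord (algebraMap K F c) = 0 := by
  rcases eq_or_ne c 0 with rfl | hc
  · simp
  have h1 := ord_nonneg_of_mem v (v.algebraMap_mem' c)
  have h2 := ord_nonneg_of_mem v (v.algebraMap_mem' c⁻¹)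
  rw [map_inv₀, v.ord_inv] at h2
  omega

theorem exists_ord_eq_one (v : Place K F) : ∃ t : F, v.ord t = 1 := by
  obtain ⟨π, hπ⟩ := IsDiscreteValuationRing.exists_irreducible v.toValuationSubring
  exact ⟨π, v.ord_coe_irreducible hπ⟩

/-- two places with the same order function are equal -/
theorem place_ext_ord {v v' : Place K F} (h : ∀ f : F, f ≠ 0 → v.ord f = v'.ord f) : v = v' := by
  apply Place.ext
  ext f
  rw [mem_toValuationSubring_iff', mem_toValuationSubring_iff']
  rcases eq_or_ne f 0 with rfl | hf
  · simp
  · rw [h f hf]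

/-- elements of positive order are nonzero -/
theorem ne_zero_of_ord_ne_zero (v : Place K F) {f : F} (hf : v.ord f ≠ 0) : f ≠ 0 := by
  rintro rfl
  simp at hf

/-- order of a difference: the ultrametric inequality with `0` allowed -/
theorem ord_add_ge (v : Place K F) {a b : F} {n : ℤ} (ha : a = 0 ∨ n ≤ v.ord a)
    (hb : b = 0 ∨ n ≤ v.ord b) : a + b = 0 ∨ n ≤ v.ord (a + b) := by
  by_cases hab : a + b = 0
  · exact Or.inl hab
  right
  rcases eq_or_ne a 0 with rfl | ha0
  · rw [zero_add] at hab ⊢
    exact hb.resolve_left hab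
  rcases eq_or_ne b 0 with rfl | hb0
  · rw [add_zero] at hab ⊢
    exact ha.resolve_left hab
  have := (isIntVal_ord v).map_add a b ha0 hb0 hab
  have h1 := ha.resolve_left ha0
  have h2 := hb.resolve_left hb0
  exact le_trans (le_min h1 h2) this

/-- a unit of the valuation ring has order `0`; conversely order `0` elements are units -/
theorem ord_eq_zero_iff_mem_and_inv_mem (v : Place K F) {f : F} (hf : f ≠ 0) :
    v.ord f = 0 ↔ f ∈ v.toValuationSubring ∧ f⁻¹ ∈ v.toValuationSubring := by
  rw [mem_toValuationSubring_iff v hf, mem_toValuationSubring_iff v (inv_ne_zero hf), v.ord_inv]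
  omega

/-- strict ultrametric: if `ord a < ord b` then `ord (a + b) = ord a` -/
theorem ord_add_eq_of_lt (v : Place K F) {a b : F} (ha : a ≠ 0) (hb : b ≠ 0)
    (h : v.ord a < v.ord b) : v.ord (a + b) = v.ord a := by
  have hab : a + b ≠ 0 := by
    intro h0
    have : a = -b := eq_neg_of_add_eq_zero_left h0
    have h1 : v.ord a = v.ord b := by
      rw [this, neg_eq_neg_one_mul, v.ord_mul (by simp) hb]
      have := ord_algebraMap v (-1 : K)
      rw [map_neg, map_one] at this
      rw [this, zero_add]
    omega
  have h1 := (isIntVal_ord v).map_add a b ha hb hab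
  rw [min_eq_left h.le] at h1
  -- a = (a + b) + (-b)
  have hnb : -b ≠ 0 := neg_ne_zero.mpr hb
  have hordnb : v.ord (-b) = v.ord b := by
    rw [neg_eq_neg_one_mul, v.ord_mul (by simp) hb]
    have := ord_algebraMap v (-1 : K)
    rw [map_neg, map_one] at this
    rw [this, zero_add]
  have h2 := (isIntVal_ord v).map_add (a + b) (-b) hab hnb (by simpa using ha)
  rw [add_neg_cancel_right, hordnb] at h2
  rcases min_le_iff.mp h2 with h3 | h3
  · omega
  · omega

end Fermat.Agent.S24Lib
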