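import Mathlib
import Fermat.Agent.Lib.S24.PlacesBasic

/-!
# S24, chunk A1a -> A1b dictionary: places and primes of a Dedekind domain

* `intRing K y` : the integral closure of `K[y]` in `F`;
* `intRing_isDedekindDomain`, `intRing_isFractionRing`;
* `ord_ofHeightOneSpectrum` : the order function of the place attached to a prime;
* `exists_prime_of_mem_zeroPlaces` : every place at which `y` is integral comes from a prime of
  `intRing K y`;
* `ofHeightOneSpectrum_injective`.
-/

set_option autoImplicit false

namespace Fermat.Agent.S24Lib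

open AlgebraicCurve IntermediateField IsDedekindDomain

variable {K F : Type*} [Field K] [IsAlgClosed K] [CharZero K] [Field F] [Algebra K F]

/-- the integral closure of `K[y]` in `F` -/
abbrev intRing (K : Type*) {F : Type*} [Field K] [Field F] [Algebra K F] (y : F) :
    Subalgebra (Algebra.adjoin K {y}) F :=
  integralClosure (Algebra.adjoin K {y}) F

omit [IsAlgClosed K] [CharZero K] in
/-- `K[y]` is a principal ideal ring -/
theorem adjoin_singleton_isPrincipalIdealRing (y : F) :
    IsPrincipalIdealRing (Algebra.adjoin K {y}) := by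
  let φ : Polynomial K →ₐ[K] Algebra.adjoin K {y} :=
    (Polynomial.aeval y).codRestrict (Algebra.adjoin K {y})
      (fun p => Polynomial.aeval_mem_adjoin_singleton K y)
  have hφ : Function.Surjective φ := by
    rintro ⟨a, ha⟩
    rw [Algebra.adjoin_singleton_eq_range_aeval] at ha
    obtain ⟨p, rfl⟩ := ha
    exact ⟨p, Subtype.ext rfl⟩
  exact IsPrincipalIdealRing.of_surjective φ.toRingHom hφ

omit [IsAlgClosed K] [CharZero K] in
theorem adjoin_singleton_isDedekindDomain (y : F) :
    IsDedekindDomain (Algebra.adjoin K {y}) := by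
  haveI := adjoin_singleton_isPrincipalIdealRing (K := K) y
  infer_instance

omit [IsAlgClosed K] in
theorem isSeparable_adjoin_simple (y : F) [Module.Finite K⟮y⟯ F] :
    Algebra.IsSeparable K⟮y⟯ F := by
  haveI : CharZero K⟮y⟯ := charZero_of_injective_algebraMap (algebraMap K K⟮y⟯).injective
  infer_instance

open scoped IntermediateField.algebraAdjoinAdjoin in
omit [IsAlgClosed K] in
theorem intRing_isDedekindDomain' (y : F) [Module.Finite K⟮y⟯ F] :
    IsDedekindDomain (intRing K y) := by
  haveI := adjoin_singleton_isDedekindDomain (K := K) y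
  haveI := isSeparable_adjoin_simple (K := K) y
  exact integralClosure.isDedekindDomain (Algebra.adjoin K {y}) K⟮y⟯ F

theorem intRing_isDedekindDomain (y : F) (hy : Transcendental K y) [Module.Finite K⟮y⟯ F] :
    IsDedekindDomain (intRing K y) :=
  intRing_isDedekindDomain' y

open scoped IntermediateField.algebraAdjoinAdjoin in
omit [IsAlgClosed K] [CharZero K] in
theorem intRing_isFractionRing' (y : F) [Module.Finite K⟮y⟯ F] :
    IsFractionRing (intRing K y) F :=
  integralClosure.isFractionRing_of_finite_extension K⟮y⟯ F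

theorem intRing_isFractionRing (y : F) (hy : Transcendental K y) [Module.Finite K⟮y⟯ F] :
    IsFractionRing (intRing K y) F :=
  intRing_isFractionRing' y

/-- in `ℤᵐ⁰`, `x < 1` implies `x ≤ exp (-1)` -/
theorem withZero_le_exp_neg_one_of_lt_one {x : WithZero (Multiplicative ℤ)} (hx : x < 1) :
    x ≤ WithZero.exp (-1 : ℤ) := by
  rcases eq_or_ne x 0 with rfl | hx0
  · exact zero_le'
  rw [← WithZero.log_le_iff_le_exp hx0]
  have : WithZero.log x < 0 := by
    rw [WithZero.log_lt_iff_lt_exp hx0]
    simpa using hx
  omega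

omit [IsAlgClosed K] [CharZero K] in
theorem mem_ofHeightOneSpectrum_iff {R : Type*} [CommRing R] [IsDedekindDomain R] [Algebra R F]
    [IsFractionRing R F] [Algebra K R] [IsScalarTower K R F] (w : HeightOneSpectrum R) (f : F) :
    f ∈ (Place.ofHeightOneSpectrum (K := K) (F := F) w).toValuationSubring ↔
      w.valuation F f ≤ 1 :=
  Iff.rfl

omit [IsAlgClosed K] [CharZero K] in
/-- the order function of the place attached to a prime of a Dedekind domain -/
theorem ord_ofHeightOneSpectrum {R : Type*} [CommRing R] [IsDedekindDomain R] [Algebra R F]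
    [IsFractionRing R F] [Algebra K R] [IsScalarTower K R F] (w : HeightOneSpectrum R) (f : F) :
    (Place.ofHeightOneSpectrum (K := K) w).ord f = -(WithZero.log (w.valuation F f)) := by
  set v := Place.ofHeightOneSpectrum (K := K) (F := F) w with hv
  rcases eq_or_ne f 0 with rfl | hf
  · simp
  obtain ⟨π0, hπ0⟩ := IsDiscreteValuationRing.exists_irreducible v.toValuationSubring
  obtain ⟨u, hu⟩ := v.exists_unit_mul_zpow hf hπ0
  -- units have valuation one
  have hunit : w.valuation F ((u : v.toValuationSubring) : F) = 1 := by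
    have h1 : w.valuation F ((u : v.toValuationSubring) : F) ≤ 1 :=
      (mem_ofHeightOneSpectrum_iff (K := K) w _).mp (u : v.toValuationSubring).2
    have h2 : w.valuation F (((u⁻¹ : v.toValuationSubringˣ) : v.toValuationSubring) : F) ≤ 1 :=
      (mem_ofHeightOneSpectrum_iff (K := K) w _).mp ((u⁻¹ : v.toValuationSubringˣ) :
        v.toValuationSubring).2
    have h3 : ((u : v.toValuationSubring) : F) *
        (((u⁻¹ : v.toValuationSubringˣ) : v.toValuationSubring) : F) = 1 := by
      have := congrArg (Subtype.val) (u.mul_inv)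
      exact this
    have h4 := congrArg (w.valuation F) h3
    rw [map_mul, map_one] at h4
    refine le_antisymm h1 ?_
    by_contra hlt
    push_neg at hlt
    have : w.valuation F ((u : v.toValuationSubring) : F) *
        w.valuation F (((u⁻¹ : v.toValuationSubringˣ) : v.toValuationSubring) : F) < 1 :=
      calc _ ≤ w.valuation F ((u : v.toValuationSubring) : F) * 1 := by gcongr
        _ < 1 := by rwa [mul_one]
    exact absurd h4 this.ne
  -- the irreducible has valuation exp (-1)
  have hπ0F : (π0 : F) ≠ 0 := by
    simpa [ne_eq, ZeroMemClass.coe_eq_zero] using hπ0.ne_zero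
  have hπ0le : w.valuation F (π0 : F) ≤ 1 := (mem_ofHeightOneSpectrum_iff (K := K) w _).mp π0.2
  have hπ0lt : w.valuation F (π0 : F) < 1 := by
    refine lt_of_le_of_ne hπ0le fun h1 => ?_
    -- then π0⁻¹ is in the valuation ring, so π0 is a unit
    have hinv : (π0 : F)⁻¹ ∈ v.toValuationSubring := by
      rw [mem_ofHeightOneSpectrum_iff, map_inv₀, h1, inv_one]
    exact hπ0.not_isUnit (IsUnit.of_mul_eq_one ⟨(π0 : F)⁻¹, hinv⟩
      (Subtype.ext (by simp [hπ0F])))
  obtain ⟨π, hπ⟩ := w.valuation_exists_uniformizer F
  have hπmem : π ∈ v.toValuationSubring := by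
    rw [mem_ofHeightOneSpectrum_iff, hπ]
    exact le_of_lt (by rw [← WithZero.exp_zero, WithZero.exp_lt_exp]; norm_num)
  have hπ_nonunit : ¬ IsUnit (⟨π, hπmem⟩ : v.toValuationSubring) := by
    rintro ⟨u', hu'⟩
    have h1 : w.valuation F (((u'⁻¹ : v.toValuationSubringˣ) : v.toValuationSubring) : F) ≤ 1 :=
      (mem_ofHeightOneSpectrum_iff (K := K) w _).mp ((u'⁻¹ : v.toValuationSubringˣ) :
        v.toValuationSubring).2
    have h3 : π * (((u'⁻¹ : v.toValuationSubringˣ) : v.toValuationSubring) : F) = 1 := by
      have := congrArg (Subtype.val) (u'.mul_inv)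
      rw [hu'] at this
      exact this
    have h4 := congrArg (w.valuation F) h3
    rw [map_mul, map_one, hπ] at h4
    have : WithZero.exp (-1 : ℤ) *
        w.valuation F (((u'⁻¹ : v.toValuationSubringˣ) : v.toValuationSubring) : F) < 1 :=
      calc _ ≤ WithZero.exp (-1 : ℤ) * 1 := by gcongr
        _ < 1 := by rw [mul_one, ← WithZero.exp_zero, WithZero.exp_lt_exp]; norm_num
    exact absurd h4 this.ne
  have hπ_mem_max : (⟨π, hπmem⟩ : v.toValuationSubring) ∈
      IsLocalRing.maximalIdeal v.toValuationSubring := by
    rwa [IsLocalRing.mem_maximalIdeal, mem_nonunits_iff]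
  rw [hπ0.maximalIdeal_eq, Ideal.mem_span_singleton] at hπ_mem_max
  obtain ⟨z, hz⟩ := hπ_mem_max
  have hz' : π = (π0 : F) * (z : F) := by
    have := congrArg (Subtype.val) hz
    simpa using this
  have hzle : w.valuation F (z : F) ≤ 1 := (mem_ofHeightOneSpectrum_iff (K := K) w _).mp z.2
  have hπ0val : w.valuation F (π0 : F) = WithZero.exp (-1 : ℤ) := by
    refine le_antisymm (withZero_le_exp_neg_one_of_lt_one hπ0lt) ?_
    rw [← hπ, hz', map_mul]
    calc w.valuation F (π0 : F) * w.valuation F (z : F) ≤ w.valuation F (π0 : F) * 1 := by gcongr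
      _ = _ := mul_one _
  have hval : w.valuation F f = WithZero.exp (-(v.ord f)) := by
    conv_lhs => rw [hu]
    rw [map_mul, hunit, one_mul, map_zpow₀, hπ0val, ← WithZero.exp_zsmul]
    congr 1
    simp
  rw [hval, WithZero.log_exp, neg_neg]

omit [IsAlgClosed K] [CharZero K] in
theorem ofHeightOneSpectrum_injective {R : Type*} [CommRing R] [IsDedekindDomain R] [Algebra R F]
    [IsFractionRing R F] [Algebra K R] [IsScalarTower K R F] :
    Function.Injective (Place.ofHeightOneSpectrum (K := K) (F := F) (R := R)) := by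
  intro w w' h
  have h1 : (w.valuation F).valuationSubring = (w'.valuation F).valuationSubring :=
    congrArg Place.toValuationSubring h
  exact HeightOneSpectrum.eq_of_valuation_isEquiv_valuation
    ((Valuation.isEquiv_iff_valuationSubring _ _).mpr h1)


omit [IsAlgClosed K] [CharZero K] in
/-- a place whose valuation ring contains the Dedekind domain `R` (with fraction field `F`)
comes from a prime of `R` -/
theorem exists_prime_of_forall_mem {R : Type*} [CommRing R] [IsDedekindDomain R] [Algebra R F]
    [IsFractionRing R F] [Algebra K R] [IsScalarTower K R F] (v : Place K F)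
    (hR : ∀ r : R, algebraMap R F r ∈ v.toValuationSubring) :
    ∃ w : HeightOneSpectrum R, Place.ofHeightOneSpectrum (K := K) (F := F) w = v := by
  let ι : R →+* v.toValuationSubring := (algebraMap R F).codRestrict v.toValuationSubring hR
  have hι : ∀ r : R, ((ι r : v.toValuationSubring) : F) = algebraMap R F r := fun r => rfl
  let 𝔭 : Ideal R := (IsLocalRing.maximalIdeal v.toValuationSubring).comap ι
  have h𝔭prime : 𝔭.IsPrime := Ideal.IsPrime.comap ι
  have hunit : ∀ r : R, r ∉ 𝔭 → (algebraMap R F r)⁻¹ ∈ v.toValuationSubring := by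
    intro r hr
    have h1 : IsUnit (ι r) := by
      by_contra h
      exact hr (by
        show ι r ∈ IsLocalRing.maximalIdeal v.toValuationSubring
        rwa [IsLocalRing.mem_maximalIdeal, mem_nonunits_iff])
    obtain ⟨u, hu⟩ := h1
    have h2 : (((u⁻¹ : v.toValuationSubringˣ) : v.toValuationSubring) : F) =
        (algebraMap R F r)⁻¹ := by
      rw [← hι r, ← hu]
      have h3 : ((u : v.toValuationSubring) : F) *
          (((u⁻¹ : v.toValuationSubringˣ) : v.toValuationSubring) : F) = 1 :=
        congrArg (Subtype.val) (u.mul_inv)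
      exact eq_inv_of_mul_eq_one_right h3
    rw [← h2]
    exact ((u⁻¹ : v.toValuationSubringˣ) : v.toValuationSubring).2
  have h𝔭ne : 𝔭 ≠ ⊥ := by
    intro hbot
    apply v.ne_top'
    refine SetLike.ext fun x => ⟨fun _ => ValuationSubring.mem_top x, fun _ => ?_⟩
    obtain ⟨a, s, hs, rfl⟩ := IsFractionRing.div_surjective (A := R) x
    have hs0 : s ≠ 0 := nonZeroDivisors.ne_zero hs
    have hsn : s ∉ 𝔭 := by rw [hbot]; simpa using hs0
    rw [div_eq_mul_inv]
    exact mul_mem (hR a) (hunit s hsn)
  let w : HeightOneSpectrum R := ⟨𝔭, h𝔭prime, h𝔭ne⟩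
  have hle : HeightOneSpectrum.valuationSubringAtPrime F w ≤ v.toValuationSubring := by
    rintro x ⟨a, s, hs, rfl⟩
    exact mul_mem (hR a) (hunit s hs)
  have heq := ValuationSubring.eq_of_le_of_ne_top _ hle v.ne_top'
  refine ⟨w, Place.ext ?_⟩
  rw [← heq]
  exact (HeightOneSpectrum.valuationSubringAtPrime_eq_valuationSubring (K := F) w).symm

omit [IsAlgClosed K] [CharZero K] in
/-- valuation rings of places are integrally closed in `F`: elements integral over `K[y]`,
`y` in the valuation ring, are in the valuation ring -/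
theorem mem_of_isIntegral_adjoin (v : Place K F) {y : F} (hy : y ∈ v.toValuationSubring) {b : F}
    (hb : IsIntegral (Algebra.adjoin K {y}) b) : b ∈ v.toValuationSubring := by
  have hA : ∀ a : Algebra.adjoin K {y},
      algebraMap (Algebra.adjoin K {y}) F a ∈ v.toValuationSubring := by
    intro a
    let S : Subalgebra K F :=
      { v.toValuationSubring.toSubring with algebraMap_mem' := v.algebraMap_mem' }
    have hS : Algebra.adjoin K {y} ≤ S := Algebra.adjoin_le (by
      intro z hz
      rw [Set.mem_singleton_iff] at hz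
      rw [hz]
      exact hy)
    exact hS a.2
  let ι : Algebra.adjoin K {y} →+* v.toValuationSubring :=
    (algebraMap (Algebra.adjoin K {y}) F).codRestrict v.toValuationSubring hA
  obtain ⟨p, hp, hpb⟩ := hb
  have hint : IsIntegral v.toValuationSubring b := by
    refine ⟨p.map ι, hp.map ι, ?_⟩
    rw [Polynomial.eval₂_map]
    exact hpb
  obtain ⟨z, hz⟩ := IsIntegrallyClosed.isIntegral_iff.mp hint
  rw [← hz]
  exact z.2

/-- the zeros of `y` are exactly the primes of `intRing K y` containing `y` -/
theorem exists_prime_of_mem_zeroPlaces (y : F) (hy : Transcendental K y) [Module.Finite K⟮y⟯ F]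
    [IsDedekindDomain (intRing K y)] [IsFractionRing (intRing K y) F]
    (v : Place K F) (hv : 0 ≤ v.ord y) :
    ∃ w : HeightOneSpectrum (intRing K y), Place.ofHeightOneSpectrum (K := K) w = v := by
  have hy0 : y ≠ 0 := fun h => hy (h ▸ isAlgebraic_zero)
  have hymem : y ∈ v.toValuationSubring := (mem_toValuationSubring_iff v hy0).mpr hv
  exact exists_prime_of_forall_mem v fun b => mem_of_isIntegral_adjoin v hymem b.2


end Fermat.Agent.S24Lib
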