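import Mathlib
import Fermat.Agent.Lib.S24.PlacesBasic

/-!
# S24, chunk A1a: a `ℤ`-valued valuation trivial on `K` is a multiple of a place

Main statement: `exists_place_of_isIntVal`.
Extras: the elementary calculus of `IsIntVal` (`IsIntVal.val_one`, `val_inv`, `val_neg`,
`val_pow`, `val_zpow`, `val_div`).
-/

set_option autoImplicit false

namespace Fermat.Agent.S24Lib

open AlgebraicCurve IntermediateField

namespace IsIntVal

variable {E : Type*} [Field E] {w : E → ℤ}

theorem val_one (hw : IsIntVal w) : w 1 = 0 := by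
  have := hw.map_mul 1 1 one_ne_zero one_ne_zero
  rw [mul_one] at this
  omega

theorem val_inv (hw : IsIntVal w) {a : E} (ha : a ≠ 0) : w a⁻¹ = -w a := by
  have := hw.map_mul a a⁻¹ ha (inv_ne_zero ha)
  rw [mul_inv_cancel₀ ha, hw.val_one] at this
  omega

theorem val_neg_one (hw : IsIntVal w) : w (-1) = 0 := by
  have := hw.map_mul (-1) (-1) (neg_ne_zero.mpr one_ne_zero) (neg_ne_zero.mpr one_ne_zero)
  rw [neg_mul_neg, mul_one, hw.val_one] at this
  omega

theorem val_neg (hw : IsIntVal w) {a : E} (ha : a ≠ 0) : w (-a) = w a := by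
  have := hw.map_mul (-1) a (neg_ne_zero.mpr one_ne_zero) ha
  rw [neg_one_mul, hw.val_neg_one, zero_add] at this
  exact this

theorem val_div (hw : IsIntVal w) {a b : E} (ha : a ≠ 0) (hb : b ≠ 0) :
    w (a / b) = w a - w b := by
  rw [div_eq_mul_inv, hw.map_mul a b⁻¹ ha (inv_ne_zero hb), hw.val_inv hb]
  ring

theorem val_pow (hw : IsIntVal w) {a : E} (ha : a ≠ 0) (n : ℕ) : w (a ^ n) = n * w a := by
  induction n with
  | zero => simp [hw.val_one]
  | succ n ih =>
    rw [pow_succ, hw.map_mul _ _ (pow_ne_zero n ha) ha, ih]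
    push_cast
    ring

theorem val_zpow (hw : IsIntVal w) {a : E} (ha : a ≠ 0) (n : ℤ) : w (a ^ n) = n * w a := by
  obtain ⟨k, rfl | rfl⟩ := n.eq_nat_or_neg
  · rw [zpow_natCast, hw.val_pow ha]
  · rw [zpow_neg, zpow_natCast, hw.val_inv (pow_ne_zero k ha), hw.val_pow ha]
    ring

/-- the ultrametric inequality with `0` allowed -/
theorem val_add_ge (hw : IsIntVal w) {a b : E} {n : ℤ} (ha : a = 0 ∨ n ≤ w a)
    (hb : b = 0 ∨ n ≤ w b) : a + b = 0 ∨ n ≤ w (a + b) := by
  by_cases hab : a + b = 0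
  · exact Or.inl hab
  right
  rcases eq_or_ne a 0 with rfl | ha0
  · rw [zero_add] at hab ⊢
    exact hb.resolve_left hab
  rcases eq_or_ne b 0 with rfl | hb0
  · rw [add_zero] at hab ⊢
    exact ha.resolve_left hab
  exact le_trans (le_min (ha.resolve_left ha0) (hb.resolve_left hb0)) (hw.map_add a b ha0 hb0 hab)

end IsIntVal

variable {K F : Type*} [Field K] [Field F] [Algebra K F]

/-- the valuation subring of an `IsIntVal` -/
def IsIntVal.toValuationSubring {w : F → ℤ} (hw : IsIntVal w) : ValuationSubring F where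
  carrier := {f | f = 0 ∨ 0 ≤ w f}
  mul_mem' := by
    rintro a b ha hb
    rcases eq_or_ne a 0 with rfl | ha0
    · left; simp
    rcases eq_or_ne b 0 with rfl | hb0
    · left; simp
    right
    rw [hw.map_mul a b ha0 hb0]
    have h1 := ha.resolve_left ha0
    have h2 := hb.resolve_left hb0
    omega
  one_mem' := Or.inr (by rw [hw.val_one])
  add_mem' := by
    rintro a b ha hb
    exact hw.val_add_ge ha hb
  zero_mem' := Or.inl rfl
  neg_mem' := by
    rintro a ha
    rcases eq_or_ne a 0 with rfl | ha0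
    · left; simp
    right
    rw [hw.val_neg ha0]
    exact ha.resolve_left ha0
  mem_or_inv_mem' := by
    intro a
    rcases eq_or_ne a 0 with rfl | ha0
    · left; left; rfl
    rcases le_or_gt 0 (w a) with h | h
    · left; right; exact h
    · right; right
      rw [hw.val_inv ha0]
      omega

theorem IsIntVal.mem_toValuationSubring {w : F → ℤ} (hw : IsIntVal w) (f : F) :
    f ∈ hw.toValuationSubring ↔ f = 0 ∨ 0 ≤ w f := Iff.rfl

theorem IsIntVal.isPrincipalIdealRing_toValuationSubring {w : F → ℤ} (hw : IsIntVal w) :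
    IsPrincipalIdealRing hw.toValuationSubring := by
  classical
  refine ⟨fun I => ?_⟩
  by_cases hI : I = ⊥
  · exact ⟨0, by rw [hI]; simp⟩
  obtain ⟨b, hbI, hb0⟩ := Submodule.exists_mem_ne_zero_of_ne_bot hI
  have hb0F : (b : F) ≠ 0 := fun h => hb0 (Subtype.ext h)
  have hex : ∃ n : ℕ, ∃ a ∈ I, a ≠ 0 ∧ w (a : F) = n := by
    have hbn : 0 ≤ w (b : F) := (b.2).resolve_left hb0F
    exact ⟨(w (b : F)).toNat, b, hbI, hb0, by omega⟩
  obtain ⟨a0, ha0I, ha00, ha0w⟩ := Nat.find_spec hex
  have ha00F : (a0 : F) ≠ 0 := fun h => ha00 (Subtype.ext h)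
  refine ⟨a0, le_antisymm ?_ ?_⟩
  · intro c hc
    rw [Submodule.mem_span_singleton]
    rcases eq_or_ne c 0 with rfl | hc0
    · exact ⟨0, by simp⟩
    have hc0F : (c : F) ≠ 0 := fun h => hc0 (Subtype.ext h)
    have hcn : 0 ≤ w (c : F) := (c.2).resolve_left hc0F
    have hmin : Nat.find hex ≤ (w (c : F)).toNat :=
      Nat.find_min' hex ⟨c, hc, hc0, by omega⟩
    have hdiv : (c : F) / (a0 : F) ∈ hw.toValuationSubring := by
      right
      rw [hw.val_div hc0F ha00F, ha0w]
      omega
    refine ⟨⟨(c : F) / (a0 : F), hdiv⟩, Subtype.ext ?_⟩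
    show (c : F) / (a0 : F) * (a0 : F) = c
    field_simp
  · rw [Submodule.span_le]
    intro x hx
    rw [Set.mem_singleton_iff] at hx
    rw [hx]
    exact ha0I

/-- a nontrivial `ℤ`-valued valuation of `F`, trivial on `K`, is a positive multiple of a place -/
theorem exists_place_of_isIntVal (w : F → ℤ) (hw : IsIntVal w)
    (hK : ∀ c : K, c ≠ 0 → w (algebraMap K F c) = 0) (hne : ∃ f : F, f ≠ 0 ∧ w f ≠ 0) :
    ∃ (v : Place K F) (κ : ℤ), 0 < κ ∧ ∀ f : F, f ≠ 0 → w f = κ * v.ord f := by
  let v : Place K F :=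
    { toValuationSubring := hw.toValuationSubring
      algebraMap_mem' := fun a => by
        rcases eq_or_ne a 0 with rfl | ha
        · left; simp
        · right; rw [hK a ha]
      ne_top' := by
        obtain ⟨f, hf0, hf⟩ := hne
        intro htop
        have h1 : f ∈ hw.toValuationSubring := htop ▸ ValuationSubring.mem_top f
        have h2 : f⁻¹ ∈ hw.toValuationSubring := htop ▸ ValuationSubring.mem_top f⁻¹
        have h1' := h1.resolve_left hf0
        have h2' := h2.resolve_left (inv_ne_zero hf0)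
        rw [hw.val_inv hf0] at h2'
        omega
      isPrincipalIdealRing' := hw.isPrincipalIdealRing_toValuationSubring }
  have hmem : ∀ f : F, f ≠ 0 → (0 ≤ v.ord f ↔ 0 ≤ w f) := by
    intro f hf
    rw [← mem_toValuationSubring_iff v hf]
    show f ∈ hw.toValuationSubring ↔ _
    rw [hw.mem_toValuationSubring]
    simp [hf]
  have hzero : ∀ f : F, f ≠ 0 → v.ord f = 0 → w f = 0 := by
    intro f hf h0
    have h1 := (hmem f hf).mp (by omega)
    have h2 := (hmem f⁻¹ (inv_ne_zero hf)).mp (by rw [v.ord_inv]; omega)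
    rw [hw.val_inv hf] at h2
    omega
  obtain ⟨t, ht⟩ := exists_ord_eq_one v
  have ht0 : t ≠ 0 := ne_zero_of_ord_ne_zero v (by omega)
  have hformula : ∀ f : F, f ≠ 0 → w f = w t * v.ord f := by
    intro f hf
    have hg0 : f * t ^ (-(v.ord f)) ≠ 0 := mul_ne_zero hf (zpow_ne_zero _ ht0)
    have hg : v.ord (f * t ^ (-(v.ord f))) = 0 := by
      rw [v.ord_mul hf (zpow_ne_zero _ ht0), v.ord_zpow, ht]
      ring
    have := hzero _ hg0 hg
    rw [hw.map_mul _ _ hf (zpow_ne_zero _ ht0), hw.val_zpow ht0] at this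
    linarith
  refine ⟨v, w t, ?_, hformula⟩
  have h1 : 0 ≤ w t := (hmem t ht0).mp (by omega)
  have h2 : w t ≠ 0 := by
    intro h0
    obtain ⟨f, hf0, hf⟩ := hne
    exact hf (by rw [hformula f hf0, h0, zero_mul])
  omega

end Fermat.Agent.S24Lib
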