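import Mathlib
import Fermat.Agent.Lib.S24.PlacesDict
import Fermat.Agent.Lib.S24.PlacesVal
import Fermat.Agent.Lib.S24.NFDedekind

set_option autoImplicit false

namespace Fermat.Agent.S24Lib
open AlgebraicCurve IntermediateField IsDedekindDomain UniqueFactorizationMonoid
open scoped IntermediateField.algebraAdjoinAdjoin

variable {K F : Type*} [Field K] [IsAlgClosed K] [CharZero K] [Field F] [Algebra K F]

/-- the generator `y` of `K[y]` -/
abbrev nfGen (K : Type*) {F : Type*} [Field K] [Field F] [Algebra K F] (y : F) :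
    Algebra.adjoin K {y} :=
  ⟨y, Algebra.self_mem_adjoin_singleton K y⟩

omit [IsAlgClosed K] [CharZero K] in
theorem nf_exists_aeval (y : F) (r : Algebra.adjoin K {y}) :
    ∃ P : Polynomial K, Polynomial.aeval (nfGen K y) P = r := by
  obtain ⟨r, hr⟩ := r
  rw [Algebra.adjoin_singleton_eq_range_aeval] at hr
  obtain ⟨P, rfl⟩ := hr
  refine ⟨P, Subtype.ext ?_⟩
  rw [Polynomial.aeval_subalgebra_coe]
  rfl

omit [IsAlgClosed K] [CharZero K] in
theorem nf_algebraMap_aeval (y : F) (P : Polynomial K) :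
    algebraMap (Algebra.adjoin K {y}) K⟮y⟯ (Polynomial.aeval (nfGen K y) P) =
      Polynomial.aeval (AdjoinSimple.gen K y) P := by
  rw [← Polynomial.aeval_algebraMap_apply]
  rfl

/-- strict ultrametric for `IsIntVal` -/
theorem nf_val_add_eq_of_lt {E : Type*} [Field E] {w : E → ℤ} (hw : IsIntVal w) {a b : E}
    (ha : a ≠ 0) (hb : b ≠ 0) (h : w a < w b) : w (a + b) = w a := by
  have hab : a + b ≠ 0 := by
    intro h0
    have : b = -a := eq_neg_of_add_eq_zero_right h0
    rw [this, hw.val_neg ha] at h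
    exact lt_irrefl _ h
  have h1 := hw.map_add a b ha hb hab
  rw [min_eq_left h.le] at h1
  refine le_antisymm ?_ h1
  by_contra hlt
  have hlt' := not_le.mp hlt
  have h2 := hw.map_add (a + b) (-b) hab (neg_ne_zero.mpr hb) (by simpa using ha)
  rw [add_neg_cancel_right, hw.val_neg hb] at h2
  have := lt_min hlt' h
  omega

section val
variable (y : F) (hy0 : y ≠ 0) (ν : K⟮y⟯ → ℤ) (hν : IsIntVal ν)
  (hνK : ∀ c : K, c ≠ 0 → ν (algebraMap K K⟮y⟯ c) = 0)
  (m : ℤ) (hm : 0 < m) (hνy : ν (AdjoinSimple.gen K y) = m)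

include hy0 in
omit [IsAlgClosed K] [CharZero K] in
theorem nf_gen_ne_zero : AdjoinSimple.gen K y ≠ 0 := by
  intro h0
  apply hy0
  have := congrArg (Subtype.val) h0
  simpa using this

include hy0 hν hνK hm hνy in
omit [IsAlgClosed K] [CharZero K] in
theorem nf_val_aeval_nonneg (P : Polynomial K) :
    Polynomial.aeval (AdjoinSimple.gen K y) P = 0 ∨
      0 ≤ ν (Polynomial.aeval (AdjoinSimple.gen K y) P) := by
  have hgen : AdjoinSimple.gen K y ≠ 0 := nf_gen_ne_zero y hy0
  induction P using Polynomial.induction_on' with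
  | add p q hp hq =>
    rw [map_add]
    exact hν.val_add_ge hp hq
  | monomial n c =>
    rcases eq_or_ne c 0 with rfl | hc
    · left; simp
    · right
      rw [Polynomial.aeval_monomial, hν.map_mul _ _ (by simpa using hc) (pow_ne_zero n hgen),
        hνK c hc, hν.val_pow hgen, hνy]
      positivity

include hy0 hν hνK hm hνy in
omit [IsAlgClosed K] [CharZero K] in
/-- a polynomial with nonzero constant term is a `ν`-unit -/
theorem nf_val_aeval_unit (P : Polynomial K) (hP : P.coeff 0 ≠ 0) :
    Polynomial.aeval (AdjoinSimple.gen K y) P ≠ 0 ∧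
      ν (Polynomial.aeval (AdjoinSimple.gen K y) P) = 0 := by
  have hgen : AdjoinSimple.gen K y ≠ 0 := nf_gen_ne_zero y hy0
  have hdec : Polynomial.aeval (AdjoinSimple.gen K y) P =
      algebraMap K K⟮y⟯ (P.coeff 0) +
        AdjoinSimple.gen K y * Polynomial.aeval (AdjoinSimple.gen K y) P.divX := by
    conv_lhs => rw [← Polynomial.divX_mul_X_add P]
    rw [map_add, map_mul, Polynomial.aeval_X, Polynomial.aeval_C]
    ring
  have hc : algebraMap K K⟮y⟯ (P.coeff 0) ≠ 0 := by simpa using hP
  rcases eq_or_ne (Polynomial.aeval (AdjoinSimple.gen K y) P.divX) 0 with h0 | h0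
  · rw [hdec, h0, mul_zero, add_zero]
    exact ⟨hc, hνK _ hP⟩
  · have hpos : 0 ≤ ν (Polynomial.aeval (AdjoinSimple.gen K y) P.divX) :=
      (nf_val_aeval_nonneg y hy0 ν hν hνK m hm hνy P.divX).resolve_left h0
    have hlt : ν (algebraMap K K⟮y⟯ (P.coeff 0)) <
        ν (AdjoinSimple.gen K y * Polynomial.aeval (AdjoinSimple.gen K y) P.divX) := by
      rw [hνK _ hP, hν.map_mul _ _ hgen h0, hνy]
      omega
    have h1 := nf_val_add_eq_of_lt hν hc (mul_ne_zero hgen h0) hlt
    rw [← hdec, hνK _ hP] at h1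
    refine ⟨?_, h1⟩
    rw [hdec]
    intro h0'
    have : AdjoinSimple.gen K y * Polynomial.aeval (AdjoinSimple.gen K y) P.divX =
        -algebraMap K K⟮y⟯ (P.coeff 0) := eq_neg_of_add_eq_zero_right h0'
    rw [this, hν.val_neg hc] at hlt
    exact lt_irrefl _ hlt

end val



section R0
variable (y : F)

omit [IsAlgClosed K] [CharZero K] in
theorem nf_exists_eq_add_mul (r : Algebra.adjoin K {y}) :
    ∃ (c : K) (s : Algebra.adjoin K {y}),
      r = algebraMap K (Algebra.adjoin K {y}) c + nfGen K y * s := by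
  obtain ⟨P, rfl⟩ := nf_exists_aeval y r
  refine ⟨P.coeff 0, Polynomial.aeval (nfGen K y) P.divX, ?_⟩
  conv_lhs => rw [← Polynomial.divX_mul_X_add P]
  rw [map_add, map_mul, Polynomial.aeval_X, Polynomial.aeval_C]
  ring

variable (hy : Transcendental K y)

include hy in
omit [IsAlgClosed K] [CharZero K] in
theorem nf_gen_prime : Prime (nfGen K y) := by
  have h := (MulEquiv.prime_iff (Polynomial.algEquivOfTranscendental K y hy)).mpr
    Polynomial.prime_X
  rwa [Polynomial.algEquivOfTranscendental_apply_X] at h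

include hy in
omit [IsAlgClosed K] [CharZero K] in
theorem nf_span_isMaximal : (Ideal.span {nfGen K y}).IsMaximal := by
  have := adjoin_singleton_isDedekindDomain (K := K) y
  have hp := nf_gen_prime y hy
  exact Ideal.IsPrime.isMaximal ((Ideal.span_singleton_prime hp.ne_zero).mpr hp)
    (by simpa using hp.ne_zero)

include hy in
omit [IsAlgClosed K] [CharZero K] in
theorem nf_span_ne_bot : Ideal.span {nfGen K y} ≠ ⊥ := by
  have hp := nf_gen_prime y hy
  simpa using hp.ne_zero

include hy in
omit [IsAlgClosed K] [CharZero K] in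
/-- the `y`-adic valuation of `r ∈ K[y]` in terms of the factorisation of `(r)` -/
theorem nf_val_algebraMap (ν : K⟮y⟯ → ℤ) (hν : IsIntVal ν)
    (hνK : ∀ c : K, c ≠ 0 → ν (algebraMap K K⟮y⟯ c) = 0)
    (m : ℤ) (hm : 0 < m) (hνy : ν (AdjoinSimple.gen K y) = m)
    [IsDedekindDomain (Algebra.adjoin K {y})]
    [DecidableEq (Ideal (Algebra.adjoin K {y}))]
    (r : Algebra.adjoin K {y}) (hr : r ≠ 0) :
    ν (algebraMap (Algebra.adjoin K {y}) K⟮y⟯ r) =
      m * Multiset.count (Ideal.span {nfGen K y})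
        (normalizedFactors (Ideal.span {r})) := by
  have hy0 : y ≠ 0 := fun h => hy (h ▸ isAlgebraic_zero)
  have hgen : AdjoinSimple.gen K y ≠ 0 := nf_gen_ne_zero y hy0
  have hprime := nf_gen_prime y hy
  obtain ⟨P, rfl⟩ := nf_exists_aeval y r
  have hP : P ≠ 0 := by
    rintro rfl
    exact hr (map_zero _)
  obtain ⟨Q, hPQ, hQ⟩ := Polynomial.exists_eq_pow_rootMultiplicity_mul_and_not_dvd P hP 0
  simp only [map_zero, sub_zero] at hPQ hQ
  set k := P.rootMultiplicity 0 with hk
  have hQ0 : Q.coeff 0 ≠ 0 := fun h => hQ (Polynomial.X_dvd_iff.mpr h)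
  obtain ⟨hu1, hu2⟩ := nf_val_aeval_unit y hy0 ν hν hνK m hm hνy Q hQ0
  -- left-hand side
  have hL : ν (algebraMap (Algebra.adjoin K {y}) K⟮y⟯ (Polynomial.aeval (nfGen K y) P)) =
      k * m := by
    rw [nf_algebraMap_aeval]
    conv_lhs => rw [hPQ]
    rw [map_mul, map_pow, Polynomial.aeval_X, hν.map_mul _ _ (pow_ne_zero k hgen) hu1,
      hν.val_pow hgen, hu2, hνy, add_zero]
  -- right-hand side
  set s := Polynomial.aeval (nfGen K y) Q with hs
  have hs0 : s ≠ 0 := by
    intro h0
    apply hu1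
    rw [← nf_algebraMap_aeval, ← hs, h0, map_zero]
  have hsnd : ¬ nfGen K y ∣ s := by
    intro hdvd
    apply hQ
    have h1 : (Polynomial.algEquivOfTranscendental K y hy) Polynomial.X ∣
        (Polynomial.algEquivOfTranscendental K y hy) Q := by
      rw [Polynomial.algEquivOfTranscendental_apply_X, Polynomial.algEquivOfTranscendental_apply]
      exact hdvd
    exact (map_dvd_iff (Polynomial.algEquivOfTranscendental K y hy)).mp h1
  have hdec : Polynomial.aeval (nfGen K y) P = nfGen K y ^ k * s := by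
    conv_lhs => rw [hPQ]
    rw [map_mul, map_pow, Polynomial.aeval_X]
  have hspan : Ideal.span {Polynomial.aeval (nfGen K y) P} =
      Ideal.span {nfGen K y} ^ k * Ideal.span {s} := by
    rw [hdec, Ideal.span_singleton_pow, Ideal.span_singleton_mul_span_singleton]
  have hp0 : Ideal.span {nfGen K y} ≠ 0 := nf_span_ne_bot y hy
  have hs0' : Ideal.span {s} ≠ 0 := by
    rw [Ne, Ideal.zero_eq_bot, Ideal.span_singleton_eq_bot]
    exact hs0
  have hpprime : Prime (Ideal.span {nfGen K y}) :=
    Ideal.prime_of_isPrime hp0 ((Ideal.span_singleton_prime hprime.ne_zero).mpr hprime)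
  have hcount0 : Multiset.count (Ideal.span {nfGen K y}) (normalizedFactors (Ideal.span {s})) = 0 := by
    rw [Multiset.count_eq_zero]
    intro hmem
    have hdvd := dvd_of_mem_normalizedFactors hmem
    rw [Ideal.dvd_iff_le, Ideal.span_singleton_le_iff_mem, Ideal.mem_span_singleton] at hdvd
    exact hsnd hdvd
  rw [hL, hspan, normalizedFactors_mul (pow_ne_zero k hp0) hs0', normalizedFactors_pow,
    normalizedFactors_irreducible hpprime.irreducible, normalize_eq, Multiset.count_add,
    Multiset.count_nsmul, Multiset.count_singleton_self, hcount0]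
  push_cast
  ring

end R0

section inertia
variable (y : F) [Module.Finite K⟮y⟯ F]

omit [IsAlgClosed K] in
theorem nf_finite : Module.Finite (Algebra.adjoin K {y}) (intRing K y) := by
  have := adjoin_singleton_isPrincipalIdealRing (K := K) y
  have := isSeparable_adjoin_simple (K := K) y
  exact IsIntegralClosure.finite (Algebra.adjoin K {y}) K⟮y⟯ F (intRing K y)

variable (hy : Transcendental K y)

include hy in
theorem nf_inertiaDeg_eq_one (Q : Ideal (intRing K y)) (hQ : Q.IsMaximal)
    (hQp : Q.under (Algebra.adjoin K {y}) = Ideal.span {nfGen K y}) :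
    Q.inertiaDeg (Algebra.adjoin K {y}) = 1 := by
  have := nf_span_isMaximal y hy
  have := nf_finite (K := K) y
  refine nf_inertiaDeg_eq_one_generic (k := K) (Ideal.span {nfGen K y}) ?_ Q hQ hQp
  intro x
  obtain ⟨r, rfl⟩ := Ideal.Quotient.mk_surjective x
  obtain ⟨c, s, rfl⟩ := nf_exists_eq_add_mul y r
  refine ⟨c, ?_⟩
  show Ideal.Quotient.mk _ (algebraMap K _ c) = _
  rw [Ideal.Quotient.eq]
  rw [Ideal.mem_span_singleton]
  exact ⟨-s, by ring⟩

end inertia

end Fermat.Agent.S24Lib
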