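import Mathlib
import Fermat.Agent.Lib.S24.PlacesDict

/-!
# S24, chunk A1b (auxiliary): places of a Dedekind domain versus factorisations

Generic in a Dedekind domain `R` with fraction field `F` (a `K`-algebra):
* `nf_ord_eq_count` : `ord_w (b) = ` multiplicity of `w` in `(b)`;
* `nf_finsum_ord_eq_card` : the sum of `ord_w b` over the primes containing `a` is the number
  of prime factors of `(b)` (with multiplicity) containing `a`;
* `nf_weak_approx_aux` : weak approximation at the primes containing `a`.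
-/

set_option autoImplicit false

namespace Fermat.Agent.S24Lib
open AlgebraicCurve IsDedekindDomain UniqueFactorizationMonoid

theorem nf_finsum_count {W : Type*} [DecidableEq W] (M : Multiset W) (p : W → Prop)
    [DecidablePred p] :
    ∑ᶠ w ∈ {w | p w}, (Multiset.count w M : ℤ) = Multiset.card (M.filter p) := by
  have h1 : ∀ w, (∑ᶠ (_ : w ∈ {w | p w}), (Multiset.count w M : ℤ)) =
      (Multiset.count w (M.filter p) : ℤ) := by
    intro w
    rw [Multiset.count_filter]
    rw [finsum_eq_if]
    by_cases hw : p w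
    · rw [if_pos (by exact hw), if_pos hw]
    · rw [if_neg (by exact hw), if_neg hw, Nat.cast_zero]
  rw [finsum_congr h1, finsum_eq_sum_of_support_subset (s := (M.filter p).toFinset)]
  · rw [← Nat.cast_sum, Multiset.toFinset_sum_count_eq]
  · intro w hw
    simp only [Function.mem_support, ne_eq, Nat.cast_eq_zero, Multiset.count_eq_zero,
      not_not] at hw
    simpa using hw

section dict
variable {K F : Type*} [Field K] [Field F] [Algebra K F]
variable {R : Type*} [CommRing R] [IsDedekindDomain R] [Algebra R F] [IsFractionRing R F]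
  [Algebra K R] [IsScalarTower K R F]

theorem nf_ord_eq_neg_log (w : HeightOneSpectrum R) (b : R) :
    (Place.ofHeightOneSpectrum (K := K) (F := F) w).ord (algebraMap R F b) =
      -(WithZero.log (w.intValuation b)) := by
  rw [ord_ofHeightOneSpectrum, HeightOneSpectrum.valuation_of_algebraMap]

theorem nf_ord_eq_count [DecidableEq (Ideal R)] (w : HeightOneSpectrum R) (b : R) (hb : b ≠ 0) :
    (Place.ofHeightOneSpectrum (K := K) (F := F) w).ord (algebraMap R F b) =
      Multiset.count w.asIdeal (normalizedFactors (Ideal.span {b})) := by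
  have hb' : Ideal.span {b} ≠ 0 := by
    rwa [Ne, Ideal.zero_eq_bot, Ideal.span_singleton_eq_bot]
  rw [nf_ord_eq_neg_log, HeightOneSpectrum.intValuation_if_neg _ hb, WithZero.log_exp, neg_neg,
    Ideal.count_associates_factors_eq hb' w.isPrime w.ne_bot]
  congr 2

theorem nf_ord_pos_iff (w : HeightOneSpectrum R) (a : R) (ha : a ≠ 0) :
    0 < (Place.ofHeightOneSpectrum (K := K) (F := F) w).ord (algebraMap R F a) ↔
      a ∈ w.asIdeal := by
  have hne : w.intValuation a ≠ 0 := w.intValuation_ne_zero a ha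
  rw [nf_ord_eq_neg_log, ← HeightOneSpectrum.intValuation_lt_one_iff_mem, neg_pos,
    WithZero.log_lt_iff_lt_exp hne, WithZero.exp_zero]

theorem nf_finite_primes (a : R) (ha : a ≠ 0) :
    {w : HeightOneSpectrum R | a ∈ w.asIdeal}.Finite := by
  have hI : Ideal.span {a} ≠ 0 := by
    rwa [Ne, Ideal.zero_eq_bot, Ideal.span_singleton_eq_bot]
  refine (Ideal.finite_factors hI).subset ?_
  intro w hw
  show w.asIdeal ∣ Ideal.span {a}
  rw [Ideal.dvd_span_singleton]
  exact hw

/-- the sum of `ord_w b` over the primes `w ∋ a` counts the prime factors of `(b)` containing `a` -/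
theorem nf_finsum_ord_eq_card [DecidableEq (Ideal R)] (a b : R) (hb : b ≠ 0)
    [DecidablePred fun Q : Ideal R => a ∈ Q] :
    ∑ᶠ w ∈ {w : HeightOneSpectrum R | a ∈ w.asIdeal},
        (Place.ofHeightOneSpectrum (K := K) (F := F) w).ord (algebraMap R F b) =
      Multiset.card ((normalizedFactors (Ideal.span {b})).filter (fun Q => a ∈ Q)) := by
  classical
  set M := normalizedFactors (Ideal.span {b}) with hM
  have hMp : ∀ Q ∈ M, Q.IsPrime ∧ Q ≠ ⊥ := fun Q hQ => by
    have hpr := prime_of_normalized_factor Q hQ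
    exact ⟨Ideal.isPrime_of_prime hpr, hpr.ne_zero⟩
  set M' : Multiset (HeightOneSpectrum R) :=
    M.pmap (fun Q (h : Q.IsPrime ∧ Q ≠ ⊥) => (⟨Q, h.1, h.2⟩ : HeightOneSpectrum R)) hMp with hM'
  have hmap : M'.map (fun w => w.asIdeal) = M := by
    rw [hM', Multiset.map_pmap]
    exact (Multiset.pmap_eq_map _ (fun Q => Q) M hMp).trans (Multiset.map_id' M)
  have hinj : Function.Injective (fun w : HeightOneSpectrum R => w.asIdeal) :=
    fun w w' h => HeightOneSpectrum.ext h
  have hcount : ∀ w : HeightOneSpectrum R, Multiset.count w.asIdeal M = Multiset.count w M' := by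
    intro w
    rw [← hmap]
    exact Multiset.count_map_eq_count' _ _ hinj w
  have h1 : ∀ w : HeightOneSpectrum R,
      (Place.ofHeightOneSpectrum (K := K) (F := F) w).ord (algebraMap R F b) =
        (Multiset.count w M' : ℤ) := by
    intro w
    rw [nf_ord_eq_count w b hb, ← hcount]
  simp_rw [h1]
  rw [nf_finsum_count M' (fun w => a ∈ w.asIdeal)]
  congr 1
  rw [← hmap, Multiset.filter_map, Multiset.card_map]
  rfl

omit [IsScalarTower K R F] [Algebra K R] in
/-- weak approximation at the primes containing `a` -/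
theorem nf_weak_approx_aux (a : R) (ha : a ≠ 0) (w₀ : HeightOneSpectrum R) :
    ∃ b : R, b ≠ 0 ∧ w₀.intValuation b = WithZero.exp (-1 : ℤ) ∧
      ∀ w : HeightOneSpectrum R, a ∈ w.asIdeal → w ≠ w₀ → w.intValuation b = 1 := by
  classical
  have hfin : {w : HeightOneSpectrum R | a ∈ w.asIdeal}.Finite := nf_finite_primes a ha
  set T : Finset (HeightOneSpectrum R) := insert w₀ hfin.toFinset with hT
  obtain ⟨π, hπ⟩ := w₀.intValuation_exists_uniformizer
  obtain ⟨b, hb⟩ := IsDedekindDomain.exists_forall_sub_mem_ideal (s := T)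
    (fun w => w.asIdeal) (fun w => if w = w₀ then 2 else 1) (fun w _ => w.prime)
    (fun w _ w' _ hne h => hne (HeightOneSpectrum.ext h))
    (fun w => if (w : HeightOneSpectrum R) = w₀ then π else 1)
  have h0 := hb w₀ (Finset.mem_insert_self _ _)
  simp only [if_true] at h0
  have hv0 : w₀.intValuation b = WithZero.exp (-1 : ℤ) := by
    have h2 : w₀.intValuation (b - π) ≤ WithZero.exp (-((2 : ℕ) : ℤ)) :=
      (w₀.intValuation_le_pow_iff_mem _ 2).mpr h0
    have h3 : w₀.intValuation (b - π) < w₀.intValuation π := by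
      rw [hπ]
      refine lt_of_le_of_lt h2 ?_
      rw [WithZero.exp_lt_exp]
      norm_num
    have h4 := Valuation.map_add_eq_of_lt_left w₀.intValuation h3
    rw [add_sub_cancel] at h4
    rw [h4, hπ]
  refine ⟨b, ?_, hv0, ?_⟩
  · rintro rfl
    rw [map_zero] at hv0
    exact WithZero.exp_ne_zero.symm hv0
  · intro w hw hne
    have hwT : w ∈ T := Finset.mem_insert_of_mem (by simpa using hw)
    have h1 := hb w hwT
    simp only [if_neg hne, pow_one] at h1
    have h2 : w.intValuation (b - 1) < 1 := (w.intValuation_lt_one_iff_mem _).mpr h1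
    have h3 := Valuation.map_one_add_of_lt w.intValuation h2
    rwa [add_sub_cancel] at h3

/-- the zeros of `a ∈ R` are the primes containing `a`, provided every place at which `a` is
integral comes from a prime of `R` -/
theorem nf_zeroPlaces_eq_image (a : R) (ha : a ≠ 0)
    (hsurj : ∀ v : Place K F, 0 ≤ v.ord (algebraMap R F a) →
      ∃ w : HeightOneSpectrum R, Place.ofHeightOneSpectrum (K := K) (F := F) w = v) :
    zeroPlaces K (algebraMap R F a) =
      (Place.ofHeightOneSpectrum (K := K) (F := F)) '' {w : HeightOneSpectrum R | a ∈ w.asIdeal} := by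
  ext v
  constructor
  · intro hv
    obtain ⟨w, rfl⟩ := hsurj v (le_of_lt hv)
    exact ⟨w, (nf_ord_pos_iff w a ha).mp hv, rfl⟩
  · rintro ⟨w, hw, rfl⟩
    exact (nf_ord_pos_iff w a ha).mpr hw

theorem nf_finite_zeroPlaces_aux (a : R) (ha : a ≠ 0)
    (hsurj : ∀ v : Place K F, 0 ≤ v.ord (algebraMap R F a) →
      ∃ w : HeightOneSpectrum R, Place.ofHeightOneSpectrum (K := K) (F := F) w = v) :
    (zeroPlaces K (algebraMap R F a)).Finite := by
  rw [nf_zeroPlaces_eq_image a ha hsurj]
  exact (nf_finite_primes a ha).image _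

theorem nf_finsum_zeroPlaces [DecidableEq (Ideal R)] (a b : R) (ha : a ≠ 0) (hb : b ≠ 0)
    (hsurj : ∀ v : Place K F, 0 ≤ v.ord (algebraMap R F a) →
      ∃ w : HeightOneSpectrum R, Place.ofHeightOneSpectrum (K := K) (F := F) w = v)
    [DecidablePred fun Q : Ideal R => a ∈ Q] :
    ∑ᶠ v ∈ zeroPlaces K (algebraMap R F a), v.ord (algebraMap R F b) =
      Multiset.card ((normalizedFactors (Ideal.span {b})).filter (fun Q => a ∈ Q)) := by
  rw [nf_zeroPlaces_eq_image a ha hsurj,
    finsum_mem_image ((ofHeightOneSpectrum_injective (K := K) (F := F) (R := R)).injOn),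
    nf_finsum_ord_eq_card a b hb]

theorem nf_weak_approx_places (a : R) (ha : a ≠ 0)
    (hsurj : ∀ v : Place K F, 0 ≤ v.ord (algebraMap R F a) →
      ∃ w : HeightOneSpectrum R, Place.ofHeightOneSpectrum (K := K) (F := F) w = v)
    (v : Place K F) (hv : v ∈ zeroPlaces K (algebraMap R F a)) :
    ∃ b : R, b ≠ 0 ∧ v.ord (algebraMap R F b) = 1 ∧
      ∀ v' ∈ zeroPlaces K (algebraMap R F a), v' ≠ v → v'.ord (algebraMap R F b) = 0 := by
  rw [nf_zeroPlaces_eq_image a ha hsurj] at hv ⊢
  obtain ⟨w₀, -, rfl⟩ := hv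
  obtain ⟨b, hb0, hb1, hb2⟩ := nf_weak_approx_aux a ha w₀
  refine ⟨b, hb0, ?_, ?_⟩
  · rw [nf_ord_eq_neg_log, hb1, WithZero.log_exp]
    norm_num
  · rintro v' ⟨w, hw, rfl⟩ hne
    have hne' : w ≠ w₀ := fun h => hne (by rw [h])
    rw [nf_ord_eq_neg_log, hb2 w hw hne', WithZero.log_one, neg_zero]

end dict

end Fermat.Agent.S24Lib
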