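import Mathlib
import Fermat.Agent.Lib.S24.NFBase
import Fermat.Agent.Lib.S24.NFDict

/-!
# S24, chunk A1b: the norm formula, the fundamental identity and weak approximation

* `norm_formula` : `m * ∑_{v | y} ord_v h = ν (N_{F/K(y)} h)` for a valuation `ν` of `K(y)` with
  `ν y = m > 0`, trivial on `K`;
* `sum_ord_zeroPlaces_self` : `∑_{v | y} ord_v y = [F : K(y)]`;
* `weak_approx` : an element of order one at a zero `v` of `y` and order zero at the other zeros.
-/

set_option autoImplicit false

namespace Fermat.Agent.S24Lib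
open AlgebraicCurve IntermediateField IsDedekindDomain UniqueFactorizationMonoid
open scoped IntermediateField.algebraAdjoinAdjoin

theorem nf_under_eq_iff {A B : Type*} [CommRing A] [CommRing B] [Algebra A B] (a₀ : A)
    (hp : (Ideal.span {a₀}).IsMaximal) (Q : Ideal B) (hQ : Q ≠ ⊤) :
    Q.under A = Ideal.span {a₀} ↔ algebraMap A B a₀ ∈ Q := by
  constructor
  · intro h
    have h1 : a₀ ∈ Q.under A := by
      rw [h]
      exact Ideal.mem_span_singleton_self a₀
    exact h1
  · intro h
    have hle : Ideal.span {a₀} ≤ Q.under A := by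
      rw [Ideal.span_singleton_le_iff_mem]
      exact h
    refine (hp.eq_of_le ?_ hle).symm
    intro htop
    apply hQ
    rw [Ideal.under, Ideal.comap_eq_top_iff] at htop
    exact htop

variable {K F : Type*} [Field K] [IsAlgClosed K] [CharZero K] [Field F] [Algebra K F]

section main
variable (y : F) (hy : Transcendental K y) [Module.Finite K⟮y⟯ F]

/-- `y` as an element of the integral closure of `K[y]` -/
abbrev nfGenB (K : Type*) {F : Type*} [Field K] [Field F] [Algebra K F] (y : F) : intRing K y :=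
  algebraMap (Algebra.adjoin K {y}) (intRing K y) (nfGen K y)

omit [IsAlgClosed K] [CharZero K] [Module.Finite K⟮y⟯ F] in
theorem nf_coe_genB : algebraMap (intRing K y) F (nfGenB K y) = y := rfl

include hy in
omit [IsAlgClosed K] [CharZero K] [Module.Finite K⟮y⟯ F] in
theorem nf_genB_ne_zero : nfGenB K y ≠ 0 := by
  intro h
  have h1 := congrArg (algebraMap (intRing K y) F) h
  rw [nf_coe_genB, map_zero] at h1
  exact hy (h1 ▸ isAlgebraic_zero)

include hy in
theorem nf_finite_zeroPlaces : (zeroPlaces K y).Finite := by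
  have hB := intRing_isDedekindDomain' (K := K) y
  have hFr := intRing_isFractionRing' (K := K) y
  exact nf_finite_zeroPlaces_aux (K := K) (F := F) (nfGenB K y) (nf_genB_ne_zero y hy)
    (fun v hv => exists_prime_of_mem_zeroPlaces y hy v hv)

include hy in
/-- the number of prime factors of `(b)` above `(y)` is the multiplicity of `(y)` in the norm -/
theorem nf_finsum_eq_count [IsDedekindDomain (Algebra.adjoin K {y})]
    [DecidableEq (Ideal (Algebra.adjoin K {y}))]
    [IsDedekindDomain (intRing K y)] [Module.Finite (Algebra.adjoin K {y}) (intRing K y)]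
    [PerfectField (FractionRing (Algebra.adjoin K {y}))]
    (b : intRing K y) (hb : b ≠ 0) :
    ∑ᶠ v ∈ zeroPlaces K y, v.ord (algebraMap (intRing K y) F b) =
      Multiset.count (Ideal.span {nfGen K y})
        (normalizedFactors (Ideal.span {Algebra.intNorm (Algebra.adjoin K {y}) (intRing K y) b})) := by
  classical
  have hFr := intRing_isFractionRing' (K := K) y
  have hmax := nf_span_isMaximal y hy
  have h1 := nf_finsum_zeroPlaces (K := K) (F := F) (nfGenB K y) b (nf_genB_ne_zero y hy) hb
    (fun v hv => exists_prime_of_mem_zeroPlaces y hy v hv)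
  rw [nf_coe_genB] at h1
  rw [h1, nf_count_intNorm (Ideal.span {nfGen K y}) (nf_span_ne_bot y hy)
    (fun Q hQ hQp => nf_inertiaDeg_eq_one y hy Q hQ hQp) b hb]
  congr 2
  refine Multiset.filter_congr ?_
  intro Q hQ
  have hpr := prime_of_normalized_factor Q hQ
  have hQtop : Q ≠ ⊤ := (Ideal.isPrime_of_prime hpr).ne_top
  exact (nf_under_eq_iff (nfGen K y) hmax Q hQtop).symm

include hy in
/-- the norm formula for elements of the integral closure of `K[y]` -/
theorem nf_norm_intRing (ν : K⟮y⟯ → ℤ) (hν : IsIntVal ν)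
    (hνK : ∀ c : K, c ≠ 0 → ν (algebraMap K K⟮y⟯ c) = 0)
    (m : ℤ) (hm : 0 < m) (hνy : ν (AdjoinSimple.gen K y) = m) (b : intRing K y) (hb : b ≠ 0) :
    m * ∑ᶠ v ∈ zeroPlaces K y, v.ord (algebraMap (intRing K y) F b) =
      ν (Algebra.norm K⟮y⟯ (algebraMap (intRing K y) F b)) := by
  classical
  have hA := adjoin_singleton_isDedekindDomain (K := K) y
  have hB := intRing_isDedekindDomain' (K := K) y
  have hFr := intRing_isFractionRing' (K := K) y
  have hfin := nf_finite (K := K) y
  have hchar : CharZero (Algebra.adjoin K {y}) :=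
    charZero_of_injective_algebraMap (FaithfulSMul.algebraMap_injective K (Algebra.adjoin K {y}))
  have hperf : PerfectField (FractionRing (Algebra.adjoin K {y})) := inferInstance
  have hnorm := Algebra.algebraMap_intNorm (A := Algebra.adjoin K {y}) (K := K⟮y⟯) (L := F)
    (B := intRing K y) b
  have hbF : algebraMap (intRing K y) F b ≠ 0 := by
    intro h0
    exact hb (IsFractionRing.injective (intRing K y) F (by rw [h0, map_zero]))
  have hN0 : Algebra.intNorm (Algebra.adjoin K {y}) (intRing K y) b ≠ 0 := by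
    intro h0
    rw [h0, map_zero] at hnorm
    exact hbF (Algebra.norm_eq_zero_iff.mp hnorm.symm)
  rw [nf_finsum_eq_count y hy b hb, ← hnorm, nf_val_algebraMap y hy ν hν hνK m hm hνy _ hN0]

end main

/-- **Norm formula**: for a valuation `ν` of `K(y)` trivial on `K` with `ν y = m > 0`,
`m * ∑_{v | y} ord_v h = ν (N_{F/K(y)} h)`. -/
theorem norm_formula (y : F) (hy : Transcendental K y) [Module.Finite K⟮y⟯ F]
    (ν : K⟮y⟯ → ℤ) (hν : IsIntVal ν) (hνK : ∀ c : K, c ≠ 0 → ν (algebraMap K K⟮y⟯ c) = 0)
    (m : ℤ) (hm : 0 < m) (hνy : ν (AdjoinSimple.gen K y) = m) (h : F) (hh : h ≠ 0) :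
    m * ∑ᶠ v ∈ zeroPlaces K y, v.ord h = ν (Algebra.norm K⟮y⟯ h) := by
  have hFr := intRing_isFractionRing' (K := K) y
  obtain ⟨b₁, b₂, hb₂, rfl⟩ := IsFractionRing.div_surjective (A := intRing K y) h
  have hb₂0 : b₂ ≠ 0 := nonZeroDivisors.ne_zero hb₂
  have hb₁0 : b₁ ≠ 0 := by
    rintro rfl
    simp at hh
  have hinj := IsFractionRing.injective (intRing K y) F
  have h1 : algebraMap (intRing K y) F b₁ ≠ 0 := fun h0 => hb₁0 (hinj (by rw [h0, map_zero]))
  have h2 : algebraMap (intRing K y) F b₂ ≠ 0 := fun h0 => hb₂0 (hinj (by rw [h0, map_zero]))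
  have hfin := nf_finite_zeroPlaces y hy
  have hord : ∀ v : Place K F, v.ord (algebraMap (intRing K y) F b₁ / algebraMap (intRing K y) F b₂)
      = v.ord (algebraMap (intRing K y) F b₁) - v.ord (algebraMap (intRing K y) F b₂) := by
    intro v
    rw [div_eq_mul_inv, Place.ord_mul _ h1 (inv_ne_zero h2), Place.ord_inv]
    ring
  have hn1 : Algebra.norm K⟮y⟯ (algebraMap (intRing K y) F b₁) ≠ 0 :=
    fun h0 => h1 (Algebra.norm_eq_zero_iff.mp h0)
  have hn2 : Algebra.norm K⟮y⟯ (algebraMap (intRing K y) F b₂) ≠ 0 :=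
    fun h0 => h2 (Algebra.norm_eq_zero_iff.mp h0)
  have hdiv : Algebra.norm K⟮y⟯
      (algebraMap (intRing K y) F b₁ / algebraMap (intRing K y) F b₂) =
      Algebra.norm K⟮y⟯ (algebraMap (intRing K y) F b₁) /
        Algebra.norm K⟮y⟯ (algebraMap (intRing K y) F b₂) := by
    rw [eq_div_iff hn2, ← map_mul, div_mul_cancel₀ _ h2]
  simp_rw [hord]
  rw [finsum_mem_sub_distrib _ _ hfin, mul_sub,
    nf_norm_intRing y hy ν hν hνK m hm hνy b₁ hb₁0,
    nf_norm_intRing y hy ν hν hνK m hm hνy b₂ hb₂0, hdiv, hν.val_div hn1 hn2]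

/-- **Fundamental identity** at the zeros of `y`: `∑_{v | y} ord_v y = [F : K(y)]`. -/
theorem sum_ord_zeroPlaces_self (y : F) (hy : Transcendental K y) [Module.Finite K⟮y⟯ F] :
    ∑ᶠ v ∈ zeroPlaces K y, v.ord y = Module.finrank K⟮y⟯ F := by
  classical
  have hA := adjoin_singleton_isDedekindDomain (K := K) y
  have hB := intRing_isDedekindDomain' (K := K) y
  have hfin := nf_finite (K := K) y
  have hchar : CharZero (Algebra.adjoin K {y}) :=
    charZero_of_injective_algebraMap (FaithfulSMul.algebraMap_injective K (Algebra.adjoin K {y}))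
  have hperf : PerfectField (FractionRing (Algebra.adjoin K {y})) := inferInstance
  have h1 := nf_finsum_eq_count y hy (nfGenB K y) (nf_genB_ne_zero y hy)
  rw [nf_coe_genB] at h1
  have hN : Algebra.intNorm (Algebra.adjoin K {y}) (intRing K y) (nfGenB K y) =
      nfGen K y ^ Module.finrank K⟮y⟯ F := by
    apply IsFractionRing.injective (Algebra.adjoin K {y}) K⟮y⟯
    rw [Algebra.algebraMap_intNorm (K := K⟮y⟯) (L := F), map_pow, nf_coe_genB]
    exact Algebra.norm_algebraMap (R := K⟮y⟯) (S := F) (AdjoinSimple.gen K y)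
  have hprime := nf_gen_prime y hy
  have hp0 : Ideal.span {nfGen K y} ≠ 0 := nf_span_ne_bot y hy
  have hpprime : Prime (Ideal.span {nfGen K y}) :=
    Ideal.prime_of_isPrime hp0 ((Ideal.span_singleton_prime hprime.ne_zero).mpr hprime)
  rw [h1, hN, ← Ideal.span_singleton_pow, normalizedFactors_pow,
    normalizedFactors_irreducible hpprime.irreducible, normalize_eq, Multiset.count_nsmul,
    Multiset.count_singleton_self, mul_one]

/-- **Weak approximation** at the zeros of `y`. -/
theorem weak_approx (y : F) (hy : Transcendental K y) [Module.Finite K⟮y⟯ F]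
    (v : Place K F) (hv : v ∈ zeroPlaces K y) :
    ∃ h : F, h ≠ 0 ∧ v.ord h = 1 ∧ ∀ v' ∈ zeroPlaces K y, v' ≠ v → v'.ord h = 0 := by
  have hB := intRing_isDedekindDomain' (K := K) y
  have hFr := intRing_isFractionRing' (K := K) y
  obtain ⟨b, hb0, hb1, hb2⟩ := nf_weak_approx_places (K := K) (F := F) (nfGenB K y)
    (nf_genB_ne_zero y hy) (fun v hv => exists_prime_of_mem_zeroPlaces y hy v hv) v hv
  refine ⟨algebraMap (intRing K y) F b, ?_, hb1, hb2⟩
  intro h0
  exact hb0 (IsFractionRing.injective (intRing K y) F (by rw [h0, map_zero]))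

end Fermat.Agent.S24Lib
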