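import Mathlib
import Fermat.Agent.Lib.S24.PlacesBasic
import Fermat.Agent.Lib.S24.PlacesDict
import Fermat.Agent.Lib.S24.PlacesVal

/-!
# S24, chunk A1a (final part): residue fields and finiteness of fibres

`K` algebraically closed of characteristic `0`, `F/K` a function field in one variable
(`x ∈ F` transcendental, `F / K(x)` finite).

* `exists_ord_sub_pos` : an element integral at a place is congruent to a constant;
* `place_deg_eq_one` : every place has degree one;
* `finite_zeroPlaces` : a transcendental element has finitely many zeros.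
-/

set_option autoImplicit false

namespace Fermat.Agent.S24Lib

open AlgebraicCurve IntermediateField IsDedekindDomain

variable {K F : Type*} [Field K] [IsAlgClosed K] [CharZero K] [Field F] [Algebra K F]

omit [IsAlgClosed K] [CharZero K] in
theorem isAlgebraic_adjoin_of_set_eq {f : F} (s : Set F) (hs : s = {f})
    (h : Algebra.IsAlgebraic (Algebra.adjoin K s) F) :
    Algebra.IsAlgebraic (Algebra.adjoin K {f}) F := by
  subst hs
  exact h

open scoped IntermediateField.algebraAdjoinAdjoin in
omit [IsAlgClosed K] [CharZero K] in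
/-- transcendence degree one: `F` is algebraic over `K[f]` for every transcendental `f` -/
theorem isAlgebraic_adjoin_of_transcendental (x : F) [Module.Finite K⟮x⟯ F] {f : F}
    (hf : Transcendental K f) : Algebra.IsAlgebraic (Algebra.adjoin K {f}) F := by
  haveI : Algebra.IsAlgebraic (Algebra.adjoin K {x}) F :=
    Algebra.IsAlgebraic.trans (Algebra.adjoin K {x}) K⟮x⟯ F
  have h1 : Algebra.trdeg K F ≤ Cardinal.mk ({x} : Set F) :=
    Algebra.IsAlgebraic.trdeg_le_cardinalMk K {x}
  have h2 : Algebra.trdeg K F ≤ 1 := by simpa using h1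
  have hind : AlgebraicIndependent K (fun _ : PUnit => f) :=
    (algebraicIndependent_unique_type_iff (x := fun _ : PUnit => f)).mpr hf
  have hb := hind.isTranscendenceBasis_of_trdeg_le_of_finite (by simpa using h2)
  exact isAlgebraic_adjoin_of_set_eq _ Set.range_const hb.isAlgebraic

omit [IsAlgClosed K] [CharZero K] in
/-- if `f` lies in the valuation ring of `v` and all nonzero elements of `K[f]` have order `0`,
then `F` is not algebraic over `K[f]` -/
theorem not_isAlgebraic_adjoin_of_ord_eq_zero (v : Place K F) {f : F}
    (hf : f ∈ v.toValuationSubring)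
    (h0 : ∀ a : Algebra.adjoin K {f}, a ≠ 0 → v.ord (a : F) = 0) :
    ¬ Algebra.IsAlgebraic (Algebra.adjoin K {f}) F := by
  intro halg
  apply v.ne_top'
  refine SetLike.ext fun g => ⟨fun _ => ValuationSubring.mem_top g, fun _ => ?_⟩
  rcases eq_or_ne g 0 with rfl | hg
  · exact zero_mem _
  obtain ⟨a, ha, hint⟩ := (halg.isAlgebraic g).exists_integral_multiple
  have hmem : a • g ∈ v.toValuationSubring := mem_of_isIntegral_adjoin v hf hint
  have haF : (a : F) ≠ 0 := fun h => ha (Subtype.ext h)
  have hag : a • g = (a : F) * g := rfl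
  rw [hag] at hmem
  have h1 := (mem_toValuationSubring_iff v (mul_ne_zero haF hg)).mp hmem
  rw [v.ord_mul haF hg, h0 a ha, zero_add] at h1
  exact (mem_toValuationSubring_iff v hg).mpr h1

omit [IsAlgClosed K] [CharZero K] in
/-- the order of a product of elements of order `0` -/
theorem ord_multiset_prod_eq_zero (v : Place K F) (s : Multiset F)
    (hs : ∀ a ∈ s, a ≠ 0 ∧ v.ord a = 0) : s.prod ≠ 0 ∧ v.ord s.prod = 0 := by
  induction s using Multiset.induction with
  | empty => simp
  | cons a s ih =>
    have h1 := hs a (Multiset.mem_cons_self a s)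
    have h2 := ih fun b hb => hs b (Multiset.mem_cons_of_mem hb)
    rw [Multiset.prod_cons]
    exact ⟨mul_ne_zero h1.1 h2.1, by rw [v.ord_mul h1.1 h2.1, h1.2, h2.2, add_zero]⟩

set_option linter.unusedSectionVars false in
/-- residue fields are `K`: an element integral at `v` is congruent to a constant -/
theorem exists_ord_sub_pos (x : F) (hx : Transcendental K x) [Module.Finite K⟮x⟯ F]
    (v : Place K F) (f : F) (hf : 0 ≤ v.ord f) (hfK : f ∉ Set.range (algebraMap K F)) :
    ∃ c : K, 0 < v.ord (f - algebraMap K F c) := by
  by_contra hcon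
  push_neg at hcon
  have hf0 : f ≠ 0 := fun h => hfK ⟨0, by rw [h, map_zero]⟩
  have hfmem : f ∈ v.toValuationSubring := (mem_toValuationSubring_iff v hf0).mpr hf
  -- `f - c` has order `0` for every constant `c`
  have hsub : ∀ c : K, f - algebraMap K F c ≠ 0 ∧ v.ord (f - algebraMap K F c) = 0 := by
    intro c
    have hne : f - algebraMap K F c ≠ 0 := fun h => hfK ⟨c, (sub_eq_zero.mp h).symm⟩
    have hmem : f - algebraMap K F c ∈ v.toValuationSubring :=
      sub_mem hfmem (v.algebraMap_mem' c)
    have := (mem_toValuationSubring_iff v hne).mp hmem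
    exact ⟨hne, le_antisymm (hcon c) this⟩
  -- every nonzero polynomial in `f` has order `0`
  have hpoly : ∀ p : Polynomial K, p ≠ 0 →
      Polynomial.aeval f p ≠ 0 ∧ v.ord (Polynomial.aeval f p) = 0 := by
    intro p hp
    have hsplit := (IsAlgClosed.splits p).eq_prod_roots
    have hlc : p.leadingCoeff ≠ 0 := Polynomial.leadingCoeff_ne_zero.mpr hp
    have hev : Polynomial.aeval f p = algebraMap K F p.leadingCoeff *
        ((p.roots.map fun c => f - algebraMap K F c)).prod := by
      conv_lhs => rw [hsplit]
      rw [map_mul, Polynomial.aeval_C, map_multiset_prod, Multiset.map_map]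
      congr 2
      refine Multiset.map_congr rfl fun c _ => ?_
      simp
    have hprod := ord_multiset_prod_eq_zero v (p.roots.map fun c => f - algebraMap K F c)
      (by
        intro a ha
        obtain ⟨c, _, rfl⟩ := Multiset.mem_map.mp ha
        exact hsub c)
    have hlcF : algebraMap K F p.leadingCoeff ≠ 0 := by
      simpa using hlc
    rw [hev]
    exact ⟨mul_ne_zero hlcF hprod.1, by
      rw [v.ord_mul hlcF hprod.1, ord_algebraMap, hprod.2, add_zero]⟩
  -- hence `f` is transcendental
  have htr : Transcendental K f := by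
    rintro ⟨p, hp, hpf⟩
    exact (hpoly p hp).1 hpf
  have halg := isAlgebraic_adjoin_of_transcendental x htr
  refine not_isAlgebraic_adjoin_of_ord_eq_zero v hfmem ?_ halg
  rintro ⟨a, ha⟩ ha0
  rw [Algebra.adjoin_singleton_eq_range_aeval] at ha
  obtain ⟨p, rfl⟩ := ha
  have hp : p ≠ 0 := by
    rintro rfl
    exact ha0 (Subtype.ext (by simp))
  exact (hpoly p hp).2

set_option linter.unusedSectionVars false in
/-- the residue field of a place is `K` -/
theorem algebraMap_residueField_surjective (x : F) (hx : Transcendental K x)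
    [Module.Finite K⟮x⟯ F] (v : Place K F) :
    Function.Surjective (algebraMap K v.ResidueField) := by
  intro r
  obtain ⟨a, rfl⟩ := IsLocalRing.residue_surjective r
  by_cases haK : (a : F) ∈ Set.range (algebraMap K F)
  · obtain ⟨c, hc⟩ := haK
    refine ⟨c, ?_⟩
    have : algebraMap K v.toValuationSubring c = a := Subtype.ext hc
    rw [← this]
    rfl
  · have ha0 : (a : F) ≠ 0 := fun h => haK ⟨0, by rw [h, map_zero]⟩
    obtain ⟨c, hc⟩ := exists_ord_sub_pos x hx v (a : F)
      ((mem_toValuationSubring_iff v ha0).mp a.2) haK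
    refine ⟨c, ?_⟩
    have hmem : a - algebraMap K v.toValuationSubring c ∈
        IsLocalRing.maximalIdeal v.toValuationSubring := by
      rw [IsLocalRing.mem_maximalIdeal, mem_nonunits_iff]
      rintro ⟨u, hu⟩
      have h1 := v.ord_coe_unit u
      rw [hu] at h1
      have h2 : ((a - algebraMap K v.toValuationSubring c : v.toValuationSubring) : F) =
          (a : F) - algebraMap K F c := rfl
      rw [h2] at h1
      omega
    have h3 : IsLocalRing.residue v.toValuationSubring (a - algebraMap K v.toValuationSubring c)
        = 0 := (IsLocalRing.residue_eq_zero_iff _).mpr hmem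
    rw [map_sub, sub_eq_zero] at h3
    rw [h3]
    rfl

set_option linter.unusedSectionVars false in
theorem place_deg_eq_one (x : F) (hx : Transcendental K x) [Module.Finite K⟮x⟯ F]
    (v : Place K F) : v.deg = 1 := by
  have hsurj := algebraMap_residueField_surjective x hx v
  show Module.finrank K v.ResidueField = 1
  rw [finrank_eq_one_iff_of_nonzero' (1 : v.ResidueField) one_ne_zero]
  intro r
  obtain ⟨c, rfl⟩ := hsurj r
  exact ⟨c, by rw [Algebra.algebraMap_eq_smul_one]⟩

theorem finite_zeroPlaces (y : F) (hy : Transcendental K y) [Module.Finite K⟮y⟯ F] :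
    (zeroPlaces K y).Finite := by
  haveI := intRing_isDedekindDomain y hy
  haveI := intRing_isFractionRing y hy
  have hy0 : y ≠ 0 := fun h => hy (h ▸ isAlgebraic_zero)
  -- `y` as an element of `intRing K y`
  have hyint : y ∈ intRing K y :=
    (isIntegral_algebraMap (R := Algebra.adjoin K {y}) (A := F)
      (x := ⟨y, Algebra.self_mem_adjoin_singleton K y⟩))
  let yB : intRing K y := ⟨y, hyint⟩
  have hyB : Ideal.span {yB} ≠ (0 : Ideal (intRing K y)) := by
    rw [Ne, Ideal.zero_eq_bot, Ideal.span_singleton_eq_bot]
    exact fun h => hy0 (congrArg Subtype.val h)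
  have hfin := Ideal.finite_factors hyB
  refine (hfin.image (Place.ofHeightOneSpectrum (K := K) (F := F))).subset ?_
  intro v hv
  have hv' : 0 < v.ord y := hv
  obtain ⟨w, rfl⟩ := exists_prime_of_mem_zeroPlaces y hy v hv'.le
  refine ⟨w, ?_, rfl⟩
  show w.asIdeal ∣ Ideal.span {yB}
  rw [Ideal.dvd_span_singleton, ← HeightOneSpectrum.valuation_lt_one_iff_mem (K := F)]
  rw [ord_ofHeightOneSpectrum] at hv'
  have hval : w.valuation F y ≠ 0 := (Valuation.ne_zero_iff _).mpr hy0
  have hlog : WithZero.log (w.valuation F y) < 0 := by omega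
  rw [WithZero.log_lt_iff_lt_exp hval] at hlog
  simpa using hlog

end Fermat.Agent.S24Lib
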