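import Mathlib
import Fermat.Prelude.Def_AlgebraicCurve_CanonicalDivisor

/-!
# S24, chunk A3 (abstract part): differentials and the abstract Riemann–Hurwitz sum

Everything here is generic in `K`, `F` (Mathlib + Prelude only), namespace
`Fermat.Agent.S24Lib.RH`.

* `span_D_eq_top` : `Ω[F⁄K] = F · dx` when `F` is algebraic over `K(x)` (char. 0).
* `diffOrd_of_derivation` : the local statement `ord_v (dy/dt) = ord_v y - 1` from an
  "analytic realisation" of the place `v` (an embedding `σ : F → E` into a field with a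
  derivation `δ` and an order function `w` with `w ∘ σ = κ · ord_v`).
* `degree_eq` : the abstract Riemann–Hurwitz sum.
* `genus_eq_of_degree'` : unfolding of the Prelude's `genus`.
-/

set_option autoImplicit false

open KaehlerDifferential AlgebraicCurve IntermediateField

namespace Fermat.Agent.S24Lib.RH

variable {K F : Type*} [Field K] [Field F] [Algebra K F]

/-! ### `Ω[F⁄K] = F · dx` -/

/-- `D` of a rational expression in `x` is a multiple of `D x`. -/
theorem D_mem_span_of_mem_adjoin (x : F) {e : F} (he : e ∈ K⟮x⟯) :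
    D K F e ∈ Submodule.span F {D K F x} := by
  obtain ⟨r, s, rfl⟩ := (IntermediateField.mem_adjoin_simple_iff K e).mp he
  rw [Derivation.leibniz_div, Derivation.map_aeval, Derivation.map_aeval]
  refine Submodule.smul_mem _ _ (Submodule.sub_mem _ ?_ ?_)
  · exact Submodule.smul_mem _ _ (Submodule.smul_mem _ _ (Submodule.mem_span_singleton_self _))
  · exact Submodule.smul_mem _ _ (Submodule.smul_mem _ _ (Submodule.mem_span_singleton_self _))

/-- If `F` is algebraic over `K(x)` (characteristic zero), then `Ω[F/K]` is spanned by `dx`. -/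
theorem span_D_eq_top [CharZero K] (x : F) [Algebra.IsAlgebraic K⟮x⟯ F] :
    Submodule.span F {D K F x} = ⊤ := by
  have hsep : Algebra.IsSeparable K⟮x⟯ F := Algebra.IsAlgebraic.isSeparable_of_perfectField
  have hunr : Algebra.FormallyUnramified K⟮x⟯ F := Algebra.FormallyUnramified.of_isSeparable _ _
  have hsub : Subsingleton Ω[F⁄K⟮x⟯] := inferInstance
  have hrange : LinearMap.range (mapBaseChange K K⟮x⟯ F) = ⊤ := by
    rw [range_mapBaseChange, eq_top_iff]
    intro ω _
    exact Subsingleton.elim _ _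
  rw [eq_top_iff]
  rintro ω -
  obtain ⟨t, rfl⟩ := LinearMap.range_eq_top.mp hrange ω
  induction t using TensorProduct.induction_on with
  | zero => simp
  | tmul f η =>
    rw [mapBaseChange_tmul]
    refine Submodule.smul_mem _ _ ?_
    have hη : η ∈ Submodule.span K⟮x⟯ (Set.range (D K K⟮x⟯)) := by
      rw [span_range_derivation]; trivial
    induction hη using Submodule.span_induction with
    | mem η h =>
      obtain ⟨e, rfl⟩ := h
      rw [map_D]
      exact D_mem_span_of_mem_adjoin x e.2
    | zero => simp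
    | add a b _ _ ha hb => rw [map_add]; exact add_mem ha hb
    | smul c a _ ha =>
      rw [map_smul]
      rw [← algebraMap_smul F c]
      exact Submodule.smul_mem _ _ ha
  | add a b ha hb => rw [map_add]; exact add_mem ha hb

/-- If `dx` spans and `dy ≠ 0`, then `dy` spans. -/
theorem span_D_eq_top_of_ne_zero {x y : F} (hx : Submodule.span F {D K F x} = ⊤)
    (hy : D K F y ≠ 0) : Submodule.span F {D K F y} = ⊤ := by
  have hy' : D K F y ∈ Submodule.span F {D K F x} := hx ▸ Submodule.mem_top
  obtain ⟨a, ha⟩ := Submodule.mem_span_singleton.mp hy'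
  have ha0 : a ≠ 0 := by
    rintro rfl
    exact hy (by rw [← ha, zero_smul])
  rw [eq_top_iff, ← hx, Submodule.span_singleton_le_iff_mem, Submodule.mem_span_singleton]
  exact ⟨a⁻¹, by rw [← ha, smul_smul, inv_mul_cancel₀ ha0, one_smul]⟩

/-! ### Basic facts on `Place.ord` -/

/-- The private uniformizer of the Prelude is (the coercion of) an irreducible element. -/
theorem exists_irreducible_dCoord (v : Place K F) :
    ∃ π : v.toValuationSubring, Irreducible π ∧ v.dCoord = D K F (π : F) :=
  ⟨_, (IsDiscreteValuationRing.exists_irreducible v.toValuationSubring).choose_spec, rfl⟩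

theorem ord_algebraMap (v : Place K F) (c : K) : v.ord (algebraMap K F c) = 0 := by
  rcases eq_or_ne c 0 with rfl | hc
  · simp
  · have hu : IsUnit (algebraMap K v.toValuationSubring c) := (isUnit_iff_ne_zero.mpr hc).map _
    have := v.ord_coe_unit hu.unit
    rwa [IsUnit.unit_spec, Place.coe_algebraMap] at this

theorem min_le_ord_add (v : Place K F) {f g : F} (hf : f ≠ 0) (hg : g ≠ 0) (hfg : f + g ≠ 0) :
    min (v.ord f) (v.ord g) ≤ v.ord (f + g) := by
  have h := v.adicValuation.map_add f g
  have hf' := v.adicValuation_ne_zero hf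
  have hg' := v.adicValuation_ne_zero hg
  have hfg' := v.adicValuation_ne_zero hfg
  simp only [Place.ord]
  rcases le_max_iff.mp h with h1 | h1
  · have := (WithZero.log_le_log hfg' hf').mpr h1
    exact (min_le_left _ _).trans (neg_le_neg this)
  · have := (WithZero.log_le_log hfg' hg').mpr h1
    exact (min_le_right _ _).trans (neg_le_neg this)

/-- A place cannot be a pole of `J` and a zero of `J - c`. -/
theorem not_pos_ord_sub_of_ord_neg (v : Place K F) {J : F} (hJ : v.ord J < 0) (c : K) :
    ¬ 0 < v.ord (J - algebraMap K F c) := by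
  intro hpos
  have hJ0 : J ≠ 0 := by rintro rfl; simp at hJ
  rcases eq_or_ne c 0 with rfl | hc
  · simp only [map_zero, sub_zero] at hpos; omega
  · have hc' : algebraMap K F c ≠ 0 := by simpa using hc
    have hsub : J - algebraMap K F c ≠ 0 := by
      intro h; rw [h] at hpos; simp at hpos
    have h := min_le_ord_add v hsub hc' (by simpa using hJ0)
    rw [sub_add_cancel, ord_algebraMap] at h
    have : 0 ≤ min (v.ord (J - algebraMap K F c)) 0 := le_min hpos.le le_rfl
    omega

/-- A place is a zero of `J - c` for at most one `c`. -/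
theorem eq_of_pos_ord_sub (v : Place K F) {J : F} {c c' : K}
    (h : 0 < v.ord (J - algebraMap K F c)) (h' : 0 < v.ord (J - algebraMap K F c')) : c = c' := by
  by_contra hne
  have h1 : J - algebraMap K F c ≠ 0 := by intro h0; rw [h0] at h; simp at h
  have h2 : -(J - algebraMap K F c') ≠ 0 := by
    intro h0; rw [neg_eq_zero] at h0; rw [h0] at h'; simp at h'
  have hsum : (J - algebraMap K F c) + -(J - algebraMap K F c') = algebraMap K F (c' - c) := by
    rw [map_sub]; ring
  have hne' : algebraMap K F (c' - c) ≠ 0 := by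
    simpa [sub_eq_zero] using (Ne.symm hne)
  have hm := min_le_ord_add v h1 h2 (by rw [hsum]; exact hne')
  rw [hsum, ord_algebraMap] at hm
  have hneg : v.ord (-(J - algebraMap K F c')) = v.ord (J - algebraMap K F c') := by
    simp only [Place.ord, Valuation.map_neg]
  rw [hneg] at hm
  have : 0 < min (v.ord (J - algebraMap K F c)) (v.ord (J - algebraMap K F c')) := lt_min h h'
  omega

/-! ### The local statement from a derivation -/

/-- Let `v` be a place of `F/K`, `σ : F → E` an embedding into a field with a derivation `δ`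
(killing `σ K`) and a function `w : E → ℤ`, multiplicative on nonzero elements, with
`w (σ f) = κ · ord_v f` (`κ ≠ 0`) and `w (δ (σ f)) = w (σ f) - s` whenever `ord_v f ≠ 0`.
Then for every `y` with `ord_v y ≠ 0`: `dy ≠ 0`, and if `dy = a • dt` with `ord_v t = 1`
then `ord_v a = ord_v y - 1`. -/
theorem diffOrd_of_derivation (v : Place K F) {E : Type*} [Field E] (σ : F →+* E) (δ : E → E)
    (hδ_add : ∀ a b, δ (a + b) = δ a + δ b) (hδ_mul : ∀ a b, δ (a * b) = δ a * b + a * δ b)
    (hδK : ∀ c : K, δ (σ (algebraMap K F c)) = 0)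
    (w : E → ℤ) (hmul : ∀ a b : E, a ≠ 0 → b ≠ 0 → w (a * b) = w a + w b)
    (κ : ℤ) (hκ : κ ≠ 0) (hwσ : ∀ f : F, f ≠ 0 → w (σ f) = κ * v.ord f)
    (s : ℤ) (hδw : ∀ f : F, v.ord f ≠ 0 → δ (σ f) ≠ 0 ∧ w (δ (σ f)) = w (σ f) - s)
    (y : F) (hy : v.ord y ≠ 0) :
    D K F y ≠ 0 ∧ ∀ t a : F, v.ord t = 1 → D K F y = a • D K F t → v.ord a = v.ord y - 1 := by
  let _ : Algebra F E := σ.toAlgebra
  let _ : Algebra K E := (σ.comp (algebraMap K F)).toAlgebra
  have hFE : ∀ f : F, algebraMap F E f = σ f := fun _ => rfl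
  have hKE : ∀ c : K, algebraMap K E c = σ (algebraMap K F c) := fun _ => rfl
  have : IsScalarTower K F E := IsScalarTower.of_algebraMap_eq fun c => rfl
  have hδ1 : δ 1 = 0 := by
    have h := hδ_mul 1 1
    simp only [mul_one, one_mul] at h
    have h2 : δ 1 + δ 1 = δ 1 + 0 := by rw [add_zero]; exact h.symm
    exact add_left_cancel h2
  have hδ0 : δ 0 = 0 := by
    have h := hδ_add 0 0
    rw [add_zero] at h
    have h2 : δ 0 + δ 0 = δ 0 + 0 := by rw [add_zero]; exact h.symm
    exact add_left_cancel h2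
  let d : Derivation K F E :=
    { toFun := fun f => δ (σ f)
      map_add' := fun f g => by rw [map_add, hδ_add]
      map_smul' := fun c f => by
        simp only [RingHom.id_apply]
        rw [Algebra.smul_def, map_mul, hδ_mul, hδK, zero_mul, zero_add, Algebra.smul_def, hKE]
      map_one_eq_zero' := by
        show δ (σ 1) = 0
        rw [map_one, hδ1]
      leibniz' := fun f g => by
        show δ (σ (f * g)) = f • δ (σ g) + g • δ (σ f)
        rw [map_mul, hδ_mul, Algebra.smul_def, Algebra.smul_def, hFE, hFE]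
        ring }
  have hd : ∀ f : F, d f = δ (σ f) := fun _ => rfl
  set L : Ω[F⁄K] →ₗ[F] E := d.liftKaehlerDifferential with hL
  have hLD : ∀ f : F, L (D K F f) = δ (σ f) := fun f => by
    rw [hL, d.liftKaehlerDifferential_comp_D, hd]
  have hdy := hδw y hy
  have hy0 : y ≠ 0 := by rintro rfl; simp at hy
  have hDy : D K F y ≠ 0 := by
    intro h0
    apply hdy.1
    rw [← hLD, h0, map_zero]
  refine ⟨hDy, fun t a ht hya => ?_⟩
  have ht0 : t ≠ 0 := by rintro rfl; simp at ht
  have hdt := hδw t (by rw [ht]; exact one_ne_zero)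
  have hE : δ (σ y) = σ a * δ (σ t) := by
    rw [← hLD y, hya, map_smul, hLD, Algebra.smul_def, hFE]
  have hσa : σ a ≠ 0 := by
    intro h0
    apply hdy.1
    rw [hE, h0, zero_mul]
  have ha0 : a ≠ 0 := by
    rintro rfl
    exact hσa (map_zero σ)
  have hw1 := hmul _ _ hσa hdt.1
  rw [← hE, hdy.2, hdt.2, hwσ y hy0, hwσ a ha0, hwσ t ht0, ht] at hw1
  have hkey : κ * (v.ord y - 1 - v.ord a) = 0 := by linarith
  rcases mul_eq_zero.mp hkey with h | h
  · exact absurd h hκ
  · omega

/-! ### The global sum -/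

theorem degree_eq_sum_of_support_subset (Dv : Divisor K F) (hdeg : ∀ v : Place K F, v.deg = 1)
    (T : Finset (Place K F)) (hT : Dv.support ⊆ T) :
    Divisor.degree Dv = ∑ v ∈ T, Dv v := by
  have h1 : Divisor.degree Dv = Dv.sum fun v n => n * (v.deg : ℤ) := by
    simp [Divisor.degree, Finsupp.liftAddHom_apply]
  rw [h1, Finsupp.sum_of_support_subset Dv hT _ (fun i _ => by simp)]
  refine Finset.sum_congr rfl fun v _ => ?_
  rw [hdeg v]; simp

/-- **Abstract Riemann–Hurwitz sum.**  Suppose `Ω[F⁄K] = F · dJ`, all places have degree one,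
`dπ_v` generates at every place, principal divisors have degree zero, and the local orders of
`dJ` are as expected (`ord_v J - 1` at a pole, `ord_v (J - c) - 1` at a zero of `J - c`).
Let `Pinf` be the set of poles of `J` (with `∑ e_v = n`), let `S` be a finite set of values
outside of which `J` is unramified, and `P c` the fibre over `c ∈ S` (with `∑ e_v = n`).
Then every nonzero differential has a divisor of degree
`-n - #Pinf + ∑_{c ∈ S} (n - #(P c))`. -/
theorem degree_eq (J : F) (hspan : Submodule.span F {D K F J} = ⊤)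
    (hdeg : ∀ v : Place K F, v.deg = 1)
    (hgen : ∀ v : Place K F, v.DCoordGenerates)
    (hprin : ∀ h : F, h ≠ 0 → (Function.support fun v : Place K F => v.ord h).Finite ∧
      ∑ᶠ v : Place K F, v.ord h = 0)
    (n : ℤ) (Pinf : Finset (Place K F)) (hPinf : ∀ v, v ∈ Pinf ↔ v.ord J < 0)
    (hlocinf : ∀ v ∈ Pinf, v.ordDifferential (D K F J) = v.ord J - 1)
    (hninf : ∑ v ∈ Pinf, (- v.ord J) = n)
    (S : Finset K) (P : K → Finset (Place K F))
    (hP : ∀ c ∈ S, ∀ v, v ∈ P c ↔ 0 < v.ord (J - algebraMap K F c))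
    (hn : ∀ c ∈ S, ∑ v ∈ P c, v.ord (J - algebraMap K F c) = n)
    (hloc : ∀ v : Place K F, 0 ≤ v.ord J →
      ∃ c : K, 0 < v.ord (J - algebraMap K F c) ∧
        v.ordDifferential (D K F J) = v.ord (J - algebraMap K F c) - 1 ∧
        (c ∉ S → v.ord (J - algebraMap K F c) = 1))
    {ω : Ω[F⁄K]} (hω : ω ≠ 0) (Dv : Divisor K F)
    (hD : ∀ v : Place K F, Dv v = v.ordDifferential ω) :
    Divisor.degree Dv =
      - n - (Pinf.card : ℤ) + ∑ c ∈ S, (n - ((P c).card : ℤ)) := by
  classical
  have hnt : Nontrivial Ω[F⁄K] := ⟨⟨_, _, hω⟩⟩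
  -- `ω = h • dJ`
  have hωmem : ω ∈ Submodule.span F {D K F J} := hspan ▸ Submodule.mem_top
  obtain ⟨h, rfl⟩ := Submodule.mem_span_singleton.mp hωmem
  have hh : h ≠ 0 := by rintro rfl; exact hω (zero_smul _ _)
  have hDJ : D K F J ≠ 0 := by intro h0; exact hω (by rw [h0, smul_zero])
  obtain ⟨hfinh, hsumh⟩ := hprin h hh
  -- pointwise decomposition
  have hpt : ∀ v : Place K F, Dv v = v.ord h + v.ordDifferential (D K F J) := by
    intro v
    have := hgen v
    rw [hD]
    refine v.ordDifferential_smul hh ?_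
    intro h0
    apply hDJ
    rw [← v.differentialCoeff_smul_dCoord (D K F J), h0, zero_smul]
  -- the values of `ordDifferential (dJ)` on the fibres
  have hval_fin : ∀ c ∈ S, ∀ v ∈ P c,
      v.ordDifferential (D K F J) = v.ord (J - algebraMap K F c) - 1 := by
    intro c hc v hv
    have hpos := (hP c hc v).mp hv
    have hJ : 0 ≤ v.ord J := by
      by_contra hneg
      exact not_pos_ord_sub_of_ord_neg v (not_le.mp hneg) c hpos
    obtain ⟨c', hc', hc'1, -⟩ := hloc v hJ
    rw [hc'1, eq_of_pos_ord_sub v hc' hpos]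
  set T' : Finset (Place K F) := Pinf ∪ S.biUnion P with hT'
  set T : Finset (Place K F) := Dv.support ∪ hfinh.toFinset ∪ T' with hT
  have hzero : ∀ v ∈ T, v ∉ T' → v.ordDifferential (D K F J) = 0 := by
    intro v _ hvT
    rw [hT', Finset.mem_union, not_or] at hvT
    obtain ⟨hv1, hv2⟩ := hvT
    have hJ : 0 ≤ v.ord J := by
      by_contra hneg
      exact hv1 ((hPinf v).mpr (not_le.mp hneg))
    obtain ⟨c, hc, hc1, hc2⟩ := hloc v hJ
    by_cases hcS : c ∈ S
    · exact absurd (Finset.mem_biUnion.mpr ⟨c, hcS, (hP c hcS v).mpr hc⟩) hv2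
    · rw [hc1, hc2 hcS, sub_self]
  rw [degree_eq_sum_of_support_subset Dv hdeg T
    (Finset.subset_union_left.trans Finset.subset_union_left)]
  rw [Finset.sum_congr rfl fun v _ => hpt v, Finset.sum_add_distrib]
  have hsum1 : ∑ v ∈ T, v.ord h = 0 := by
    rw [← hsumh]
    symm
    apply finsum_eq_sum_of_support_subset
    intro v hv
    rw [hT]
    simp only [Finset.coe_union, Set.mem_union, Finset.mem_coe, Set.Finite.mem_toFinset]
    exact Or.inl (Or.inr hv)
  have hsum2 : ∑ v ∈ T, v.ordDifferential (D K F J) = ∑ v ∈ T', v.ordDifferential (D K F J) :=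
    (Finset.sum_subset Finset.subset_union_right hzero).symm
  rw [hsum1, zero_add, hsum2, hT']
  have hdisj1 : Disjoint Pinf (S.biUnion P) := by
    rw [Finset.disjoint_left]
    intro v hv hv'
    obtain ⟨c, hcS, hvc⟩ := Finset.mem_biUnion.mp hv'
    exact not_pos_ord_sub_of_ord_neg v ((hPinf v).mp hv) c ((hP c hcS v).mp hvc)
  have hdisj2 : (S : Set K).PairwiseDisjoint P := by
    intro c hc c' hc' hne
    rw [Function.onFun, Finset.disjoint_left]
    intro v hv hv'
    exact hne (eq_of_pos_ord_sub v ((hP c hc v).mp hv) ((hP c' hc' v).mp hv'))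
  rw [Finset.sum_union hdisj1, Finset.sum_biUnion hdisj2]
  have e1 : ∑ v ∈ Pinf, v.ordDifferential (D K F J) = - n - (Pinf.card : ℤ) := by
    rw [Finset.sum_congr rfl hlocinf, Finset.sum_sub_distrib, ← hninf]
    simp
  have e2 : ∀ c ∈ S, ∑ v ∈ P c, v.ordDifferential (D K F J) = n - ((P c).card : ℤ) := by
    intro c hc
    rw [Finset.sum_congr rfl (hval_fin c hc), Finset.sum_sub_distrib, hn c hc]
    simp
  rw [e1, Finset.sum_congr rfl e2]

/-! ### Unfolding the genus -/

/-- If every nonzero differential has a divisor of degree `d` (and there is a nonzero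
differential), then the Prelude's genus is `(d + 2).toNat / 2`. -/
theorem genus_eq_of_degree' [HasCanonicalDivisor (K := K) (F := F)]
    (hne : ∃ ω : Ω[F⁄K], ω ≠ 0) (d : ℤ)
    (hd : ∀ (ω : Ω[F⁄K]) (hω : ω ≠ 0), Divisor.degree (canonicalDivisorOf hω) = d) :
    genus K F = (d + 2).toNat / 2 := by
  unfold genus
  rw [dif_pos hne, hd]

end Fermat.Agent.S24Lib.RH
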