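import Mathlib
import Fermat.Prelude.Def_AlgebraicCurve_CanonicalDivisor
import Fermat.Agent.Lib.S24.Defs
import Fermat.Agent.Lib.S24.RHAbstract

/-!
# S24, chunk A1a (part): residue fields of places are `K`

`Res.exists_ord_sub_pos` and `Res.place_deg_eq_one` (statements of `S24_iface`, under the
prefix `Res`), for `F` finite over `K(x)`, `K` algebraically closed.
-/

set_option autoImplicit false

namespace Fermat.Agent.S24Lib

open AlgebraicCurve IntermediateField Polynomial

variable {K F : Type*} [Field K] [Field F] [Algebra K F]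

namespace Res

/-- membership in the valuation ring in terms of `ord` -/
theorem mem_valuationSubring_iff (v : Place K F) {f : F} (hf : f ≠ 0) :
    f ∈ v.toValuationSubring ↔ 0 ≤ v.ord f := by
  constructor
  · intro h
    have h1 : v.adicValuation f ≤ 1 := by
      have := v.adicValuation_coe ⟨f, h⟩
      rw [this]
      exact IsDedekindDomain.HeightOneSpectrum.intValuation_le_one _ _
    have h2 := (WithZero.log_le_log (v.adicValuation_ne_zero hf) one_ne_zero).mpr h1
    rw [WithZero.log_one] at h2
    simp only [Place.ord]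
    omega
  · intro h
    obtain ⟨π, hπ⟩ := IsDiscreteValuationRing.exists_irreducible v.toValuationSubring
    obtain ⟨u, hu⟩ := v.exists_unit_mul_zpow hf hπ
    rw [hu]
    refine v.toValuationSubring.mul_mem _ _ (u : v.toValuationSubring).2 ?_
    obtain ⟨n, hn⟩ := Int.eq_ofNat_of_zero_le h
    rw [hn, zpow_natCast]
    exact v.toValuationSubring.pow_mem π.2 n

/-- over an algebraically closed field, algebraic elements are constants -/
theorem mem_range_of_isAlgebraic [IsAlgClosed K] {f : F} (h : IsAlgebraic K f) :
    f ∈ Set.range (algebraMap K F) := by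
  have hint : IsIntegral K f := h.isIntegral
  have hdeg : (minpoly K f).degree = 1 :=
    IsAlgClosed.degree_eq_one_of_irreducible K (minpoly.irreducible hint)
  exact minpoly.mem_range_of_degree_eq_one K f hdeg

/-- exchange: if `F` is algebraic over `K(x)` and `f` is transcendental over `K`, then `F` is
algebraic over `K(f)`. -/
theorem isAlgebraic_adjoin_of_transcendental (x : F) [Algebra.IsAlgebraic K⟮x⟯ F] {f : F}
    (hf : Transcendental K f) : Algebra.IsAlgebraic K⟮f⟯ F := by
  open scoped IntermediateField.algebraAdjoinAdjoin in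
  have h1 : Algebra.IsAlgebraic (Algebra.adjoin K ({x} : Set F)) F :=
    Algebra.IsAlgebraic.trans (Algebra.adjoin K ({x} : Set F)) K⟮x⟯ F
  have h2 : Algebra.trdeg K F ≤ 1 := by
    have := Algebra.IsAlgebraic.trdeg_le_cardinalMk K ({x} : Set F)
    simpa using this
  have h3 : AlgebraicIndependent K (fun _ : Unit => f) :=
    algebraicIndependent_unique_type_iff.mpr hf
  have h4 : IsTranscendenceBasis K (fun _ : Unit => f) := by
    apply h3.isTranscendenceBasis_of_lift_trdeg_le_of_finite
    simpa using h2
  have h5 := h4.isAlgebraic_field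
  rwa [Set.range_const] at h5

/-- a valuation ring of `F` containing a subfield over which `F` is algebraic is everything -/
theorem eq_top_of_forall_mem (A : ValuationSubring F) (L : IntermediateField K F)
    [Algebra.IsAlgebraic L F] (h : ∀ g ∈ L, g ∈ A) : A = ⊤ := by
  refine SetLike.ext fun t => ⟨fun _ => ValuationSubring.mem_top t, fun _ => ?_⟩
  have hint : IsIntegral L t := (Algebra.IsAlgebraic.isAlgebraic (R := L) t).isIntegral
  obtain ⟨p, hp, hpt⟩ := hint
  let ι : L →+* A := (algebraMap L F).codRestrict A.toSubring fun g => h g g.2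
  have hι : (algebraMap A F).comp ι = algebraMap L F := by
    ext g; rfl
  have hint' : IsIntegral A t := by
    refine ⟨p.map ι, hp.map ι, ?_⟩
    rw [Polynomial.eval₂_map, hι]
    exact hpt
  obtain ⟨y, hy⟩ := IsIntegrallyClosed.isIntegral_iff.mp hint'
  rw [← hy]
  exact y.2

/-- if `f - c` is a unit at `v` for every constant `c`, then every nonzero polynomial in `f` is a
unit at `v`. -/
theorem ord_aeval_eq_zero [IsAlgClosed K] (v : Place K F) (f : F)
    (h0 : ∀ c : K, f - algebraMap K F c ≠ 0 ∧ v.ord (f - algebraMap K F c) = 0)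
    (p : K[X]) (hp : p ≠ 0) : aeval f p ≠ 0 ∧ v.ord (aeval f p) = 0 := by
  have hsplit := (IsAlgClosed.splits p).eq_prod_roots
  have hlc : p.leadingCoeff ≠ 0 := leadingCoeff_ne_zero.mpr hp
  have key : ∀ m : Multiset K, (m.map fun c => f - algebraMap K F c).prod ≠ 0 ∧
      v.ord (m.map fun c => f - algebraMap K F c).prod = 0 := by
    intro m
    induction m using Multiset.induction_on with
    | empty => simp
    | cons c m ih =>
      rw [Multiset.map_cons, Multiset.prod_cons]
      refine ⟨mul_ne_zero (h0 c).1 ih.1, ?_⟩
      rw [v.ord_mul (h0 c).1 ih.1, (h0 c).2, ih.2, add_zero]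
  have hval : aeval f p = algebraMap K F p.leadingCoeff *
      (p.roots.map fun c => f - algebraMap K F c).prod := by
    conv_lhs => rw [hsplit]
    rw [map_mul, aeval_C, map_multiset_prod, Multiset.map_map]
    congr 2
    refine Multiset.map_congr rfl fun c _ => ?_
    simp
  have hlc' : algebraMap K F p.leadingCoeff ≠ 0 := by simpa using hlc
  rw [hval]
  refine ⟨mul_ne_zero hlc' (key _).1, ?_⟩
  rw [v.ord_mul hlc' (key _).1, RH.ord_algebraMap, (key _).2, add_zero]

/-- residue fields are `K`: an element integral at `v` is congruent to a constant -/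
theorem exists_ord_sub_pos [IsAlgClosed K] (x : F) (hx : Transcendental K x) [Module.Finite K⟮x⟯ F]
    (v : Place K F) (f : F) (hf : 0 ≤ v.ord f) (hfK : f ∉ Set.range (algebraMap K F)) :
    ∃ c : K, 0 < v.ord (f - algebraMap K F c) := by
  by_contra hcon
  push Not at hcon
  have hftr : Transcendental K f := fun h => hfK (Res.mem_range_of_isAlgebraic h)
  have hf0 : f ≠ 0 := by
    rintro rfl
    exact hfK ⟨0, map_zero _⟩
  -- `f - c` is a unit at `v`
  have h0 : ∀ c : K, f - algebraMap K F c ≠ 0 ∧ v.ord (f - algebraMap K F c) = 0 := by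
    intro c
    have hne : f - algebraMap K F c ≠ 0 := fun h => hfK ⟨c, (sub_eq_zero.mp h).symm⟩
    refine ⟨hne, le_antisymm (hcon c) ?_⟩
    rcases eq_or_ne c 0 with rfl | hc
    · simpa using hf
    · have hc' : -algebraMap K F c ≠ 0 := by simpa using hc
      have h1 := RH.min_le_ord_add v hf0 hc' (by rwa [← sub_eq_add_neg])
      have h2 : v.ord (-algebraMap K F c) = 0 := by
        rw [← map_neg]; exact RH.ord_algebraMap v _
      rw [h2, ← sub_eq_add_neg] at h1
      exact (le_min hf le_rfl).trans h1
  -- `K(f)` is contained in the valuation ring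
  have hsub : ∀ g ∈ K⟮f⟯, g ∈ v.toValuationSubring := by
    intro g hg
    obtain ⟨r, s, rfl⟩ := (IntermediateField.mem_adjoin_simple_iff K g).mp hg
    rcases eq_or_ne s 0 with rfl | hs
    · simp
    rcases eq_or_ne r 0 with rfl | hr
    · simp
    have hr' := Res.ord_aeval_eq_zero v f h0 r hr
    have hs' := Res.ord_aeval_eq_zero v f h0 s hs
    rw [Res.mem_valuationSubring_iff v (div_ne_zero hr'.1 hs'.1), div_eq_mul_inv,
      v.ord_mul hr'.1 (inv_ne_zero hs'.1), v.ord_inv, hr'.2, hs'.2]
    simp
  have halgx : Algebra.IsAlgebraic K⟮x⟯ F := Algebra.IsAlgebraic.of_finite _ _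
  have halg : Algebra.IsAlgebraic K⟮f⟯ F := Res.isAlgebraic_adjoin_of_transcendental x hftr
  exact v.ne_top' (Res.eq_top_of_forall_mem v.toValuationSubring K⟮f⟯ hsub)

/-- an element of the valuation ring of positive order lies in the maximal ideal -/
theorem mem_maximalIdeal_of_ord_pos (v : Place K F) (b : v.toValuationSubring)
    (hb : 0 < v.ord (b : F)) : b ∈ IsLocalRing.maximalIdeal v.toValuationSubring := by
  rw [IsLocalRing.mem_maximalIdeal, mem_nonunits_iff]
  intro hu
  have h1 := (v.adicValuation_coe_eq_one_iff b).mpr hu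
  simp [Place.ord, h1] at hb

/-- all places have degree one (the residue field is `K`) -/
theorem place_deg_eq_one [IsAlgClosed K] (x : F) (hx : Transcendental K x)
    [Module.Finite K⟮x⟯ F] (v : Place K F) : v.deg = 1 := by
  have hsurj : Function.Surjective (algebraMap K v.ResidueField) := by
    intro r
    obtain ⟨a, rfl⟩ := IsLocalRing.residue_surjective r
    by_cases haK : (a : F) ∈ Set.range (algebraMap K F)
    · obtain ⟨c, hc⟩ := haK
      refine ⟨c, ?_⟩
      have : algebraMap K v.toValuationSubring c = a := Subtype.ext hc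
      rw [← this]
      rfl
    · have ha0 : (a : F) ≠ 0 := fun h => haK ⟨0, by rw [map_zero, h]⟩
      have hord : 0 ≤ v.ord (a : F) := (mem_valuationSubring_iff v ha0).mp a.2
      obtain ⟨c, hc⟩ := exists_ord_sub_pos x hx v (a : F) hord haK
      refine ⟨c, ?_⟩
      have hmem := mem_maximalIdeal_of_ord_pos v (a - algebraMap K v.toValuationSubring c) hc
      have h0 : IsLocalRing.residue v.toValuationSubring
          (a - algebraMap K v.toValuationSubring c) = 0 :=
        (IsLocalRing.residue_eq_zero_iff _).mpr hmem
      rw [map_sub, sub_eq_zero] at h0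
      rw [h0]
      rfl
  have hinj : Function.Injective (algebraMap K v.ResidueField) := (algebraMap K _).injective
  have hbij : Function.Bijective (Algebra.linearMap K v.ResidueField) := ⟨hinj, hsurj⟩
  have e := LinearEquiv.ofBijective (Algebra.linearMap K v.ResidueField) hbij
  unfold Place.deg
  rw [← e.finrank_eq, Module.finrank_self]

end Res

end Fermat.Agent.S24Lib
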