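/-
S24, chunk A1c (helper4): transport lemmas between `K⟮x⟯`, `K⟮x - c⟯` and `K⟮x⁻¹⟯`.
Statements verbatim from the docs row `S24_iface`.  Mathlib only.
-/
import Mathlib

set_option autoImplicit false

namespace Fermat.Agent.S24Lib

open IntermediateField

variable {K F : Type*} [Field K] [Field F] [Algebra K F]

theorem adjoin_sub_algebraMap (x : F) (c : K) : K⟮x - algebraMap K F c⟯ = K⟮x⟯ := by
  apply le_antisymm
  · rw [adjoin_simple_le_iff]
    exact sub_mem (mem_adjoin_simple_self K x) (IntermediateField.algebraMap_mem _ c)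
  · rw [adjoin_simple_le_iff]
    have h1 : x - algebraMap K F c ∈ K⟮x - algebraMap K F c⟯ := mem_adjoin_simple_self K _
    have h2 : algebraMap K F c ∈ K⟮x - algebraMap K F c⟯ := IntermediateField.algebraMap_mem _ c
    simpa using add_mem h1 h2

theorem adjoin_inv (x : F) : K⟮x⁻¹⟯ = K⟮x⟯ := by
  apply le_antisymm
  · rw [adjoin_simple_le_iff]
    exact inv_mem (mem_adjoin_simple_self K x)
  · rw [adjoin_simple_le_iff]
    simpa using inv_mem (mem_adjoin_simple_self K x⁻¹)

theorem transcendental_sub_algebraMap {x : F} (hx : Transcendental K x) (c : K) :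
    Transcendental K (x - algebraMap K F c) := by
  intro h
  apply hx
  have e : x = (x - algebraMap K F c) + algebraMap K F c := by ring
  rw [e]
  exact h.add (isAlgebraic_algebraMap c)

theorem transcendental_inv {x : F} (hx : Transcendental K x) : Transcendental K x⁻¹ := by
  intro h
  apply hx
  have h' := h.inv
  rwa [inv_inv] at h'

theorem transport_intermediateField_of_eq (P : IntermediateField K F → Prop) {E₁ E₂ : IntermediateField K F}
    (h : E₁ = E₂) (hP : P E₂) : P E₁ := h ▸ hP

theorem finite_of_adjoin_eq {x y : F} (h : K⟮y⟯ = K⟮x⟯) [Module.Finite K⟮x⟯ F] :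
    Module.Finite K⟮y⟯ F :=
  transport_intermediateField_of_eq (fun E => Module.Finite E F) h inferInstance

theorem finrank_of_adjoin_eq {x y : F} (h : K⟮y⟯ = K⟮x⟯) :
    Module.finrank K⟮y⟯ F = Module.finrank K⟮x⟯ F := by
  rw [h]

end Fermat.Agent.S24Lib
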