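import Mathlib
import Fermat.Prelude.Def_AlgebraicCurve_CanonicalDivisor
import Fermat.Agent.Lib.S24.Defs
import Fermat.Agent.Lib.S24.Places
import Fermat.Agent.Lib.S24.NormFormula
import Fermat.Agent.Lib.S24.Transport
import Fermat.Agent.Lib.S24.PlacesRes

/-!
# S24, chunk A1b (part): principal divisors have degree zero

`sum_ord_eq_zero` (binding statement of `S24_iface`): for `h ≠ 0` the function `v ↦ ord_v h` has
finite support and sums to zero.  Proof: if `h` is a constant all orders vanish; otherwise `h` is
transcendental, `F / K(h)` is finite, and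
`∑_{zeros} ord_v h = [F : K(h)] = [F : K(h⁻¹)] = ∑_{poles} (-ord_v h)`.
-/

set_option autoImplicit false

namespace Fermat.Agent.S24Lib

open AlgebraicCurve IntermediateField

variable {K F : Type*} [Field K] [IsAlgClosed K] [CharZero K] [Field F] [Algebra K F]

namespace Res

omit [IsAlgClosed K] [CharZero K] in
/-- If `F` is finite over `K(x)` and `h` is transcendental over `K`, then `F` is finite over
`K(h)`. -/
theorem finite_adjoin_of_transcendental (x : F) [Module.Finite K⟮x⟯ F] {h : F}
    (hh : Transcendental K h) : Module.Finite K⟮h⟯ F := by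
  have halgx : Algebra.IsAlgebraic K⟮x⟯ F := Algebra.IsAlgebraic.of_finite _ _
  have halg : Algebra.IsAlgebraic K⟮h⟯ F := Res.isAlgebraic_adjoin_of_transcendental x hh
  have h1 : Algebra.EssFiniteType K K⟮x⟯ :=
    IntermediateField.essFiniteType_iff.mpr
      (IntermediateField.fg_adjoin_of_finite (Set.finite_singleton x))
  have h2 : Algebra.EssFiniteType K F := Algebra.EssFiniteType.comp K K⟮x⟯ F
  have h3 : Algebra.EssFiniteType K⟮h⟯ F := Algebra.EssFiniteType.of_comp K K⟮h⟯ F
  exact Algebra.finite_of_essFiniteType_of_isAlgebraic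

end Res

/-- product formula: principal divisors have degree `0` -/
theorem sum_ord_eq_zero (x : F) (hx : Transcendental K x) [Module.Finite K⟮x⟯ F]
    (h : F) (hh : h ≠ 0) :
    (Function.support fun v : Place K F => v.ord h).Finite ∧ ∑ᶠ v : Place K F, v.ord h = 0 := by
  classical
  by_cases hK : h ∈ Set.range (algebraMap K F)
  · obtain ⟨c, rfl⟩ := hK
    have h0 : (fun v : Place K F => v.ord (algebraMap K F c)) = fun _ => 0 := by
      funext v
      exact ord_algebraMap v c
    rw [h0]
    simp
  · have htr : Transcendental K h := fun ha => hK (Res.mem_range_of_isAlgebraic ha)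
    have hfin : Module.Finite K⟮h⟯ F := Res.finite_adjoin_of_transcendental x htr
    have hfin' : Module.Finite K⟮h⁻¹⟯ F := finite_of_adjoin_eq (adjoin_inv h)
    have hZ0 : (zeroPlaces K h).Finite := finite_zeroPlaces h htr
    have hZi : (zeroPlaces K h⁻¹).Finite := finite_zeroPlaces h⁻¹ (transcendental_inv htr)
    have hsupp : (Function.support fun v : Place K F => v.ord h) ⊆
        ((hZ0.toFinset ∪ hZi.toFinset : Finset (Place K F)) : Set (Place K F)) := by
      intro v hv
      rw [Function.mem_support] at hv
      simp only [Finset.coe_union, Set.Finite.coe_toFinset, Set.mem_union]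
      rcases lt_or_gt_of_ne hv with hlt | hgt
      · right
        show 0 < v.ord h⁻¹
        rw [v.ord_inv]; omega
      · left
        exact hgt
    refine ⟨(Finset.finite_toSet _).subset hsupp, ?_⟩
    rw [finsum_eq_sum_of_support_subset _ hsupp]
    have hdisj : Disjoint hZ0.toFinset hZi.toFinset := by
      rw [Finset.disjoint_left]
      intro v hv hv'
      rw [Set.Finite.mem_toFinset] at hv hv'
      have h1 : 0 < v.ord h := hv
      have h2 : 0 < v.ord h⁻¹ := hv'
      rw [v.ord_inv] at h2
      omega
    rw [Finset.sum_union hdisj]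
    have e1 := sum_ord_zeroPlaces_self (K := K) h htr
    rw [finsum_mem_eq_finite_toFinset_sum _ hZ0] at e1
    have e2 := sum_ord_zeroPlaces_self (K := K) h⁻¹ (transcendental_inv htr)
    rw [finsum_mem_eq_finite_toFinset_sum _ hZi, finrank_of_adjoin_eq (adjoin_inv h)] at e2
    have e3 : ∑ v ∈ hZi.toFinset, v.ord h = - ∑ v ∈ hZi.toFinset, v.ord h⁻¹ := by
      rw [← Finset.sum_neg_distrib]
      exact Finset.sum_congr rfl fun v _ => by rw [v.ord_inv, neg_neg]
    rw [e1, e3, e2]
    ring

end Fermat.Agent.S24Lib
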