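import Fermat.Agent.Lib.S24.RiemannHurwitz

/-!
# S24: abstract assembly — the genus from the three exceptional fibres
-/

set_option autoImplicit false

namespace Fermat.Agent.S24Lib

open AlgebraicCurve IntermediateField
open scoped KaehlerDifferential

variable {K F : Type*} [Field K] [IsAlgClosed K] [CharZero K] [Field F] [Algebra K F]

/-- The genus of `F/K` from the numbers of places over two exceptional values `c₀`, `c₁` and over
`∞` (Riemann–Hurwitz over the `x`-line, all other fibres unramified). -/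
theorem genus_of_counts (x : F) (hx : Transcendental K x) [Module.Finite K⟮x⟯ F]
    [HasCanonicalDivisor (K := K) (F := F)]
    (hfin : ∀ c : K, DiffOrdAt K (x - algebraMap K F c)) (hinf : DiffOrdAt K x⁻¹)
    (c₀ c₁ : K) (hc : c₀ ≠ c₁)
    (hunr : ∀ c : K, c ≠ c₀ → c ≠ c₁ → ∀ v ∈ zeroPlaces K (x - algebraMap K F c),
      v.ord (x - algebraMap K F c) = 1)
    (g : ℕ)
    (hg : (Module.finrank K⟮x⟯ F : ℤ) - Nat.card (zeroPlaces K (x - algebraMap K F c₀))
      - Nat.card (zeroPlaces K (x - algebraMap K F c₁)) - Nat.card (zeroPlaces K x⁻¹)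
      = 2 * (g : ℤ) - 2) :
    genus K F = g := by
  classical
  refine genus_eq_of_degree g ⟨KaehlerDifferential.D K F (x - algebraMap K F c₀), (hfin c₀).1⟩ ?_
  intro ω hω D hD
  have hS : ∀ c : K, c ∉ ({c₀, c₁} : Finset K) →
      ∀ v ∈ zeroPlaces K (x - algebraMap K F c), v.ord (x - algebraMap K F c) = 1 := by
    intro c hcS
    rw [Finset.mem_insert, Finset.mem_singleton, not_or] at hcS
    exact hunr c hcS.1 hcS.2
  rw [degree_canonical x hx hfin hinf {c₀, c₁} hS ω hω D hD, Finset.sum_pair hc]
  linarith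

end Fermat.Agent.S24Lib
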