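import Mathlib

/-!
# Bounded degree implies finite (characteristic zero)
-/

set_option autoImplicit false

namespace Fermat.Agent.S24Lib.BD

open IntermediateField Polynomial

/-- If every element of `E` is integral over `L` with minimal polynomial of degree `≤ n`
(characteristic zero), then `E / L` is finite of degree `≤ n`. -/
theorem finite_of_forall_natDegree_le {L E : Type*} [Field L] [Field E] [Algebra L E]
    [CharZero L] (n : ℕ) (h : ∀ x : E, IsIntegral L x ∧ (minpoly L x).natDegree ≤ n) :
    Module.Finite L E ∧ Module.finrank L E ≤ n := by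
  have halg : Algebra.IsAlgebraic L E := ⟨fun x => (h x).1.isAlgebraic⟩
  have hsep : Algebra.IsSeparable L E := Algebra.IsAlgebraic.isSeparable_of_perfectField
  -- an element of maximal degree
  obtain ⟨α, hα⟩ : ∃ α : E, ∀ β : E, (minpoly L β).natDegree ≤ (minpoly L α).natDegree := by
    have hbdd : BddAbove (Set.range fun x : E => (minpoly L x).natDegree) :=
      ⟨n, by rintro _ ⟨x, rfl⟩; exact (h x).2⟩
    obtain ⟨α, hα⟩ := Nat.sSup_mem (Set.range_nonempty _) hbdd
    exact ⟨α, fun β => by
      have := le_csSup hbdd (Set.mem_range_self (f := fun x : E => (minpoly L x).natDegree) β)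
      rw [← hα] at this
      exact this⟩
  have hmem : ∀ β : E, β ∈ L⟮α⟯ := by
    intro β
    obtain ⟨γ, hγ⟩ := Field.primitive_element_inf_aux L α β
    have hle : L⟮α⟯ ≤ L⟮γ⟯ := by
      rw [← hγ]
      exact adjoin.mono L _ _ (by simp)
    have hfin : FiniteDimensional L L⟮γ⟯ := adjoin.finiteDimensional (h γ).1
    have h1 : Module.finrank L L⟮α⟯ = (minpoly L α).natDegree := adjoin.finrank (h α).1
    have h2 : Module.finrank L L⟮γ⟯ = (minpoly L γ).natDegree := adjoin.finrank (h γ).1
    have heq : L⟮α⟯ = L⟮γ⟯ :=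
      IntermediateField.eq_of_le_of_finrank_le hle (by rw [h1, h2]; exact hα γ)
    rw [heq, ← hγ]
    exact subset_adjoin L _ (by simp)
  have htop : L⟮α⟯ = ⊤ := eq_top_iff.mpr fun β _ => hmem β
  have hfinα : FiniteDimensional L L⟮α⟯ := adjoin.finiteDimensional (h α).1
  have hfin : Module.Finite L E := by
    have h1 : Module.Finite L (⊤ : IntermediateField L E) := htop ▸ hfinα
    exact Module.Finite.equiv (IntermediateField.topEquiv (F := L) (E := E)).toLinearEquiv
  refine ⟨hfin, ?_⟩
  rw [← IntermediateField.finrank_top', ← htop, adjoin.finrank (h α).1]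
  exact (h α).2

/-- Variant: every element is a root of a nonzero polynomial of degree `≤ n`. -/
theorem finite_of_forall_exists_poly {L E : Type*} [Field L] [Field E] [Algebra L E]
    [CharZero L] (n : ℕ)
    (h : ∀ x : E, ∃ p : L[X], p ≠ 0 ∧ p.natDegree ≤ n ∧ aeval x p = 0) :
    Module.Finite L E ∧ Module.finrank L E ≤ n := by
  refine finite_of_forall_natDegree_le n fun x => ?_
  obtain ⟨p, hp0, hpn, hpx⟩ := h x
  have halgx : IsAlgebraic L x := ⟨p, hp0, hpx⟩
  have hint : IsIntegral L x := halgx.isIntegral
  exact ⟨hint, (natDegree_le_of_dvd (minpoly.dvd L x hpx) hp0).trans hpn⟩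

end Fermat.Agent.S24Lib.BD
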