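/-
S24, chunk B5 (lead): the conjugate embeddings at the cusp.
For every coset `q ∈ Q N = SL₂(ℤ)/Γ₀(N)` the ring hom
`conjInf N q : FN N →+* LaurentSeries ℂ` = the `q_N`-Laurent expansion of the conjugate at `q`
of the evaluation `evA`; the family is injective in `q`, constant on `j` and on the constants,
and translation by `T` corresponds to the coefficient twist.
-/
import Fermat.Agent.Lib.S24.FracLift
import Fermat.Agent.Lib.S24.NormRel
import Fermat.Agent.Lib.S24.JSep
import Fermat.Agent.Lib.S24.Ev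
import Fermat.Agent.Lib.S24.CuspExp

set_option autoImplicit false

namespace Fermat.Agent.S24Lib

open UpperHalfPlane ModularForm CongruenceSubgroup MatrixGroups Filter
open scoped Manifold Topology
open Fermat.Agent.LibS23 Fermat.Agent.S20Lib ModularCurve

section

variable {N : ℕ} [NeZero N]

/-- every coset has a representative in `SL(2, ℤ)`. -/
theorem cjI_exists_rep (q : Q N) : ∃ g : SL(2, ℤ), ((toSL g : ↥(𝒮ℒ)) : Q N) = q := by
  obtain ⟨h, rfl⟩ := QuotientGroup.mk_surjective q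
  obtain ⟨γ, rfl⟩ := cusp_toSL_surj h
  exact ⟨γ, rfl⟩

/-- a chosen representative of a coset. -/
noncomputable def cjI_rep (q : Q N) : SL(2, ℤ) := Classical.choose (cjI_exists_rep q)

theorem cjI_rep_spec (q : Q N) : ((toSL (cjI_rep q) : ↥(𝒮ℒ)) : Q N) = q :=
  Classical.choose_spec (cjI_exists_rep q)

/-- the conjugate at the coset of `g` is the precomposition with `g⁻¹`. -/
theorem cjI_conjFun_mk {M : ℕ} (G : ModularForm (Gamma0 N) (12 * (M : ℤ))) {h : ℍ → ℂ}
    (hG : ∀ z, G z = h z * ModularForm.discriminant z ^ M) (g : SL(2, ℤ)) (z : ℍ) :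
    conjFun G ((toSL g : ↥(𝒮ℒ)) : Q N) z = h (g⁻¹ • z) := by
  have h1 := conjFun_smul G g ((toSL g : ↥(𝒮ℒ)) : Q N) (g⁻¹ • z)
  rw [smul_smul, mul_inv_cancel, one_smul] at h1
  rw [h1]
  have h2 : (toSL g)⁻¹ • ((toSL g : ↥(𝒮ℒ)) : Q N) = q0 := by
    rw [MulAction.Quotient.smul_mk, smul_eq_mul, inv_mul_cancel]
    rfl
  rw [h2, conjFun_q0 G hG]

end

section

variable (N : ℕ) [NeZero N]

/-- the conjugate of `evA a` at the coset `q`, as a holomorphic function. -/
noncomputable def cjHol (q : Q N) : ↥(Agen N) →+* ↥Hol :=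
  ((holComp (cjI_rep q)⁻¹ : ↥Hol →ₐ[ℂ] ↥Hol) : ↥Hol →+* ↥Hol).comp (evA N)

theorem cjHol_apply (q : Q N) (a : ↥(Agen N)) (z : ℍ) :
    ((cjHol N q a : ↥Hol) : ℍ → ℂ) z = ((evA N a : ↥Hol) : ℍ → ℂ) ((cjI_rep q)⁻¹ • z) := rfl

theorem cjHol_eq_conjFun (q : Q N) (a : ↥(Agen N)) {M : ℕ}
    (G : ModularForm (Gamma0 N) (12 * (M : ℤ)))
    (hG : ∀ z, G z = ((evA N a : ↥Hol) : ℍ → ℂ) z * ModularForm.discriminant z ^ M) :
    ((cjHol N q a : ↥Hol) : ℍ → ℂ) = conjFun G q := by
  funext z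
  rw [cjHol_apply]
  conv_rhs => rw [← cjI_rep_spec q]
  rw [cjI_conjFun_mk G hG]

theorem cjHol_injective (q : Q N) : Function.Injective (cjHol N q) := by
  intro a b h
  exact evA_injective N (holComp_injective _ h)

/-- the conjugates are `N`-periodic of moderate growth. -/
theorem cjHol_mem_holInf (q : Q N) (a : ↥(Agen N)) : cjHol N q a ∈ holInf N := by
  obtain ⟨M, G, hG, -⟩ := evA_isWH N a
  rw [mem_holInf, cjHol_eq_conjFun N q a G hG]
  refine ⟨fun z => ?_, conjFun_modGrowth G q⟩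
  have h1 := conjFun_smul G (ModularGroup.T ^ (N : ℤ)) q z
  rw [modular_T_zpow_smul] at h1
  have h2 : (toSL (ModularGroup.T ^ (N : ℤ)))⁻¹ • q = q := by
    rw [cusp_toSL_zpow, ← zpow_neg]
    have := cusp_sT_zpow_smul q (-1)
    rw [mul_neg_one] at this
    exact this
  rw [h2] at h1
  rw [← h1]
  norm_num

/-- translation: the conjugate at `T⁻¹ q` is the translate by `1` of the conjugate at `q`. -/
theorem cjHol_sT_inv (q : Q N) (a : ↥(Agen N)) (z : ℍ) :
    ((cjHol N (sT⁻¹ • q) a : ↥Hol) : ℍ → ℂ) z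
      = ((cjHol N q a : ↥Hol) : ℍ → ℂ) ((1 : ℝ) +ᵥ z) := by
  obtain ⟨M, G, hG, -⟩ := evA_isWH N a
  rw [cjHol_eq_conjFun N _ a G hG, cjHol_eq_conjFun N q a G hG, ← modular_T_smul, conjFun_smul]
  rfl

/-- the conjugate at `q`, as an element of the ring of `N`-periodic functions. -/
noncomputable def cjInf (q : Q N) : ↥(Agen N) →+* ↥(holInf N) :=
  (cjHol N q).codRestrict (holInf N) (cjHol_mem_holInf N q)

theorem coe_cjInf (q : Q N) (a : ↥(Agen N)) : ((cjInf N q a : ↥(holInf N)) : ↥Hol) = cjHol N q a :=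
  rfl

/-- the `q_N`-expansion of the conjugate at `q`, on `A`. -/
noncomputable def conjInfA (q : Q N) : ↥(Agen N) →+* LaurentSeries ℂ :=
  (cuspExp N).comp (cjInf N q)

theorem conjInfA_apply (q : Q N) (a : ↥(Agen N)) : conjInfA N q a = cuspExp N (cjInf N q a) := rfl

theorem conjInfA_injective (q : Q N) : Function.Injective (conjInfA N q) := by
  intro a b h
  have h1 : cjInf N q a = cjInf N q b := cuspExp_injective N h
  exact cjHol_injective N q (congrArg Subtype.val h1)

/-- **the conjugate embeddings at the cusp**. -/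
noncomputable def conjInf (q : Q N) : FN N →+* LaurentSeries ℂ :=
  liftFN N (conjInfA N q) (conjInfA_injective N q)

theorem conjInf_agenIncl (q : Q N) (a : ↥(Agen N)) :
    conjInf N q (agenIncl N a) = cuspExp N (cjInf N q a) :=
  liftFN_agenIncl N _ _ a

theorem conjInf_algebraMap (q : Q N) (c : Kb) :
    conjInf N q (algebraMap Kb (FN N) c) = HahnSeries.C (iotaK c) := by
  rw [← agenIncl_algebraMap, conjInf_agenIncl]
  have h1 : cjInf N q (algebraMap Kb ↥(Agen N) c) = algebraMap ℂ ↥(holInf N) (iotaK c) := by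
    apply Subtype.ext
    rw [coe_cjInf]
    change (holComp (cjI_rep q)⁻¹) (evA N (algebraMap Kb ↥(Agen N) c)) = _
    rw [evA_algebraMap, AlgHom.commutes]
    rfl
  rw [h1, cuspExp_algebraMap]

theorem conjInf_JF (q : Q N) :
    conjInf N q (JF N) = cuspExp N ⟨holMk jAn jAn_mdiff, jAn_mem_holInf N⟩ := by
  rw [← agenIncl_JA, conjInf_agenIncl]
  congr 1
  apply Subtype.ext
  rw [coe_cjInf]
  apply Hol.ext
  intro z
  rw [cjHol_apply]
  have h1 : JA N = ⟨Jgen 1, Jgen_mem_Agen (one_dvd N)⟩ := Subtype.ext Jser_eq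
  rw [h1, evA_Jgen N (one_dvd N), jLvl_one, jAn_smul]
  rfl

/-- distinct cosets give distinct embeddings. -/
theorem conjInf_injective : Function.Injective (conjInf N) := by
  intro q q' h
  set a : ↥(Agen N) := ⟨Jgen N, Jgen_mem_Agen (dvd_refl N)⟩ with ha
  have h1 : cuspExp N (cjInf N q a) = cuspExp N (cjInf N q' a) := by
    rw [← conjInf_agenIncl, ← conjInf_agenIncl, h]
  have h2 : cjHol N q a = cjHol N q' a := congrArg Subtype.val (cuspExp_injective N h1)
  have h3 : ∀ z : ℍ, jLvl N ((cjI_rep q)⁻¹ • z) = jLvl N ((cjI_rep q')⁻¹ • z) := by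
    intro z
    have := congrArg (fun f : ↥Hol => (f : ℍ → ℂ) z) h2
    simp only [cjHol_apply] at this
    rw [ha, evA_Jgen N (dvd_refl N)] at this
    exact this
  have h4 : (cjI_rep q)⁻¹ * cjI_rep q' ∈ Gamma0 N := by
    apply jLvl_separation N
    intro z
    have := h3 (cjI_rep q' • z)
    rw [smul_smul, smul_smul, inv_mul_cancel, one_smul] at this
    exact this
  rw [← cjI_rep_spec q, ← cjI_rep_spec q']
  exact (cusp_mk_eq_mk_iff _ _).2 h4

/-- translation by `T` is the coefficient twist by `e(1/N)`. -/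
theorem conjInf_twist (q : Q N) (f : FN N) :
    cuspF_twist (cuspF_zeta N) (cuspF_zeta_ne_zero N) (conjInf N q f)
      = conjInf N (sT⁻¹ • q) f := by
  have h : (cuspF_twist (cuspF_zeta N) (cuspF_zeta_ne_zero N)).comp (conjInf N q)
      = conjInf N (sT⁻¹ • q) := by
    apply ringHom_ext_FN N
    intro a
    rw [RingHom.comp_apply, conjInf_agenIncl, conjInf_agenIncl]
    exact (cuspExp_shift N (cjInf N q a) (cjInf N (sT⁻¹ • q) a)
      (fun z => cjHol_sT_inv N q a z)).symm
  exact RingHom.congr_fun h f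

end

end Fermat.Agent.S24Lib
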