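import Fermat.Agent.Lib.S24.OrbitCount
import Fermat.Agent.Lib.S20.CombFixQ
import Fermat.Agent.Lib.S20.CombCusp

/-!
# Orbit counts of `S`, `U = S T`, `T` on the coset space `Q N` (for the Riemann–Hurwitz count)
-/

set_option autoImplicit false

namespace Fermat.Agent.S24Lib

open CongruenceSubgroup MatrixGroups Matrix.SpecialLinearGroup MulAction
open Fermat.Agent.LibS23 Fermat.Agent.S20Lib

variable (N : ℕ) [NeZero N]

/-- `toSL γ` acts trivially on every coset if `γ` is central and lies in `Γ₀(N)`. -/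
theorem counts_central_smul (γ : SL(2, ℤ)) (hγ : γ ∈ Gamma0 N) (hc : ∀ g : SL(2, ℤ), γ * g = g * γ)
    (q : Q N) : toSL γ • q = q := by
  obtain ⟨h, rfl⟩ := QuotientGroup.mk_surjective q
  obtain ⟨g, rfl⟩ := CuspCount.toSL_surjective h
  rw [MulAction.Quotient.smul_mk, QuotientGroup.eq]
  have e : (toSL γ • toSL g)⁻¹ * toSL g = toSL γ⁻¹ := by
    rw [smul_eq_mul, ← CuspCount.toSL_mul, ← CuspCount.toSL_inv, ← CuspCount.toSL_mul, hc g]
    congr 1
    group
  rw [e, CuspCount.toSL_mem_iff]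
  exact inv_mem hγ

theorem counts_neg_one_mem : (-1 : SL(2, ℤ)) ∈ Gamma0 N := by
  rw [Gamma0_mem]
  simp

theorem counts_neg_one_comm (g : SL(2, ℤ)) : (-1 : SL(2, ℤ)) * g = g * (-1) := by
  simp

theorem counts_S_sq : ModularGroup.S * ModularGroup.S = -1 := by decide

theorem counts_U_cube :
    (ModularGroup.S * ModularGroup.T) * (ModularGroup.S * ModularGroup.T)
      * (ModularGroup.S * ModularGroup.T) = -1 := by decide

theorem counts_sS_sq_smul (q : Q N) : sS • sS • q = q := by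
  rw [← mul_smul]
  have : sS * sS = toSL (-1) := by
    unfold sS
    rw [← CuspCount.toSL_mul, counts_S_sq]
  rw [this]
  exact counts_central_smul N (-1) (counts_neg_one_mem N) counts_neg_one_comm q

theorem counts_sU_cube_smul (q : Q N) : sU • sU • sU • q = q := by
  rw [← mul_smul, ← mul_smul]
  have : sU * sU * sU = toSL (-1) := by
    unfold sU
    rw [← CuspCount.toSL_mul, ← CuspCount.toSL_mul, counts_U_cube]
  rw [this]
  exact counts_central_smul N (-1) (counts_neg_one_mem N) counts_neg_one_comm q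

/-- The number of `⟨S⟩`-orbits on `Q N`: `2 r = ψ + ν₂`. -/
theorem counts_orbits_sS :
    2 * Nat.card (orbitRel.Quotient (Subgroup.zpowers sS) (Q N))
      = ModularCurve.dedekindPsi N + ModularCurve.nuTwo N := by
  have h := orbitCount_two sS (counts_sS_sq_smul N)
  rw [card_fix_sS] at h
  have h2 : Fintype.card (Q N) = ModularCurve.dedekindPsi N := by
    convert card_Q N
  rw [h2] at h
  exact h

/-- The number of `⟨S T⟩`-orbits on `Q N`: `3 r = ψ + 2 ν₃`. -/
theorem counts_orbits_sU :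
    3 * Nat.card (orbitRel.Quotient (Subgroup.zpowers sU) (Q N))
      = ModularCurve.dedekindPsi N + 2 * ModularCurve.nuThree N := by
  have h := orbitCount_three sU (counts_sU_cube_smul N)
  rw [card_fix_sU] at h
  have h2 : Fintype.card (Q N) = ModularCurve.dedekindPsi N := by
    convert card_Q N
  rw [h2] at h
  exact h

/-- The number of `⟨T⟩`-orbits on `Q N` (the cusps). -/
theorem counts_orbits_sT :
    Nat.card (orbitRel.Quotient (Subgroup.zpowers sT) (Q N)) = ModularCurve.cuspCount N :=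
  card_orbits_sT N

/-- The Riemann–Hurwitz arithmetic. -/
theorem counts_arith (ψ ν2 ν3 c r0 r1 rinf g : ℕ) (h1 : 2 * r1 = ψ + ν2)
    (h0 : 3 * r0 = ψ + 2 * ν3) (hinf : rinf = c)
    (hg : (g : ℚ) = 1 + (ψ : ℚ) / 12 - (ν2 : ℚ) / 4 - (ν3 : ℚ) / 3 - (c : ℚ) / 2) :
    (ψ : ℤ) - r0 - r1 - rinf = 2 * (g : ℤ) - 2 := by
  have h1' : (2 : ℚ) * r1 = ψ + ν2 := by exact_mod_cast h1
  have h0' : (3 : ℚ) * r0 = ψ + 2 * ν3 := by exact_mod_cast h0
  have hinf' : (rinf : ℚ) = c := by exact_mod_cast hinf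
  have : ((ψ : ℤ) - r0 - r1 - rinf : ℚ) = ((2 * (g : ℤ) - 2 : ℤ) : ℚ) := by
    push_cast
    rw [hg]
    linarith
  exact_mod_cast this

end Fermat.Agent.S24Lib
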