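import Mathlib
import Fermat.Prelude.Def_ModularCurve_ArithmeticGalois
import Fermat.Prelude.Def_ModularCurve_GenusNumerics
import Fermat.Prelude.Def_AlgebraicCurve_CanonicalDivisor

/-!
# S24: shared definitions of the analytic side

`KK = ℚ̄`, `FF N` = the function field of the statement, the generators `Jd N d hd`, `JJ N`,
the ring `RJ N` they generate, the embedding `iotaC : ℚ̄ →+* ℂ`, the analytic `jAn`, `rho`,
and the ring `Hol` of holomorphic functions on `ℍ`.
-/

set_option autoImplicit false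

namespace Fermat.Agent.S24Lib

open UpperHalfPlane ModularForm MatrixGroups EisensteinSeries
open scoped Manifold Topology

/-- `ℚ̄` -/
abbrev KK : Type := AlgebraicClosure ℚ

/-- the function field of `X₀(N)` over `ℚ̄` (as in the statement) -/
abbrev FF (N : ℕ) : Type := ↥(ModularCurve.modularFunctionFieldBar N)

/-- a fixed embedding `ℚ̄ → ℂ` -/
noncomputable def iotaC : KK →+* ℂ :=
  letI : Algebra ℚ (AlgebraicClosure ℚ) := AlgebraicClosure.instAlgebra ℚ
  haveI : Algebra.IsAlgebraic ℚ (AlgebraicClosure ℚ) := AlgebraicClosure.isAlgebraic ℚ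
  ((IsAlgClosed.lift : AlgebraicClosure ℚ →ₐ[ℚ] ℂ) : AlgebraicClosure ℚ →+* ℂ)

theorem iotaC_injective : Function.Injective iotaC := iotaC.injective

/-- the generator `j(q^d)` of the function field, `d ∣ N` -/
noncomputable def Jd (N : ℕ) (d : ℕ) [NeZero d] (hd : d ∣ N) : FF N :=
  ⟨ModularCurve.coeffEmb KK (ModularCurve.qExpand ℚ d ModularCurve.jq),
    ModularCurve.coeffEmb_mem_laurentBaseChange KK (ModularCurve.jqd_mem_full N hd)⟩

/-- `j(q)` as an element of the function field -/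
noncomputable def JJ (N : ℕ) : FF N := Jd N 1 (one_dvd N)

theorem coe_Jd (N : ℕ) (d : ℕ) [NeZero d] (hd : d ∣ N) :
    ((Jd N d hd : FF N) : LaurentSeries KK)
      = ModularCurve.coeffEmb KK (ModularCurve.qExpand ℚ d ModularCurve.jq) := rfl

theorem coe_JJ (N : ℕ) :
    ((JJ N : FF N) : LaurentSeries KK) = ModularCurve.coeffEmb KK ModularCurve.jq := by
  rw [JJ, coe_Jd, ModularCurve.qExpand_one_apply]

/-- the set of generators `j(q^d)`, `d ∣ N` -/
noncomputable def gensJ (N : ℕ) : Set (FF N) := {x | ∃ (d : ℕ) (_ : NeZero d) (hd : d ∣ N), x = Jd N d hd}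

/-- the `ℚ̄`-algebra generated by the `j(q^d)`, `d ∣ N` -/
noncomputable def RJ (N : ℕ) : Subalgebra KK (FF N) := Algebra.adjoin KK (gensJ N)

theorem Jd_mem_RJ (N : ℕ) (d : ℕ) [NeZero d] (hd : d ∣ N) : Jd N d hd ∈ RJ N :=
  Algebra.subset_adjoin ⟨d, ‹_›, hd, rfl⟩

theorem JJ_mem_RJ (N : ℕ) : JJ N ∈ RJ N := Jd_mem_RJ N 1 (one_dvd N)

/-- the analytic `j`-function `E₄³ / Δ` on `ℍ` -/
noncomputable def jAn (z : ℍ) : ℂ := E₄ z ^ 3 / ModularForm.discriminant z

/-- `ρ = e^{2πi/3}`, the fixed point of `S T` -/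
noncomputable def rho : ℍ := ⟨⟨-1 / 2, Real.sqrt 3 / 2⟩, by simp⟩

/-- `τ ↦ d τ` on the upper half plane -/
noncomputable def scaleH (d : ℕ) [NeZero d] (τ : ℍ) : ℍ :=
  (⟨(d : ℝ), by exact_mod_cast Nat.pos_of_ne_zero (NeZero.ne d)⟩ : {x : ℝ // 0 < x}) • τ

theorem coe_scaleH (d : ℕ) [NeZero d] (τ : ℍ) : ((scaleH d τ : ℍ) : ℂ) = (d : ℂ) * (τ : ℂ) := by
  simp [scaleH]

/-- the analytic function `τ ↦ j(d τ)` -/
noncomputable def jAnD (d : ℕ) [NeZero d] (τ : ℍ) : ℂ := jAn (scaleH d τ)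

/-- the ring of holomorphic functions on the upper half plane -/
def Hol : Subring (ℍ → ℂ) where
  carrier := {f | MDiff f}
  mul_mem' := fun {f g} hf hg => by
    show MDiff (f * g)
    exact MDifferentiable.mul hf hg
  one_mem' := by
    show MDiff (1 : ℍ → ℂ)
    exact mdifferentiable_const
  add_mem' := fun {f g} hf hg => by
    show MDiff (f + g)
    exact MDifferentiable.add hf hg
  zero_mem' := by
    show MDiff (0 : ℍ → ℂ)
    exact mdifferentiable_const
  neg_mem' := fun {f} hf => by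
    show MDiff (-f)
    exact MDifferentiable.neg hf

theorem mem_Hol {f : ℍ → ℂ} : f ∈ Hol ↔ MDiff f := Iff.rfl

/-- precomposition with an element of `SL(2, ℤ)` -/
noncomputable def compSL (g : SL(2, ℤ)) (f : ℍ → ℂ) : ℍ → ℂ := fun τ => f (g • τ)

@[simp] theorem compSL_apply (g : SL(2, ℤ)) (f : ℍ → ℂ) (τ : ℍ) : compSL g f τ = f (g • τ) := rfl

theorem compSL_mul (g h : SL(2, ℤ)) (f : ℍ → ℂ) : compSL (g * h) f = compSL h (compSL g f) := by
  funext τ; simp [mul_smul]

theorem compSL_one (f : ℍ → ℂ) : compSL 1 f = f := by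
  funext τ; simp

theorem compSL_mdiff (g : SL(2, ℤ)) {f : ℍ → ℂ} (hf : MDiff f) : MDiff (compSL g f) :=
  hf.comp (mdifferentiable_smul (g := Matrix.SpecialLinearGroup.toGL
    ((Matrix.SpecialLinearGroup.map (Int.castRingHom ℝ)) g)) (by simp))

/-- precomposition with `g ∈ SL(2, ℤ)` as a ring endomorphism of `Hol` -/
noncomputable def compHol (g : SL(2, ℤ)) : Hol →+* Hol where
  toFun f := ⟨compSL g f, compSL_mdiff g f.2⟩
  map_one' := rfl
  map_mul' _ _ := rfl
  map_zero' := rfl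
  map_add' _ _ := rfl

@[simp] theorem coe_compHol (g : SL(2, ℤ)) (f : Hol) :
    ((compHol g f : Hol) : ℍ → ℂ) = compSL g (f : ℍ → ℂ) := rfl

/-- `N`-periodic holomorphic functions on `ℍ` with at most a pole at `i∞` -/
def IsHolInf (N : ℕ) (f : ℍ → ℂ) : Prop :=
  MDiff f ∧ (∀ τ : ℍ, f (ModularGroup.T ^ N • τ) = f τ) ∧
    ∃ k : ℕ, IsBoundedAtImInfty (fun τ : ℍ => f τ * (Function.Periodic.qParam N τ) ^ k)

end Fermat.Agent.S24Lib
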