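/-
S24, chunk B1 (helper8): derivative, special values and local orders of the analytic
`j`-function.
* `D_jAn : D j = -E₄² E₆ / Δ`;
* `E6_I`, `E4_rho`, `jAn_I = 1728`, `jAn_rho = 0`;
* local orders: `1` at points with `j ≠ 0, 1728`, `2` at `i`, `3` at `ρ`.
-/
import Fermat.Agent.Lib.S24.JAn

set_option autoImplicit false

namespace Fermat.Agent.S24Lib

open UpperHalfPlane ModularForm MatrixGroups Filter EisensteinSeries Derivative
open scoped Manifold Topology
open Fermat.Agent.LibS23 Fermat.Agent.S20Lib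

/-- `D j = -E₄² E₆ / Δ`. -/
theorem D_jAn (z : ℍ) :
    D jAn z = -(E₄ z ^ 2 * E₆ z) / ModularForm.discriminant z := by
  have hΔ := discriminant_ne_zero z
  have hmul : jAn * (ModularForm.discriminant : ℍ → ℂ) = (⇑E₄ : ℍ → ℂ) ^ 3 := by
    ext w
    exact jAn_mul_discriminant w
  have h1 := congrFun (normalizedDerivOfComplex_mul jAn ModularForm.discriminant jAn_mdiff
    jAn_mdiff_discriminant) z
  rw [hmul, normalizedDerivOfComplex_pow _ _ jAn_mdiff_E4] at h1
  simp only [Pi.mul_apply, Pi.add_apply, Pi.pow_apply, Pi.natCast_apply] at h1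
  rw [simple_D_E4, simple_D_discriminant] at h1
  have h2 := jAn_mul_discriminant z
  rw [eq_div_iff hΔ]
  push_cast at h1
  linear_combination -h1 - E2 z * h2

theorem E6_I : E₆ UpperHalfPlane.I = 0 := by
  have h := jAn_isLO_smul simple_isLO_E6 ModularGroup.S UpperHalfPlane.I
  rw [elliptic_S_smul_I, elliptic_denom_S_I] at h
  have h6 : (Complex.I : ℂ) ^ (6 : ℤ) = -1 := by
    have : (Complex.I : ℂ) ^ (6 : ℤ) = (Complex.I ^ 2) ^ 3 := by
      rw [← pow_mul]; norm_cast
    rw [this, Complex.I_sq]; norm_num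
  rw [h6] at h
  have h2 : (2 : ℂ) * E₆ UpperHalfPlane.I = 0 := by linear_combination h
  simpa using h2

theorem E4_rho : E₄ ellipticRho = 0 := by
  have h := jAn_isLO_smul simple_isLO_E4 (ModularGroup.S * ModularGroup.T) ellipticRho
  rw [elliptic_ST_smul_rho, elliptic_denom_ST_rho] at h
  set e3 : ℂ := Complex.exp (Real.pi * Complex.I / 3) with he3
  have hsq : e3 ^ 2 - e3 + 1 = 0 := elliptic_eta_sq
  have h4 : e3 ^ (4 : ℤ) = -e3 := by
    have : e3 ^ (4 : ℤ) = e3 ^ 4 := by norm_cast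
    rw [this]
    linear_combination (e3 ^ 2 + e3) * hsq
  rw [h4] at h
  have hne : (1 + e3 : ℂ) ≠ 0 := by
    intro h0
    have he3' : e3 = -1 := by linear_combination h0
    rw [he3'] at hsq
    norm_num at hsq
  have h2 : (1 + e3) * E₄ ellipticRho = 0 := by linear_combination h
  rcases mul_eq_zero.mp h2 with h3 | h3
  · exact absurd h3 hne
  · exact h3

theorem jAn_I : jAn UpperHalfPlane.I = 1728 := by
  have h := jAn_sub UpperHalfPlane.I
  rw [E6_I] at h
  simp at h
  linear_combination h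

theorem jAn_rho : jAn ellipticRho = 0 := by
  unfold jAn
  rw [E4_rho]
  simp

/-- holomorphic functions on `ℍ` are analytic at the points of `ℍ` -/
theorem jAn_analyticAt {F : ℍ → ℂ} (hF : MDiff F) (τ : ℍ) :
    AnalyticAt ℂ (fun z : ℂ => F (ofComplex z)) (τ : ℂ) := by
  rw [mdifferentiable_iff] at hF
  exact hF.analyticAt (isOpen_upperHalfPlaneSet.mem_nhds τ.2)

theorem jAn_deriv_eq (F : ℍ → ℂ) (τ : ℍ) :
    deriv (fun z : ℂ => F (ofComplex z)) (τ : ℂ) = 2 * Real.pi * Complex.I * D F τ := by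
  have h : (2 * (Real.pi : ℂ) * Complex.I) ≠ 0 := by
    simp [Real.pi_ne_zero]
  unfold normalizedDerivOfComplex
  rw [← mul_assoc, mul_inv_cancel₀ h, one_mul]
  rfl

/-- local order `1` at the points where `j ≠ 0, 1728` -/
theorem jAn_order_generic {τ : ℍ} (h0 : jAn τ ≠ 0) (h1 : jAn τ ≠ 1728) :
    analyticOrderAt (fun z : ℂ => jAn (ofComplex z) - jAn τ) (τ : ℂ) = 1 := by
  have hΔ := discriminant_ne_zero τ
  have h4 : E₄ τ ≠ 0 := by
    intro h4
    apply h0
    unfold jAn
    rw [h4]; simp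
  have h6 : E₆ τ ≠ 0 := by
    intro h6
    apply h1
    have := jAn_sub τ
    rw [h6] at this
    simp at this
    linear_combination this
  have han := jAn_analyticAt jAn_mdiff τ
  have hd : deriv (fun z : ℂ => jAn (ofComplex z)) (τ : ℂ) ≠ 0 := by
    rw [jAn_deriv_eq, D_jAn]
    have h : (2 * (Real.pi : ℂ) * Complex.I) ≠ 0 := by
      simp [Real.pi_ne_zero]
    exact mul_ne_zero h (div_ne_zero (neg_ne_zero.mpr (mul_ne_zero (pow_ne_zero 2 h4) h6)) hΔ)
  have h := han.analyticOrderAt_sub_eq_one_of_deriv_ne_zero hd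
  simpa [ofComplex_apply] using h

theorem jAn_order_simple {w : ℤ} {F : ℍ → ℂ} (hF : Irr w F) {τ : ℍ} (hz : F τ = 0) :
    analyticOrderAt (fun z : ℂ => F (ofComplex z)) (τ : ℂ) = 1 := by
  have han := jAn_analyticAt hF.isLO.mdiff τ
  have hd := hF.deriv_ne_zero hz
  exact han.analyticOrderAt_eq_one_of_zero_deriv_ne_zero (by simpa [ofComplex_apply] using hz) hd

theorem jAn_analyticAt_inv_discriminant (τ : ℍ) :
    AnalyticAt ℂ (fun z : ℂ => (ModularForm.discriminant (ofComplex z))⁻¹) (τ : ℂ) :=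
  (jAn_analyticAt jAn_mdiff_discriminant τ).inv (by
    simpa [ofComplex_apply] using discriminant_ne_zero τ)

theorem jAn_order_inv_discriminant (τ : ℍ) :
    analyticOrderAt (fun z : ℂ => (ModularForm.discriminant (ofComplex z))⁻¹) (τ : ℂ) = 0 := by
  have han := jAn_analyticAt_inv_discriminant τ
  rw [han.analyticOrderAt_eq_zero]
  simpa [ofComplex_apply] using discriminant_ne_zero τ

/-- local order `2` at `i` -/
theorem jAn_order_I :
    analyticOrderAt (fun z : ℂ => jAn (ofComplex z) - 1728) (UpperHalfPlane.I : ℂ) = 2 := by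
  have e : (fun z : ℂ => jAn (ofComplex z) - 1728)
      = (fun z : ℂ => E₆ (ofComplex z)) ^ 2
        * (fun z : ℂ => (ModularForm.discriminant (ofComplex z))⁻¹) := by
    ext z
    simp only [Pi.mul_apply, Pi.pow_apply]
    rw [jAn_sub, div_eq_mul_inv]
  have h6 := jAn_analyticAt jAn_mdiff_E6 UpperHalfPlane.I
  have hΔ := jAn_analyticAt_inv_discriminant UpperHalfPlane.I
  have h1 := jAn_order_simple Irr.E6 E6_I
  have h2 := jAn_order_inv_discriminant UpperHalfPlane.I
  rw [e, analyticOrderAt_mul (h6.pow 2) hΔ, analyticOrderAt_pow h6, h1, h2]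
  norm_num

/-- local order `3` at `ρ` -/
theorem jAn_order_rho :
    analyticOrderAt (fun z : ℂ => jAn (ofComplex z)) (ellipticRho : ℂ) = 3 := by
  have e : (fun z : ℂ => jAn (ofComplex z))
      = (fun z : ℂ => E₄ (ofComplex z)) ^ 3
        * (fun z : ℂ => (ModularForm.discriminant (ofComplex z))⁻¹) := by
    ext z
    simp only [Pi.mul_apply, Pi.pow_apply]
    unfold jAn
    rw [div_eq_mul_inv]
  have h4 := jAn_analyticAt jAn_mdiff_E4 ellipticRho
  have hΔ := jAn_analyticAt_inv_discriminant ellipticRho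
  have h1 := jAn_order_simple Irr.E4 E4_rho
  have h2 := jAn_order_inv_discriminant ellipticRho
  rw [e, analyticOrderAt_mul (h4.pow 3) hΔ, analyticOrderAt_pow h4, h1, h2]
  norm_num

end Fermat.Agent.S24Lib
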