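import Mathlib
import Fermat.Prelude.Def_AlgebraicCurve_CanonicalDivisor
import Fermat.Agent.Lib.S24.Defs
import Fermat.Agent.Lib.S24.Places

/-!
# S24, chunk A1b (part): weak approximation at the zeros of `y`

`WA.weak_approx` = the statement `weak_approx` of `S24_iface`, under the prefix `WA`
(so that it cannot clash with `NormFormula.lean`).
-/

set_option autoImplicit false

namespace Fermat.Agent.S24Lib

open AlgebraicCurve IntermediateField IsDedekindDomain

variable {K F : Type*} [Field K] [IsAlgClosed K] [CharZero K] [Field F] [Algebra K F]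

namespace WA

omit [IsAlgClosed K] [CharZero K] in
/-- weak approximation in a Dedekind domain: an element of valuation `exp (-1)` at `w₀` and a unit
at the finitely many other primes of `s`. -/
theorem exists_uniformizer_unit_away {R : Type*} [CommRing R] [IsDedekindDomain R]
    (w₀ : HeightOneSpectrum R) (s : Finset (HeightOneSpectrum R)) :
    ∃ h : R, w₀.intValuation h = WithZero.exp (-1 : ℤ) ∧
      ∀ w ∈ s, w ≠ w₀ → w.intValuation h = 1 := by
  classical
  obtain ⟨t, ht⟩ := w₀.intValuation_exists_uniformizer
  set s' : Finset (HeightOneSpectrum R) := insert w₀ s with hs'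
  obtain ⟨h, hh⟩ := IsDedekindDomain.exists_forall_sub_mem_ideal (s := s')
    (fun w => w.asIdeal) (fun w => if w = w₀ then 2 else 1)
    (fun w _ => w.prime)
    (fun w _ w' _ hne heq => hne (HeightOneSpectrum.ext heq))
    (fun w => if (w : HeightOneSpectrum R) = w₀ then t else 1)
  refine ⟨h, ?_, ?_⟩
  · have h1 := hh w₀ (Finset.mem_insert_self _ _)
    simp only [if_true] at h1
    have h2 : w₀.intValuation (h - t) ≤ WithZero.exp (-((2 : ℕ) : ℤ)) :=
      (w₀.intValuation_le_pow_iff_mem _ 2).mpr h1
    have h3 : w₀.intValuation (h - t) < w₀.intValuation t := by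
      rw [ht]
      refine lt_of_le_of_lt h2 ?_
      rw [WithZero.exp_lt_exp]
      norm_num
    have h4 : h = (h - t) + t := by ring
    rw [h4, Valuation.map_add_eq_of_lt_right _ h3, ht]
  · intro w hw hne
    have h1 := hh w (Finset.mem_insert_of_mem hw)
    simp only [if_neg hne, pow_one] at h1
    have h2 : w.intValuation (h - 1) < 1 := (w.intValuation_lt_one_iff_mem _).mpr h1
    have h3 : w.intValuation (h - 1) < w.intValuation 1 := by
      rw [Valuation.map_one]; exact h2
    have h4 : h = (h - 1) + 1 := by ring
    rw [h4, Valuation.map_add_eq_of_lt_right _ h3, Valuation.map_one]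

/-- weak approximation at the zeros of `y` (statement `weak_approx` of `S24_iface`) -/
theorem weak_approx (y : F) (hy : Transcendental K y) [Module.Finite K⟮y⟯ F]
    (v : Place K F) (hv : v ∈ zeroPlaces K y) :
    ∃ h : F, h ≠ 0 ∧ v.ord h = 1 ∧ ∀ v' ∈ zeroPlaces K y, v' ≠ v → v'.ord h = 0 := by
  classical
  have := intRing_isDedekindDomain y hy
  have := intRing_isFractionRing y hy
  have hv0 : 0 < v.ord y := hv
  obtain ⟨w₀, rfl⟩ := exists_prime_of_mem_zeroPlaces y hy v hv0.le
  -- the finitely many zeros of `y`, as primes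
  have hZ := finite_zeroPlaces (K := K) y hy
  have hex : ∀ v' : Place K F, v' ∈ zeroPlaces K y →
      ∃ w : HeightOneSpectrum (intRing K y), Place.ofHeightOneSpectrum (K := K) w = v' :=
    fun v' hv' => exists_prime_of_mem_zeroPlaces y hy v' (le_of_lt hv')
  haveI : Nonempty (HeightOneSpectrum (intRing K y)) := ⟨w₀⟩
  choose! wOf hwOf using hex
  set s : Finset (HeightOneSpectrum (intRing K y)) := hZ.toFinset.image wOf with hs
  obtain ⟨h, hh0, hh⟩ := exists_uniformizer_unit_away w₀ s
  refine ⟨algebraMap (intRing K y) F h, ?_, ?_, ?_⟩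
  · intro h0
    have : w₀.valuation F (algebraMap (intRing K y) F h) = 0 := by rw [h0, map_zero]
    rw [HeightOneSpectrum.valuation_of_algebraMap, hh0] at this
    exact WithZero.exp_ne_zero this
  · rw [ord_ofHeightOneSpectrum, HeightOneSpectrum.valuation_of_algebraMap, hh0,
      WithZero.log_exp]
    norm_num
  · intro v' hv' hne
    have hmem : wOf v' ∈ s := Finset.mem_image.mpr ⟨v', (Set.Finite.mem_toFinset hZ).mpr hv', rfl⟩
    have hne' : wOf v' ≠ w₀ := by
      intro heq
      apply hne
      rw [← hwOf v' hv', heq]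
    have h1 := hh (wOf v') hmem hne'
    rw [← hwOf v' hv', ord_ofHeightOneSpectrum, HeightOneSpectrum.valuation_of_algebraMap, h1]
    simp

end WA

end Fermat.Agent.S24Lib
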