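import Mathlib
import Fermat.Agent.Lib.S24.Defs
import Fermat.Agent.Lib.S24.Transport
import Fermat.Agent.Lib.S24.PlacesBasic
import Fermat.Agent.Lib.S24.PlacesVal
import Fermat.Agent.Lib.S24.Places
import Fermat.Agent.Lib.S24.WeakApprox
import Fermat.Agent.Lib.S24.NormFormula

/-!
# S24, chunk A2: the local counting lemma

For a function field `F / K(y)` of degree `n`, `n` distinct `K(y)`-embeddings `σ i : F → E`
into a field with a `ℤ`-valued valuation `w`, `w (σ i y) = m > 0`, a local monodromy `α`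
(permuting the embeddings, with a "leading coefficient" character of exact order `m`) and a
derivation `δ`: the zeros of `y` are in bijection with the orbits of the monodromy, their
ramification indices divide `m`, and `ord_v (dy/dt) = ord_v y - 1`.
-/

set_option autoImplicit false
set_option linter.style.haveILetI false

namespace Fermat.Agent.S24Lib

open AlgebraicCurve IntermediateField
open scoped KaehlerDifferential

section IntVal

variable {E : Type*} [Field E] {w : E → ℤ}

theorem IsIntVal.lc_val_prod (hw : IsIntVal w) {ι : Type*} (s : Finset ι) (f : ι → E)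
    (hf : ∀ i ∈ s, f i ≠ 0) : w (∏ i ∈ s, f i) = ∑ i ∈ s, w (f i) := by
  classical
  induction s using Finset.induction_on with
  | empty => simpa using hw.val_one
  | insert a s ha ih =>
    rw [Finset.prod_insert ha, Finset.sum_insert ha,
      hw.map_mul _ _ (hf a (Finset.mem_insert_self a s))
        (Finset.prod_ne_zero_iff.2 fun i hi => hf i (Finset.mem_insert_of_mem hi)),
      ih fun i hi => hf i (Finset.mem_insert_of_mem hi)]

theorem IsIntVal.lc_comp (hw : IsIntVal w) {E' : Type*} [Field E'] (φ : E' →+* E) :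
    IsIntVal (fun a => w (φ a)) where
  map_mul a b ha hb := by
    rw [_root_.map_mul]
    exact hw.map_mul _ _ ((map_ne_zero φ).2 ha) ((map_ne_zero φ).2 hb)
  map_add a b ha hb hab := by
    rw [_root_.map_add]
    exact hw.map_add _ _ ((map_ne_zero φ).2 ha) ((map_ne_zero φ).2 hb)
      (by rw [← _root_.map_add]; exact (map_ne_zero φ).2 hab)

end IntVal

section Agree

variable {K F : Type*} [Field K] [Field F] [Algebra K F]

/-- two ring homomorphisms agreeing on `K` and on `y` agree on `K(y)`. -/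
theorem lc_ringHom_eq_on_adjoin_simple {E : Type*} [Field E] (φ ψ : F →+* E) (y : F)
    (hy : φ y = ψ y) (hK : ∀ c : K, φ (algebraMap K F c) = ψ (algebraMap K F c))
    (r : K⟮y⟯) : φ (r : F) = ψ (r : F) := by
  let L : IntermediateField K F :=
    { RingHom.eqLocusField φ ψ with
      algebraMap_mem' := hK }
  have hle : K⟮y⟯ ≤ L := adjoin_simple_le_iff.2 hy
  exact hle r.2

/-- the norm is the product over `n = [F : K(y)]` distinct `K(y)`-embeddings. -/
theorem lc_map_norm_eq_prod_of_embeddings [CharZero K] (y : F) [Module.Finite K⟮y⟯ F]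
    {E : Type*} [Field E] {I : Type*} [Fintype I] (σ : I → F →+* E) (hσ : Function.Injective σ)
    (hagree : ∀ i j (r : K⟮y⟯), σ i (r : F) = σ j (r : F))
    (hcard : Fintype.card I = Module.finrank K⟮y⟯ F) (i₀ : I) (h : F) :
    σ i₀ ((Algebra.norm K⟮y⟯ h : K⟮y⟯) : F) = ∏ i, σ i h := by
  classical
  let ι : K⟮y⟯ →+* AlgebraicClosure E :=
    (algebraMap E (AlgebraicClosure E)).comp ((σ i₀).comp (algebraMap K⟮y⟯ F))
  letI : Algebra K⟮y⟯ (AlgebraicClosure E) := ι.toAlgebra
  let τ : I → (F →ₐ[K⟮y⟯] AlgebraicClosure E) := fun i =>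
    { (algebraMap E (AlgebraicClosure E)).comp (σ i) with
      commutes' := fun r => by
        show algebraMap E (AlgebraicClosure E) (σ i (r : F))
          = algebraMap E (AlgebraicClosure E) (σ i₀ (r : F))
        rw [hagree i i₀ r] }
  have hτ : ∀ i f, τ i f = algebraMap E (AlgebraicClosure E) (σ i f) := fun i f => rfl
  have hτinj : Function.Injective τ := by
    intro i j hij
    apply hσ
    ext f
    have := congrArg (fun t : F →ₐ[K⟮y⟯] AlgebraicClosure E => t f) hij
    simp only [hτ] at this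
    exact (algebraMap E (AlgebraicClosure E)).injective this
  have hcard' : Fintype.card (F →ₐ[K⟮y⟯] AlgebraicClosure E) = Module.finrank K⟮y⟯ F :=
    AlgHom.card K⟮y⟯ F (AlgebraicClosure E)
  have hτbij : Function.Bijective τ :=
    (Fintype.bijective_iff_injective_and_card τ).2 ⟨hτinj, by rw [hcard, hcard']⟩
  have hnorm := Algebra.norm_eq_prod_embeddings K⟮y⟯ (AlgebraicClosure E) h
  rw [← (Equiv.ofBijective τ hτbij).prod_comp] at hnorm
  apply (algebraMap E (AlgebraicClosure E)).injective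
  rw [map_prod]
  exact hnorm

end Agree


section Deriv

variable {K F : Type*} [Field K] [Field F] [Algebra K F]

/-- a derivation `δ` on the target of an embedding `σ : F → E` killing `σ K` pulls back to a
`K`-derivation of `F`, hence factors through the Kähler differentials. -/
theorem lc_exists_lift_of_derivation {E : Type*} [Field E] (σ : F →+* E)
    (δ : E → E) (hδ_add : ∀ a b, δ (a + b) = δ a + δ b)
    (hδ_mul : ∀ a b, δ (a * b) = δ a * b + a * δ b)
    (hδK : ∀ c : K, δ (σ (algebraMap K F c)) = 0) :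
    ∃ L : Ω[F⁄K] → E, (∀ f : F, L (KaehlerDifferential.D K F f) = δ (σ f)) ∧
      (∀ (a : F) (ω : Ω[F⁄K]), L (a • ω) = σ a * L ω) := by
  letI : Algebra F E := σ.toAlgebra
  letI : Algebra K E := (σ.comp (algebraMap K F)).toAlgebra
  haveI : IsScalarTower K F E := IsScalarTower.of_algebraMap_eq (fun _ => rfl)
  have hsmulF : ∀ (a : F) (e : E), a • e = σ a * e := fun a e => by
    rw [Algebra.smul_def]; rfl
  have hsmulK : ∀ (c : K) (e : E), c • e = σ (algebraMap K F c) * e := fun c e => by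
    rw [Algebra.smul_def]; rfl
  let d0 : F →ₗ[K] E :=
    { toFun := fun f => δ (σ f)
      map_add' := fun f g => by rw [map_add, hδ_add]
      map_smul' := fun c f => by
        simp only [RingHom.id_apply]
        rw [Algebra.smul_def, map_mul, hδ_mul, hδK, zero_mul, zero_add, hsmulK] }
  let d : Derivation K F E := Derivation.mk' d0 (fun a b => by
    show δ (σ (a * b)) = a • δ (σ b) + b • δ (σ a)
    rw [map_mul, hδ_mul, hsmulF, hsmulF]; ring)
  refine ⟨fun ω => d.liftKaehlerDifferential ω, fun f => ?_, fun a ω => ?_⟩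
  · show d.liftKaehlerDifferential (KaehlerDifferential.D K F f) = δ (σ f)
    rw [Derivation.liftKaehlerDifferential_comp_D]; rfl
  · show d.liftKaehlerDifferential (a • ω) = σ a * d.liftKaehlerDifferential ω
    rw [map_smul, hsmulF]

end Deriv


section Main

variable {K F : Type*} [Field K] [IsAlgClosed K] [CharZero K] [Field F] [Algebra K F]

omit [IsAlgClosed K] [CharZero K] in
/-- two places with positively proportional order functions coincide. -/
theorem lc_place_eq_of_proportional {v v' : Place K F} {κ κ' : ℤ} (hκ : 0 < κ) (hκ' : 0 < κ')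
    (h : ∀ f : F, f ≠ 0 → κ * v.ord f = κ' * v'.ord f) : v = v' := by
  apply Place.ext
  ext f
  by_cases hf : f = 0
  · simp [hf]
  · rw [mem_toValuationSubring_iff v hf, mem_toValuationSubring_iff v' hf]
    have h1 := h f hf
    constructor
    · intro h0
      have : 0 ≤ κ' * v'.ord f := by rw [← h1]; exact mul_nonneg hκ.le h0
      exact nonneg_of_mul_nonneg_right this hκ'
    · intro h0
      have : 0 ≤ κ * v.ord f := by rw [h1]; exact mul_nonneg hκ'.le h0
      exact nonneg_of_mul_nonneg_right this hκ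

set_option linter.unusedVariables false in
/-- **Local counting lemma.** -/
theorem localCount (y : F) (hy : Transcendental K y) [Module.Finite K⟮y⟯ F]
    {E : Type*} [Field E] {I : Type*} [Fintype I]
    (σ : I → F →+* E) (hσ : Function.Injective σ)
    (hσy : ∀ i j, σ i y = σ j y)
    (hσK : ∀ i j (c : K), σ i (algebraMap K F c) = σ j (algebraMap K F c))
    (hcard : Fintype.card I = Module.finrank K⟮y⟯ F)
    (w : E → ℤ) (hw : IsIntVal w)
    (hwK : ∀ i (c : K), c ≠ 0 → w (σ i (algebraMap K F c)) = 0)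
    (m : ℕ) (hm : 0 < m) (hwy : ∀ i, w (σ i y) = m)
    -- the local monodromy
    (α : E →+* E) (π : Equiv.Perm I) (hα : ∀ i f, α (σ i f) = σ (π i) f)
    (hwα : ∀ a : E, a ≠ 0 → w (α a) = w a)
    {C : Type*} [Field C] (lc : E → C) (hlc_mul : ∀ a b : E, lc (a * b) = lc a * lc b)
    (hlc_ne : ∀ a : E, a ≠ 0 → lc a ≠ 0) (ζ : C) (hζ : ∀ k : ℤ, ζ ^ k = 1 → (m : ℤ) ∣ k)
    (hlcα : ∀ a : E, a ≠ 0 → lc (α a) = ζ ^ (w a) * lc a)
    -- the derivation
    (δ : E → E) (hδ_add : ∀ a b, δ (a + b) = δ a + δ b)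
    (hδ_mul : ∀ a b, δ (a * b) = δ a * b + a * δ b)
    (hδK : ∀ i (c : K), δ (σ i (algebraMap K F c)) = 0)
    (s : ℤ) (hδw : ∀ a : E, a ≠ 0 → w a ≠ 0 → δ a ≠ 0 ∧ w (δ a) = w a - s) :
    Nat.card (zeroPlaces K y) = Nat.card (MulAction.orbitRel.Quotient (Subgroup.zpowers π) I) ∧
      (∀ v ∈ zeroPlaces K y, v.ord y ∣ (m : ℤ)) ∧ DiffOrdAt K y := by
  classical
  have hm' : (0 : ℤ) < m := by exact_mod_cast hm
  have hy0 : y ≠ 0 := fun h => hy (h ▸ isAlgebraic_zero)
  have hagree : ∀ i j (r : K⟮y⟯), σ i (r : F) = σ j (r : F) := fun i j r =>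
    lc_ringHom_eq_on_adjoin_simple (σ i) (σ j) y (hσy i j) (hσK i j) r
  have hIne : Nonempty I := by
    rw [← Fintype.card_pos_iff, hcard]
    exact Module.finrank_pos
  obtain ⟨i₀⟩ := hIne
  -- the induced places
  have hplace : ∀ i, ∃ (v : Place K F) (κ : ℤ), 0 < κ ∧
      ∀ f : F, f ≠ 0 → w (σ i f) = κ * v.ord f := by
    intro i
    refine exists_place_of_isIntVal (fun f => w (σ i f)) (hw.lc_comp (σ i)) (hwK i) ⟨y, hy0, ?_⟩
    show w (σ i y) ≠ 0
    rw [hwy i]; exact_mod_cast hm.ne'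
  choose V κ hκpos hVκ using hplace
  have hVy : ∀ i, κ i * (V i).ord y = m := fun i => by rw [← hVκ i y hy0, hwy i]
  have hVmem : ∀ i, V i ∈ zeroPlaces K y := by
    intro i
    show 0 < (V i).ord y
    by_contra hneg
    rw [not_lt] at hneg
    have h1 := mul_nonpos_of_nonneg_of_nonpos (hκpos i).le hneg
    rw [hVy i] at h1
    linarith
  -- the key identity
  have hkey : ∀ h : F, h ≠ 0 →
      (m : ℤ) * ∑ᶠ v ∈ zeroPlaces K y, v.ord h = ∑ i, κ i * (V i).ord h := by
    intro h hh
    have hν : IsIntVal (fun r : K⟮y⟯ => w (σ i₀ (r : F))) :=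
      hw.lc_comp ((σ i₀).comp (algebraMap K⟮y⟯ F))
    have h1 := norm_formula y hy (fun r : K⟮y⟯ => w (σ i₀ (r : F))) hν
      (fun c hc => hwK i₀ c hc) (m : ℤ) hm' (hwy i₀) h hh
    rw [h1]
    show w (σ i₀ ((Algebra.norm K⟮y⟯ h : K⟮y⟯) : F)) = _
    rw [lc_map_norm_eq_prod_of_embeddings y σ hσ hagree hcard i₀ h,
      hw.lc_val_prod _ _ (fun i _ => (map_ne_zero (σ i)).2 hh)]
    exact Finset.sum_congr rfl fun i _ => hVκ i h hh
  have hfin := finite_zeroPlaces y hy
  -- each zero is induced by exactly `e_v` embeddings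
  have hcount : ∀ v ∈ zeroPlaces K y,
      (((Finset.univ.filter fun i => V i = v).card : ℕ) : ℤ) = v.ord y := by
    intro v hv
    obtain ⟨h, hh0, hhv, hhother⟩ := WA.weak_approx y hy v hv
    have hsum : ∑ᶠ v' ∈ zeroPlaces K y, v'.ord h = 1 := by
      rw [finsum_mem_eq_finite_toFinset_sum _ hfin, Finset.sum_eq_single v]
      · exact hhv
      · intro v' hv' hne
        exact hhother v' (hfin.mem_toFinset.1 hv') hne
      · intro hv'
        exact absurd (hfin.mem_toFinset.2 hv) hv'
    have h2 := hkey h hh0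
    rw [hsum, mul_one] at h2
    have h3 : ∑ i, κ i * (V i).ord h = ∑ i ∈ Finset.univ.filter (fun i => V i = v), κ i := by
      rw [Finset.sum_filter]
      refine Finset.sum_congr rfl fun i _ => ?_
      split_ifs with hi
      · rw [hi, hhv, mul_one]
      · rw [hhother (V i) (hVmem i) hi, mul_zero]
    have h4 : (m : ℤ) * v.ord y = ∑ _i ∈ Finset.univ.filter (fun i => V i = v), (m : ℤ) := by
      have h3' : (m : ℤ) = ∑ i ∈ Finset.univ.filter (fun i => V i = v), κ i := h2.trans h3
      conv_lhs => rw [h3', Finset.sum_mul]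
      refine Finset.sum_congr rfl fun i hi => ?_
      have hiv := (Finset.mem_filter.1 hi).2
      rw [← hiv]
      exact hVy i
    rw [Finset.sum_const, nsmul_eq_mul] at h4
    have h5 : (m : ℤ) * v.ord y
        = (m : ℤ) * (((Finset.univ.filter fun i => V i = v).card : ℕ) : ℤ) := by
      rw [h4]; ring
    exact (mul_left_cancel₀ hm'.ne' h5).symm
  have hsurj : ∀ v ∈ zeroPlaces K y, ∃ i, V i = v := by
    intro v hv
    have h1 := hcount v hv
    have h2 : 0 < (Finset.univ.filter fun i => V i = v).card := by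
      have : (0 : ℤ) < v.ord y := hv
      rw [← h1] at this
      exact_mod_cast this
    obtain ⟨i, hi⟩ := Finset.card_pos.1 h2
    exact ⟨i, (Finset.mem_filter.1 hi).2⟩
  -- the monodromy preserves the induced place
  have hVπ : ∀ i, V (π i) = V i := by
    intro i
    refine lc_place_eq_of_proportional (hκpos (π i)) (hκpos i) fun f hf => ?_
    rw [← hVκ (π i) f hf, ← hVκ i f hf, ← hα i f, hwα _ ((map_ne_zero (σ i)).2 hf)]
  have hVπinv : ∀ i, V (π⁻¹ i) = V i := by
    intro i
    have := hVπ (π⁻¹ i)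
    simpa using this.symm
  have hVz : ∀ (k : ℤ) (i : I), V ((π ^ k) i) = V i := by
    intro k
    induction k using Int.induction_on with
    | zero => intro i; simp
    | succ n ih =>
      intro i
      rw [zpow_add_one, Equiv.Perm.mul_apply, ih, hVπ]
    | pred n ih =>
      intro i
      rw [zpow_sub_one, Equiv.Perm.mul_apply, ih, hVπinv]
  have hVrel : ∀ a b : I, (MulAction.orbitRel (Subgroup.zpowers π) I) a b → V a = V b := by
    intro a b hab
    rw [MulAction.orbitRel_apply] at hab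
    obtain ⟨⟨g, hg⟩, rfl⟩ := hab
    obtain ⟨k, rfl⟩ := Subgroup.mem_zpowers_iff.1 hg
    exact hVz k b
  let Vbar : MulAction.orbitRel.Quotient (Subgroup.zpowers π) I → zeroPlaces K y :=
    Quotient.lift (fun i => (⟨V i, hVmem i⟩ : zeroPlaces K y))
      (fun a b hab => Subtype.ext (hVrel a b hab))
  have hVbar : ∀ i, Vbar (Quotient.mk'' i) = ⟨V i, hVmem i⟩ := fun i => rfl
  have hVbar_surj : Function.Surjective Vbar := by
    rintro ⟨v, hv⟩
    obtain ⟨i, hi⟩ := hsurj v hv
    exact ⟨Quotient.mk'' i, Subtype.ext hi⟩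
  -- orbits
  let Orb : MulAction.orbitRel.Quotient (Subgroup.zpowers π) I → Finset I := fun q =>
    Finset.univ.filter fun i => (Quotient.mk'' i : MulAction.orbitRel.Quotient _ I) = q
  have hπq : ∀ i : I, (Quotient.mk'' (π i) : MulAction.orbitRel.Quotient (Subgroup.zpowers π) I)
      = Quotient.mk'' i := by
    intro i
    apply Quotient.sound'
    rw [MulAction.orbitRel_apply]
    exact ⟨⟨π, Subgroup.mem_zpowers π⟩, rfl⟩
  have hOrb_dvd : ∀ (q : MulAction.orbitRel.Quotient (Subgroup.zpowers π) I),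
      ((Vbar q : Place K F).ord y) ∣ ((Orb q).card : ℤ) := by
    intro q
    set v : Place K F := (Vbar q : Place K F) with hv
    have hVj : ∀ j ∈ Orb q, V j = v := by
      intro j hj
      have : (Quotient.mk'' j : MulAction.orbitRel.Quotient _ I) = q := (Finset.mem_filter.1 hj).2
      rw [hv, ← this, hVbar]
    obtain ⟨t, ht⟩ := exists_ord_eq_one v
    have ht0 : t ≠ 0 := by
      rintro rfl
      rw [Place.ord_zero] at ht
      exact zero_ne_one ht
    set P : E := ∏ j ∈ Orb q, σ j t with hP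
    have hP0 : P ≠ 0 := Finset.prod_ne_zero_iff.2 fun j _ => (map_ne_zero (σ j)).2 ht0
    have hαP : α P = P := by
      rw [hP, map_prod]
      simp only [hα]
      refine Finset.prod_equiv π (fun j => ?_) (fun j _ => rfl)
      simp only [Orb, Finset.mem_filter, Finset.mem_univ, true_and, hπq]
    have hwP : w P = ∑ j ∈ Orb q, κ j := by
      rw [hP, hw.lc_val_prod _ _ (fun j _ => (map_ne_zero (σ j)).2 ht0)]
      refine Finset.sum_congr rfl fun j hj => ?_
      rw [hVκ j t ht0, hVj j hj, ht, mul_one]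
    have hζP : ζ ^ (w P) = 1 := by
      have h1 := hlcα P hP0
      rw [hαP] at h1
      have h2 : lc P ≠ 0 := hlc_ne P hP0
      have h3 : (ζ ^ (w P) - 1) * lc P = 0 := by rw [sub_mul, one_mul, ← h1, sub_self]
      rcases mul_eq_zero.1 h3 with h4 | h4
      · exact sub_eq_zero.1 h4
      · exact absurd h4 h2
    obtain ⟨c, hc⟩ := hζ _ hζP
    have h6 : (∑ j ∈ Orb q, κ j) * v.ord y = ((Orb q).card : ℤ) * m := by
      rw [Finset.sum_mul, ← nsmul_eq_mul, ← Finset.sum_const]
      refine Finset.sum_congr rfl fun j hj => ?_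
      rw [← hVj j hj]
      exact hVy j
    rw [← hwP, hc] at h6
    refine ⟨c, ?_⟩
    have h7 : (m : ℤ) * ((Orb q).card : ℤ) = (m : ℤ) * (v.ord y * c) := by
      rw [mul_comm (m : ℤ) ((Orb q).card : ℤ), ← h6]; ring
    exact mul_left_cancel₀ hm'.ne' h7
  have hOrb_ne : ∀ q : MulAction.orbitRel.Quotient (Subgroup.zpowers π) I, (Orb q).Nonempty := by
    intro q
    obtain ⟨i, rfl⟩ := Quotient.exists_rep q
    exact ⟨i, Finset.mem_filter.2 ⟨Finset.mem_univ _, rfl⟩⟩
  have hVbar_inj : Function.Injective Vbar := by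
    intro q q' hqq'
    by_contra hne
    set v : Place K F := (Vbar q : Place K F) with hv
    have hvmem : v ∈ zeroPlaces K y := (Vbar q).2
    have he : (0 : ℤ) < v.ord y := hvmem
    have hsub : Orb q ∪ Orb q' ⊆ Finset.univ.filter fun i => V i = v := by
      intro j hj
      rw [Finset.mem_filter]
      refine ⟨Finset.mem_univ _, ?_⟩
      rcases Finset.mem_union.1 hj with hj | hj
      · have : (Quotient.mk'' j : MulAction.orbitRel.Quotient _ I) = q :=
          (Finset.mem_filter.1 hj).2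
        rw [hv, ← this, hVbar]
      · have : (Quotient.mk'' j : MulAction.orbitRel.Quotient _ I) = q' :=
          (Finset.mem_filter.1 hj).2
        rw [hv, hqq', ← this, hVbar]
    have hdisj : Disjoint (Orb q) (Orb q') := by
      rw [Finset.disjoint_left]
      intro j hj hj'
      exact hne ((Finset.mem_filter.1 hj).2.symm.trans (Finset.mem_filter.1 hj').2)
    have hc1 := Finset.card_le_card hsub
    rw [Finset.card_union_of_disjoint hdisj] at hc1
    have hge : ∀ q'' : MulAction.orbitRel.Quotient (Subgroup.zpowers π) I,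
        (Vbar q'' : Place K F) = v → v.ord y ≤ ((Orb q'').card : ℤ) := by
      intro q'' hq''
      have hd := hOrb_dvd q''
      rw [hq''] at hd
      exact Int.le_of_dvd (by exact_mod_cast (hOrb_ne q'').card_pos) hd
    have h1 := hge q rfl
    have h2 := hge q' (by rw [hv, hqq'])
    have h3 := hcount v hvmem
    have h4 : (((Orb q).card + (Orb q').card : ℕ) : ℤ) ≤ v.ord y := by
      rw [← h3]; exact_mod_cast hc1
    push_cast at h4
    linarith
  refine ⟨?_, ?_, ?_⟩
  · exact (Nat.card_congr (Equiv.ofBijective Vbar ⟨hVbar_inj, hVbar_surj⟩)).symm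
  · intro v hv
    obtain ⟨i, rfl⟩ := hsurj v hv
    exact Dvd.intro_left _ (hVy i)
  · -- the differential
    obtain ⟨L, hLD, hLsmul⟩ := lc_exists_lift_of_derivation (K := K) (σ i₀) δ hδ_add hδ_mul (hδK i₀)
    refine ⟨fun hD => ?_, fun v hv t a ht hDa => ?_⟩
    · have h1 := hLD y
      rw [hD] at h1
      have h2 := (hδw (σ i₀ y) ((map_ne_zero (σ i₀)).2 hy0)
        (by rw [hwy i₀]; exact_mod_cast hm.ne')).1
      have h3 : L 0 = 0 := by
        have := hLsmul 0 0
        rw [zero_smul, map_zero, zero_mul] at this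
        exact this
      exact h2 (by rw [← h1, h3])
    · obtain ⟨i, rfl⟩ := hsurj v hv
      obtain ⟨L, hLD, hLsmul⟩ := lc_exists_lift_of_derivation (K := K) (σ i) δ hδ_add hδ_mul (hδK i)
      have ht0 : t ≠ 0 := by
        rintro rfl
        rw [Place.ord_zero] at ht
        exact zero_ne_one ht
      have h1 : δ (σ i y) = σ i a * δ (σ i t) := by
        rw [← hLD y, hDa, hLsmul, hLD]
      have hwt : w (σ i t) = κ i := by rw [hVκ i t ht0, ht, mul_one]
      have hκ0 : κ i ≠ 0 := (hκpos i).ne'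
      obtain ⟨hδt0, hδtw⟩ := hδw (σ i t) ((map_ne_zero (σ i)).2 ht0) (by rw [hwt]; exact hκ0)
      obtain ⟨hδy0, hδyw⟩ := hδw (σ i y) ((map_ne_zero (σ i)).2 hy0)
        (by rw [hwy i]; exact_mod_cast hm.ne')
      have ha0 : a ≠ 0 := by
        rintro rfl
        rw [map_zero, zero_mul] at h1
        exact hδy0 h1
      have h2 : w (δ (σ i y)) = w (σ i a) + w (δ (σ i t)) := by
        rw [h1]
        exact hw.map_mul _ _ ((map_ne_zero (σ i)).2 ha0) hδt0
      rw [hδyw, hδtw, hwy i, hwt, hVκ i a ha0] at h2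
      have h3 : κ i * (V i).ord a = κ i * ((V i).ord y - 1) := by
        have := hVy i
        linarith
      exact mul_left_cancel₀ hκ0 h3

/-- the local counting lemma at the zeros of `x - c`. -/
theorem localCount_sub (x : F) (hx : Transcendental K x) [Module.Finite K⟮x⟯ F] (c : K)
    {E : Type*} [Field E] {I : Type*} [Fintype I]
    (σ : I → F →+* E) (hσ : Function.Injective σ)
    (hσx : ∀ i j, σ i x = σ j x)
    (hσK : ∀ i j (c : K), σ i (algebraMap K F c) = σ j (algebraMap K F c))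
    (hcard : Fintype.card I = Module.finrank K⟮x⟯ F)
    (w : E → ℤ) (hw : IsIntVal w)
    (hwK : ∀ i (c : K), c ≠ 0 → w (σ i (algebraMap K F c)) = 0)
    (m : ℕ) (hm : 0 < m) (hwy : ∀ i, w (σ i (x - algebraMap K F c)) = m)
    (α : E →+* E) (π : Equiv.Perm I) (hα : ∀ i f, α (σ i f) = σ (π i) f)
    (hwα : ∀ a : E, a ≠ 0 → w (α a) = w a)
    {C : Type*} [Field C] (lc : E → C) (hlc_mul : ∀ a b : E, lc (a * b) = lc a * lc b)
    (hlc_ne : ∀ a : E, a ≠ 0 → lc a ≠ 0) (ζ : C) (hζ : ∀ k : ℤ, ζ ^ k = 1 → (m : ℤ) ∣ k)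
    (hlcα : ∀ a : E, a ≠ 0 → lc (α a) = ζ ^ (w a) * lc a)
    (δ : E → E) (hδ_add : ∀ a b, δ (a + b) = δ a + δ b)
    (hδ_mul : ∀ a b, δ (a * b) = δ a * b + a * δ b)
    (hδK : ∀ i (c : K), δ (σ i (algebraMap K F c)) = 0)
    (s : ℤ) (hδw : ∀ a : E, a ≠ 0 → w a ≠ 0 → δ a ≠ 0 ∧ w (δ a) = w a - s) :
    Nat.card (zeroPlaces K (x - algebraMap K F c))
        = Nat.card (MulAction.orbitRel.Quotient (Subgroup.zpowers π) I) ∧
      (∀ v ∈ zeroPlaces K (x - algebraMap K F c), v.ord (x - algebraMap K F c) ∣ (m : ℤ)) ∧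
      DiffOrdAt K (x - algebraMap K F c) := by
  haveI : Module.Finite K⟮x - algebraMap K F c⟯ F := finite_of_adjoin_eq (adjoin_sub_algebraMap x c)
  refine localCount (x - algebraMap K F c) (transcendental_sub_algebraMap hx c) σ hσ
    (fun i j => by rw [map_sub, map_sub, hσx i j, hσK i j c]) hσK
    (by rw [hcard, finrank_of_adjoin_eq (adjoin_sub_algebraMap x c)])
    w hw hwK m hm hwy α π hα hwα lc hlc_mul hlc_ne ζ hζ hlcα δ hδ_add hδ_mul hδK s hδw

/-- the local counting lemma at the poles of `x`. -/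
theorem localCount_inv (x : F) (hx : Transcendental K x) [Module.Finite K⟮x⟯ F]
    {E : Type*} [Field E] {I : Type*} [Fintype I]
    (σ : I → F →+* E) (hσ : Function.Injective σ)
    (hσx : ∀ i j, σ i x = σ j x)
    (hσK : ∀ i j (c : K), σ i (algebraMap K F c) = σ j (algebraMap K F c))
    (hcard : Fintype.card I = Module.finrank K⟮x⟯ F)
    (w : E → ℤ) (hw : IsIntVal w)
    (hwK : ∀ i (c : K), c ≠ 0 → w (σ i (algebraMap K F c)) = 0)
    (m : ℕ) (hm : 0 < m) (hwy : ∀ i, w (σ i x⁻¹) = m)
    (α : E →+* E) (π : Equiv.Perm I) (hα : ∀ i f, α (σ i f) = σ (π i) f)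
    (hwα : ∀ a : E, a ≠ 0 → w (α a) = w a)
    {C : Type*} [Field C] (lc : E → C) (hlc_mul : ∀ a b : E, lc (a * b) = lc a * lc b)
    (hlc_ne : ∀ a : E, a ≠ 0 → lc a ≠ 0) (ζ : C) (hζ : ∀ k : ℤ, ζ ^ k = 1 → (m : ℤ) ∣ k)
    (hlcα : ∀ a : E, a ≠ 0 → lc (α a) = ζ ^ (w a) * lc a)
    (δ : E → E) (hδ_add : ∀ a b, δ (a + b) = δ a + δ b)
    (hδ_mul : ∀ a b, δ (a * b) = δ a * b + a * δ b)
    (hδK : ∀ i (c : K), δ (σ i (algebraMap K F c)) = 0)
    (s : ℤ) (hδw : ∀ a : E, a ≠ 0 → w a ≠ 0 → δ a ≠ 0 ∧ w (δ a) = w a - s) :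
    Nat.card (zeroPlaces K x⁻¹)
        = Nat.card (MulAction.orbitRel.Quotient (Subgroup.zpowers π) I) ∧
      (∀ v ∈ zeroPlaces K x⁻¹, v.ord x⁻¹ ∣ (m : ℤ)) ∧ DiffOrdAt K x⁻¹ := by
  haveI : Module.Finite K⟮x⁻¹⟯ F := finite_of_adjoin_eq (adjoin_inv x)
  refine localCount x⁻¹ (transcendental_inv hx) σ hσ
    (fun i j => by rw [map_inv₀, map_inv₀, hσx i j]) hσK
    (by rw [hcard, finrank_of_adjoin_eq (adjoin_inv x)])
    w hw hwK m hm hwy α π hα hwα lc hlc_mul hlc_ne ζ hζ hlcα δ hδ_add hδ_mul hδK s hδw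

end Main

end Fermat.Agent.S24Lib
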