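import Mathlib

/-!
# Counting orbits of a cyclic group generated by an element of order dividing 2 or 3
(Burnside), used for the number of places of `X₀(N)` over `j = 1728` and `j = 0`.
-/

set_option autoImplicit false

namespace Fermat.Agent.S24Lib

open MulAction

section Perm

variable {X : Type*} [Fintype X] [DecidableEq X]

/-- Burnside for the cyclic group generated by a permutation, as a sum over `Fin (orderOf π)`. -/
theorem orbitCount_burnside (π : Equiv.Perm X) :
    ∑ i : Fin (orderOf π), Nat.card {x : X // (π ^ (i : ℕ)) x = x}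
      = Nat.card (Quotient (orbitRel (Subgroup.zpowers π) X)) * orderOf π := by
  classical
  have hfin : IsOfFinOrder π := isOfFinOrder_of_finite π
  haveI : Fintype (Quotient (orbitRel (Subgroup.zpowers π) X)) := Fintype.ofFinite _
  have h := MulAction.sum_card_fixedBy_eq_card_orbits_mul_card_group (Subgroup.zpowers π) X
  rw [Fintype.card_zpowers] at h
  rw [Nat.card_eq_fintype_card, ← h]
  refine Fintype.sum_equiv (finEquivZPowers hfin) _ _ ?_
  intro i
  rw [Nat.card_eq_fintype_card]
  refine Fintype.card_congr (Equiv.subtypeEquivRight ?_)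
  intro x
  simp [MulAction.mem_fixedBy, finEquivZPowers_apply, Subgroup.smul_def]

theorem orbitCount_two_perm (π : Equiv.Perm X) (h : π ^ 2 = 1) :
    2 * Nat.card (Quotient (orbitRel (Subgroup.zpowers π) X))
      = Fintype.card X + Nat.card {x : X // π x = x} := by
  classical
  have hB := orbitCount_burnside π
  have hdvd : orderOf π ∣ 2 := orderOf_dvd_of_pow_eq_one h
  have hcases : orderOf π = 1 ∨ orderOf π = 2 := by
    have := Nat.le_of_dvd (by norm_num) hdvd
    have hpos := orderOf_pos π
    interval_cases (orderOf π) <;> simp_all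
  rcases hcases with h1 | h2
  · have hπ : π = 1 := orderOf_eq_one_iff.mp h1
    subst hπ
    rw [h1] at hB
    simp only [Fin.sum_univ_one, Fin.val_zero, pow_zero, Equiv.Perm.coe_one, id_eq, mul_one] at hB
    have hall : Nat.card {x : X // True} = Fintype.card X := by
      rw [Nat.card_eq_fintype_card]
      exact Fintype.card_congr (Equiv.subtypeUnivEquiv fun _ => trivial)
    simp only [Equiv.Perm.coe_one, id_eq]
    rw [hall] at hB
    rw [hall]
    omega
  · rw [h2] at hB
    simp only [Fin.sum_univ_two, Fin.val_zero, Fin.val_one, pow_zero, pow_one,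
      Equiv.Perm.coe_one, id_eq] at hB
    have hall : Nat.card {x : X // True} = Fintype.card X := by
      rw [Nat.card_eq_fintype_card]
      exact Fintype.card_congr (Equiv.subtypeUnivEquiv fun _ => trivial)
    rw [hall] at hB
    omega

theorem orbitCount_three_perm (π : Equiv.Perm X) (h : π ^ 3 = 1) :
    3 * Nat.card (Quotient (orbitRel (Subgroup.zpowers π) X))
      = Fintype.card X + 2 * Nat.card {x : X // π x = x} := by
  classical
  have hB := orbitCount_burnside π
  have hdvd : orderOf π ∣ 3 := orderOf_dvd_of_pow_eq_one h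
  have hcases : orderOf π = 1 ∨ orderOf π = 3 := by
    rcases (Nat.dvd_prime Nat.prime_three).mp hdvd with h1 | h3
    · exact Or.inl h1
    · exact Or.inr h3
  have hall : Nat.card {x : X // True} = Fintype.card X := by
    rw [Nat.card_eq_fintype_card]
    exact Fintype.card_congr (Equiv.subtypeUnivEquiv fun _ => trivial)
  rcases hcases with h1 | h3
  · have hπ : π = 1 := orderOf_eq_one_iff.mp h1
    subst hπ
    rw [h1] at hB
    simp only [Fin.sum_univ_one, Fin.val_zero, pow_zero, Equiv.Perm.coe_one, id_eq, mul_one] at hB
    simp only [Equiv.Perm.coe_one, id_eq]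
    rw [hall] at hB
    rw [hall]
    omega
  · rw [h3] at hB
    simp only [Fin.sum_univ_three, Fin.val_zero, Fin.val_one, Fin.val_two, pow_zero, pow_one,
      Equiv.Perm.coe_one, id_eq] at hB
    have hsq : Nat.card {x : X // (π ^ 2) x = x} = Nat.card {x : X // π x = x} := by
      refine Nat.card_congr (Equiv.subtypeEquivRight ?_)
      intro x
      have hinv : π ^ 2 = π⁻¹ := by
        rw [eq_inv_iff_mul_eq_one, ← pow_succ, h]
      rw [hinv]
      constructor
      · intro hx
        have := congrArg π hx
        simpa using this.symm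
      · intro hx
        rw [Equiv.Perm.inv_eq_iff_eq]
        exact hx.symm
    rw [hall, hsq] at hB
    omega

end Perm

section Group

variable {G X : Type*} [Group G] [MulAction G X] [Fintype X] [DecidableEq X]

/-- The orbits of `zpowers g` on `X` are the orbits of the cyclic group generated by the
permutation `toPerm g`. -/
theorem orbitCount_card_eq (g : G) :
    Nat.card (orbitRel.Quotient (Subgroup.zpowers g) X)
      = Nat.card (Quotient (orbitRel (Subgroup.zpowers (MulAction.toPerm g : Equiv.Perm X)) X)) := by
  have hs : orbitRel (Subgroup.zpowers g) X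
      = orbitRel (Subgroup.zpowers (MulAction.toPerm g : Equiv.Perm X)) X := by
    ext a b
    rw [orbitRel_apply, orbitRel_apply, mem_orbit_iff, mem_orbit_iff]
    constructor
    · rintro ⟨⟨h, hh⟩, rfl⟩
      obtain ⟨k, rfl⟩ := Subgroup.mem_zpowers_iff.mp hh
      refine ⟨⟨(MulAction.toPerm g : Equiv.Perm X) ^ k, Subgroup.zpow_mem_zpowers _ k⟩, ?_⟩
      show ((MulAction.toPerm g : Equiv.Perm X) ^ k) b = g ^ k • b
      rw [← MulAction.toPermHom_apply, ← map_zpow]
      rfl
    · rintro ⟨⟨h, hh⟩, rfl⟩
      obtain ⟨k, rfl⟩ := Subgroup.mem_zpowers_iff.mp hh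
      refine ⟨⟨g ^ k, Subgroup.zpow_mem_zpowers _ k⟩, ?_⟩
      show g ^ k • b = ((MulAction.toPerm g : Equiv.Perm X) ^ k) b
      rw [← MulAction.toPermHom_apply, ← map_zpow]
      rfl
  unfold orbitRel.Quotient
  rw [hs]

theorem orbitCount_two (g : G) (hg : ∀ x : X, g • g • x = x) :
    2 * Nat.card (orbitRel.Quotient (Subgroup.zpowers g) X)
      = Fintype.card X + Nat.card {x : X // g • x = x} := by
  rw [orbitCount_card_eq]
  have h : (MulAction.toPerm g : Equiv.Perm X) ^ 2 = 1 := by
    ext x
    simp [sq, hg]
  exact orbitCount_two_perm _ h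

theorem orbitCount_three (g : G) (hg : ∀ x : X, g • g • g • x = x) :
    3 * Nat.card (orbitRel.Quotient (Subgroup.zpowers g) X)
      = Fintype.card X + 2 * Nat.card {x : X // g • x = x} := by
  rw [orbitCount_card_eq]
  have h : (MulAction.toPerm g : Equiv.Perm X) ^ 3 = 1 := by
    ext x
    simp [pow_succ, hg]
  exact orbitCount_three_perm _ h

end Group

end Fermat.Agent.S24Lib
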