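import Fermat.Agent.Lib.S24.LocalPtFix
import Fermat.Agent.Lib.S24.JAnOrder
import Fermat.Agent.Lib.S24.JAnSurj
import Fermat.Agent.Lib.S24.FieldDefs
import Fermat.Agent.Lib.S24.OrbitCount
import Fermat.Agent.Lib.S24.LocalCount
import Fermat.Agent.Lib.S20.Defs

/-!
# S24 : the fibres of `j` over the finite points (assembly of `localCount_sub`)

Generic in the family `σ : Q N → FN N →+* Mer` of conjugate embeddings (chunk B3): everything
`localCount_sub` needs about `σ` is collected in `FibreData`.  The base point is any `τ` with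
`j(τ) = c`, the local monodromy is `merComp γ⁻¹` for a `γ` fixing `τ`.
-/

set_option autoImplicit false

namespace Fermat.Agent.S24Lib

open AlgebraicCurve IntermediateField UpperHalfPlane MatrixGroups Matrix.SpecialLinearGroup
open Fermat.Agent.LibS23 Fermat.Agent.S20Lib ModularCurve
open scoped Manifold

/-- what the finite-fibre assembly needs from the conjugate embeddings (chunk B3). -/
structure FibreData (N : ℕ) [NeZero N] (σ : Q N → FN N →+* Mer) : Prop where
  inj : Function.Injective σ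
  map_const : ∀ (q : Q N) (c : Kb), σ q (algebraMap Kb (FN N) c) = algebraMap ℂ Mer (iotaK c)
  map_JF : ∀ q : Q N, σ q (JF N) = algebraMap Hol Mer (holMk jAn jAn_mdiff)
  comp : ∀ (γ : SL(2, ℤ)) (q : Q N) (f : FN N), merComp γ (σ q f) = σ ((toSL γ)⁻¹ • q) f
  trans : Transcendental Kb (JF N)
  fin : Module.Finite Kb⟮JF N⟯ (FN N)
  rank : Module.finrank Kb⟮JF N⟯ (FN N) = Nat.card (Q N)

theorem fibre_toSL_inv (γ : SL(2, ℤ)) : toSL γ⁻¹ = (toSL γ)⁻¹ :=
  Subtype.ext (map_inv _ _)

theorem fibre_toSL_one : toSL 1 = 1 :=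
  Subtype.ext (map_one _)

/-- the trivial group has singleton orbits. -/
theorem fibre_card_orbits_one {G X : Type*} [Group G] [MulAction G X] :
    Nat.card (MulAction.orbitRel.Quotient (Subgroup.zpowers (1 : G)) X) = Nat.card X := by
  symm
  refine Nat.card_congr (Equiv.ofBijective (fun x => Quotient.mk'' x) ⟨?_, Quotient.mk''_surjective⟩)
  intro x y hxy
  have h := Quotient.exact' hxy
  obtain ⟨⟨g, hg⟩, hg'⟩ := h
  rw [Subgroup.zpowers_one_eq_bot, Subgroup.mem_bot] at hg
  subst hg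
  exact (by simpa using hg' : y = x).symm

variable {N : ℕ} [NeZero N] {σ : Q N → FN N →+* Mer}

theorem FibreData.map_sub_const (h : FibreData N σ) (q : Q N) (c : Kb) :
    σ q (JF N - algebraMap Kb (FN N) c)
      = algebraMap Hol Mer (holMk (fun z => jAn z - iotaK c) (jAn_mdiff.sub mdifferentiable_const)) := by
  rw [map_sub, h.map_JF, h.map_const, IsScalarTower.algebraMap_apply ℂ Hol Mer, ← map_sub]
  rfl

theorem FibreData.wAt_sub_const (h : FibreData N σ) (τ : ℍ) (c : Kb) (n : ℕ)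
    (hn : analyticOrderAt (fun w : ℂ => jAn (ofComplex w) - iotaK c) (τ : ℂ) = n) (q : Q N) :
    wAt τ (σ q (JF N - algebraMap Kb (FN N) c)) = n := by
  rw [h.map_sub_const]
  exact wAt_algebraMap_of_order τ _ n hn

/-- **The finite fibres**: `localCount_sub` at a base point `τ` with `j(τ) = c`, with local
monodromy `γ` (fixing `τ`, multiplier of exact order `m` = local order of `j - c`). -/
theorem FibreData.count (h : FibreData N σ) (c : Kb) (τ : ℍ) (m : ℕ) (hm : 0 < m)
    (hord : analyticOrderAt (fun w : ℂ => jAn (ofComplex w) - iotaK c) (τ : ℂ) = m)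
    (γ : SL(2, ℤ)) (hγ : γ • τ = τ)
    (hζ : ∀ k : ℤ, ((1 / denom (mapGL ℝ γ) τ ^ 2 : ℂ)⁻¹) ^ k = 1 → (m : ℤ) ∣ k) :
    Nat.card (zeroPlaces Kb (JF N - algebraMap Kb (FN N) c))
        = Nat.card (MulAction.orbitRel.Quotient (Subgroup.zpowers (toSL γ)) (Q N)) ∧
      (∀ v ∈ zeroPlaces Kb (JF N - algebraMap Kb (FN N) c),
        v.ord (JF N - algebraMap Kb (FN N) c) ∣ (m : ℤ)) ∧
      DiffOrdAt Kb (JF N - algebraMap Kb (FN N) c) := by
  classical
  have hfin := h.fin
  have hcard : Fintype.card (Q N) = Module.finrank Kb⟮JF N⟯ (FN N) := by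
    rw [h.rank, Nat.card_eq_fintype_card]
  have key := localCount_sub (K := Kb) (F := FN N) (JF N) h.trans c (E := Mer) (I := Q N) σ h.inj
    (fun i j => by rw [h.map_JF, h.map_JF])
    (fun i j c => by rw [h.map_const, h.map_const])
    hcard (wAt τ) (isIntVal_wAt τ)
    (fun i c hc => by
      rw [h.map_const]
      exact wAt_const τ ((map_ne_zero iotaK).2 hc))
    m hm (fun i => h.wAt_sub_const τ c m hord i)
    (merComp γ⁻¹) (MulAction.toPerm (toSL γ))
    (fun i f => by
      rw [h.comp, fibre_toSL_inv, inv_inv]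
      rfl)
    (fun a _ => wAt_merComp_inv_of_fixed hγ a)
    (lcAt τ) (lcAt_mul τ) (fun a ha => lcAt_ne_zero τ ha)
    ((1 / denom (mapGL ℝ γ) τ ^ 2 : ℂ)⁻¹) hζ
    (fun a _ => lcAt_merComp_inv_of_fixed hγ a)
    merDeriv merDeriv_add merDeriv_mul
    (fun i c => by rw [h.map_const, merDeriv_const])
    1 (fun a ha hw => wAt_merDeriv τ ha hw)
  refine ⟨?_, key.2.1, key.2.2⟩
  exact key.1.trans (orbitCount_card_eq (X := Q N) (toSL γ)).symm

/-- fibre over `c ∉ {0, 1728}`. -/
theorem FibreData.places_generic (h : FibreData N σ) (c : Kb) (hc0 : c ≠ 0) (hc1 : c ≠ 1728) :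
    Nat.card (zeroPlaces Kb (JF N - algebraMap Kb (FN N) c)) = Nat.card (Q N) ∧
    (∀ v ∈ zeroPlaces Kb (JF N - algebraMap Kb (FN N) c),
      v.ord (JF N - algebraMap Kb (FN N) c) = 1) ∧
    DiffOrdAt Kb (JF N - algebraMap Kb (FN N) c) := by
  obtain ⟨τ, hτ⟩ := jAn_surjective (iotaK c)
  have h0 : jAn τ ≠ 0 := by
    rw [hτ]
    exact (map_ne_zero iotaK).2 hc0
  have h1 : jAn τ ≠ 1728 := by
    rw [hτ]
    intro h1728
    apply hc1
    apply iotaK_injective
    rw [h1728, map_ofNat]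
  have hord : analyticOrderAt (fun w : ℂ => jAn (ofComplex w) - iotaK c) (τ : ℂ) = ((1 : ℕ) : ℕ∞) := by
    have := jAn_order_generic h0 h1
    rw [hτ] at this
    rw [this]
    rfl
  have key := h.count c τ 1 one_pos hord 1 (one_smul _ τ) (fun k _ => by
    rw [Nat.cast_one]
    exact one_dvd k)
  refine ⟨?_, ?_, key.2.2⟩
  · rw [key.1, fibre_toSL_one]
    exact fibre_card_orbits_one (G := ↥(𝒮ℒ)) (X := Q N)
  · intro v hv
    have h1 := key.2.1 v hv
    rw [Nat.cast_one] at h1
    exact Int.eq_one_of_dvd_one (le_of_lt hv) h1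

/-- fibre over `1728` (base point `i`, monodromy `S`). -/
theorem FibreData.places_1728 (h : FibreData N σ) :
    Nat.card (zeroPlaces Kb (JF N - algebraMap Kb (FN N) 1728))
      = Nat.card (MulAction.orbitRel.Quotient (Subgroup.zpowers sS) (Q N)) ∧
    DiffOrdAt Kb (JF N - algebraMap Kb (FN N) 1728) := by
  have hord : analyticOrderAt (fun w : ℂ => jAn (ofComplex w) - iotaK 1728)
      ((UpperHalfPlane.I : ℍ) : ℂ) = ((2 : ℕ) : ℕ∞) := by
    rw [map_ofNat, jAn_order_I]
    rfl
  have key := h.count 1728 UpperHalfPlane.I 2 two_pos hord ModularGroup.S elliptic_S_smul_I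
    (fun k hk => by
      have h1 : (1 / denom (mapGL ℝ ModularGroup.S) (UpperHalfPlane.I : ℍ) ^ 2 : ℂ) = -1 :=
        localPt_zeta_I
      rw [h1] at hk
      exact localPt_neg_one_inv_dvd k hk)
  exact ⟨key.1, key.2.2⟩

/-- fibre over `0` (base point `ρ`, monodromy `S T`). -/
theorem FibreData.places_zero (h : FibreData N σ) :
    Nat.card (zeroPlaces Kb (JF N - algebraMap Kb (FN N) 0))
      = Nat.card (MulAction.orbitRel.Quotient (Subgroup.zpowers sU) (Q N)) ∧
    DiffOrdAt Kb (JF N - algebraMap Kb (FN N) 0) := by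
  have hord : analyticOrderAt (fun w : ℂ => jAn (ofComplex w) - iotaK 0)
      ((ellipticRho : ℍ) : ℂ) = ((3 : ℕ) : ℕ∞) := by
    have h3 := jAn_order_rho
    simp only [map_zero, sub_zero]
    rw [h3]
    rfl
  have key := h.count 0 ellipticRho 3 (by norm_num) hord (ModularGroup.S * ModularGroup.T)
    elliptic_ST_smul_rho (fun k hk => zetaRho_inv_dvd k hk)
  exact ⟨key.1, key.2.2⟩

end Fermat.Agent.S24Lib
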