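import Fermat.Agent.Lib.S24.FibreData
import Fermat.Agent.Lib.S24.ConjEv
import Fermat.Agent.Lib.S24.DegBound
import Fermat.Agent.Lib.S24.DegJF

/-!
# S24 : the fibres of `j` over the finite points (binding top-level statements)

`places_generic`, `places_1728`, `places_zero` of `S24_iface_B`: `FibreData` (file `FibreData`)
instantiated with the conjugate embeddings `conjEv N` of chunk B3.
-/

set_option autoImplicit false

namespace Fermat.Agent.S24Lib

open AlgebraicCurve IntermediateField UpperHalfPlane MatrixGroups Matrix.SpecialLinearGroup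
open Fermat.Agent.LibS23 Fermat.Agent.S20Lib ModularCurve
open scoped Manifold

theorem fibreData_conjEv (N : ℕ) [NeZero N] : FibreData N (conjEv N) where
  inj := conjEv_injective N
  map_const := conjEv_algebraMap N
  map_JF := conjEv_JF N
  comp := merComp_conjEv N
  trans := transcendental_JF N
  fin := finite_JF N
  rank := finrank_JF N

/-- fibre over `c ∉ {0, 1728}`: `ψ(N)` unramified places. -/
theorem places_generic (N : ℕ) [NeZero N] (c : Kb) (hc0 : c ≠ 0) (hc1 : c ≠ 1728) :
    Nat.card (zeroPlaces Kb (JF N - algebraMap Kb (FN N) c)) = Nat.card (Q N) ∧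
    (∀ v ∈ zeroPlaces Kb (JF N - algebraMap Kb (FN N) c),
      v.ord (JF N - algebraMap Kb (FN N) c) = 1) ∧
    DiffOrdAt Kb (JF N - algebraMap Kb (FN N) c) :=
  (fibreData_conjEv N).places_generic c hc0 hc1

/-- fibre over `1728` (base point `i`, monodromy `S`). -/
theorem places_1728 (N : ℕ) [NeZero N] :
    Nat.card (zeroPlaces Kb (JF N - algebraMap Kb (FN N) 1728))
      = Nat.card (MulAction.orbitRel.Quotient (Subgroup.zpowers sS) (Q N)) ∧
    DiffOrdAt Kb (JF N - algebraMap Kb (FN N) 1728) :=
  (fibreData_conjEv N).places_1728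

/-- fibre over `0` (base point `ρ`, monodromy `S T`). -/
theorem places_zero (N : ℕ) [NeZero N] :
    Nat.card (zeroPlaces Kb (JF N - algebraMap Kb (FN N) 0))
      = Nat.card (MulAction.orbitRel.Quotient (Subgroup.zpowers sU) (Q N)) ∧
    DiffOrdAt Kb (JF N - algebraMap Kb (FN N) 0) :=
  (fibreData_conjEv N).places_zero

end Fermat.Agent.S24Lib
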