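/-
S24, chunk B5 (lead): the fibre over `∞`.  The places of `F = FN N` over the pole of `j` are in
bijection with the orbits of `T` on `SL₂(ℤ)/Γ₀(N)` (the cusps), and `1/j` has the expected
differential there.  This is `localCount_inv` for the `q_N`-expansions of the conjugates.
-/
import Fermat.Agent.Lib.S24.ConjInf
import Fermat.Agent.Lib.S24.OrbitCount
import Fermat.Agent.Lib.S24.PlacesVal
import Fermat.Agent.Lib.S24.LocalCount
import Fermat.Agent.Lib.S24.DegJF

set_option autoImplicit false

namespace Fermat.Agent.S24Lib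

open AlgebraicCurve IntermediateField MatrixGroups
open Fermat.Agent.LibS23 Fermat.Agent.S20Lib ModularCurve

/-- the orbits of `T⁻¹` (as a permutation) are the orbits of `T`. -/
theorem fibreInf_orbits (N : ℕ) [NeZero N] :
    Nat.card (MulAction.orbitRel.Quotient
        (Subgroup.zpowers (MulAction.toPerm (sT⁻¹ : ↥(𝒮ℒ)) : Equiv.Perm (Q N))) (Q N))
      = Nat.card (MulAction.orbitRel.Quotient (Subgroup.zpowers (sT : ↥(𝒮ℒ))) (Q N)) := by
  have h := orbitCount_card_eq (X := Q N) (sT⁻¹ : ↥(𝒮ℒ))
  rw [Subgroup.zpowers_inv] at h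
  exact h.symm

/-- `1/j` has order `N` in `q_N` at every conjugate. -/
theorem fibreInf_order (N : ℕ) [NeZero N] (q : Q N) :
    (conjInf N q (JF N)⁻¹).order = (N : ℤ) := by
  have h0 : conjInf N q (JF N) ≠ 0 := by
    intro h
    have h1 := cuspExp_jAn_order N
    rw [← conjInf_JF N q, h, HahnSeries.order_zero] at h1
    have : (N : ℤ) = 0 := by omega
    exact NeZero.ne N (by exact_mod_cast this)
  rw [map_inv₀]
  have h2 : (conjInf N q (JF N))⁻¹.order = -(conjInf N q (JF N)).order :=
    cuspF_isIntVal.val_inv h0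
  rw [h2, conjInf_JF, cuspExp_jAn_order, neg_neg]

/-- **the fibre over `∞`** -/
theorem places_inf (N : ℕ) [NeZero N] :
    Nat.card (zeroPlaces Kb (JF N)⁻¹)
      = Nat.card (MulAction.orbitRel.Quotient (Subgroup.zpowers sT) (Q N)) ∧
    DiffOrdAt Kb (JF N)⁻¹ := by
  haveI := finite_JF N
  have key := localCount_inv (K := Kb) (F := FN N) (JF N) (transcendental_JF N)
    (E := LaurentSeries ℂ) (I := Q N) (conjInf N) (conjInf_injective N)
    (fun i j => by rw [conjInf_JF, conjInf_JF])
    (fun i j c => by rw [conjInf_algebraMap, conjInf_algebraMap])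
    (by rw [finrank_JF, Nat.card_eq_fintype_card])
    (fun a => a.order) cuspF_isIntVal
    (fun i c _ => by rw [conjInf_algebraMap]; exact HahnSeries.order_C)
    N (NeZero.pos N)
    (fun i => fibreInf_order N i)
    (cuspF_twist (cuspF_zeta N) (cuspF_zeta_ne_zero N))
    (MulAction.toPerm (sT⁻¹ : ↥(𝒮ℒ)))
    (fun i f => conjInf_twist N i f)
    (fun a ha => cuspF_twist_order _ _ ha)
    (fun a => a.leadingCoeff) cuspF_lc_mul (fun a ha => cuspF_lc_ne ha) (cuspF_zeta N)
    (cuspF_zeta_order N)
    (fun a ha => cuspF_twist_lc _ _ ha)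
    cuspF_deriv cuspF_deriv_add cuspF_deriv_mul
    (fun i c => by rw [conjInf_algebraMap]; exact cuspF_deriv_C _)
    0 (fun a ha hw => cuspF_deriv_order ha hw)
  refine ⟨?_, key.2.2⟩
  rw [key.1]
  exact fibreInf_orbits N

end Fermat.Agent.S24Lib
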