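import Fermat.Agent.Lib.S24.HolBase
import Fermat.Agent.Lib.S24.Defs

/-!
# S24 chunk B4 : the local datum at a point `τ` of the upper half plane

On `Mer = Frac(Hol)`: the order `wAt τ`, the leading coefficient `lcAt τ`, the derivation
`merDeriv`, and their behaviour under `merComp γ`.
-/

set_option autoImplicit false

namespace Fermat.Agent.S24Lib

open UpperHalfPlane MatrixGroups Filter Matrix.SpecialLinearGroup
open scoped Manifold Topology

/-- the function on `ℂ` attached to a holomorphic function on `ℍ`. -/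
noncomputable def holFn (f : Hol) : ℂ → ℂ := fun w => (f : ℍ → ℂ) (ofComplex w)

theorem holFn_apply (f : Hol) (w : ℂ) : holFn f w = (f : ℍ → ℂ) (ofComplex w) := rfl

theorem holFn_coe (f : Hol) (τ : ℍ) : holFn f (τ : ℂ) = (f : ℍ → ℂ) τ := by
  rw [holFn_apply, ofComplex_apply]

theorem holFn_differentiableOn (f : Hol) : DifferentiableOn ℂ (holFn f) {z : ℂ | 0 < z.im} :=
  UpperHalfPlane.mdifferentiable_iff.mp f.2

theorem holFn_analyticAt (f : Hol) {z : ℂ} (hz : 0 < z.im) : AnalyticAt ℂ (holFn f) z :=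
  (holFn_differentiableOn f).analyticAt (isOpen_upperHalfPlaneSet.mem_nhds hz)

theorem holFn_eventually_ne {f : Hol} (hf : f ≠ 0) {z : ℂ} (hz : 0 < z.im) :
    ∀ᶠ w in 𝓝[≠] z, holFn f w ≠ 0 := by
  rcases (holFn_analyticAt f hz).eventually_eq_zero_or_eventually_ne_zero with h | h
  · exfalso
    apply hf
    have h1 : (f : ℍ → ℂ) = 0 := by
      refine UpperHalfPlane.eq_zero_of_frequently (τ := ⟨z, hz⟩) f.2 ?_
      have h2 : ∀ᶠ w in 𝓝 (⟨z, hz⟩ : ℍ), (f : ℍ → ℂ) w = 0 := by
        have h3 : Tendsto (fun w : ℍ => (w : ℂ)) (𝓝 (⟨z, hz⟩ : ℍ)) (𝓝 z) :=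
          (UpperHalfPlane.continuous_coe.tendsto _)
        filter_upwards [h3.eventually h] with w hw
        rw [holFn_coe] at hw
        exact hw
      exact (h2.filter_mono nhdsWithin_le_nhds).frequently
    exact Subtype.ext h1
  · exact h

theorem holFn_mul (f g : Hol) (w : ℂ) : holFn (f * g) w = holFn f w * holFn g w := rfl
theorem holFn_add (f g : Hol) (w : ℂ) : holFn (f + g) w = holFn f w + holFn g w := rfl
theorem holFn_sub (f g : Hol) (w : ℂ) : holFn (f - g) w = holFn f w - holFn g w := rfl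
theorem holFn_one (w : ℂ) : holFn (1 : Hol) w = 1 := rfl
theorem holFn_zero (w : ℂ) : holFn (0 : Hol) w = 0 := rfl
theorem holFn_algebraMap (c : ℂ) (w : ℂ) : holFn (algebraMap ℂ Hol c) w = c := rfl

/-- a chosen numerator -/
noncomputable def merNum (x : Mer) : Hol := (Mer.exists_div x).choose

/-- a chosen denominator -/
noncomputable def merDen (x : Mer) : Hol := (Mer.exists_div x).choose_spec.choose

theorem merDen_ne_zero (x : Mer) : merDen x ≠ 0 := (Mer.exists_div x).choose_spec.choose_spec.1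

theorem mer_eq (x : Mer) : x = algebraMap Hol Mer (merNum x) / algebraMap Hol Mer (merDen x) :=
  (Mer.exists_div x).choose_spec.choose_spec.2

/-- a function on `ℂ` representing `x : Mer` (well defined up to a discrete set in `ℍ`). -/
noncomputable def merFn (x : Mer) : ℂ → ℂ := fun w => holFn (merNum x) w / holFn (merDen x) w

theorem Mer.algebraMap_div_eq_div_iff {a b c d : Hol} (hb : b ≠ 0) (hd : d ≠ 0) :
    algebraMap Hol Mer a / algebraMap Hol Mer b = algebraMap Hol Mer c / algebraMap Hol Mer d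
      ↔ a * d = c * b := by
  rw [_root_.div_eq_div_iff (Mer.algebraMap_ne_zero hb) (Mer.algebraMap_ne_zero hd), ← map_mul,
    ← map_mul]
  exact Mer.algebraMap_injective.eq_iff

/-- the key congruence: any representation `x = a / b` computes `merFn x` near every point. -/
theorem merFn_eventuallyEq {x : Mer} {a b : Hol} (hb : b ≠ 0)
    (hx : x = algebraMap Hol Mer a / algebraMap Hol Mer b) {z : ℂ} (hz : 0 < z.im) :
    merFn x =ᶠ[𝓝[≠] z] fun w => holFn a w / holFn b w := by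
  have h1 : merNum x * b = a * merDen x := by
    rw [← Mer.algebraMap_div_eq_div_iff (merDen_ne_zero x) hb, ← mer_eq, hx]
  filter_upwards [holFn_eventually_ne hb hz, holFn_eventually_ne (merDen_ne_zero x) hz]
    with w hw1 hw2
  have h2 : holFn (merNum x) w * holFn b w = holFn a w * holFn (merDen x) w := by
    rw [← holFn_mul, ← holFn_mul, h1]
  simp only [merFn]
  rw [div_eq_div_iff hw2 hw1, h2]

theorem merFn_meromorphicAt (x : Mer) {z : ℂ} (hz : 0 < z.im) : MeromorphicAt (merFn x) z :=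
  (holFn_analyticAt (merNum x) hz).meromorphicAt.div (holFn_analyticAt (merDen x) hz).meromorphicAt

theorem merNum_ne_zero {x : Mer} (hx : x ≠ 0) : merNum x ≠ 0 := by
  intro h
  apply hx
  rw [mer_eq x, h, map_zero, zero_div]

theorem merFn_eventually_ne {x : Mer} (hx : x ≠ 0) {z : ℂ} (hz : 0 < z.im) :
    ∀ᶠ w in 𝓝[≠] z, merFn x w ≠ 0 := by
  filter_upwards [holFn_eventually_ne (merNum_ne_zero hx) hz,
    holFn_eventually_ne (merDen_ne_zero x) hz] with w hw1 hw2
  exact div_ne_zero hw1 hw2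

theorem merFn_order_ne_top {x : Mer} (hx : x ≠ 0) {z : ℂ} (hz : 0 < z.im) :
    meromorphicOrderAt (merFn x) z ≠ ⊤ :=
  (meromorphicOrderAt_ne_top_iff_eventually_ne_zero (merFn_meromorphicAt x hz)).2
    (merFn_eventually_ne hx hz)

theorem merFn_mul (x y : Mer) {z : ℂ} (hz : 0 < z.im) :
    merFn (x * y) =ᶠ[𝓝[≠] z] merFn x * merFn y := by
  have h : x * y = algebraMap Hol Mer (merNum x * merNum y)
      / algebraMap Hol Mer (merDen x * merDen y) := by
    rw [map_mul, map_mul, ← div_mul_div_comm, ← mer_eq, ← mer_eq]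
  refine (merFn_eventuallyEq (mul_ne_zero (merDen_ne_zero x) (merDen_ne_zero y)) h hz).trans ?_
  refine Eventually.of_forall fun w => ?_
  simp only [merFn, Pi.mul_apply, holFn_mul]
  rw [div_mul_div_comm]

theorem merFn_add (x y : Mer) {z : ℂ} (hz : 0 < z.im) :
    merFn (x + y) =ᶠ[𝓝[≠] z] merFn x + merFn y := by
  have h : x + y = algebraMap Hol Mer (merNum x * merDen y + merNum y * merDen x)
      / algebraMap Hol Mer (merDen x * merDen y) := by
    have hx := Mer.algebraMap_ne_zero (merDen_ne_zero x)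
    have hy := Mer.algebraMap_ne_zero (merDen_ne_zero y)
    conv_lhs => rw [mer_eq x, mer_eq y]
    rw [map_add, map_mul, map_mul, map_mul, div_add_div _ _ hx hy]
    ring
  refine (merFn_eventuallyEq (mul_ne_zero (merDen_ne_zero x) (merDen_ne_zero y)) h hz).trans ?_
  filter_upwards [holFn_eventually_ne (merDen_ne_zero x) hz,
    holFn_eventually_ne (merDen_ne_zero y) hz] with w hw1 hw2
  simp only [merFn, Pi.add_apply, holFn_mul, holFn_add]
  rw [div_add_div _ _ hw1 hw2]
  ring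

theorem merFn_algebraMap (f : Hol) {z : ℂ} (hz : 0 < z.im) :
    merFn (algebraMap Hol Mer f) =ᶠ[𝓝[≠] z] holFn f := by
  have h : algebraMap Hol Mer f = algebraMap Hol Mer f / algebraMap Hol Mer 1 := by
    rw [map_one, div_one]
  refine (merFn_eventuallyEq one_ne_zero h hz).trans ?_
  refine Eventually.of_forall fun w => ?_
  simp only [holFn_one, div_one]

theorem merFn_const (c : ℂ) {z : ℂ} (hz : 0 < z.im) :
    merFn (algebraMap ℂ Mer c) =ᶠ[𝓝[≠] z] fun _ => c := by
  rw [IsScalarTower.algebraMap_apply ℂ Hol Mer]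
  exact merFn_algebraMap _ hz

theorem merFn_zero {z : ℂ} (hz : 0 < z.im) : merFn (0 : Mer) =ᶠ[𝓝[≠] z] fun _ => (0 : ℂ) := by
  have h := merFn_const 0 hz
  rwa [map_zero] at h

/-! ### the order at `τ` -/

/-- the order of vanishing at `τ` (negative at poles; `0` at `0 : Mer`). -/
noncomputable def wAt (τ : ℍ) (x : Mer) : ℤ := (meromorphicOrderAt (merFn x) (τ : ℂ)).untop₀

theorem wAt_coe (τ : ℍ) {x : Mer} (hx : x ≠ 0) :
    ((wAt τ x : ℤ) : WithTop ℤ) = meromorphicOrderAt (merFn x) (τ : ℂ) :=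
  WithTop.coe_untop₀_of_ne_top (merFn_order_ne_top hx τ.im_pos)

theorem wAt_eq_iff (τ : ℍ) {x : Mer} (hx : x ≠ 0) (n : ℤ) :
    wAt τ x = n ↔ meromorphicOrderAt (merFn x) (τ : ℂ) = n := by
  rw [← wAt_coe τ hx]
  exact WithTop.coe_inj.symm

theorem wAt_mul (τ : ℍ) {x y : Mer} (hx : x ≠ 0) (hy : y ≠ 0) :
    wAt τ (x * y) = wAt τ x + wAt τ y := by
  rw [wAt_eq_iff τ (mul_ne_zero hx hy), meromorphicOrderAt_congr (merFn_mul x y τ.im_pos),
    meromorphicOrderAt_mul (merFn_meromorphicAt x τ.im_pos) (merFn_meromorphicAt y τ.im_pos),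
    ← wAt_coe τ hx, ← wAt_coe τ hy]
  rfl

theorem wAt_add (τ : ℍ) {x y : Mer} (hx : x ≠ 0) (hy : y ≠ 0) (hxy : x + y ≠ 0) :
    min (wAt τ x) (wAt τ y) ≤ wAt τ (x + y) := by
  have h := meromorphicOrderAt_add (merFn_meromorphicAt x τ.im_pos)
    (merFn_meromorphicAt y τ.im_pos)
  rw [← meromorphicOrderAt_congr (merFn_add x y τ.im_pos), ← wAt_coe τ hx, ← wAt_coe τ hy,
    ← wAt_coe τ hxy] at h
  exact_mod_cast h

theorem isIntVal_wAt (τ : ℍ) : IsIntVal (wAt τ) where
  map_mul := fun _ _ ha hb => wAt_mul τ ha hb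
  map_add := fun _ _ ha hb hab => wAt_add τ ha hb hab

/-- the order of a holomorphic function is its analytic order. -/
theorem wAt_algebraMap (τ : ℍ) (f : Hol) :
    ((wAt τ (algebraMap Hol Mer f) : ℤ) : WithTop ℤ)
      = ((analyticOrderAt (fun w : ℂ => (f : ℍ → ℂ) (ofComplex w)) (τ : ℂ)).map (↑) : WithTop ℤ)
      ∨ f = 0 := by
  by_cases hf : f = 0
  · exact Or.inr hf
  · left
    rw [wAt_coe τ (Mer.algebraMap_ne_zero hf), meromorphicOrderAt_congr (merFn_algebraMap f τ.im_pos),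
      (holFn_analyticAt f τ.im_pos).meromorphicOrderAt_eq]
    rfl

/-- the form used with `jAn_order_*`: analytic order `n` gives `wAt = n`. -/
theorem wAt_algebraMap_of_order (τ : ℍ) (f : Hol) (n : ℕ)
    (h : analyticOrderAt (fun w : ℂ => (f : ℍ → ℂ) (ofComplex w)) (τ : ℂ) = n) :
    wAt τ (algebraMap Hol Mer f) = n := by
  have hf : f ≠ 0 := by
    rintro rfl
    have h0 : analyticOrderAt (fun w : ℂ => ((0 : Hol) : ℍ → ℂ) (ofComplex w)) (τ : ℂ) = ⊤ := by
      rw [analyticOrderAt_eq_top]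
      exact Eventually.of_forall fun _ => rfl
    rw [h0] at h
    exact ENat.top_ne_natCast n h
  rw [wAt_eq_iff τ (Mer.algebraMap_ne_zero hf), meromorphicOrderAt_congr (merFn_algebraMap f τ.im_pos),
    (holFn_analyticAt f τ.im_pos).meromorphicOrderAt_eq]
  have h' : analyticOrderAt (holFn f) (τ : ℂ) = n := h
  rw [h']
  rfl

theorem wAt_const (τ : ℍ) {c : ℂ} (hc : c ≠ 0) : wAt τ (algebraMap ℂ Mer c) = 0 := by
  have h := wAt_algebraMap_of_order τ (algebraMap ℂ Hol c) 0 (by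
    have h1 : AnalyticAt ℂ (fun _ : ℂ => c) (τ : ℂ) := analyticAt_const
    have h2 := h1.analyticOrderAt_eq_zero.2 hc
    simpa using h2)
  rw [IsScalarTower.algebraMap_apply ℂ Hol Mer]
  simpa using h

/-! ### the leading coefficient at `τ` -/

/-- the leading (trailing) Laurent coefficient at `τ`. -/
noncomputable def lcAt (τ : ℍ) (x : Mer) : ℂ := meromorphicTrailingCoeffAt (merFn x) (τ : ℂ)

theorem lcAt_mul (τ : ℍ) (x y : Mer) : lcAt τ (x * y) = lcAt τ x * lcAt τ y := by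
  unfold lcAt
  rw [meromorphicTrailingCoeffAt_congr_nhdsNE (merFn_mul x y τ.im_pos),
    (merFn_meromorphicAt x τ.im_pos).meromorphicTrailingCoeffAt_mul
      (merFn_meromorphicAt y τ.im_pos)]

theorem lcAt_ne_zero (τ : ℍ) {x : Mer} (hx : x ≠ 0) : lcAt τ x ≠ 0 :=
  (merFn_meromorphicAt x τ.im_pos).meromorphicTrailingCoeffAt_ne_zero
    (merFn_order_ne_top hx τ.im_pos)

/-! ### the derivation `d/dτ` -/

/-- `d/dτ` on `Hol`. -/
noncomputable def holDeriv (f : Hol) : Hol :=
  ⟨fun z => deriv (holFn f) (z : ℂ), by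
    rw [mem_Hol, UpperHalfPlane.mdifferentiable_iff]
    refine ((holFn_differentiableOn f).deriv isOpen_upperHalfPlaneSet).congr fun z hz => ?_
    simp only [Function.comp_apply, ofComplex_apply_of_im_pos hz, UpperHalfPlane.coe_mk]⟩

theorem holFn_holDeriv (f : Hol) {z : ℂ} (hz : 0 < z.im) :
    holFn (holDeriv f) z = deriv (holFn f) z := by
  simp only [holFn, holDeriv, ofComplex_apply_of_im_pos hz]

theorem holFn_differentiableAt (f : Hol) {z : ℂ} (hz : 0 < z.im) :
    DifferentiableAt ℂ (holFn f) z :=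
  (holFn_analyticAt f hz).differentiableAt

theorem holDeriv_add (f g : Hol) : holDeriv (f + g) = holDeriv f + holDeriv g := by
  refine Hol.ext fun z => ?_
  show deriv (holFn (f + g)) (z : ℂ) = deriv (holFn f) (z : ℂ) + deriv (holFn g) (z : ℂ)
  have h : holFn (f + g) = holFn f + holFn g := rfl
  rw [h, deriv_add (holFn_differentiableAt f z.im_pos) (holFn_differentiableAt g z.im_pos)]

theorem holDeriv_mul (f g : Hol) : holDeriv (f * g) = holDeriv f * g + f * holDeriv g := by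
  refine Hol.ext fun z => ?_
  show deriv (holFn (f * g)) (z : ℂ)
    = deriv (holFn f) (z : ℂ) * (g : ℍ → ℂ) z + (f : ℍ → ℂ) z * deriv (holFn g) (z : ℂ)
  have h : holFn (f * g) = holFn f * holFn g := rfl
  rw [h, deriv_mul (holFn_differentiableAt f z.im_pos) (holFn_differentiableAt g z.im_pos),
    holFn_coe, holFn_coe]

theorem holDeriv_algebraMap (c : ℂ) : holDeriv (algebraMap ℂ Hol c) = 0 := by
  refine Hol.ext fun z => ?_
  show deriv (holFn (algebraMap ℂ Hol c)) (z : ℂ) = 0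
  have h : holFn (algebraMap ℂ Hol c) = fun _ => c := rfl
  rw [h, deriv_const]

theorem holDeriv_one : holDeriv 1 = 0 := by
  have h := holDeriv_algebraMap 1
  rwa [map_one] at h

/-- `d/dτ` on `Mer` (quotient rule on a chosen representative). -/
noncomputable def merDeriv (x : Mer) : Mer :=
  algebraMap Hol Mer (holDeriv (merNum x) * merDen x - merNum x * holDeriv (merDen x))
    / algebraMap Hol Mer (merDen x ^ 2)

/-- the quotient rule, for any representative. -/
theorem merDeriv_div (a b : Hol) (hb : b ≠ 0) :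
    merDeriv (algebraMap Hol Mer a / algebraMap Hol Mer b)
      = algebraMap Hol Mer (holDeriv a * b - a * holDeriv b) / algebraMap Hol Mer (b ^ 2) := by
  set x : Mer := algebraMap Hol Mer a / algebraMap Hol Mer b with hx
  have hd := merDen_ne_zero x
  have R1 : merNum x * b = a * merDen x := by
    rw [← Mer.algebraMap_div_eq_div_iff hd hb, ← mer_eq]
  have R2 : holDeriv (merNum x) * b + merNum x * holDeriv b
      = holDeriv a * merDen x + a * holDeriv (merDen x) := by
    rw [← holDeriv_mul, ← holDeriv_mul, R1]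
  unfold merDeriv
  rw [Mer.algebraMap_div_eq_div_iff (pow_ne_zero 2 hd) (pow_ne_zero 2 hb)]
  linear_combination (b * merDen x) * R2 - (holDeriv b * merDen x + b * holDeriv (merDen x)) * R1

theorem merDeriv_algebraMap (f : Hol) :
    merDeriv (algebraMap Hol Mer f) = algebraMap Hol Mer (holDeriv f) := by
  have h : algebraMap Hol Mer f = algebraMap Hol Mer f / algebraMap Hol Mer 1 := by
    rw [map_one, div_one]
  rw [h, merDeriv_div f 1 one_ne_zero, holDeriv_one]
  simp

theorem merDeriv_const (c : ℂ) : merDeriv (algebraMap ℂ Mer c) = 0 := by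
  rw [IsScalarTower.algebraMap_apply ℂ Hol Mer, merDeriv_algebraMap, holDeriv_algebraMap, map_zero]

theorem merDeriv_add (x y : Mer) : merDeriv (x + y) = merDeriv x + merDeriv y := by
  obtain ⟨a, b, hb, rfl⟩ := Mer.exists_div x
  obtain ⟨c, d, hd, rfl⟩ := Mer.exists_div y
  have hb' := Mer.algebraMap_ne_zero hb
  have hd' := Mer.algebraMap_ne_zero hd
  have h : algebraMap Hol Mer a / algebraMap Hol Mer b + algebraMap Hol Mer c / algebraMap Hol Mer d
      = algebraMap Hol Mer (a * d + c * b) / algebraMap Hol Mer (b * d) := by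
    rw [map_add, map_mul, map_mul, map_mul, div_add_div _ _ hb' hd']
    ring
  rw [h, merDeriv_div _ _ (mul_ne_zero hb hd), merDeriv_div _ _ hb, merDeriv_div _ _ hd]
  simp only [holDeriv_add, holDeriv_mul, map_add, map_mul, map_sub, map_pow]
  field_simp
  ring

theorem merDeriv_mul (x y : Mer) : merDeriv (x * y) = merDeriv x * y + x * merDeriv y := by
  obtain ⟨a, b, hb, rfl⟩ := Mer.exists_div x
  obtain ⟨c, d, hd, rfl⟩ := Mer.exists_div y
  have hb' := Mer.algebraMap_ne_zero hb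
  have hd' := Mer.algebraMap_ne_zero hd
  have h : algebraMap Hol Mer a / algebraMap Hol Mer b * (algebraMap Hol Mer c / algebraMap Hol Mer d)
      = algebraMap Hol Mer (a * c) / algebraMap Hol Mer (b * d) := by
    rw [map_mul, map_mul, div_mul_div_comm]
  rw [h, merDeriv_div _ _ (mul_ne_zero hb hd), merDeriv_div _ _ hb, merDeriv_div _ _ hd]
  simp only [holDeriv_mul, map_add, map_mul, map_sub, map_pow]
  field_simp
  ring

theorem merFn_merDeriv (x : Mer) {z : ℂ} (hz : 0 < z.im) :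
    merFn (merDeriv x) =ᶠ[𝓝[≠] z] deriv (merFn x) := by
  have h1 := merFn_eventuallyEq (x := merDeriv x) (pow_ne_zero 2 (merDen_ne_zero x)) rfl hz
  refine h1.trans ?_
  have h2 : ∀ᶠ w in 𝓝[≠] z, 0 < w.im :=
    Filter.Eventually.filter_mono nhdsWithin_le_nhds (isOpen_upperHalfPlaneSet.mem_nhds hz)
  filter_upwards [holFn_eventually_ne (merDen_ne_zero x) hz, h2] with w hw1 hw2
  have h3 : merFn x = holFn (merNum x) / holFn (merDen x) := rfl
  rw [h3, deriv_div (holFn_differentiableAt _ hw2) (holFn_differentiableAt _ hw2) hw1]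
  simp only [holFn_sub, holFn_mul, pow_two, holFn_holDeriv _ hw2]

theorem wAt_merDeriv (τ : ℍ) {x : Mer} (hx : x ≠ 0) (hw : wAt τ x ≠ 0) :
    merDeriv x ≠ 0 ∧ wAt τ (merDeriv x) = wAt τ x - 1 := by
  have h1 : meromorphicOrderAt (merFn x) (τ : ℂ) = ((wAt τ x : ℤ) : WithTop ℤ) :=
    (wAt_coe τ hx).symm
  have h2 := meromorphicOrderAt_deriv_eq_sub_one (Int.cast_ne_zero.mpr hw) h1
  rw [← meromorphicOrderAt_congr (merFn_merDeriv x τ.im_pos)] at h2
  have h3 : merDeriv x ≠ 0 := by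
    intro h0
    rw [h0, meromorphicOrderAt_congr (merFn_zero τ.im_pos)] at h2
    have h4 : meromorphicOrderAt (fun _ : ℂ => (0 : ℂ)) (τ : ℂ) = ⊤ :=
      meromorphicOrderAt_eq_top_iff.2 (Eventually.of_forall fun _ => rfl)
    rw [h4] at h2
    exact WithTop.top_ne_coe h2
  exact ⟨h3, (wAt_eq_iff τ h3 _).2 h2⟩

/-! ### precomposition with `γ ∈ SL(2, ℤ)` -/

/-- the Möbius map of `γ`, as a function on `ℂ`. -/
noncomputable def moebFn (γ : SL(2, ℤ)) : ℂ → ℂ :=
  fun w => ((mapGL ℝ γ • ofComplex w : ℍ) : ℂ)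

theorem moebFn_coe (γ : SL(2, ℤ)) (τ : ℍ) : moebFn γ (τ : ℂ) = ((γ • τ : ℍ) : ℂ) := by
  simp only [moebFn, ofComplex_apply]
  rfl

theorem moebFn_analyticAt (γ : SL(2, ℤ)) (τ : ℍ) : AnalyticAt ℂ (moebFn γ) (τ : ℂ) :=
  τ.analyticAt_smul (det_mapGL_val_pos γ)

theorem moebFn_deriv (γ : SL(2, ℤ)) (τ : ℍ) :
    deriv (moebFn γ) (τ : ℂ) = 1 / denom (mapGL ℝ γ) τ ^ 2 := by
  have h := τ.deriv_smul (det_mapGL_val_pos γ)
  rw [det_mapGL_val_eq] at h
  unfold moebFn
  rw [h]
  simp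

theorem moebFn_deriv_ne_zero (γ : SL(2, ℤ)) (τ : ℍ) : deriv (moebFn γ) (τ : ℂ) ≠ 0 :=
  τ.deriv_smul_ne_zero (det_mapGL_val_pos γ)

theorem merFn_merComp (γ : SL(2, ℤ)) (x : Mer) {z : ℂ} (hz : 0 < z.im) :
    merFn (merComp γ x) =ᶠ[𝓝[≠] z] merFn x ∘ moebFn γ := by
  have hd : holComp γ (merDen x) ≠ 0 := fun h =>
    merDen_ne_zero x (holComp_injective γ (by rw [h, map_zero]))
  have h : merComp γ x = algebraMap Hol Mer (holComp γ (merNum x))
      / algebraMap Hol Mer (holComp γ (merDen x)) := by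
    conv_lhs => rw [mer_eq x]
    rw [merComp_div]
  refine (merFn_eventuallyEq hd h hz).trans (Eventually.of_forall fun w => ?_)
  simp only [merFn, Function.comp_apply, holFn, moebFn, holComp_apply, ofComplex_apply]
  rfl

theorem wAt_merComp (γ : SL(2, ℤ)) (τ : ℍ) (x : Mer) :
    wAt τ (merComp γ x) = wAt (γ • τ) x := by
  unfold wAt
  rw [meromorphicOrderAt_congr (merFn_merComp γ x τ.im_pos),
    meromorphicOrderAt_comp_of_deriv_ne_zero (moebFn_analyticAt γ τ) (moebFn_deriv_ne_zero γ τ),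
    moebFn_coe]

/-- the trailing coefficient of `g - g x` at a point where `g' ≠ 0` is `g' x`. -/
theorem localPt_trailingCoeff_sub {g : ℂ → ℂ} {x : ℂ} (hg : AnalyticAt ℂ g x)
    (hg' : deriv g x ≠ 0) : meromorphicTrailingCoeffAt (fun z => g z - g x) x = deriv g x := by
  obtain ⟨p, hp⟩ := hg
  have h1 : AnalyticAt ℂ (dslope g x) x := ⟨_, hp.has_fpower_series_dslope_fslope⟩
  have h2 : dslope g x x = deriv g x := dslope_same g x
  rw [← h2]
  refine h1.meromorphicTrailingCoeffAt_of_ne_zero_of_eq_nhdsNE (n := 1) (by rwa [h2]) ?_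
  filter_upwards [self_mem_nhdsWithin] with z hz
  rw [zpow_one, dslope_of_ne _ hz, slope_def_field, smul_eq_mul,
    mul_div_cancel₀ _ (sub_ne_zero.mpr hz)]

theorem lcAt_merComp (γ : SL(2, ℤ)) (τ : ℍ) (x : Mer) :
    lcAt τ (merComp γ x)
      = (1 / denom (mapGL ℝ γ) τ ^ 2) ^ (wAt (γ • τ) x) * lcAt (γ • τ) x := by
  unfold lcAt
  have hnc : ¬ EventuallyConst (moebFn γ) (𝓝 (τ : ℂ)) := by
    intro h
    apply moebFn_deriv_ne_zero γ τ
    obtain ⟨c, hc⟩ := eventuallyConst_iff_exists_eventuallyEq.1 h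
    rw [hc.deriv_eq, deriv_const]
  have hmer : MeromorphicAt (merFn x) (moebFn γ (τ : ℂ)) := by
    rw [moebFn_coe]
    exact merFn_meromorphicAt x (γ • τ).im_pos
  rw [meromorphicTrailingCoeffAt_congr_nhdsNE (merFn_merComp γ x τ.im_pos),
    hmer.meromorphicTrailingCoeffAt_comp (moebFn_analyticAt γ τ) hnc,
    localPt_trailingCoeff_sub (moebFn_analyticAt γ τ) (moebFn_deriv_ne_zero γ τ),
    moebFn_deriv, moebFn_coe, smul_eq_mul]
  rfl


/-! ### fixed points -/

theorem wAt_merComp_of_fixed {γ : SL(2, ℤ)} {τ : ℍ} (h : γ • τ = τ) (x : Mer) :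
    wAt τ (merComp γ x) = wAt τ x := by
  rw [wAt_merComp, h]

theorem lcAt_merComp_of_fixed {γ : SL(2, ℤ)} {τ : ℍ} (h : γ • τ = τ) (x : Mer) :
    lcAt τ (merComp γ x) = (1 / denom (mapGL ℝ γ) τ ^ 2) ^ (wAt τ x) * lcAt τ x := by
  have h1 := lcAt_merComp γ τ x
  rwa [h] at h1

theorem wAt_merComp_inv_of_fixed {γ : SL(2, ℤ)} {τ : ℍ} (h : γ • τ = τ) (x : Mer) :
    wAt τ (merComp γ⁻¹ x) = wAt τ x := by
  have h1 : γ⁻¹ • τ = τ := by
    conv_lhs => rw [← h]
    rw [inv_smul_smul]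
  rw [wAt_merComp, h1]

theorem localPt_merComp_merComp_inv (γ : SL(2, ℤ)) (x : Mer) : merComp γ (merComp γ⁻¹ x) = x := by
  rw [← merComp_mul, inv_mul_cancel, merComp_one]

theorem lcAt_merComp_inv_of_fixed {γ : SL(2, ℤ)} {τ : ℍ} (h : γ • τ = τ) (x : Mer) :
    lcAt τ (merComp γ⁻¹ x) = ((1 / denom (mapGL ℝ γ) τ ^ 2)⁻¹) ^ (wAt τ x) * lcAt τ x := by
  have h1 := lcAt_merComp_of_fixed h (merComp γ⁻¹ x)
  rw [localPt_merComp_merComp_inv, wAt_merComp_inv_of_fixed h] at h1
  have hne : (1 / denom (mapGL ℝ γ) τ ^ 2 : ℂ) ≠ 0 :=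
    one_div_ne_zero (pow_ne_zero 2 (denom_ne_zero _ _))
  rw [h1, inv_zpow, ← mul_assoc, inv_mul_cancel₀ (zpow_ne_zero _ hne), one_mul]

end Fermat.Agent.S24Lib
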