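import Fermat.Agent.Lib.S24.LocalPt
import Fermat.Agent.Lib.S20.Elliptic

/-!
# S24 chunk B4 : the local monodromy data at the elliptic points `i` and `ρ`

`α = merComp S` at `i` (multiplier `-1`, exact order `2`) and `α = merComp (S T)` at
`ρ = ellipticRho` (multiplier `zetaRho`, exact order `3`), in the shape of the hypotheses
`hwα`, `hζ`, `hlcα` of `localCount`; also the versions for `S⁻¹`, `(S T)⁻¹`.
-/

set_option autoImplicit false

namespace Fermat.Agent.S24Lib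

open UpperHalfPlane MatrixGroups Filter Matrix.SpecialLinearGroup
open scoped Manifold Topology
open Fermat.Agent.S20Lib

theorem localPt_zeta_I : 1 / denom ModularGroup.S (UpperHalfPlane.I : ℍ) ^ 2 = (-1 : ℂ) := by
  rw [elliptic_denom_S_I, Complex.I_sq]
  norm_num

theorem localPt_zeta_I_dvd (k : ℤ) (h : (-1 : ℂ) ^ k = 1) : ((2 : ℕ) : ℤ) ∣ k := by
  rcases Int.even_or_odd k with hk | hk
  · exact_mod_cast hk.two_dvd
  · exfalso
    rw [hk.neg_one_zpow] at h
    norm_num at h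

/-- a primitive cube root of unity has `ζ ^ k = 1` only for `3 ∣ k`. -/
theorem localPt_dvd_of_cube_root {ζ : ℂ} (h3 : ζ ^ 3 = 1) (h1 : ζ ≠ 1) (k : ℤ) (h : ζ ^ k = 1) :
    ((3 : ℕ) : ℤ) ∣ k := by
  have hζ0 : ζ ≠ 0 := by
    rintro rfl
    norm_num at h3
  have hk : k = 3 * (k / 3) + k % 3 := (Int.mul_ediv_add_emod k 3).symm
  have h3' : ζ ^ (3 : ℤ) = 1 := by exact_mod_cast h3
  have hr : ζ ^ (k % 3) = 1 := by
    rw [hk, zpow_add₀ hζ0, zpow_mul, h3', one_zpow, one_mul] at h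
    exact h
  have hr0 : 0 ≤ k % 3 := Int.emod_nonneg k (by norm_num)
  have hr3 : k % 3 < 3 := Int.emod_lt_of_pos k (by norm_num)
  have hcases : k % 3 = 0 ∨ k % 3 = 1 ∨ k % 3 = 2 := by omega
  rcases hcases with h0 | h0 | h0
  · exact_mod_cast Int.dvd_of_emod_eq_zero h0
  · exfalso
    rw [h0, zpow_one] at hr
    exact h1 hr
  · exfalso
    rw [h0] at hr
    have hr' : ζ ^ 2 = 1 := by exact_mod_cast hr
    apply h1
    have : ζ ^ 3 = ζ := by rw [pow_succ, hr', one_mul]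
    rw [← this, h3]

theorem localPt_zeta_rho_cube : (1 / denom (ModularGroup.S * ModularGroup.T : SL(2, ℤ)) ellipticRho ^ 2 : ℂ) ^ 3 = 1 := by
  rw [elliptic_denom_ST_rho]
  have hη := elliptic_eta_sq
  have hne : Complex.exp (Real.pi * Complex.I / 3) ≠ 0 := Complex.exp_ne_zero _
  set η := Complex.exp (Real.pi * Complex.I / 3)
  have h6 : η ^ 6 = 1 := by
    have h3 : η ^ 3 = -1 := by linear_combination (η + 1) * hη
    calc η ^ 6 = (η ^ 3) ^ 2 := by ring
      _ = 1 := by rw [h3]; norm_num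
  rw [one_div, inv_pow, ← pow_mul]
  norm_num [h6]

theorem localPt_zeta_rho_ne_one : (1 / denom (ModularGroup.S * ModularGroup.T : SL(2, ℤ)) ellipticRho ^ 2 : ℂ) ≠ 1 := by
  rw [elliptic_denom_ST_rho]
  have hη := elliptic_eta_sq
  have hne : Complex.exp (Real.pi * Complex.I / 3) ≠ 0 := Complex.exp_ne_zero _
  set η := Complex.exp (Real.pi * Complex.I / 3)
  intro h
  have h2 : η ^ 2 = 1 := by
    field_simp at h
    exact h.symm
  have h3 : η = 2 := by linear_combination -hη + h2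
  rw [h3] at hη
  norm_num at hη

theorem localPt_zeta_rho_dvd (k : ℤ)
    (h : (1 / denom (ModularGroup.S * ModularGroup.T : SL(2, ℤ)) ellipticRho ^ 2 : ℂ) ^ k = 1) :
    ((3 : ℕ) : ℤ) ∣ k :=
  localPt_dvd_of_cube_root localPt_zeta_rho_cube localPt_zeta_rho_ne_one k h


/-- the multiplier of `S T` at `ρ` (a primitive cube root of unity). -/
noncomputable def zetaRho : ℂ :=
  1 / denom (ModularGroup.S * ModularGroup.T : SL(2, ℤ)) ellipticRho ^ 2

theorem zetaRho_dvd : ∀ k : ℤ, zetaRho ^ k = 1 → ((3 : ℕ) : ℤ) ∣ k := localPt_zeta_rho_dvd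

theorem zetaRho_inv_dvd : ∀ k : ℤ, zetaRho⁻¹ ^ k = 1 → ((3 : ℕ) : ℤ) ∣ k := by
  intro k h
  rw [inv_zpow, inv_eq_one] at h
  exact zetaRho_dvd k h

theorem localPt_neg_one_inv_dvd : ∀ k : ℤ, (-1 : ℂ)⁻¹ ^ k = 1 → ((2 : ℕ) : ℤ) ∣ k := by
  intro k h
  rw [inv_zpow, inv_eq_one] at h
  exact localPt_zeta_I_dvd k h

/-! ### the point `i`, `α = merComp S` -/

theorem localPt_I_w : ∀ a : Mer, a ≠ 0 →
    wAt UpperHalfPlane.I (merComp ModularGroup.S a) = wAt UpperHalfPlane.I a :=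
  fun a _ => wAt_merComp_of_fixed elliptic_S_smul_I a

theorem localPt_I_lc : ∀ a : Mer, a ≠ 0 →
    lcAt UpperHalfPlane.I (merComp ModularGroup.S a)
      = (-1 : ℂ) ^ (wAt UpperHalfPlane.I a) * lcAt UpperHalfPlane.I a := by
  intro a _
  have h := lcAt_merComp_of_fixed elliptic_S_smul_I a
  rw [h]
  congr 2
  exact localPt_zeta_I

theorem localPt_I_inv_w : ∀ a : Mer, a ≠ 0 →
    wAt UpperHalfPlane.I (merComp ModularGroup.S⁻¹ a) = wAt UpperHalfPlane.I a :=
  fun a _ => wAt_merComp_inv_of_fixed elliptic_S_smul_I a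

theorem localPt_I_inv_lc : ∀ a : Mer, a ≠ 0 →
    lcAt UpperHalfPlane.I (merComp ModularGroup.S⁻¹ a)
      = (-1 : ℂ)⁻¹ ^ (wAt UpperHalfPlane.I a) * lcAt UpperHalfPlane.I a := by
  intro a _
  have h := lcAt_merComp_inv_of_fixed elliptic_S_smul_I a
  rw [h]
  congr 3
  exact localPt_zeta_I

/-! ### the point `ρ`, `α = merComp (S T)` -/

theorem localPt_rho_w : ∀ a : Mer, a ≠ 0 →
    wAt ellipticRho (merComp (ModularGroup.S * ModularGroup.T) a) = wAt ellipticRho a :=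
  fun a _ => wAt_merComp_of_fixed elliptic_ST_smul_rho a

theorem localPt_rho_lc : ∀ a : Mer, a ≠ 0 →
    lcAt ellipticRho (merComp (ModularGroup.S * ModularGroup.T) a)
      = zetaRho ^ (wAt ellipticRho a) * lcAt ellipticRho a :=
  fun a _ => lcAt_merComp_of_fixed elliptic_ST_smul_rho a

theorem localPt_rho_inv_w : ∀ a : Mer, a ≠ 0 →
    wAt ellipticRho (merComp (ModularGroup.S * ModularGroup.T)⁻¹ a) = wAt ellipticRho a :=
  fun a _ => wAt_merComp_inv_of_fixed elliptic_ST_smul_rho a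

theorem localPt_rho_inv_lc : ∀ a : Mer, a ≠ 0 →
    lcAt ellipticRho (merComp (ModularGroup.S * ModularGroup.T)⁻¹ a)
      = zetaRho⁻¹ ^ (wAt ellipticRho a) * lcAt ellipticRho a :=
  fun a _ => lcAt_merComp_inv_of_fixed elliptic_ST_smul_rho a

/-! ### the hypotheses of `localCount` that do not depend on the point -/

theorem localPt_lc_mul (τ : ℍ) : ∀ a b : Mer, lcAt τ (a * b) = lcAt τ a * lcAt τ b :=
  lcAt_mul τ

theorem localPt_lc_ne (τ : ℍ) : ∀ a : Mer, a ≠ 0 → lcAt τ a ≠ 0 := fun _ ha => lcAt_ne_zero τ ha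

theorem localPt_deriv_add : ∀ a b : Mer, merDeriv (a + b) = merDeriv a + merDeriv b :=
  merDeriv_add

theorem localPt_deriv_mul : ∀ a b : Mer, merDeriv (a * b) = merDeriv a * b + a * merDeriv b :=
  merDeriv_mul

theorem localPt_deriv_w (τ : ℍ) : ∀ a : Mer, a ≠ 0 → wAt τ a ≠ 0 →
    merDeriv a ≠ 0 ∧ wAt τ (merDeriv a) = wAt τ a - 1 :=
  fun _ ha hw => wAt_merDeriv τ ha hw

end Fermat.Agent.S24Lib
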