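import Mathlib
import Fermat.Agent.Lib.S24.PlacesDict

/-!
# S24, chunk A2 (sub-lemma): the norm is the product over a full family of embeddings

If `σ : I → F →+* E` is an injective family of `[F : K(y)]` ring homomorphisms into a field `E`
which all agree on `y` and on `K`, then for every `h : F` the image of the norm
`N_{F/K(y)}(h)` under (any) `σ i₀` is `∏ i, σ i h`.
-/

set_option autoImplicit false

namespace Fermat.Agent.S24Lib

open IntermediateField

variable {K F : Type*} [Field K] [Field F] [Algebra K F]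

/-- ring homomorphisms which agree on `K` and on `y` agree on `K(y)` -/
theorem sigma_eq_on_adjoin (y : F) {E : Type*} [Field E] (σ τ : F →+* E)
    (hy : σ y = τ y) (hK : ∀ c : K, σ (algebraMap K F c) = τ (algebraMap K F c))
    (a : K⟮y⟯) : σ (algebraMap K⟮y⟯ F a) = τ (algebraMap K⟮y⟯ F a) := by
  let M : IntermediateField K F :=
    { (RingHom.eqLocusField σ τ) with
      algebraMap_mem' := fun c => hK c }
  have hle : K⟮y⟯ ≤ M := by
    rw [adjoin_simple_le_iff]
    exact hy
  exact hle a.2

/-- **The norm as a product over a full family of embeddings.** -/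
theorem norm_eq_prod_sigma [CharZero K] (y : F) [Module.Finite K⟮y⟯ F]
    {E : Type*} [Field E] {I : Type*} [Fintype I]
    (σ : I → F →+* E) (hσ : Function.Injective σ)
    (hσy : ∀ i j, σ i y = σ j y)
    (hσK : ∀ i j (c : K), σ i (algebraMap K F c) = σ j (algebraMap K F c))
    (hcard : Fintype.card I = Module.finrank K⟮y⟯ F) (i₀ : I) (h : F) :
    σ i₀ (algebraMap K⟮y⟯ F (Algebra.norm K⟮y⟯ h)) = ∏ i, σ i h := by
  classical
  haveI := isSeparable_adjoin_simple (K := K) y
  let ι : E →+* AlgebraicClosure E := algebraMap E (AlgebraicClosure E)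
  letI : Algebra K⟮y⟯ (AlgebraicClosure E) :=
    ((ι.comp (σ i₀)).comp (algebraMap K⟮y⟯ F)).toAlgebra
  have hagree : ∀ i (a : K⟮y⟯), σ i (algebraMap K⟮y⟯ F a) = σ i₀ (algebraMap K⟮y⟯ F a) :=
    fun i a => sigma_eq_on_adjoin y (σ i) (σ i₀) (hσy i i₀) (hσK i i₀) a
  -- the algebra homomorphisms attached to the `σ i`
  let τ : I → (F →ₐ[K⟮y⟯] AlgebraicClosure E) := fun i =>
    { (ι.comp (σ i)) with
      commutes' := fun a => by
        show ι (σ i (algebraMap K⟮y⟯ F a)) = ι (σ i₀ (algebraMap K⟮y⟯ F a))
        rw [hagree i a] }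
  have hτ_apply : ∀ i (f : F), τ i f = ι (σ i f) := fun i f => rfl
  have hτinj : Function.Injective τ := by
    intro i j hij
    apply hσ
    ext f
    have := congrArg (fun g : F →ₐ[K⟮y⟯] AlgebraicClosure E => g f) hij
    simp only [hτ_apply] at this
    exact ι.injective this
  have hcard' : Fintype.card I = Fintype.card (F →ₐ[K⟮y⟯] AlgebraicClosure E) := by
    rw [hcard, AlgHom.card]
  have hτbij : Function.Bijective τ :=
    (Fintype.bijective_iff_injective_and_card τ).mpr ⟨hτinj, hcard'⟩
  have hnorm := Algebra.norm_eq_prod_embeddings K⟮y⟯ (AlgebraicClosure E) h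
  have hprod : ∏ g : F →ₐ[K⟮y⟯] AlgebraicClosure E, g h = ∏ i, τ i h :=
    (Fintype.prod_bijective τ hτbij (fun i => τ i h) (fun g => g h) (fun _ => rfl)).symm
  rw [hprod] at hnorm
  apply ι.injective
  rw [map_prod]
  exact hnorm

end Fermat.Agent.S24Lib
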