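import Mathlib
import Fermat.Prelude.Def_AlgebraicCurve_CanonicalDivisor
import Fermat.Agent.Lib.S24.Defs
import Fermat.Agent.Lib.S24.Places
import Fermat.Agent.Lib.S24.NormFormula
import Fermat.Agent.Lib.S24.Transport
import Fermat.Agent.Lib.S24.SumOrd
import Fermat.Agent.Lib.S24.RHAbstract

/-!
# S24, chunk A3: Riemann–Hurwitz for `F / K(x)` (binding interface of `S24_iface`)

* `degree_canonical` : the degree of the divisor of an arbitrary nonzero differential;
* `genus_eq_of_degree` : the Prelude's genus, unfolded.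
-/

set_option autoImplicit false

namespace Fermat.Agent.S24Lib

open AlgebraicCurve IntermediateField
open scoped KaehlerDifferential

variable {K F : Type*} [Field K] [IsAlgClosed K] [CharZero K] [Field F] [Algebra K F]

namespace RH

omit [IsAlgClosed K] in
/-- If `y` has the expected differential at its zero `v`, then `dt ≠ 0` for every uniformizer
`t` at `v` (otherwise replace `t` by `t + y²`). -/
theorem D_ne_zero_of_diffOrdAt {y : F} (hy : DiffOrdAt K y) {v : Place K F}
    (hv : v ∈ zeroPlaces K y) {t : F} (ht : v.ord t = 1) :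
    KaehlerDifferential.D K F t ≠ 0 := by
  intro hDt
  have hchar : CharZero F := charZero_of_injective_algebraMap (algebraMap K F).injective
  have he : 0 < v.ord y := hv
  have hy0 : y ≠ 0 := by rintro rfl; simp at he
  have ht0 : t ≠ 0 := by rintro rfl; simp at ht
  have hy2 : y ^ 2 ≠ 0 := pow_ne_zero 2 hy0
  have hordy2 : v.ord (y ^ 2) = 2 * v.ord y := by
    rw [pow_two, v.ord_mul hy0 hy0]; ring
  have hneg : v.ord (-(y ^ 2)) = v.ord (y ^ 2) := by
    simp only [Place.ord, Valuation.map_neg]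
  have ht2ne : t + y ^ 2 ≠ 0 := by
    intro h0
    have h1 : t = -(y ^ 2) := eq_neg_of_add_eq_zero_left h0
    rw [h1, hneg, hordy2] at ht
    omega
  have hord2 : v.ord (t + y ^ 2) = 1 := by
    have h1 := RH.min_le_ord_add v ht0 hy2 ht2ne
    have h2 := RH.min_le_ord_add v ht2ne (neg_ne_zero.mpr hy2)
      (by rw [add_neg_cancel_right]; exact ht0)
    rw [add_neg_cancel_right, hneg, hordy2, ht] at h2
    rw [hordy2, ht] at h1
    rcases le_total (v.ord (t + y ^ 2)) (2 * v.ord y) with h3 | h3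
    · rw [min_eq_left h3] at h2
      rw [min_eq_left (by omega)] at h1
      omega
    · rw [min_eq_right h3] at h2
      omega
  have hD2 : KaehlerDifferential.D K F (t + y ^ 2) = (2 * y) • KaehlerDifferential.D K F y := by
    rw [map_add, hDt, zero_add, pow_two, Derivation.leibniz, two_mul, add_smul]
  have hDy : KaehlerDifferential.D K F y =
      (2 * y)⁻¹ • KaehlerDifferential.D K F (t + y ^ 2) := by
    rw [hD2, smul_smul, inv_mul_cancel₀ (mul_ne_zero two_ne_zero hy0), one_smul]
  have hkey := hy.2 v hv _ _ hord2 hDy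
  have h2 : v.ord ((2 * y)⁻¹) = - v.ord y := by
    rw [v.ord_inv, v.ord_mul two_ne_zero hy0]
    have h20 : v.ord (2 : F) = 0 := by
      have := RH.ord_algebraMap v (2 : K)
      rwa [map_ofNat] at this
    rw [h20, zero_add]
  rw [h2] at hkey
  omega

omit [IsAlgClosed K] in
/-- The local statement at a zero `v` of `y`: `dπ_v` generates, and
`ordDifferential_v (dy) = ord_v y - 1`. -/
theorem local_of_diffOrdAt {x : F}
    (hspan : Submodule.span F {KaehlerDifferential.D K F x} = ⊤) {y : F} (hy : DiffOrdAt K y)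
    {v : Place K F} (hv : v ∈ zeroPlaces K y) :
    v.DCoordGenerates ∧ v.differentialCoeff (KaehlerDifferential.D K F y) ≠ 0 ∧
      v.ordDifferential (KaehlerDifferential.D K F y) = v.ord y - 1 := by
  obtain ⟨π, hπ, hdC⟩ := RH.exists_irreducible_dCoord v
  have hordπ : v.ord (π : F) = 1 := v.ord_coe_irreducible hπ
  have hDπ := D_ne_zero_of_diffOrdAt hy hv hordπ
  have hgen : v.DCoordGenerates :=
    ⟨by rw [hdC]; exact RH.span_D_eq_top_of_ne_zero hspan hDπ⟩
  have hsm := v.differentialCoeff_smul_dCoord (KaehlerDifferential.D K F y)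
  refine ⟨hgen, ?_, ?_⟩
  · intro h0
    apply hy.1
    rw [← hsm, h0, zero_smul]
  · rw [hdC] at hsm
    exact hy.2 v hv _ _ hordπ hsm.symm

end RH

/-- **Riemann–Hurwitz** for `F / K(x)`, for an arbitrary nonzero differential. -/
theorem degree_canonical (x : F) (hx : Transcendental K x) [Module.Finite K⟮x⟯ F]
    (hfin : ∀ c : K, DiffOrdAt K (x - algebraMap K F c)) (hinf : DiffOrdAt K x⁻¹)
    (S : Finset K)
    (hS : ∀ c : K, c ∉ S → ∀ v ∈ zeroPlaces K (x - algebraMap K F c),
      v.ord (x - algebraMap K F c) = 1)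
    (ω : Ω[F⁄K]) (hω : ω ≠ 0) (D : Divisor K F) (hD : ∀ v : Place K F, D v = v.ordDifferential ω) :
    Divisor.degree D =
      ∑ c ∈ S, ((Module.finrank K⟮x⟯ F : ℤ) - Nat.card (zeroPlaces K (x - algebraMap K F c)))
        + ((Module.finrank K⟮x⟯ F : ℤ) - Nat.card (zeroPlaces K x⁻¹))
        - 2 * (Module.finrank K⟮x⟯ F : ℤ) := by
  classical
  have halg : Algebra.IsAlgebraic K⟮x⟯ F := Algebra.IsAlgebraic.of_finite _ _
  have hspan := RH.span_D_eq_top (K := K) x
  have hnt : Nontrivial Ω[F⁄K] := ⟨⟨_, _, hω⟩⟩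
  have hxK : x ∉ Set.range (algebraMap K F) := by
    rintro ⟨c, rfl⟩
    exact hx (isAlgebraic_algebraMap c)
  have hx0 : x ≠ 0 := by
    rintro rfl
    exact hxK ⟨0, map_zero _⟩
  -- finiteness of the fibres
  have hfi : Module.Finite K⟮x⁻¹⟯ F := finite_of_adjoin_eq (adjoin_inv x)
  have hfc : ∀ c : K, Module.Finite K⟮x - algebraMap K F c⟯ F := fun c =>
    finite_of_adjoin_eq (adjoin_sub_algebraMap x c)
  have hPinf_fin : (zeroPlaces K x⁻¹).Finite := finite_zeroPlaces (K := K) x⁻¹ (transcendental_inv hx)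
  have hP_fin : ∀ c : K, (zeroPlaces K (x - algebraMap K F c)).Finite := fun c => by
    have := hfc c
    exact finite_zeroPlaces _ (transcendental_sub_algebraMap hx c)
  -- membership
  have hmem_inf : ∀ v : Place K F, v ∈ zeroPlaces K x⁻¹ ↔ v.ord x < 0 := by
    intro v
    show 0 < v.ord x⁻¹ ↔ _
    rw [v.ord_inv]
    omega
  -- the local statements
  have hlocal_inf : ∀ v : Place K F, v.ord x < 0 →
      v.DCoordGenerates ∧ v.ordDifferential (KaehlerDifferential.D K F x) = v.ord x - 1 := by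
    intro v hv
    obtain ⟨hgen, hne, hord⟩ := RH.local_of_diffOrdAt hspan hinf ((hmem_inf v).mpr hv)
    refine ⟨hgen, ?_⟩
    have hDx : KaehlerDifferential.D K F x =
        (-(x ^ 2)) • KaehlerDifferential.D K F x⁻¹ := by
      have h := Derivation.leibniz_inv (KaehlerDifferential.D K F) x⁻¹
      rw [inv_inv] at h
      rw [h]
    have hx2 : -(x ^ 2) ≠ 0 := neg_ne_zero.mpr (pow_ne_zero 2 hx0)
    rw [hDx, v.ordDifferential_smul hx2 hne, hord, v.ord_inv]
    have h1 : v.ord (-(x ^ 2)) = 2 * v.ord x := by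
      have hneg : v.ord (-(x ^ 2)) = v.ord (x ^ 2) := by
        simp only [Place.ord, Valuation.map_neg]
      rw [hneg, pow_two, v.ord_mul hx0 hx0]; ring
    rw [h1]; ring
  have hlocal_fin : ∀ (v : Place K F) (c : K), 0 < v.ord (x - algebraMap K F c) →
      v.DCoordGenerates ∧
        v.ordDifferential (KaehlerDifferential.D K F x) = v.ord (x - algebraMap K F c) - 1 := by
    intro v c hv
    obtain ⟨hgen, -, hord⟩ := RH.local_of_diffOrdAt hspan (hfin c) hv
    refine ⟨hgen, ?_⟩
    rwa [map_sub, Derivation.map_algebraMap, sub_zero] at hord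
  have hexc : ∀ v : Place K F, 0 ≤ v.ord x → ∃ c : K, 0 < v.ord (x - algebraMap K F c) :=
    fun v hv => exists_ord_sub_pos x hx v x hv hxK
  have hgen : ∀ v : Place K F, v.DCoordGenerates := by
    intro v
    rcases lt_or_ge (v.ord x) 0 with h | h
    · exact (hlocal_inf v h).1
    · obtain ⟨c, hc⟩ := hexc v h
      exact (hlocal_fin v c hc).1
  -- the sums over the fibres
  have hninf : ∑ v ∈ hPinf_fin.toFinset, (- v.ord x) = (Module.finrank K⟮x⟯ F : ℤ) := by
    have h1 := sum_ord_zeroPlaces_self (K := K) x⁻¹ (transcendental_inv hx)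
    rw [finrank_of_adjoin_eq (adjoin_inv x), finsum_mem_eq_finite_toFinset_sum _ hPinf_fin] at h1
    rw [← h1]
    exact Finset.sum_congr rfl fun v _ => (v.ord_inv x).symm
  have hn : ∀ c : K, ∑ v ∈ (hP_fin c).toFinset, v.ord (x - algebraMap K F c) =
      (Module.finrank K⟮x⟯ F : ℤ) := by
    intro c
    have := hfc c
    have h1 := sum_ord_zeroPlaces_self (K := K) (x - algebraMap K F c)
      (transcendental_sub_algebraMap hx c)
    rw [finrank_of_adjoin_eq (adjoin_sub_algebraMap x c),
      finsum_mem_eq_finite_toFinset_sum _ (hP_fin c)] at h1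
    exact h1
  have key := RH.degree_eq x hspan (fun v => place_deg_eq_one x hx v) hgen
    (fun h hh => sum_ord_eq_zero x hx h hh) (Module.finrank K⟮x⟯ F : ℤ) hPinf_fin.toFinset
    (fun v => by rw [Set.Finite.mem_toFinset]; exact hmem_inf v)
    (fun v hv => (hlocal_inf v ((hmem_inf v).mp ((Set.Finite.mem_toFinset _).mp hv))).2)
    hninf S (fun c => (hP_fin c).toFinset)
    (fun c _ v => by rw [Set.Finite.mem_toFinset]; rfl)
    (fun c _ => hn c)
    (fun v hv => by
      obtain ⟨c, hc⟩ := hexc v hv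
      exact ⟨c, hc, (hlocal_fin v c hc).2, fun hcS => hS c hcS v hc⟩)
    hω D hD
  rw [key]
  have hcard_inf : (Nat.card (zeroPlaces K x⁻¹) : ℤ) = (hPinf_fin.toFinset.card : ℤ) := by
    rw [Nat.card_coe_set_eq, Set.ncard_eq_toFinset_card _ hPinf_fin]
  have hcard : ∀ c : K, (Nat.card (zeroPlaces K (x - algebraMap K F c)) : ℤ) =
      ((hP_fin c).toFinset.card : ℤ) := by
    intro c
    rw [Nat.card_coe_set_eq, Set.ncard_eq_toFinset_card _ (hP_fin c)]
  have hsumS : ∑ c ∈ S, ((Module.finrank K⟮x⟯ F : ℤ) -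
        Nat.card (zeroPlaces K (x - algebraMap K F c))) =
      ∑ c ∈ S, ((Module.finrank K⟮x⟯ F : ℤ) - ((hP_fin c).toFinset.card : ℤ)) :=
    Finset.sum_congr rfl fun c _ => by rw [hcard c]
  rw [hcard_inf, hsumS]
  ring

/-- the genus, unfolded. -/
theorem genus_eq_of_degree [HasCanonicalDivisor (K := K) (F := F)] (g : ℕ)
    (hΩ : ∃ ω : Ω[F⁄K], ω ≠ 0)
    (hdeg : ∀ (ω : Ω[F⁄K]) (_ : ω ≠ 0) (D : Divisor K F),
      (∀ v : Place K F, D v = v.ordDifferential ω) → Divisor.degree D = 2 * (g : ℤ) - 2) :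
    genus K F = g := by
  unfold genus
  rw [dif_pos hΩ, hdeg _ hΩ.choose_spec _ (fun v => canonicalDivisorOf_apply _ v)]
  omega

end Fermat.Agent.S24Lib
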